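import Fermat.Agent.S56G.EqIface
import Fermat.Agent.S58.H98Odd
import Fermat.Agent.PT.Bridge.Arch
import Fermat.Agent.PT.Bridge.Levels

/-!
# S56, block EQ of TATE-EC, row EQ-CNEG (helper96): `h96n_cNegDual : H47CNegDual`

`dim (W^D)^{c = -1} = dim W^{c = 1}` for the twisted dual `W^D = dualTw χ W` of a finite
dimensional representation `W` of `G_ℚ` over `𝔽_p`, `p` odd.

* `h96n_cycloChar_conj` : `χ(c) = -1` (complex conjugation inverts the `p`-th roots of unity,
  `h98r_galois_involution_apply_root`, helper98);
* so `(W^D)(c) f = -(f ∘ W(c))` and the `(-1)`-eigenspace of `(W^D)(c)` is the kernel of the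
  transpose of `W(c) - 1`, of the same dimension as the kernel of `W(c) - 1`.
-/

set_option autoImplicit false

open ExtCitation

noncomputable section

namespace Fermat.Agent.S56G

open Fermat.Agent.PT

/-- complex conjugation is not the identity. -/
theorem h96n_conj_ne_one : complexConjugation ≠ 1 := by
  obtain ⟨x, hx⟩ := pt79_exists_sq_eq_neg_one
  intro h
  apply pt79_complexConjugation_ne hx
  rw [h]
  rfl

/-- `χ(c) = -1`. -/
theorem h96n_cycloChar_conj (p : ℕ) [Fact p.Prime] (hp2 : p ≠ 2) :
    ((cycloChar p complexConjugation : (ZMod p)ˣ) : ZMod p) = -1 := by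
  have hp : p.Prime := Fact.out
  obtain ⟨ζ, hζ⟩ := pt79_exists_primitiveRoot p
  have h1 := Fermat.Agent.S58.h98r_galois_involution_apply_root complexConjugation
    complexConjugation_mul_self h96n_conj_ne_one p (hp.odd_of_ne_two hp2) ζ hζ.pow_eq_one
  have h2 := pt79_cycloChar_spec p complexConjugation ζ hζ.pow_eq_one
  have h3 : ζ ^ ((cycloChar p complexConjugation : (ZMod p)ˣ) : ZMod p).val = ζ ^ (p - 1) := by
    rw [← h2, h1]
    symm
    apply eq_inv_of_mul_eq_one_left
    rw [← pow_succ, Nat.sub_add_cancel hp.one_le, hζ.pow_eq_one]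
  have h4 : ((cycloChar p complexConjugation : (ZMod p)ˣ) : ZMod p).val = p - 1 :=
    hζ.pow_inj (ZMod.val_lt _) (Nat.sub_lt hp.pos one_pos) h3
  have h5 : ((cycloChar p complexConjugation : (ZMod p)ˣ) : ZMod p) = ((p - 1 : ℕ) : ZMod p) := by
    rw [← h4, ZMod.natCast_zmod_val]
  rw [h5, Nat.cast_sub hp.one_le, ZMod.natCast_self, Nat.cast_one, zero_sub]

/-- the kernel of the transpose has the dimension of the kernel. -/
theorem h96n_finrank_ker_dualMap {k V : Type*} [Field k] [AddCommGroup V] [Module k V]
    [FiniteDimensional k V] (A : V →ₗ[k] V) :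
    Module.finrank k (LinearMap.ker A.dualMap) = Module.finrank k (LinearMap.ker A) := by
  have h1 := LinearMap.finrank_range_add_finrank_ker A.dualMap
  have h2 := LinearMap.finrank_range_add_finrank_ker A
  have h3 := LinearMap.finrank_range_dualMap_eq_finrank_range A
  have h4 : Module.finrank k (Module.Dual k V) = Module.finrank k V := Subspace.dual_finrank_eq
  omega

/-- **EQ-CNEG** (exact frozen Prop). -/
theorem h96n_cNegDual : H47CNegDual := by
  intro p _ hp2 V _ _ _ W
  have hker : h47g_cNeg (dualTw (cycloChar p) W) =
      LinearMap.ker ((W complexConjugation - 1).dualMap) := by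
    ext f
    unfold h47g_cNeg
    rw [LinearMap.mem_ker, LinearMap.mem_ker, LinearMap.add_apply, dualTw_apply,
      complexConjugation_inv, h96n_cycloChar_conj p hp2]
    constructor
    · intro h
      ext v
      have := congrArg (fun g : Module.Dual (ZMod p) V => g v) h
      simp only [LinearMap.add_apply, LinearMap.smul_apply, LinearMap.comp_apply,
        Module.End.one_apply, LinearMap.zero_apply, neg_smul, one_smul] at this
      simp only [LinearMap.dualMap_apply, LinearMap.sub_apply, Module.End.one_apply, map_sub,
        LinearMap.zero_apply]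
      linear_combination -this
    · intro h
      ext v
      have := congrArg (fun g : Module.Dual (ZMod p) V => g v) h
      simp only [LinearMap.dualMap_apply, LinearMap.sub_apply, Module.End.one_apply, map_sub,
        LinearMap.zero_apply] at this
      simp only [LinearMap.add_apply, LinearMap.smul_apply, LinearMap.comp_apply,
        Module.End.one_apply, LinearMap.zero_apply, neg_smul, one_smul]
      linear_combination -this
  rw [hker, h96n_finrank_ker_dualMap]
  rfl

end Fermat.Agent.S56G
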