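import Mathlib
import Fermat.Prelude.Def_GaloisRep_ComplexConjugation
import Fermat.Agent.PT.Iface
import Fermat.Agent.PT.Alg.Chi2Iface

/-!
# S56, block GW + TATE-EC (architect helper47): frozen definitions

Vocabulary = the frame of S55 (`Fermat.Agent.PT`): a datum `D : Datum k` (global group with level
system, finitely many local groups), continuous cocycles `Z1`, coboundaries `B1`.

* `h47g_ZSel D ρ Ls`  : Selmer cocycles = continuous `1`-cocycles of `ρ` whose restriction to the
                        local group at `v` lies in the local condition `Ls v` (a subspace of local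
                        cochains, in practice `B1 ≤ Ls v ≤ Z1`);
* `h47g_HSel D ρ Ls`  : the Selmer group `ZSel / B1`;
* `h47g_ann D ρ v L`  : the (intrinsic) annihilator of a local condition `L` at `v`: the continuous
                        local cocycles `y` of the twisted dual `ρ^D = Hom(ρ, k(χ))` such that
                        `b ∪ y` is a continuous coboundary of `k(χ)` for all `b ∈ L`;
* `h47g_cFix ρ`, `h47g_cNeg ρ` : the `(+1)`- and `(-1)`-eigenspaces of complex conjugation;
* `h47g_Phi S ρ`      : `χ₂(G_S, ρ) + dim ρ^{c = -1}` (Tate: it vanishes).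
-/

set_option autoImplicit false

open ExtCitation

noncomputable section

namespace Fermat.Agent.S56G

open Fermat.Agent.PT

section Abstract

variable {k : Type} [Field k] (D : Datum k)
variable {V : Type} [AddCommGroup V] [Module k V] (ρ : Representation k D.G V)

/-- Selmer cocycles: continuous `1`-cocycles whose restriction at `v` lies in `Ls v`. -/
def h47g_ZSel (Ls : ∀ v : D.P, Submodule k (D.H v → V)) : Submodule k (D.G → V) :=
  Z1 D.lev ρ ⊓ ⨅ v, (Ls v).comap (res1 k V (D.loc v))

/-- The Selmer group. -/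
abbrev h47g_HSel (Ls : ∀ v : D.P, Submodule k (D.H v → V)) : Type :=
  ↥(h47g_ZSel D ρ Ls) ⧸ (B1 ρ).comap (h47g_ZSel D ρ Ls).subtype

lemma h47g_mem_ZSel (Ls : ∀ v : D.P, Submodule k (D.H v → V)) (f : D.G → V) :
    f ∈ h47g_ZSel D ρ Ls ↔ f ∈ Z1 D.lev ρ ∧ ∀ v, res1 k V (D.loc v) f ∈ Ls v := by
  simp [h47g_ZSel, Submodule.mem_iInf]

/-- The intrinsic annihilator of a local condition `L` at `v`: the continuous local cocycles `y`
of `ρ^D` such that `b ∪ y` is a continuous `2`-coboundary of `k(χ)` for every `b ∈ L`. -/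
def h47g_ann (v : D.P) (L : Submodule k (D.H v → V)) :
    Submodule k (D.H v → Module.Dual k V) where
  carrier := {y | y ∈ Z1 (D.levH v) (D.repAt (dualTw D.chi ρ) v) ∧
    ∀ b ∈ L, cup11 (Module.Dual.eval k V) (D.repAt (dualTw D.chi ρ) v) b y ∈
      B2 (D.levH v) (chiRep (D.chiAt v))}
  add_mem' := by
    rintro y y' ⟨hy, h⟩ ⟨hy', h'⟩
    refine ⟨add_mem hy hy', fun b hb => ?_⟩
    have : cup11 (Module.Dual.eval k V) (D.repAt (dualTw D.chi ρ) v) b (y + y') =
        cup11 (Module.Dual.eval k V) (D.repAt (dualTw D.chi ρ) v) b y +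
          cup11 (Module.Dual.eval k V) (D.repAt (dualTw D.chi ρ) v) b y' := by
      funext x
      simp [cup11]
    rw [this]
    exact add_mem (h b hb) (h' b hb)
  zero_mem' := by
    refine ⟨zero_mem _, fun b _ => ?_⟩
    have : cup11 (Module.Dual.eval k V) (D.repAt (dualTw D.chi ρ) v) b 0 = 0 := by
      funext x
      simp [cup11]
    rw [this]
    exact zero_mem _
  smul_mem' := by
    rintro a y ⟨hy, h⟩
    refine ⟨Submodule.smul_mem _ a hy, fun b hb => ?_⟩
    have : cup11 (Module.Dual.eval k V) (D.repAt (dualTw D.chi ρ) v) b (a • y) =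
        a • cup11 (Module.Dual.eval k V) (D.repAt (dualTw D.chi ρ) v) b y := by
      funext x
      simp [cup11]
    rw [this]
    exact Submodule.smul_mem _ a (h b hb)

lemma h47g_mem_ann (v : D.P) (L : Submodule k (D.H v → V)) (y : D.H v → Module.Dual k V) :
    y ∈ h47g_ann D ρ v L ↔ y ∈ Z1 (D.levH v) (D.repAt (dualTw D.chi ρ) v) ∧
      ∀ b ∈ L, cup11 (Module.Dual.eval k V) (D.repAt (dualTw D.chi ρ) v) b y ∈
        B2 (D.levH v) (chiRep (D.chiAt v)) := Iff.rfl

end Abstract

section Arith

variable {p : ℕ} [Fact p.Prime]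
variable {V : Type} [AddCommGroup V] [Module (ZMod p) V]

/-- The fixed space of complex conjugation. -/
def h47g_cFix (ρ : Representation (ZMod p) GQ V) : Submodule (ZMod p) V :=
  LinearMap.ker (ρ complexConjugation - 1)

/-- The `(-1)`-eigenspace of complex conjugation. -/
def h47g_cNeg (ρ : Representation (ZMod p) GQ V) : Submodule (ZMod p) V :=
  LinearMap.ker (ρ complexConjugation + 1)

/-- `Φ_S(ρ) = h⁰ - h¹ + h² + dim ρ^{c = -1}` for `G_{ℚ,S}` (Tate: `Φ = 0`). -/
def h47g_Phi (S : Finset Nat.Primes) (ρ : Representation (ZMod p) GQ V) : ℤ :=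
  chi2 (levQ S) ρ + (Module.finrank (ZMod p) (h47g_cNeg ρ) : ℤ)

end Arith

end Fermat.Agent.S56G
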