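import Mathlib
import Fermat.Agent.S56G.Defs

/-!
# S56, block GW + TATE-EC (architect helper47): frozen TOP interfaces

Nothing is assumed in this file: every `def … : Prop` is a frozen interface, to be PROVED as a
theorem in its own file (deps as hypotheses when they are not landed).

## The chain

`H47GW  ⟸  H47TateGE`   (block GW-LINALG: reciprocity inequality + `H²`-formula from the landed
                          `θ¹` and `TrOK`; pure algebra over the landed S55 library)
`H47TateGE ⟸ …`         (block TATE-EC, `S56G/TateIface.lean`)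
`H47AnnTop`              (block LD1: local Tate duality in degree `1`, right kernel, by dimension
                          shifting from the landed local `H² × H⁰` duality)

## Consumers

* DEF (helper56): `#Hom(R_Q, k[ε]) ≤ #H¹_{L_Q}(G_{S ∪ Q}, ad⁰ ρbar)`;
* LOC (helper14, helper97): the local conditions `Ls v` with `dim Ls v ≤ dim V + δ_v`;
* TW-CHEB (helper56): the dual Selmer group `h47g_HSel … (h47g_ann …)` vanishes for `S ∪ Q`.
-/

set_option autoImplicit false

open ExtCitation

noncomputable section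

namespace Fermat.Agent.S56G

open Fermat.Agent.PT

/-- **GW (Greenberg–Wiles inequality, `𝔽_p`-dimensions).**  For a continuous finite dimensional
`𝔽_p`-representation `ρ` of `G_ℚ` (`p` odd) there is a finite set of primes `T₀` such that for
every finite set `S ⊇ T₀ ∪ {p}` outside which `ρ` is unramified and every family of local
conditions `B¹ ≤ Ls v ≤ Z¹` (`v ∈ S`, finite dimensional subspaces of the continuous local
cocycles):

`h¹_L(ρ) + h⁰(ρ^D) + dim ρ^{c = 1} + #S · dim ρ ≤ h¹_{L^⊥}(ρ^D) + h⁰(ρ) + ∑_v dim Ls v`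

(`dim Ls v` is the dimension of the space of COCYCLES; recall `dim B¹_v + h⁰_v = dim ρ`), and all
spaces involved are finite.  This is Wiles' formula
`h¹_L - h¹_{L^⊥} = h⁰(ρ) - h⁰(ρ^D) + ∑_v (dim L_v - h⁰_v) - h⁰(ℝ, ρ)` as an inequality. -/
def H47GW : Prop :=
  ∀ (p : ℕ) [Fact p.Prime], p ≠ 2 →
    ∀ (V : Type) [AddCommGroup V] [Module (ZMod p) V] [FiniteDimensional (ZMod p) V]
      (ρ : Representation (ZMod p) GQ V), IsDisc levFin ρ →
      ∃ T₀ : Finset Nat.Primes, ∀ S : Finset Nat.Primes, T₀ ⊆ S → pPrime p ∈ S →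
        IsDisc (levQ S) ρ →
        ∀ Ls : ∀ v : (DQ p S).P, Submodule (ZMod p) ((DQ p S).H v → V),
          (∀ v, B1 ((DQ p S).repAt ρ v) ≤ Ls v) →
          (∀ v, Ls v ≤ Z1 ((DQ p S).levH v) ((DQ p S).repAt ρ v)) →
          (∀ v, Module.Finite (ZMod p) ↥(Ls v)) →
          Module.Finite (ZMod p) ↥(h47g_ZSel (DQ p S) ρ Ls) ∧
          Module.Finite (ZMod p) ↥(h47g_ZSel (DQ p S) (dualTw (DQ p S).chi ρ)
            (fun v => h47g_ann (DQ p S) ρ v (Ls v))) ∧
          (Module.finrank (ZMod p) (h47g_HSel (DQ p S) ρ Ls) : ℤ)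
              + Module.finrank (ZMod p) (dualTw (DQ p S).chi ρ).invariants
              + Module.finrank (ZMod p) (h47g_cFix ρ)
              + (S.card : ℤ) * Module.finrank (ZMod p) V
            ≤ (Module.finrank (ZMod p) (h47g_HSel (DQ p S) (dualTw (DQ p S).chi ρ)
                  (fun v => h47g_ann (DQ p S) ρ v (Ls v))) : ℤ)
              + Module.finrank (ZMod p) ρ.invariants
              + ∑ v : (DQ p S).P, (Module.finrank (ZMod p) ↥(Ls v) : ℤ)

/-- **GE (Tate's global Euler characteristic, as an inequality).**  For a continuous finite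
dimensional `𝔽_p`-representation `σ` of `G_ℚ` (`p` odd) there is a finite set of primes `T₀` such
that for every finite `S ⊇ T₀ ∪ {p}` outside which `σ` is unramified: `H¹`, `H²` are finite and
`h⁰ - h¹ + h² + dim σ^{c = -1} ≤ 0`. -/
def H47TateGE : Prop :=
  ∀ (p : ℕ) [Fact p.Prime], p ≠ 2 →
    ∀ (V : Type) [AddCommGroup V] [Module (ZMod p) V] [FiniteDimensional (ZMod p) V]
      (σ : Representation (ZMod p) GQ V), IsDisc levFin σ →
      ∃ T₀ : Finset Nat.Primes, ∀ S : Finset Nat.Primes, T₀ ⊆ S → pPrime p ∈ S →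
        IsDisc (levQ S) σ → FinH12 (levQ S) σ ∧ h47g_Phi S σ ≤ 0

/-- **GW-LINALG (assembly).** -/
def H47GWOfGE : Prop := H47TateGE → H47GW

/-- **LD1 (local Tate duality in degree `1`, right kernel).**  At every place `v ∈ S` the
annihilator of ALL continuous local cocycles consists of coboundaries: if `b ∪ y` is a coboundary
for every continuous cocycle `b` of `ρ`, then `y` is a coboundary. -/
def H47AnnTop : Prop :=
  ∀ (p : ℕ) [Fact p.Prime], p ≠ 2 → ∀ (S : Finset Nat.Primes), pPrime p ∈ S →
    ∀ (V : Type) [AddCommGroup V] [Module (ZMod p) V] [FiniteDimensional (ZMod p) V]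
      (ρ : Representation (ZMod p) GQ V), IsDisc (levQ S) ρ →
      ∀ v : (DQ p S).P,
        h47g_ann (DQ p S) ρ v (Z1 ((DQ p S).levH v) ((DQ p S).repAt ρ v)) ≤
          B1 ((DQ p S).repAt (dualTw (DQ p S).chi ρ) v)

end Fermat.Agent.S56G
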