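import Mathlib
import Fermat.Agent.S55
import Fermat.Agent.S56G.Iface

/-!
# S56, block GW-LINALG (helper98): the landed Poitou–Tate frame for `DQ p S`

`h98g_frame` packages what the S55 library proves unconditionally about the arithmetic datum
`DQ p S` (`p` odd, `p ∈ S`): a trace functional `tr` with `TrOK`, goodness, finiteness of `H¹` and
vanishing of `H³` (global), the first duality `H¹_c(ρ^D) × H²(ρ) → 𝔽_p` for ALL finite dimensional
discrete `ρ`, and the local vanishing of `H³` and local duality `H² × H⁰` for ALL finite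
dimensional discrete local `ρ`.
-/

set_option autoImplicit false

open ExtCitation

namespace Fermat.Agent.S56G

open Fermat.Agent.PT

/-- The landed Poitou–Tate package for the arithmetic datum. -/
theorem h98g_frame (p : ℕ) [Fact p.Prime] (hp2 : p ≠ 2) (S : Finset Nat.Primes)
    (hpS : pPrime p ∈ S) :
    ∃ tr : (DQ p S).CC3 (ZMod p) →ₗ[ZMod p] ZMod p, (DQ p S).TrOK tr ∧ (DQ p S).Good ∧
      (∀ (V : Type) [AddCommGroup V] [Module (ZMod p) V] [FiniteDimensional (ZMod p) V]
        (ρ : Representation (ZMod p) (DQ p S).G V), IsDisc (DQ p S).lev ρ → (DQ p S).VV ρ) ∧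
      (∀ (V : Type) [AddCommGroup V] [Module (ZMod p) V] [FiniteDimensional (ZMod p) V]
        (ρ : Representation (ZMod p) (DQ p S).G V), IsDisc (DQ p S).lev ρ →
          (DQ p S).Perf1 (dualTw (DQ p S).chi ρ) ρ tr LinearMap.id) ∧
      (∀ (v : (DQ p S).P) (V : Type) [AddCommGroup V] [Module (ZMod p) V]
        [FiniteDimensional (ZMod p) V] (ρ : Representation (ZMod p) ((DQ p S).H v) V),
        IsDisc ((DQ p S).levH v) ρ →
          H3Vanishes ((DQ p S).levH v) ρ ∧
          LPerf2 ((DQ p S).levH v) ((DQ p S).invAt tr v) ρ (dualTw ((DQ p S).chiAt v) ρ)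
            (Module.Dual.eval (ZMod p) V)) := by
  obtain ⟨tr, htr, hglob, hloc⟩ :=
    arithBase2_of_inputs Fermat.Agent.S55.arithInputs_holds p S hp2 hpS
  have hgood := Bridge.dqGood p S hpS
  have hVV : ∀ (V : Type) [AddCommGroup V] [Module (ZMod p) V] [FiniteDimensional (ZMod p) V]
      (ρ : Representation (ZMod p) (DQ p S).G V), IsDisc (DQ p S).lev ρ → (DQ p S).VV ρ :=
    vanAbs p (ZMod p) (DQ p S) hgood (fun U hU hχ => (hglob U hU hχ).1)
  have hLV : ∀ (v : (DQ p S).P) (V : Type) [AddCommGroup V] [Module (ZMod p) V]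
      [FiniteDimensional (ZMod p) V] (ρ : Representation (ZMod p) ((DQ p S).H v) V),
      IsDisc ((DQ p S).levH v) ρ → H3Vanishes ((DQ p S).levH v) ρ := fun v =>
    lVanAbs p (ZMod p) _ ((DQ p S).levH v) ((DQ p S).chiAt v) (hgood.2.1 v)
      (localAux (ZMod p) (DQ p S) tr hgood htr v).1 (fun U hU hχ => (hloc v U hU hχ).1)
  refine ⟨tr, htr, hgood, hVV, ?_, ?_⟩
  · intro V _ _ _ ρ hρ
    exact theta1Abs (ZMod p) (DQ p S) tr hgood htr hVV (fun U hU hχ => (hglob U hU hχ).2) V ρ hρ
  · intro v V _ _ _ ρ hρ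
    refine ⟨hLV v V ρ hρ, ?_⟩
    obtain ⟨h1, h2, -, -⟩ := localAux (ZMod p) (DQ p S) tr hgood htr v
    exact lTheta2Abs (ZMod p) _ ((DQ p S).levH v) ((DQ p S).chiAt v) ((DQ p S).invAt tr v)
      (hgood.2.1 v) h1 h2 (hLV v) (fun U hU hχ => (hloc v U hU hχ).2) V ρ hρ

end Fermat.Agent.S56G
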