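import Fermat.Agent.S56G.TateIface
import Fermat.Agent.S56G.H98Frame
import Fermat.Agent.PT.Alg.H54ChiLES
import Fermat.Agent.PT.Alg.H42CountGlue
import Fermat.Agent.PT.Alg.H93CountPair

/-!
# S56, block TATE-EC, row ADD (helper45): `Φ_S` is additive in short exact sequences

`h45a_phiAdd : H47PhiAdd`.

* `h45a_finite_HH2`  : if the cone `1`-cocycles of `σ^D` form a finite dimensional space and the
                       first duality `H¹_c(σ^D) × H²(σ) → k` is right non degenerate, then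
                       `H²(σ)` is finite dimensional;
* `h45a_chi2_add`    : `χ₂` is additive in a short exact sequence when `H³(V₁) = 0`
                       (the long exact sequence of `PT/Alg/H54ChiLES.lean`, with
                       `H²(V₂) → H²(V₃)` onto by `SES.surj2`);
* `h45a_neg_add`     : the `(-1)`-eigenspace of an involution is an exact functor when `2` is
                       invertible;
* `h45a_phiAdd`      : the assembly over the landed frame `h98g_frame`.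
-/

set_option autoImplicit false
set_option linter.style.haveILetI false
set_option linter.unusedSectionVars false

open ExtCitation

noncomputable section

namespace Fermat.Agent.S56G

open Fermat.Agent.PT Fermat.Agent.PT.Tools Module

/-! ## Finiteness of `H²` from the first duality -/

section FinAbs

variable {k : Type} [Field k]

/-- A quotient `Y ⧸ B` is finite dimensional as soon as `B` contains the kernel of a linear map
from `Y` to the dual of a finite dimensional space. -/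
theorem h45a_finite_quot_of_pairing {Z Y : Type} [AddCommGroup Z] [Module k Z]
    [AddCommGroup Y] [Module k Y] [Module.Finite k Z]
    (Λ : Y →ₗ[k] (Z →ₗ[k] k)) (B : Submodule k Y) (hker : LinearMap.ker Λ ≤ B) :
    Module.Finite k (Y ⧸ B) := by
  haveI : Module.Finite k ↥(LinearMap.range Λ) := inferInstance
  haveI : Module.Finite k (Y ⧸ LinearMap.ker Λ) :=
    Module.Finite.equiv (LinearMap.quotKerEquivRange Λ).symm
  refine Module.Finite.of_surjective
    (Submodule.mapQ (LinearMap.ker Λ) B LinearMap.id hker) ?_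
  intro q
  obtain ⟨y, rfl⟩ := Submodule.Quotient.mk_surjective _ q
  exact ⟨Submodule.Quotient.mk y, rfl⟩

end FinAbs

section FinH2

variable {k : Type} [Field k] (D : Datum k) (tr : D.CC3 k →ₗ[k] k)
variable {V : Type} [AddCommGroup V] [Module k V] (σ : Representation k D.G V)

/-- the first pairing as a linear map from the `2`-cocycles to the dual of the cone
`1`-cocycles. -/
def h45a_lam : ↥(Z2 D.lev σ) →ₗ[k] (↥(D.ZC1 (dualTw D.chi σ)) →ₗ[k] k) where
  toFun y := ((h93c_pairL D σ tr (LinearMap.id : Module.Dual k V →ₗ[k] V →ₗ[k] k)).flip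
    (y : D.G × D.G → V)).comp (D.ZC1 (dualTw D.chi σ)).subtype
  map_add' y y' := by
    ext z
    simp
  map_smul' a y := by
    ext z
    simp

lemma h45a_lam_apply (y : ↥(Z2 D.lev σ)) (z : ↥(D.ZC1 (dualTw D.chi σ))) :
    h45a_lam D tr σ y z =
      D.pair1 σ tr (LinearMap.id : Module.Dual k V →ₗ[k] V →ₗ[k] k)
        (z : D.CC1 (Module.Dual k V)) (y : D.G × D.G → V) := rfl

/-- If the cone `1`-cocycles of `σ^D` form a finite dimensional space and the first duality is
non degenerate on the right, then `H²(σ)` is finite dimensional. -/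
theorem h45a_finite_HH2 (hfin : Module.Finite k ↥(D.ZC1 (dualTw D.chi σ)))
    (hperf : D.Perf1 (dualTw D.chi σ) σ tr LinearMap.id) :
    Module.Finite k (HH2 D.lev σ) := by
  haveI : Module.Finite k ↥(D.ZC1 (dualTw D.chi σ)) := hfin
  refine h45a_finite_quot_of_pairing (Z := ↥(D.ZC1 (dualTw D.chi σ))) (Y := ↥(Z2 D.lev σ))
    (h45a_lam D tr σ) _ ?_
  intro y hy
  rw [LinearMap.mem_ker] at hy
  refine hperf.2 (y : D.G × D.G → V) y.2 (fun z hz => ?_)
  have := congrArg (fun f : ↥(D.ZC1 (dualTw D.chi σ)) →ₗ[k] k => f ⟨z, hz⟩) hy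
  simpa [h45a_lam_apply] using this

end FinH2

/-! ## Additivity of `χ₂` -/

section Chi

variable {k : Type} [Field k] {G : Type} [Group G] {L : Lev G}
variable {V₁ V₂ V₃ : Type} [AddCommGroup V₁] [Module k V₁] [AddCommGroup V₂] [Module k V₂]
  [AddCommGroup V₃] [Module k V₃]
variable {ρ₁ : Representation k G V₁} {ρ₂ : Representation k G V₂}
  {ρ₃ : Representation k G V₃} {φ : V₁ →ₗ[k] V₂} {ψ : V₂ →ₗ[k] V₃}

/-- `χ₂` is additive in a short exact sequence with `H³(V₁) = 0`. -/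
theorem h45a_chi2_add (h : SES ρ₁ ρ₂ ρ₃ φ ψ) (hL : L.Good) (hρ₂ : IsDisc L ρ₂)
    [FiniteDimensional k V₂]
    (hA1 : Module.Finite k (HH1 L ρ₁)) (hA2 : Module.Finite k (HH2 L ρ₁))
    (hC1 : Module.Finite k (HH1 L ρ₃)) (hC2 : Module.Finite k (HH2 L ρ₃))
    (hv : H3Vanishes L ρ₁) :
    FinH12 L ρ₂ ∧ chi2 L ρ₂ = chi2 L ρ₁ + chi2 L ρ₃ := by
  have : FiniteDimensional k V₁ := Module.Finite.of_injective φ h.inj
  have : FiniteDimensional k V₃ := Module.Finite.of_surjective ψ h.surj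
  obtain ⟨δ0, hδ0a, hδ0b⟩ := h54c_delta0 (L := L) h hρ₂
  obtain ⟨δ1, hδ1a, hδ1b⟩ := h54c_delta1 h hL hρ₂
  have hB1 : Module.Finite k (HH1 L ρ₂) :=
    h54c_finite_mid _ _ (h54c_exact_B1 h hρ₂)
  have hB2 : Module.Finite k (HH2 L ρ₂) :=
    h54c_finite_mid _ _ (h54c_exact_B2 h hL hρ₂)
  refine ⟨⟨hB1, hB2⟩, ?_⟩
  have hnine := h54c_nine (h54c_push0 h.homφ) (h54c_push0 h.homψ) δ0
    (h54c_push1 L h.homφ) (h54c_push1 L h.homψ) δ1 (h54c_push2 L h.homφ)
    (h54c_push2 L h.homψ) (h54c_push0_ker h) (h54c_exact_B0 h) hδ0a hδ0b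
    (h54c_exact_B1 h hρ₂) hδ1a hδ1b (h54c_exact_B2 h hL hρ₂)
  have hsurj : LinearMap.range (h54c_push2 L h.homψ) = ⊤ := by
    rw [LinearMap.range_eq_top]
    intro q
    obtain ⟨z, rfl⟩ := Submodule.Quotient.mk_surjective _ q
    obtain ⟨y, hy, hyz⟩ := h.surj2 hL hρ₂ hv z.2
    refine ⟨Submodule.Quotient.mk ⟨y, hy⟩, ?_⟩
    rw [h54c_push2_mk]
    congr 1
    exact Subtype.ext hyz
  rw [hsurj, finrank_top] at hnine
  unfold chi2
  linarith

end Chi

/-! ## The `(-1)`-eigenspace of an involution is exact -/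

section Neg

variable {k : Type} [Field k] {G : Type} [Group G]
variable {V₁ V₂ V₃ : Type} [AddCommGroup V₁] [Module k V₁] [AddCommGroup V₂] [Module k V₂]
  [AddCommGroup V₃] [Module k V₃]
variable {ρ₁ : Representation k G V₁} {ρ₂ : Representation k G V₂}
  {ρ₃ : Representation k G V₃} {φ : V₁ →ₗ[k] V₂} {ψ : V₂ →ₗ[k] V₃}

/-- The dimension of the `(-1)`-eigenspace of an involution is additive in short exact
sequences when `2` is invertible. -/
theorem h45a_neg_add (h : SES ρ₁ ρ₂ ρ₃ φ ψ) [FiniteDimensional k V₂] (h2 : (2 : k) ≠ 0)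
    (c : G) (hc : c * c = 1) :
    finrank k ↥(LinearMap.ker (ρ₂ c + 1)) =
      finrank k ↥(LinearMap.ker (ρ₁ c + 1)) + finrank k ↥(LinearMap.ker (ρ₃ c + 1)) := by
  have hmem₁ : ∀ v : V₁, v ∈ LinearMap.ker (ρ₁ c + 1) ↔ ρ₁ c v + v = 0 := fun v => by
    rw [LinearMap.mem_ker, LinearMap.add_apply, Module.End.one_apply]
  have hmem₂ : ∀ v : V₂, v ∈ LinearMap.ker (ρ₂ c + 1) ↔ ρ₂ c v + v = 0 := fun v => by
    rw [LinearMap.mem_ker, LinearMap.add_apply, Module.End.one_apply]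
  have hmem₃ : ∀ v : V₃, v ∈ LinearMap.ker (ρ₃ c + 1) ↔ ρ₃ c v + v = 0 := fun v => by
    rw [LinearMap.mem_ker, LinearMap.add_apply, Module.End.one_apply]
  have hφK : ∀ v ∈ LinearMap.ker (ρ₁ c + 1), φ v ∈ LinearMap.ker (ρ₂ c + 1) := by
    intro v hv
    rw [hmem₁] at hv
    rw [hmem₂, ← h.homφ c v, ← map_add, hv, map_zero]
  have hψK : ∀ v ∈ LinearMap.ker (ρ₂ c + 1), ψ v ∈ LinearMap.ker (ρ₃ c + 1) := by
    intro v hv
    rw [hmem₂] at hv
    rw [hmem₃, ← h.homψ c v, ← map_add, hv, map_zero]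
  have hinj : Function.Injective (φ.restrict hφK) := by
    intro a b hab
    apply Subtype.ext
    apply h.inj
    exact congrArg Subtype.val hab
  have hcc : ∀ v : V₂, ρ₂ c (ρ₂ c v) = v := fun v => by
    rw [← Module.End.mul_apply, ← map_mul, hc, map_one, Module.End.one_apply]
  have hsurj : Function.Surjective (ψ.restrict hψK) := by
    rintro ⟨w, hw⟩
    rw [hmem₃] at hw
    obtain ⟨v, rfl⟩ := h.surj w
    have hu : (2 : k)⁻¹ • (v - ρ₂ c v) ∈ LinearMap.ker (ρ₂ c + 1) := by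
      rw [hmem₂, map_smul, map_sub, hcc, ← smul_add]
      have : ρ₂ c v - v + (v - ρ₂ c v) = 0 := by abel
      rw [this, smul_zero]
    refine ⟨⟨_, hu⟩, Subtype.ext ?_⟩
    change ψ ((2 : k)⁻¹ • (v - ρ₂ c v)) = ψ v
    have e1 : ρ₃ c (ψ v) = -ψ v := eq_neg_of_add_eq_zero_left hw
    rw [map_smul, map_sub, h.homψ c v, e1, sub_neg_eq_add, ← two_smul k (ψ v), smul_smul,
      inv_mul_cancel₀ h2, one_smul]
  have hex : LinearMap.range (φ.restrict hφK) = LinearMap.ker (ψ.restrict hψK) := by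
    ext u
    rw [LinearMap.mem_range, LinearMap.mem_ker]
    constructor
    · rintro ⟨v, rfl⟩
      apply Subtype.ext
      exact h.comp_zero _
    · intro hu
      have hu' : ψ (u : V₂) = 0 := congrArg Subtype.val hu
      obtain ⟨v, hv⟩ := (h.exact _).1 hu'
      have hvK : v ∈ LinearMap.ker (ρ₁ c + 1) := by
        rw [hmem₁]
        apply h.inj
        have := (hmem₂ _).1 u.2
        rw [map_add, h.homφ c v, hv, this, map_zero]
      exact ⟨⟨v, hvK⟩, Subtype.ext hv⟩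
  have r := LinearMap.finrank_range_add_finrank_ker (ψ.restrict hψK)
  rw [LinearMap.range_eq_top.2 hsurj, finrank_top, ← hex,
    LinearMap.finrank_range_of_inj hinj] at r
  omega

end Neg

/-! ## The assembly -/

section Asm

variable (p : ℕ) [Fact p.Prime]

/-- `2 ≠ 0` in `𝔽_p` for `p` odd. -/
theorem h45a_two_ne_zero (hp2 : p ≠ 2) : (2 : ZMod p) ≠ 0 := by
  intro h
  have h' : ((2 : ℕ) : ZMod p) = 0 := by exact_mod_cast h
  rw [ZMod.natCast_eq_zero_iff] at h'
  exact hp2 ((Nat.prime_dvd_prime_iff_eq Fact.out Nat.prime_two).1 h')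

/-- Over the arithmetic datum: `H¹`, `H²` are finite and `H³ = 0` for every finite dimensional
discrete representation. -/
theorem h45a_finH12 (hp2 : p ≠ 2) (S : Finset Nat.Primes) (hpS : pPrime p ∈ S)
    (V : Type) [AddCommGroup V] [Module (ZMod p) V] [FiniteDimensional (ZMod p) V]
    (ρ : Representation (ZMod p) GQ V) (hρ : IsDisc (levQ S) ρ) :
    FinH12 (levQ S) ρ ∧ H3Vanishes (levQ S) ρ := by
  obtain ⟨tr, htr, hgood, hVV, hPerf, -⟩ := h98g_frame p hp2 S hpS
  have hρ' : IsDisc (DQ p S).lev ρ := hρ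
  obtain ⟨hd1, hd2⟩ :=
    (localAux (ZMod p) (DQ p S) tr hgood htr ⟨pPrime p, hpS⟩).2.2.2 V ρ hρ'
  haveI : FiniteDimensional (ZMod p) (Module.Dual (ZMod p) V) := hd1
  have hVVd := hVV (Module.Dual (ZMod p) V) (dualTw (DQ p S).chi ρ) hd2
  have hZC := h42g_finite_ZC1 (DQ p S) (dualTw (DQ p S).chi ρ) hVVd.1
  have h2 : Module.Finite (ZMod p) (HH2 (DQ p S).lev ρ) :=
    h45a_finite_HH2 (DQ p S) tr ρ hZC (hPerf V ρ hρ')
  exact ⟨⟨(hVV V ρ hρ').1, h2⟩, (hVV V ρ hρ').2⟩

/-- **ADD.**  `Φ_S` is additive in short exact sequences. -/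
theorem h45a_phiAdd : H47PhiAdd := by
  intro p _ hp2 S hpS V₁ V₂ V₃ _ _ _ _ _ _ _ ρ₁ ρ₂ ρ₃ φ ψ hφ hψ hinj hsurj hex hunif
  have h : SES ρ₁ ρ₂ ρ₃ φ ψ :=
    { homφ := hφ
      homψ := hψ
      inj := hinj
      surj := hsurj
      exact := fun v => by
        rw [← LinearMap.mem_ker, ← hex, LinearMap.mem_range] }
  have hρ₂ : IsDisc (levQ S) ρ₂ := by
    obtain ⟨N, hN, hfix⟩ := hunif
    exact fun v => ⟨N, hN, fun s hs => hfix s hs v⟩
  have hρ₁ : IsDisc (levQ S) ρ₁ := h.isDisc_left hρ₂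
  have hρ₃ : IsDisc (levQ S) ρ₃ := h.isDisc_right hρ₂
  haveI : FiniteDimensional (ZMod p) V₁ := Module.Finite.of_injective φ hinj
  haveI : FiniteDimensional (ZMod p) V₃ := Module.Finite.of_surjective ψ hsurj
  have hL : (levQ S).Good := (Bridge.dqGood p S hpS).1
  obtain ⟨⟨hA1, hA2⟩, hv⟩ := h45a_finH12 p hp2 S hpS V₁ ρ₁ hρ₁
  obtain ⟨⟨hC1, hC2⟩, -⟩ := h45a_finH12 p hp2 S hpS V₃ ρ₃ hρ₃
  obtain ⟨hF, hchi⟩ := h45a_chi2_add h hL hρ₂ hA1 hA2 hC1 hC2 hv
  refine ⟨hF, ?_⟩
  have hneg := h45a_neg_add h (h45a_two_ne_zero p hp2) complexConjugation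
    complexConjugation_mul_self
  unfold h47g_Phi h47g_cNeg
  rw [hchi, hneg]
  push_cast
  ring

end Asm

end Fermat.Agent.S56G
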