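import Mathlib
import Fermat.Agent.S56G.Iface

/-!
# S56, block TATE-EC (architect helper47): frozen interfaces

Target: `H47TateGE` (`S56G/Iface.lean`), Tate's global Euler characteristic
`χ₂(G_S, σ) = - dim σ^{c = -1}` as the inequality `Φ_S(σ) ≤ 0`.

## The chain  (`h47g_tateGE_of`, `S56G/TateAsm.lean`)

`σ` factors through `G = G_ℚ / U₀`, `U₀ = G_K`, `K = ℚ(σ, μ_p)`.  On the representations of the
finite group `G` the function `Φ_S` is

* additive in short exact sequences                         (`H47PhiAdd`,  block ADD),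
* zero on the regular representation `𝔽_p[G] = Ind_K^ℚ 𝔽_p`   (`H47PhiReg`,  landed base case),
* `≥ 0` on `Ind_C^G τ`, `C ≤ G` cyclic of order prime to `p`  (`H47EqBase`,  block EQ),

hence identically zero                                       (`H47BrauerArtin`, block BA).

Nothing is assumed in this file.
-/

set_option autoImplicit false

open ExtCitation

noncomputable section

namespace Fermat.Agent.S56G

open Fermat.Agent.PT

/-! ## Pure algebra: induced representations, additive functions -/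

section Alg

variable (k : Type) [Field k] (G : Type) [Group G]

/-- The regular representation on the functions `G → k`: `(g f)(x) = f(g⁻¹ x)`. -/
def h47g_reg : Representation k G (G → k) where
  toFun g := LinearMap.funLeft k k (fun x : G => g⁻¹ * x)
  map_one' := by
    ext f x
    simp [LinearMap.funLeft_apply]
  map_mul' g h := by
    ext f x
    simp [LinearMap.funLeft_apply, mul_assoc]

@[simp] lemma h47g_reg_apply (g : G) (f : G → k) (x : G) :
    h47g_reg k G g f x = f (g⁻¹ * x) := rfl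

variable {k G}
variable {Y : Type} [AddCommGroup Y] [Module k Y]

/-- The space of the induced representation `Ind_C^G τ`: the functions `f : G → Y` with
`f (g c) = τ(c)⁻¹ f(g)` for `c ∈ C`. -/
def h47g_indSpace (C : Subgroup G) (τ : Representation k ↥C Y) : Submodule k (G → Y) where
  carrier := {f | ∀ (g : G) (c : ↥C), f (g * (c : G)) = τ c⁻¹ (f g)}
  add_mem' := by
    intro f f' hf hf' g c
    simp only [Pi.add_apply, map_add, hf g c, hf' g c]
  zero_mem' := by
    intro g c
    simp
  smul_mem' := by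
    intro a f hf g c
    simp only [Pi.smul_apply, map_smul, hf g c]

/-- The induced representation `Ind_C^G τ` (left translation on `h47g_indSpace C τ`). -/
def h47g_ind (C : Subgroup G) (τ : Representation k ↥C Y) :
    Representation k G ↥(h47g_indSpace C τ) where
  toFun g := (LinearMap.funLeft k Y (fun x : G => g⁻¹ * x)).restrict (by
    intro f hf x c
    simp only [LinearMap.funLeft_apply]
    rw [← mul_assoc]
    exact hf (g⁻¹ * x) c)
  map_one' := by
    ext f x
    simp [LinearMap.funLeft_apply]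
  map_mul' g h := by
    ext f x
    simp [LinearMap.funLeft_apply, mul_assoc]

@[simp] lemma h47g_ind_apply (C : Subgroup G) (τ : Representation k ↥C Y) (g : G)
    (f : ↥(h47g_indSpace C τ)) (x : G) :
    ((h47g_ind C τ g f : ↥(h47g_indSpace C τ)) : G → Y) x = (f : G → Y) (g⁻¹ * x) := rfl

variable (k G)

/-- `Φ` is additive in short exact sequences of finite dimensional representations of `G`. -/
def h47g_IsAdditive
    (Φ : ∀ (V : Type) [AddCommGroup V] [Module k V], Representation k G V → ℤ) : Prop :=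
  ∀ (V₁ V₂ V₃ : Type) [AddCommGroup V₁] [Module k V₁] [AddCommGroup V₂] [Module k V₂]
    [AddCommGroup V₃] [Module k V₃] [FiniteDimensional k V₂]
    (ρ₁ : Representation k G V₁) (ρ₂ : Representation k G V₂) (ρ₃ : Representation k G V₃)
    (φ : V₁ →ₗ[k] V₂) (ψ : V₂ →ₗ[k] V₃),
    (∀ g v, φ (ρ₁ g v) = ρ₂ g (φ v)) → (∀ g v, ψ (ρ₂ g v) = ρ₃ g (ψ v)) →
    Function.Injective φ → Function.Surjective ψ → LinearMap.range φ = LinearMap.ker ψ →
    Φ V₂ ρ₂ = Φ V₁ ρ₁ + Φ V₃ ρ₃

end Alg

/-- **BA (Brauer–Artin squeeze, pure algebra).**  An additive function on the finite dimensional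
`𝔽_p`-representations of a finite group `G` which vanishes on the regular representation and is
`≥ 0` on the representations induced from the cyclic subgroups of order prime to `p` is
identically zero. -/
def H47BrauerArtin : Prop :=
  ∀ (p : ℕ) [Fact p.Prime] (G : Type) [Group G] [Finite G]
    (Φ : ∀ (V : Type) [AddCommGroup V] [Module (ZMod p) V], Representation (ZMod p) G V → ℤ),
    h47g_IsAdditive (ZMod p) G Φ →
    Φ (G → ZMod p) (h47g_reg (ZMod p) G) = 0 →
    (∀ C : Subgroup G, IsCyclic ↥C → ¬ p ∣ Nat.card ↥C →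
      ∀ (Y : Type) [AddCommGroup Y] [Module (ZMod p) Y] [FiniteDimensional (ZMod p) Y]
        (τ : Representation (ZMod p) ↥C Y), 0 ≤ Φ ↥(h47g_indSpace C τ) (h47g_ind C τ)) →
    ∀ (V : Type) [AddCommGroup V] [Module (ZMod p) V] [FiniteDimensional (ZMod p) V]
      (ρ : Representation (ZMod p) G V), Φ V ρ = 0

/-! ## Arithmetic -/

/-- **ADD.**  `Φ_S` is additive in short exact sequences of finite dimensional representations of
`G_ℚ` which are trivial on a level of `levQ S` (and then `H¹`, `H²` are finite). -/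
def H47PhiAdd : Prop :=
  ∀ (p : ℕ) [Fact p.Prime], p ≠ 2 → ∀ (S : Finset Nat.Primes), pPrime p ∈ S →
    ∀ (V₁ V₂ V₃ : Type) [AddCommGroup V₁] [Module (ZMod p) V₁] [AddCommGroup V₂]
      [Module (ZMod p) V₂] [AddCommGroup V₃] [Module (ZMod p) V₃] [FiniteDimensional (ZMod p) V₂]
      (ρ₁ : Representation (ZMod p) GQ V₁) (ρ₂ : Representation (ZMod p) GQ V₂)
      (ρ₃ : Representation (ZMod p) GQ V₃) (φ : V₁ →ₗ[ZMod p] V₂) (ψ : V₂ →ₗ[ZMod p] V₃),
      (∀ g v, φ (ρ₁ g v) = ρ₂ g (φ v)) → (∀ g v, ψ (ρ₂ g v) = ρ₃ g (ψ v)) →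
      Function.Injective φ → Function.Surjective ψ → LinearMap.range φ = LinearMap.ker ψ →
      (∃ N ∈ (levQ S).sets, ∀ s ∈ N, ∀ v, ρ₂ s v = v) →
      FinH12 (levQ S) ρ₂ ∧ h47g_Phi S ρ₂ = h47g_Phi S ρ₁ + h47g_Phi S ρ₃

/-- **REG (the landed base case).**  `Φ_S(Ind_K^ℚ 𝔽_p) = 0` for `K/ℚ` finite normal, unramified
outside `S`, containing `μ_p`: `χ₂(G_{K,S}, 𝔽_p) = - [K : ℚ] / 2`. -/
def H47PhiReg : Prop :=
  ∀ (p : ℕ) [Fact p.Prime], p ≠ 2 → ∀ (S : Finset Nat.Primes), pPrime p ∈ S →
    ∀ U₀ : Subgroup GQ, U₀ ∈ (levQ S).sets → (∀ u ∈ U₀, cycloChar p u = 1) →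
      FinH12 (levQ S) (permRep (ZMod p) U₀) ∧ h47g_Phi S (permRep (ZMod p) U₀) = 0

/-- **EQ (the equivariant base case).**  For `K/ℚ` finite normal containing `μ_p`
(`U₀ = G_K`) there is a finite set of primes `T₀` such that for all `S ⊇ T₀ ∪ {p}` outside which
`K` is unramified, every cyclic subgroup `C` of `G = G_ℚ / U₀` of order prime to `p` and every
finite dimensional representation `τ` of `C`: `Φ_S(Ind_C^G τ) ≥ 0`, i.e.
`h¹ ≤ h⁰ + h² + dim^{c = -1}` for `Ind_C^G τ`. -/
def H47EqBase : Prop :=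
  ∀ (p : ℕ) [Fact p.Prime], p ≠ 2 →
    ∀ (U₀ : Subgroup GQ) [U₀.Normal], U₀ ∈ levFin.sets → (∀ u ∈ U₀, cycloChar p u = 1) →
      ∃ T₀ : Finset Nat.Primes, ∀ S : Finset Nat.Primes, T₀ ⊆ S → pPrime p ∈ S →
        U₀ ∈ (levQ S).sets →
        ∀ C : Subgroup (GQ ⧸ U₀), IsCyclic ↥C → ¬ p ∣ Nat.card ↥C →
          ∀ (Y : Type) [AddCommGroup Y] [Module (ZMod p) Y] [FiniteDimensional (ZMod p) Y]
            (τ : Representation (ZMod p) ↥C Y),
            0 ≤ h47g_Phi S ((h47g_ind C τ).comp (QuotientGroup.mk' U₀))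

/-- **TATE-EC (assembly).** -/
def H47TateAsm : Prop :=
  H47BrauerArtin → H47PhiAdd → H47PhiReg → H47EqBase → H47TateGE

end Fermat.Agent.S56G
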