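import Mathlib
import Fermat.Agent.S56G.TateIface

/-!
# S56, block EQ of TATE-EC (architect helper47): frozen interfaces

Target: `H47EqBase` (`S56G/TateIface.lean`).

Notation: `U₀ = G_K ⊲ G_ℚ`, `K/ℚ` finite normal, `μ_p ⊆ K`; `G = G_ℚ / U₀`, `C ≤ G` of order prime
to `p`, `τ` a representation of `C` on `Y`; `W = Ind_C^G τ` (a representation of `G_ℚ` through
`G`), `W^D = dualTw χ W` its twisted dual.

`𝓗 = Z¹(U₀, 𝔽_p)` = the continuous (level `S`) characters `U₀ → 𝔽_p`, with the twisted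
conjugation action `(g φ)(u) = χ(g) φ(g⁻¹ u g)` of `G_ℚ` (Kummer: `𝓗 ≅ K(S, p)` as Galois
modules); `h47g_HomC` = the `C`-equivariant linear maps `Y → 𝓗`.

## The chain  (`S56G/EqAsm.lean`)

* `H47ShapUB`    (E1, pure algebra: Shapiro + restriction to a subgroup of index prime to `p`):
                 `h¹(G_S, W^D) ≤ dim Hom_C(Y, 𝓗)`;
* `H47EqArith`   (the arithmetic: equivariant Kummer theory + the `S`-unit lattice of `K`
                 embeds into the permutation lattice of the places; `Cl_S(K)[p] = 0`):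
                 `dim Hom_C(Y, 𝓗) + h⁰(W) ≤ h⁰(W^D) + ∑_{v ∈ S} h⁰_v(W) + dim W^{c = 1}`;
* `H47H2Formula` (T2, from the landed `θ¹`): `h²(W^D) + h⁰(W) = ∑_v h⁰_v(W) + dim Ш¹(W)`;
* `H47CNegDual`  : `dim (W^D)^{c = -1} = dim W^{c = 1}`;
* hence `H47EqDual`: `Φ_S(W^D) ≥ 0`; and `H47EqBaseOfDual`: transport along
  `Ind_C^G τ ≅ (Ind_C^G τ')^D`, `τ' = ` twisted dual of `τ`.

Nothing is assumed in this file.
-/

set_option autoImplicit false

open ExtCitation

noncomputable section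

namespace Fermat.Agent.S56G

open Fermat.Agent.PT

section Defs

variable (p : ℕ) [Fact p.Prime] (S : Finset Nat.Primes)
variable (U₀ : Subgroup GQ) [hU₀ : U₀.Normal]

/-- Conjugation of an element of the normal subgroup `U₀`: `u ↦ g⁻¹ u g`. -/
def h47g_conj (g : GQ) (u : ↥U₀) : ↥U₀ :=
  ⟨g⁻¹ * (u : GQ) * g, by
    have h := hU₀.conj_mem (u : GQ) u.2 g⁻¹
    simpa using h⟩

@[simp] lemma h47g_conj_coe (g : GQ) (u : ↥U₀) :
    ((h47g_conj U₀ g u : ↥U₀) : GQ) = g⁻¹ * (u : GQ) * g := rfl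

variable {Y : Type} [AddCommGroup Y] [Module (ZMod p) Y]

/-- `W = Ind_C^G τ` as a representation of `G_ℚ` (through `G = G_ℚ / U₀`). -/
def h47g_W (C : Subgroup (GQ ⧸ U₀)) (τ : Representation (ZMod p) ↥C Y) :
    Representation (ZMod p) GQ ↥(h47g_indSpace C τ) :=
  (h47g_ind C τ).comp (QuotientGroup.mk' U₀)

/-- `Hom_C(Y, 𝓗)`: the linear maps `Φ : Y → Z¹(U₀, 𝔽_p)` (continuous characters of level `S`)
with `Φ(τ(c) y)(u) = χ(g) Φ(y)(g⁻¹ u g)` for every `g ∈ G_ℚ` with image `c ∈ C`. -/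
def h47g_HomC (C : Subgroup (GQ ⧸ U₀)) (τ : Representation (ZMod p) ↥C Y) :
    Submodule (ZMod p) (Y →ₗ[ZMod p] (↥U₀ → ZMod p)) where
  carrier := {Φ | (∀ y, Φ y ∈ Z1 (chi2Lev (levQ S) U₀) (chi2Triv (ZMod p) U₀)) ∧
    ∀ (g : GQ) (hg : QuotientGroup.mk' U₀ g ∈ C) (y : Y) (u : ↥U₀),
      Φ (τ ⟨QuotientGroup.mk' U₀ g, hg⟩ y) u =
        ((cycloChar p g : (ZMod p)ˣ) : ZMod p) * Φ y (h47g_conj U₀ g u)}
  add_mem' := by
    rintro Φ Φ' ⟨h1, h2⟩ ⟨h1', h2'⟩
    refine ⟨fun y => ?_, fun g hg y u => ?_⟩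
    · simpa using add_mem (h1 y) (h1' y)
    · simp only [LinearMap.add_apply, Pi.add_apply, h2 g hg y u, h2' g hg y u, mul_add]
  zero_mem' := by
    refine ⟨fun y => ?_, fun g hg y u => ?_⟩
    · simp
    · simp
  smul_mem' := by
    rintro a Φ ⟨h1, h2⟩
    refine ⟨fun y => ?_, fun g hg y u => ?_⟩
    · simpa using Submodule.smul_mem _ a (h1 y)
    · simp only [LinearMap.smul_apply, Pi.smul_apply, h2 g hg y u, smul_eq_mul]
      ring

end Defs

/-- **E1 (Shapiro upper bound, pure algebra).**  `h¹(G_S, W^D) ≤ dim Hom_C(Y, 𝓗)` when the order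
of `C` is prime to `p` (restriction to `U₀` of `f ↦ (y ↦ (u ↦ f(u)(δ_y)))`, `δ_y ∈ Ind_C^G τ` the
function supported on `C` with `δ_y(1) = y`; the kernel consists of coboundaries). -/
def H47ShapUB : Prop :=
  ∀ (p : ℕ) [Fact p.Prime], p ≠ 2 → ∀ (S : Finset Nat.Primes), pPrime p ∈ S →
    ∀ (U₀ : Subgroup GQ) [U₀.Normal], U₀ ∈ (levQ S).sets → (∀ u ∈ U₀, cycloChar p u = 1) →
      ∀ C : Subgroup (GQ ⧸ U₀), ¬ p ∣ Nat.card ↥C →
        ∀ (Y : Type) [AddCommGroup Y] [Module (ZMod p) Y] [FiniteDimensional (ZMod p) Y]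
          (τ : Representation (ZMod p) ↥C Y),
          Module.Finite (ZMod p) ↥(h47g_HomC p S U₀ C τ) →
          Module.finrank (ZMod p) (HH1 (levQ S) (dualTw (cycloChar p) (h47g_W p U₀ C τ))) ≤
            Module.finrank (ZMod p) ↥(h47g_HomC p S U₀ C τ)

/-- **EQ-ARITH (the arithmetic heart).**  For `K/ℚ` finite normal containing `μ_p` there is a
finite set of primes `T₀` (making `Cl_S(K)[p] = 0`) such that for all `S ⊇ T₀ ∪ {p}` outside which
`K` is unramified and all cyclic `C` of order prime to `p`: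
`dim Hom_C(Y, 𝓗) + h⁰(W) ≤ h⁰(W^D) + ∑_{v ∈ S} h⁰(G_v, W) + dim W^{c = 1}`. -/
def H47EqArith : Prop :=
  ∀ (p : ℕ) [Fact p.Prime], p ≠ 2 →
    ∀ (U₀ : Subgroup GQ) [U₀.Normal], U₀ ∈ levFin.sets → (∀ u ∈ U₀, cycloChar p u = 1) →
      ∃ T₀ : Finset Nat.Primes, ∀ S : Finset Nat.Primes, T₀ ⊆ S → pPrime p ∈ S →
        U₀ ∈ (levQ S).sets →
        ∀ C : Subgroup (GQ ⧸ U₀), IsCyclic ↥C → ¬ p ∣ Nat.card ↥C →
          ∀ (Y : Type) [AddCommGroup Y] [Module (ZMod p) Y] [FiniteDimensional (ZMod p) Y]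
            (τ : Representation (ZMod p) ↥C Y),
            Module.Finite (ZMod p) ↥(h47g_HomC p S U₀ C τ) ∧
            Module.finrank (ZMod p) ↥(h47g_HomC p S U₀ C τ)
                + Module.finrank (ZMod p) (h47g_W p U₀ C τ).invariants
              ≤ Module.finrank (ZMod p) (dualTw (cycloChar p) (h47g_W p U₀ C τ)).invariants
                + ∑ v : (DQ p S).P,
                    Module.finrank (ZMod p) ((DQ p S).repAt (h47g_W p U₀ C τ) v).invariants
                + Module.finrank (ZMod p) (h47g_cFix (h47g_W p U₀ C τ))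

/-- **T2 (the `H²`-formula).**  For a finite dimensional representation `W` of `G_ℚ` unramified
outside `S`: `H²(G_S, W^D)` is finite and `h²(W^D) + h⁰(W) = ∑_{v ∈ S} h⁰(G_v, W) + dim Ш¹_S(W)`
(landed `θ¹`: `H¹_c(W^{DD}) × H²(W^D)` is perfect; `W^{DD} ≅ W`; the cone sequence
`0 → H⁰(W) → ⊕_v H⁰(G_v, W) → H¹_c(W) → Ш¹(W) → 0`). -/
def H47H2Formula : Prop :=
  ∀ (p : ℕ) [Fact p.Prime], p ≠ 2 → ∀ (S : Finset Nat.Primes), pPrime p ∈ S →
    ∀ (V : Type) [AddCommGroup V] [Module (ZMod p) V] [FiniteDimensional (ZMod p) V]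
      (W : Representation (ZMod p) GQ V), IsDisc (levQ S) W →
      Module.Finite (ZMod p) (HH2 (levQ S) (dualTw (cycloChar p) W)) ∧
      Module.Finite (ZMod p) ((DQ p S).Sha1 W) ∧
      Module.finrank (ZMod p) (HH2 (levQ S) (dualTw (cycloChar p) W))
          + Module.finrank (ZMod p) W.invariants =
        ∑ v : (DQ p S).P, Module.finrank (ZMod p) ((DQ p S).repAt W v).invariants
          + Module.finrank (ZMod p) ((DQ p S).Sha1 W)

/-- `dim (W^D)^{c = -1} = dim W^{c = 1}` (`χ(c) = -1`, `p` odd). -/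
def H47CNegDual : Prop :=
  ∀ (p : ℕ) [Fact p.Prime], p ≠ 2 →
    ∀ (V : Type) [AddCommGroup V] [Module (ZMod p) V] [FiniteDimensional (ZMod p) V]
      (W : Representation (ZMod p) GQ V),
      Module.finrank (ZMod p) (h47g_cNeg (dualTw (cycloChar p) W)) =
        Module.finrank (ZMod p) (h47g_cFix W)

/-- **EQ, dual form.**  `Φ_S((Ind_C^G τ)^D) ≥ 0`. -/
def H47EqDual : Prop :=
  ∀ (p : ℕ) [Fact p.Prime], p ≠ 2 →
    ∀ (U₀ : Subgroup GQ) [U₀.Normal], U₀ ∈ levFin.sets → (∀ u ∈ U₀, cycloChar p u = 1) →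
      ∃ T₀ : Finset Nat.Primes, ∀ S : Finset Nat.Primes, T₀ ⊆ S → pPrime p ∈ S →
        U₀ ∈ (levQ S).sets →
        ∀ C : Subgroup (GQ ⧸ U₀), IsCyclic ↥C → ¬ p ∣ Nat.card ↥C →
          ∀ (Y : Type) [AddCommGroup Y] [Module (ZMod p) Y] [FiniteDimensional (ZMod p) Y]
            (τ : Representation (ZMod p) ↥C Y),
            0 ≤ h47g_Phi S (dualTw (cycloChar p) (h47g_W p U₀ C τ))

/-- Assembly of the dual form. -/
def H47EqDualAsm : Prop :=
  H47ShapUB → H47EqArith → H47H2Formula → H47CNegDual → H47EqDual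

/-- Transport: `Ind_C^G τ ≅ (Ind_C^G τ')^D` with `τ' = dualTw (χ|_C) τ` (`χ` factors through
`G` since `χ|_{U₀} = 1`), and `Φ_S` is invariant under isomorphisms. -/
def H47EqBaseOfDual : Prop := H47EqDual → H47EqBase

end Fermat.Agent.S56G
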