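import Mathlib
import Fermat.Agent.S56G.EqIface
import Fermat.Agent.PT.Bridge.DQGood

/-!
# S56, block EQ of TATE-EC (helper47): the assembly of the dual form

`h47g_eqDualAsm : H47EqDualAsm`, i.e.
`H47ShapUB → H47EqArith → H47H2Formula → H47CNegDual → H47EqDual`.
-/

set_option autoImplicit false

open ExtCitation

noncomputable section

namespace Fermat.Agent.S56G

open Fermat.Agent.PT

/-- `W = Ind_C^G τ` is trivial on `U₀`. -/
lemma h47g_W_apply_of_mem (p : ℕ) [Fact p.Prime] (U₀ : Subgroup GQ) [U₀.Normal]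
    {Y : Type} [AddCommGroup Y] [Module (ZMod p) Y] (C : Subgroup (GQ ⧸ U₀))
    (τ : Representation (ZMod p) ↥C Y) {s : GQ} (hs : s ∈ U₀) :
    h47g_W p U₀ C τ s = 1 := by
  have h1 : QuotientGroup.mk' U₀ s = 1 := by
    rw [QuotientGroup.mk'_apply]
    exact (QuotientGroup.eq_one_iff s).2 hs
  show (h47g_ind C τ) (QuotientGroup.mk' U₀ s) = 1
  rw [h1, map_one]

/-- `W = Ind_C^G τ` is discrete for every level system containing `U₀`. -/
lemma h47g_W_isDisc (p : ℕ) [Fact p.Prime] (S : Finset Nat.Primes) (U₀ : Subgroup GQ)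
    [U₀.Normal] (hU₀ : U₀ ∈ (levQ S).sets)
    {Y : Type} [AddCommGroup Y] [Module (ZMod p) Y] (C : Subgroup (GQ ⧸ U₀))
    (τ : Representation (ZMod p) ↥C Y) : IsDisc (levQ S) (h47g_W p U₀ C τ) := by
  intro v
  refine ⟨U₀, hU₀, fun s hs => ?_⟩
  rw [h47g_W_apply_of_mem p U₀ C τ hs]
  rfl

/-- The quotient by a level is finite. -/
lemma h47g_finite_quot (p : ℕ) [Fact p.Prime] (S : Finset Nat.Primes) (hpS : pPrime p ∈ S)
    (U₀ : Subgroup GQ) (hU₀ : U₀ ∈ (levQ S).sets) : Finite (GQ ⧸ U₀) := by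
  have hg := Fermat.Agent.PT.Bridge.dqGood p S hpS
  have hfi : U₀.FiniteIndex := (hg.1 U₀ hU₀).2
  exact Subgroup.finite_quotient_of_finiteIndex

/-- **Assembly of the dual form of EQ.** -/
theorem h47g_eqDualAsm : H47EqDualAsm := by
  intro hShap hArith hH2 hCNeg p _ hp2 U₀ _ hU₀ hχ
  obtain ⟨T₀, hT⟩ := hArith p hp2 U₀ hU₀ hχ
  refine ⟨T₀, fun S hTS hpS hU₀S C hC hpC Y _ _ _ τ => ?_⟩
  obtain ⟨hfin, hineq⟩ := hT S hTS hpS hU₀S C hC hpC Y τ
  have h1 := hShap p hp2 S hpS U₀ hU₀S hχ C hpC Y τ hfin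
  haveI : Finite (GQ ⧸ U₀) := h47g_finite_quot p S hpS U₀ hU₀S
  have hdisc := h47g_W_isDisc p S U₀ hU₀S C τ
  obtain ⟨-, -, hform⟩ := hH2 p hp2 S hpS _ (h47g_W p U₀ C τ) hdisc
  have hc := hCNeg p hp2 _ (h47g_W p U₀ C τ)
  unfold h47g_Phi chi2
  rw [hc]
  have e1 : (Module.finrank (ZMod p)
      (HH1 (levQ S) (dualTw (cycloChar p) (h47g_W p U₀ C τ))) : ℤ) ≤
      (Module.finrank (ZMod p) ↥(h47g_HomC p S U₀ C τ) : ℤ) := by exact_mod_cast h1
  have e2 : (Module.finrank (ZMod p) ↥(h47g_HomC p S U₀ C τ) : ℤ)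
      + (Module.finrank (ZMod p) (h47g_W p U₀ C τ).invariants : ℤ)
      ≤ (Module.finrank (ZMod p) (dualTw (cycloChar p) (h47g_W p U₀ C τ)).invariants : ℤ)
        + (∑ v : (DQ p S).P,
            Module.finrank (ZMod p) ((DQ p S).repAt (h47g_W p U₀ C τ) v).invariants : ℕ)
        + (Module.finrank (ZMod p) (h47g_cFix (h47g_W p U₀ C τ)) : ℤ) := by
    exact_mod_cast hineq
  have e3 : (Module.finrank (ZMod p)
      (HH2 (levQ S) (dualTw (cycloChar p) (h47g_W p U₀ C τ))) : ℤ)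
      + (Module.finrank (ZMod p) (h47g_W p U₀ C τ).invariants : ℤ) =
      (∑ v : (DQ p S).P,
          Module.finrank (ZMod p) ((DQ p S).repAt (h47g_W p U₀ C τ) v).invariants : ℕ)
        + (Module.finrank (ZMod p) ((DQ p S).Sha1 (h47g_W p U₀ C τ)) : ℤ) := by
    exact_mod_cast hform
  have e4 : (0 : ℤ) ≤ (Module.finrank (ZMod p) ((DQ p S).Sha1 (h47g_W p U₀ C τ)) : ℤ) :=
    Int.natCast_nonneg _
  linarith

end Fermat.Agent.S56G
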