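import Fermat.Agent.S56G.Defs
import Fermat.Agent.PT.Alg.H42CountGlue

/-!
# S56, block GW, row LD1 (helper33): the right kernel of `H¹ × H¹`, abstract form

`H` a group with a level system, `χ : H →* kˣ`, `T = k(χ)`, `ρ` a representation of `H` on `V`,
`y` a continuous cocycle of the twisted dual `ρ^D`.

* `h33y_ext χ ρ y hy` : the extension `0 → T → F → ρ → 0` dual to the extension of `k` by `ρ^D`
  with class `y`:  `F = V × k`, `g (v, s) = (ρ g v, χ g s - y g (ρ g v))`.
* `h33y_annTop_abs`   : if the left half of the duality `H²(F) × H⁰(F^D) → k` holds, `H²(T) ≠ 0`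
  and `b ∪ y` is a continuous coboundary for every continuous cocycle `b` of `ρ`, then `y` is a
  coboundary (dimension shifting, on cocycles).
-/

set_option autoImplicit false

noncomputable section

namespace Fermat.Agent.S56G

open Fermat.Agent.PT

lemma h33y_isLC1_pair {G : Type} [Group G] {L : Lev G} {X Y : Type*} {f : G → X} {g : G → Y}
    (hf : IsLC1 L f) (hg : IsLC1 L g) : IsLC1 L (fun s => (f s, g s)) := by
  obtain ⟨N₁, h₁, hf⟩ := hf
  obtain ⟨N₂, h₂, hg⟩ := hg
  obtain ⟨N, hN, hle⟩ := L.directed N₁ h₁ N₂ h₂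
  exact ⟨N, hN, fun a s hs => by simp only [hf a s (hle hs).1, hg a s (hle hs).2]⟩

section Abs

variable {k : Type} [Field k] {H : Type} [Group H] (L : Lev H) (χ : H →* kˣ)
variable {V : Type} [AddCommGroup V] [Module k V] (ρ : Representation k H V)

lemma h33y_dualTw_apply_apply (g : H) (f : Module.Dual k V) (v : V) :
    dualTw χ ρ g f v = (χ g : k) * f (ρ g⁻¹ v) := by
  rw [dualTw_apply]
  rfl

lemma h33y_rho_inv_apply (g : H) (v : V) : ρ g⁻¹ (ρ g v) = v := by
  rw [← Module.End.mul_apply, ← map_mul, inv_mul_cancel, map_one, Module.End.one_apply]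

lemma h33y_rho_apply_inv (g : H) (v : V) : ρ g (ρ g⁻¹ v) = v := by
  rw [← Module.End.mul_apply, ← map_mul, mul_inv_cancel, map_one, Module.End.one_apply]

variable {χ ρ}

lemma h33y_y_mul {y : H → Module.Dual k V} (hy : d1 (dualTw χ ρ) y = 0) (g h : H) :
    y (g * h) = y g + dualTw χ ρ g (y h) := by
  have := congrFun hy (g, h)
  simp only [d1_apply, Pi.zero_apply] at this
  rw [sub_add_eq_add_sub, sub_eq_zero] at this
  rw [← this, add_comm]

lemma h33y_y_one {y : H → Module.Dual k V} (hy : d1 (dualTw χ ρ) y = 0) : y 1 = 0 := by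
  have := h33y_y_mul hy 1 1
  rw [mul_one, map_one, Module.End.one_apply] at this
  exact left_eq_add.1 this

variable (χ ρ)

/-- The extension `F = V × k` of `ρ` by `T = k(χ)` attached to a cocycle `y` of `ρ^D`. -/
def h33y_ext (y : H → Module.Dual k V) (hy : d1 (dualTw χ ρ) y = 0) :
    Representation k H (V × k) where
  toFun g := LinearMap.prod (ρ g ∘ₗ LinearMap.fst k V k)
    ((χ g : k) • LinearMap.snd k V k - (y g ∘ₗ ρ g) ∘ₗ LinearMap.fst k V k)
  map_one' := by
    refine LinearMap.ext fun x => Prod.ext ?_ ?_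
    · simp
    · simp [h33y_y_one hy]
  map_mul' g h := by
    have hm := h33y_y_mul hy g h
    refine LinearMap.ext fun x => Prod.ext ?_ ?_
    · simp
    · have h1 : y (g * h) (ρ g (ρ h x.1)) =
          y g (ρ g (ρ h x.1)) + (χ g : k) * y h (ρ h x.1) := by
        rw [hm, LinearMap.add_apply, h33y_dualTw_apply_apply, h33y_rho_inv_apply]
      simp only [map_mul, Module.End.mul_apply, LinearMap.prod_apply, Function.prod,
        LinearMap.coe_comp, Function.comp_apply, LinearMap.fst_apply, LinearMap.sub_apply,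
        LinearMap.smul_apply, LinearMap.snd_apply, smul_eq_mul, Units.val_mul, h1]
      ring

variable {χ ρ}

@[simp] lemma h33y_ext_apply {y : H → Module.Dual k V} (hy : d1 (dualTw χ ρ) y = 0) (g : H)
    (x : V × k) :
    h33y_ext χ ρ y hy g x = (ρ g x.1, (χ g : k) * x.2 - y g (ρ g x.1)) := rfl

lemma h33y_pair (w : Module.Dual k (V × k)) (v : V) (s : k) :
    w (v, s) = w (v, 0) + s * w (0, 1) := by
  have h1 : ((v, s) : V × k) = (v, 0) + s • ((0 : V), (1 : k)) := by
    ext <;> simp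
  rw [h1, map_add, map_smul, smul_eq_mul]

/-- an invariant functional of `F^D` vanishes on `T`, unless `y` is a coboundary. -/
lemma h33y_inv_snd {y : H → Module.Dual k V} (hy : d1 (dualTw χ ρ) y = 0)
    (hnb : y ∉ B1 (dualTw χ ρ)) (w : Module.Dual k (V × k))
    (hw : w ∈ (dualTw χ (h33y_ext χ ρ y hy)).invariants) : w (0, 1) = 0 := by
  by_contra ht
  apply hnb
  rw [mem_B1]
  have hinv : ∀ (g : H) (z : V × k), w (h33y_ext χ ρ y hy g z) = (χ g : k) * w z := by
    intro g z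
    have h1 := congrArg (fun φ : Module.Dual k (V × k) => φ (h33y_ext χ ρ y hy g z))
      ((Representation.mem_invariants _ _).1 hw g)
    rw [h33y_dualTw_apply_apply, h33y_rho_inv_apply] at h1
    exact h1.symm
  refine ⟨-((w (0, 1))⁻¹ • (w ∘ₗ LinearMap.inl k V k)), ?_⟩
  funext g
  refine LinearMap.ext fun v => ?_
  have h2 := hinv g (ρ g⁻¹ v, 0)
  rw [h33y_ext_apply] at h2
  simp only [h33y_rho_apply_inv, mul_zero, zero_sub] at h2
  rw [h33y_pair w v (-(y g v))] at h2
  rw [d0_apply, LinearMap.sub_apply, h33y_dualTw_apply_apply]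
  simp only [LinearMap.neg_apply, LinearMap.smul_apply, LinearMap.comp_apply,
    LinearMap.inl_apply, smul_eq_mul]
  field_simp
  linear_combination h2

/-- **LD1, abstract form** (dimension shifting on cocycles). -/
theorem h33y_annTop_abs (inv : (H × H → k) →ₗ[k] k)
    {y : H → Module.Dual k V} (hy : d1 (dualTw χ ρ) y = 0) (hylc : IsLC1 L y)
    (hperf : ∀ c ∈ Z2 L (h33y_ext χ ρ y hy),
      (∀ w ∈ (dualTw χ (h33y_ext χ ρ y hy)).invariants,
        inv (cup20 (Module.Dual.eval k (V × k)) (dualTw χ (h33y_ext χ ρ y hy)) c w) = 0) →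
      c ∈ B2 L (h33y_ext χ ρ y hy))
    {c0 : H × H → k} (hc0 : c0 ∈ Z2 L (chiRep χ)) (hc0' : c0 ∉ B2 L (chiRep χ))
    (hann : ∀ b ∈ Z1 L ρ, cup11 (Module.Dual.eval k V) (dualTw χ ρ) b y ∈ B2 L (chiRep χ)) :
    y ∈ B1 (dualTw χ ρ) := by
  by_contra hnb
  -- the `2`-cocycle `(0, c0)` of `F`
  have hcZ : (fun p => ((0 : V), c0 p)) ∈ Z2 L (h33y_ext χ ρ y hy) := by
    rw [mem_Z2]
    obtain ⟨hd, hlc⟩ := (mem_Z2 _ _ _).1 hc0
    refine ⟨?_, hlc.comp (fun s => ((0 : V), s))⟩
    funext ⟨g, h, j⟩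
    have h1 := congrFun hd (g, h, j)
    simp only [d2_apply, chiRep_apply, Pi.zero_apply] at h1
    simp only [d2_apply, Pi.zero_apply, h33y_ext_apply, map_zero, sub_zero]
    refine Prod.ext ?_ ?_
    · simp
    · simpa using h1
  have hcB := hperf _ hcZ (fun w hw => by
    rw [h42g_cup20_eq_cup02 χ (h33y_ext χ ρ y hy) _ w hw]
    have h0 : cup02 (LinearMap.id : Module.Dual k (V × k) →ₗ[k] Module.Dual k (V × k)) w
        (fun p => ((0 : V), c0 p)) = 0 := by
      funext p
      rw [cup02_apply, LinearMap.id_apply, h33y_pair, h33y_inv_snd hy hnb w hw, mul_zero,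
        add_zero]
      exact map_zero w
    rw [h0, map_zero])
  obtain ⟨x, hxlc, hx⟩ := (mem_B2 _ _ _).1 hcB
  have hx1 : ∀ g h, ρ g (x h).1 - (x (g * h)).1 + (x g).1 = 0 := by
    intro g h
    have := congrArg Prod.fst (congrFun hx (g, h))
    simpa using this
  have hx2 : ∀ g h, (χ g : k) * (x h).2 - y g (ρ g (x h).1) - (x (g * h)).2 + (x g).2 =
      c0 (g, h) := by
    intro g h
    have := congrArg Prod.snd (congrFun hx (g, h))
    simpa using this
  have hb : (fun g => (x g).1) ∈ Z1 L ρ := by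
    rw [mem_Z1]
    refine ⟨?_, hxlc.comp Prod.fst⟩
    funext ⟨g, h⟩
    simp only [d1_apply, Pi.zero_apply]
    exact hx1 g h
  obtain ⟨u, hulc, hu⟩ := (mem_B2 _ _ _).1 (hann _ hb)
  apply hc0'
  rw [mem_B2]
  refine ⟨fun g => (x g).2 + y g (x g).1 + u g, ?_, ?_⟩
  · have h1 := h33y_isLC1_pair hxlc hylc
    have h2 := h33y_isLC1_pair h1 hulc
    exact h2.comp (fun z : ((V × k) × Module.Dual k V) × k => z.1.1.2 + z.1.2 z.1.1.1 + z.2)
  · funext ⟨g, h⟩
    have e1 := hx1 g h
    have e2 := hx2 g h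
    have e3 := congrFun hu (g, h)
    simp only [d1_apply, chiRep_apply, cup11_apply, Module.Dual.eval_apply,
      h33y_dualTw_apply_apply] at e3
    have e4 : (x (g * h)).1 = (x g).1 + ρ g (x h).1 := by
      rw [sub_add_eq_add_sub, sub_eq_zero] at e1
      rw [← e1, add_comm]
    have e5 : y (g * h) (x (g * h)).1 = y g (x g).1 + y g (ρ g (x h).1) +
        (χ g : k) * y h (ρ g⁻¹ (x g).1) + (χ g : k) * y h (x h).1 := by
      rw [e4, h33y_y_mul hy, LinearMap.add_apply, map_add, map_add, h33y_dualTw_apply_apply,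
        h33y_dualTw_apply_apply, h33y_rho_inv_apply]
      ring
    simp only [d1_apply, chiRep_apply]
    rw [e5]
    linear_combination e2 + e3

/-- `T = k(χ)` is discrete. -/
lemma h33y_isDisc_chiRep (hχ : ∃ N ∈ L.sets, ∀ s ∈ N, χ s = 1) : IsDisc L (chiRep χ) := by
  obtain ⟨N, hN, h⟩ := hχ
  exact fun t => ⟨N, hN, fun s hs => by rw [chiRep_apply, h s hs, Units.val_one, one_mul]⟩

/-- the extension `F` is discrete. -/
lemma h33y_isDisc_ext (hχ : ∃ N ∈ L.sets, ∀ s ∈ N, χ s = 1) (hdisc : IsDisc L ρ)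
    {y : H → Module.Dual k V} (hy : d1 (dualTw χ ρ) y = 0) (hylc : IsLC1 L y) :
    IsDisc L (h33y_ext χ ρ y hy) := by
  intro z
  obtain ⟨N₁, h₁, hχ⟩ := hχ
  obtain ⟨N₂, h₂, hv⟩ := hdisc z.1
  obtain ⟨N₃, h₃, hlc⟩ := hylc
  obtain ⟨N₄, h₄, hle₄⟩ := L.directed N₁ h₁ N₂ h₂
  obtain ⟨N, hN, hle⟩ := L.directed N₄ h₄ N₃ h₃
  refine ⟨N, hN, fun s hs => ?_⟩
  have hs1 : χ s = 1 := hχ s (hle₄ (hle hs).1).1
  have hs2 : ρ s z.1 = z.1 := hv s (hle₄ (hle hs).1).2
  have hs3 : y s = 0 := by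
    have := hlc 1 s (hle hs).2
    rw [one_mul, h33y_y_one hy] at this
    exact this
  rw [h33y_ext_apply, hs1, hs2, hs3]
  simp

/-- `H²(T) ≠ 0` from the right half of the duality `H²(T) × H⁰(T^D) → k`. -/
lemma h33y_exists_c0 (inv : (H × H → k) →ₗ[k] k) (hinv : InvOK L χ inv)
    (hperf : LPerf2 L inv (chiRep χ) (dualTw χ (chiRep χ)) (Module.Dual.eval k k)) :
    ∃ c0 ∈ Z2 L (chiRep χ), c0 ∉ B2 L (chiRep χ) := by
  have hw : (LinearMap.id : Module.Dual k k) ∈ (dualTw χ (chiRep χ)).invariants := by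
    rw [Representation.mem_invariants]
    intro g
    refine LinearMap.ext fun t => ?_
    rw [h33y_dualTw_apply_apply, LinearMap.id_apply, chiRep_apply, ← mul_assoc, ← Units.val_mul,
      ← map_mul, mul_inv_cancel, map_one, Units.val_one, one_mul]
    rfl
  have hne : (LinearMap.id : Module.Dual k k) ≠ 0 := by
    intro h0
    have := congrArg (fun φ : Module.Dual k k => φ 1) h0
    simp at this
  by_contra hcon
  push Not at hcon
  refine hne (hperf.2 _ hw (fun b hb => ?_))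
  rw [h42g_cup20_eq_cup02 χ (chiRep χ) b _ hw]
  have h1 : cup02 (LinearMap.id : Module.Dual k k →ₗ[k] Module.Dual k k) LinearMap.id b = b := by
    funext p
    rw [cup02_apply]
    rfl
  rw [h1]
  exact hinv b (hcon b hb)

/-- **LD1 for one group**: if the local duality `H² × H⁰` holds for all finite dimensional
discrete modules, the right kernel of `H¹ × H¹` consists of coboundaries. -/
theorem h33y_annTop_of_perf (inv : (H × H → k) →ₗ[k] k)
    (hχ : ∃ N ∈ L.sets, ∀ s ∈ N, χ s = 1) (hinv : InvOK L χ inv)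
    (hperf : ∀ (W : Type) [AddCommGroup W] [Module k W] [FiniteDimensional k W]
      (σ : Representation k H W), IsDisc L σ →
      LPerf2 L inv σ (dualTw χ σ) (Module.Dual.eval k W))
    [FiniteDimensional k V] (hdisc : IsDisc L ρ)
    {y : H → Module.Dual k V} (hyZ : y ∈ Z1 L (dualTw χ ρ))
    (hann : ∀ b ∈ Z1 L ρ, cup11 (Module.Dual.eval k V) (dualTw χ ρ) b y ∈ B2 L (chiRep χ)) :
    y ∈ B1 (dualTw χ ρ) := by
  obtain ⟨hy, hylc⟩ := (mem_Z1 _ _ _).1 hyZ
  obtain ⟨c0, hc0, hc0'⟩ := h33y_exists_c0 L inv hinv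
    (hperf k (chiRep χ) (h33y_isDisc_chiRep L hχ))
  exact h33y_annTop_abs L inv hy hylc
    (hperf (V × k) (h33y_ext χ ρ y hy) (h33y_isDisc_ext L hχ hdisc hy hylc)).1 hc0 hc0' hann

end Abs

end Fermat.Agent.S56G
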