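import Fermat.Agent.S56G.Iface
import Fermat.Agent.S56G.H33AnnAbs
import Fermat.Agent.PT.Final.H48S55

/-!
# S56, block GW, row LD1 (helper33): `H47AnnTop`

Local Tate duality in degree `1`, right kernel, at the places of `DQ p S`: instantiation of the
abstract dimension shifting `h33y_annTop_of_perf` with the landed local duality `H² × H⁰`
(`lTheta2Abs`, `lVanAbs`, `localAux`, `h48s_arithInputs`).
-/

set_option autoImplicit false

open ExtCitation

noncomputable section

namespace Fermat.Agent.S56G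

open Fermat.Agent.PT

/-- **LD1**: at every place of `DQ p S` the annihilator of all continuous local cocycles consists
of coboundaries. -/
theorem h33y_annTop : H47AnnTop := by
  intro p _ hp2 S hpS V _ _ _ ρ hdisc v y hy
  obtain ⟨tr, htr, hglob, hloc⟩ := arithBase2_of_inputs h48s_arithInputs p S hp2 hpS
  have hgood := Bridge.dqGood p S hpS
  obtain ⟨hχ, hinv, hres, -⟩ := localAux (ZMod p) (DQ p S) tr hgood htr v
  have hLV : ∀ (W : Type) [AddCommGroup W] [Module (ZMod p) W] [FiniteDimensional (ZMod p) W]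
      (σ : Representation (ZMod p) ((DQ p S).H v) W), IsDisc ((DQ p S).levH v) σ →
      H3Vanishes ((DQ p S).levH v) σ :=
    lVanAbs p (ZMod p) _ ((DQ p S).levH v) ((DQ p S).chiAt v) (hgood.2.1 v) hχ
      (fun U hU hU1 => (hloc v U hU hU1).1)
  have hperf := lTheta2Abs (ZMod p) _ ((DQ p S).levH v) ((DQ p S).chiAt v)
    ((DQ p S).invAt tr v) (hgood.2.1 v) hχ hinv hLV (fun U hU hU1 => (hloc v U hU hU1).2)
  obtain ⟨hyZ, hann⟩ := hy
  have hrep : (DQ p S).repAt (dualTw (DQ p S).chi ρ) v =
      dualTw ((DQ p S).chiAt v) ((DQ p S).repAt ρ v) := h42g_repAt_dualTw (DQ p S) ρ v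
  rw [hrep] at hyZ hann ⊢
  exact h33y_annTop_of_perf (L := (DQ p S).levH v) (χ := (DQ p S).chiAt v)
    (ρ := (DQ p S).repAt ρ v) ((DQ p S).invAt tr v) hχ hinv hperf (hres V ρ hdisc) hyZ hann

end Fermat.Agent.S56G
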