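import Mathlib
import Fermat.Agent.S56G.TateIface
import Fermat.Agent.PT.Glob.H47Top
import Fermat.Agent.PT.Glob.Rec.H79RecQForFinal
import Fermat.Agent.PT.Glob.H24InvW
import Fermat.Agent.PT.Glob.H24InvWLoc
import Fermat.Agent.PT.Glob.H98BrAlg
import Fermat.Agent.PT.Glob.H12ShaDict
import Fermat.Agent.PT.Glob.Sha.H11ShaWire
import Fermat.Agent.PT.Glob.H82HasseMain

/-!
# S56, block TATE-EC, leaf REG (helper43): `Φ_S(Ind_K^ℚ 𝔽_p) = 0`

`h43p_phiReg : H47PhiReg` (frozen interface of `S56G/TateIface.lean`), unconditional.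

For `U₀ = G_K` a level of `levQ S` on which the mod `p` cyclotomic character is trivial:

* `h43p_two_chi2U` : `2 χ₂(G_{K,S}, 𝔽_p) = - [G_ℚ : U₀]` — the landed base case of S55
  ((N1), (N2), (N3), the tower: `x_U = 0`, `PT/Glob/BrCount.lean`) with all leaves discharged;
* `h43p_shapiro` : Shapiro for the whole group, `Hⁱ(U, k) ≃ Hⁱ(G, Fun(G/U, k))`, `i = 1, 2`
  (helper2's transported one-group Shapiro with `e = id`);
* `h43p_two_finrank_neg` : a fixed point free involution `ι` of a finite set `X` has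
  `2 dim Fun(X, k)^{ι = -1} = #X` (`2 ≠ 0` in `k`);
* `h43p_conj_free` : complex conjugation has no fixed point on `G_ℚ / U₀` (`χ(c) = -1 ≠ 1`).
-/

set_option autoImplicit false

open ExtCitation

noncomputable section

namespace Fermat.Agent.S56G

open Fermat.Agent.PT Fermat.Agent.PT.Glob Fermat.Agent.PT.Shap Fermat.Agent.PT.Bridge
open Fermat.Agent.PT.Tools

/-! ## A fixed point free involution -/

section Involution

variable {k : Type} [Field k] {X : Type}

/-- a sign function for a fixed point free involution of a finite set. -/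
theorem h43p_exists_sign [Finite X] (ι : X → X) (hι : ∀ x, ι (ι x) = x)
    (hfree : ∀ x, ι x ≠ x) :
    ∃ ε : X → k, (∀ x, ε x * ε x = 1) ∧ ∀ x, ε (ι x) = -ε x := by
  classical
  obtain ⟨n, ⟨e⟩⟩ := Finite.exists_equiv_fin X
  refine ⟨fun x => if e x < e (ι x) then 1 else -1, ?_, ?_⟩
  · intro x
    by_cases h1 : e x < e (ι x) <;> simp [h1]
  · intro x
    have hne : e (ι x) ≠ e x := fun h => hfree x (e.injective h)
    by_cases h1 : e x < e (ι x)
    · have h2 : ¬ e (ι x) < e (ι (ι x)) := by
        rw [hι]; exact not_lt.mpr h1.le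
      simp [h1, h2]
    · have h2 : e (ι x) < e (ι (ι x)) := by
        rw [hι]; exact lt_of_le_of_ne (not_lt.mp h1) hne
      simp [h1, h2]

/-- the `(-1)`-eigenspace of a fixed point free involution on `Fun(X, k)`: twice its dimension is
`#X`. -/
theorem h43p_two_finrank_neg [Finite X] (h2 : (2 : k) ≠ 0) (ι : X → X)
    (hι : ∀ x, ι (ι x) = x) (hfree : ∀ x, ι x ≠ x) :
    2 * Module.finrank k (LinearMap.ker (LinearMap.funLeft k k ι + 1)) = Nat.card X := by
  classical
  have iFt : Fintype X := Fintype.ofFinite X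
  set T : (X → k) →ₗ[k] (X → k) := LinearMap.funLeft k k ι with hT
  have hTapp : ∀ (f : X → k) (x : X), T f x = f (ι x) := fun f x => rfl
  set N : Submodule k (X → k) := LinearMap.ker (T + 1) with hN
  set P : Submodule k (X → k) := LinearMap.ker (T - 1) with hP
  have memN : ∀ f : X → k, f ∈ N ↔ ∀ x, f (ι x) = -f x := by
    intro f
    rw [hN, LinearMap.mem_ker]
    constructor
    · intro h x
      have := congrFun h x
      simp only [LinearMap.add_apply, Module.End.one_apply, Pi.add_apply, Pi.zero_apply,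
        hTapp] at this
      exact eq_neg_of_add_eq_zero_left this
    · intro h
      funext x
      simp only [LinearMap.add_apply, Module.End.one_apply, Pi.add_apply, Pi.zero_apply,
        hTapp, h x]
      ring
  have memP : ∀ f : X → k, f ∈ P ↔ ∀ x, f (ι x) = f x := by
    intro f
    rw [hP, LinearMap.mem_ker]
    constructor
    · intro h x
      have := congrFun h x
      simp only [LinearMap.sub_apply, Module.End.one_apply, Pi.sub_apply, Pi.zero_apply,
        hTapp] at this
      exact sub_eq_zero.mp this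
    · intro h
      funext x
      simp only [LinearMap.sub_apply, Module.End.one_apply, Pi.sub_apply, Pi.zero_apply,
        hTapp, h x]
      ring
  -- `N ⊓ P = ⊥`
  have hinf : N ⊓ P = ⊥ := by
    rw [eq_bot_iff]
    intro f hf
    rw [Submodule.mem_inf, memN, memP] at hf
    rw [Submodule.mem_bot]
    funext x
    have h1 := hf.1 x
    rw [hf.2 x] at h1
    have h3 : (2 : k) * f x = 0 := by linear_combination h1
    rcases mul_eq_zero.mp h3 with h | h
    · exact absurd h h2
    · exact h
  -- `N ⊔ P = ⊤`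
  have hsup : N ⊔ P = ⊤ := by
    rw [eq_top_iff]
    intro f _
    have e : f = (2 : k)⁻¹ • (fun x => f x - f (ι x)) + (2 : k)⁻¹ • (fun x => f x + f (ι x)) := by
      funext x
      simp only [Pi.add_apply, Pi.smul_apply, smul_eq_mul]
      field_simp
      ring
    rw [e]
    refine Submodule.add_mem_sup (Submodule.smul_mem _ _ ?_) (Submodule.smul_mem _ _ ?_)
    · rw [memN]
      intro x
      rw [hι]
      ring
    · rw [memP]
      intro x
      rw [hι]
      ring
  -- dimensions
  have hdim : Module.finrank k N + Module.finrank k P = Nat.card X := by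
    have h := Submodule.finrank_sup_add_finrank_inf_eq N P
    rw [hinf, hsup, finrank_bot, add_zero, finrank_top, Module.finrank_fintype_fun_eq_card] at h
    rw [← h, Nat.card_eq_fintype_card]
  -- the twist by a sign function
  obtain ⟨ε, hε1, hε2⟩ := h43p_exists_sign (k := k) ι hι hfree
  let M : (X → k) →ₗ[k] (X → k) :=
    { toFun := fun f x => ε x * f x
      map_add' := fun f g => by funext x; simp [mul_add]
      map_smul' := fun c f => by funext x; simp [mul_left_comm] }
  have hMapp : ∀ (f : X → k) (x : X), M f x = ε x * f x := fun f x => rfl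
  have hMinj : Function.Injective M := by
    intro f g h
    funext x
    have h1 := congrFun h x
    rw [hMapp, hMapp] at h1
    have h3 : ε x * (ε x * f x) = ε x * (ε x * g x) := by rw [h1]
    rwa [← mul_assoc, ← mul_assoc, hε1, one_mul, one_mul] at h3
  have hNP : ∀ f ∈ N, M f ∈ P := by
    intro f hf
    rw [memN] at hf
    rw [memP]
    intro x
    rw [hMapp, hMapp, hε2, hf]
    ring
  have hPN : ∀ f ∈ P, M f ∈ N := by
    intro f hf
    rw [memP] at hf
    rw [memN]
    intro x
    rw [hMapp, hMapp, hε2, hf]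
    ring
  have hle1 : Module.finrank k N ≤ Module.finrank k P :=
    LinearMap.finrank_le_finrank_of_injective (f := M.restrict hNP) (by
      intro a b h
      apply Subtype.ext
      apply hMinj
      exact congrArg Subtype.val h)
  have hle2 : Module.finrank k P ≤ Module.finrank k N :=
    LinearMap.finrank_le_finrank_of_injective (f := M.restrict hPN) (by
      intro a b h
      apply Subtype.ext
      apply hMinj
      exact congrArg Subtype.val h)
  have heq : Module.finrank k N = Module.finrank k P := le_antisymm hle1 hle2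
  omega

end Involution

/-! ## Shapiro for the whole group -/

section Shapiro

variable {k : Type} [Field k] {G : Type} [Group G]

theorem h43p_isCont_id (L : Lev G) : IsCont L L (MonoidHom.id G) :=
  fun N hN => ⟨N, hN, fun _ hx => hx⟩

/-- **Shapiro for the whole group**: `Hⁱ(U, k) ≃ Hⁱ(G, Fun(G/U, k))` for `i = 1, 2`. -/
theorem h43p_shapiro (L : Lev G) (hL : L.Good) (U : Subgroup G) (hU : L.IsOpen U) :
    Nonempty (HH1 (chi2Lev L U) (chi2Triv k U) ≃ₗ[k] HH1 L (permRep k U)) ∧
    Nonempty (HH2 (chi2Lev L U) (chi2Triv k U) ≃ₗ[k] HH2 L (permRep k U)) := by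
  obtain ⟨s⟩ := h56s_Sec.nonempty G U
  have hσ : resRep (chi2Triv k U) (MonoidHom.id ↥U)
      = resRep (Representation.trivial k G k) U.subtype := rfl
  rw [h56s_permRep_eq]
  exact ⟨h2c_equivHH1 s (Representation.trivial k G k) hL hU (chi2Triv k U)
      (MonoidHom.id ↥U) (MonoidHom.id ↥U) (fun _ => rfl) (fun _ => rfl)
      (h43p_isCont_id _) (h43p_isCont_id _) hσ,
    h2c_equivHH2 s (Representation.trivial k G k) hL hU (chi2Triv k U)
      (MonoidHom.id ↥U) (MonoidHom.id ↥U) (fun _ => rfl) (fun _ => rfl)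
      (h43p_isCont_id _) (h43p_isCont_id _) hσ⟩

/-- `χ₂(G, Fun(G/U, k)) = χ₂(U, k)`, with finiteness. -/
theorem h43p_chi2_permRep (L : Lev G) (hL : L.Good) (U : Subgroup G) (hU : L.IsOpen U)
    (hfin : FinH12 (chi2Lev L U) (chi2Triv k U)) :
    FinH12 L (permRep k U) ∧ chi2 L (permRep k U) = chi2U k L U := by
  obtain ⟨⟨E1⟩, ⟨E2⟩⟩ := h43p_shapiro (k := k) L hL U hU
  have i1 := hfin.1
  have i2 := hfin.2
  refine ⟨⟨Module.Finite.equiv E1, Module.Finite.equiv E2⟩, ?_⟩
  unfold chi2 chi2U
  rw [h2c_invariants_finrank, ← E1.finrank_eq, ← E2.finrank_eq]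
  rfl

end Shapiro

/-! ## The base case of S55, unconditional -/

/-- (N3), with all leaves discharged. -/
theorem h43p_brN3 : BrN3 :=
  h64n_brN3_of h98b_brAlgA h66b_brDUGood h97s_shapTrOK dqGood
    (h12s_brCountH_of (h11s_gShaBound_of_hasse h82m_gHasse)) h23_placesCard
    (fun p _ hp => ⟨Loc.invFam p, h47_trEx _ (Loc.h48f_locInvOK p) (h79r_recQFor p hp),
      h81b_locInjFor h24w_kInvW p (Loc.invFam p) (h24w_locInjW (p := p))⟩)

/-- **the base case**: `2 χ₂(G_{L,S}, 𝔽_p) = - [G_ℚ : U]` for an admissible `U`. -/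
theorem h43p_two_chi2U (p : ℕ) [Fact p.Prime] (S : Finset Nat.Primes) (U : Subgroup GQ)
    (hA : Adm p S U) :
    FinH12 (chi2Lev (levQ S) U) (chi2Triv (ZMod p) U) ∧
      2 * chi2U (ZMod p) (levQ S) U = -(U.index : ℤ) := by
  obtain ⟨c, hF⟩ := h14c_facts dqGood h51n_brNF h47_kN1 h47_kN2 h43p_brN3 p S U hA
  have hx := h14c_x_zero dqGood h47_chi2Ineq h51n_brNF h51n_brDeg h47_kN1 h47_kN2 h43p_brN3
    h93_tower hA hF
  have h2 := h14c_two_chi2 hF
  rw [hx, h51n_finrank_fieldOf_of_isOpen S U hA.isOpen] at h2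
  refine ⟨hF.fin12, ?_⟩
  rw [h2]
  ring

/-! ## Complex conjugation -/

/-- complex conjugation inverts the roots of unity. -/
theorem h43p_conj_root {m : ℕ} (hm : m ≠ 0) {ζ : AlgebraicClosure ℚ} (hζ : ζ ^ m = 1) :
    complexConjugation ζ = ζ ^ (m - 1) := by
  apply complexEmbedding.toRingHom.injective
  change complexEmbedding (complexConjugation ζ) = complexEmbedding (ζ ^ (m - 1))
  rw [complexEmbedding_complexConjugation, map_pow]
  have hz : (complexEmbedding ζ) ^ m = 1 := by rw [← map_pow, hζ, map_one]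
  have hnorm : ‖complexEmbedding ζ‖ = 1 := Complex.norm_eq_one_of_pow_eq_one hz hm
  rw [← Complex.inv_eq_conj hnorm]
  symm
  apply eq_inv_of_mul_eq_one_left
  rw [← pow_succ, Nat.sub_add_cancel (Nat.pos_of_ne_zero hm), hz]

/-- the mod `p` cyclotomic character of complex conjugation is not `1` (`p` odd). -/
theorem h43p_cycloChar_conj_ne_one (p : ℕ) [Fact p.Prime] (hp2 : p ≠ 2) :
    cycloChar p complexConjugation ≠ 1 := by
  have hp : p.Prime := Fact.out
  have : NeZero p := ⟨hp.ne_zero⟩
  obtain ⟨ζ, hζ⟩ := HasEnoughRootsOfUnity.exists_primitiveRoot (AlgebraicClosure ℚ) p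
  intro h
  have h1 := (h23b_cycloChar_eq_one_iff p hζ complexConjugation).mp h
  rw [h43p_conj_root hp.ne_zero hζ.pow_eq_one] at h1
  -- `ζ ^ (p - 1) = ζ`, so `ζ ^ (p - 2) = 1`
  have hζ0 : ζ ≠ 0 := hζ.ne_zero hp.ne_zero
  have h3 : p - 1 = (p - 2) + 1 := by have := hp.two_le; omega
  have h2 : ζ ^ (p - 2) = 1 := by
    rw [h3, pow_succ] at h1
    exact mul_right_cancel₀ hζ0 (by rw [h1, one_mul])
  have h4 := hζ.dvd_of_pow_eq_one _ h2
  have h5 : 0 < p - 2 := by
    have := hp.two_le
    omega
  have := Nat.le_of_dvd h5 h4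
  omega

/-- complex conjugation has no fixed point on `G_ℚ / U₀` when the cyclotomic character is trivial
on `U₀`. -/
theorem h43p_conj_free (p : ℕ) [Fact p.Prime] (hp2 : p ≠ 2) (U₀ : Subgroup GQ)
    (hchi : ∀ u ∈ U₀, cycloChar p u = 1) (x : GQ ⧸ U₀) :
    (complexConjugation : GQ)⁻¹ • x ≠ x := by
  induction x using QuotientGroup.induction_on with
  | H g =>
    intro h
    rw [MulAction.Quotient.smul_mk, smul_eq_mul] at h
    have h1 := QuotientGroup.eq.mp h
    have h2 := hchi _ h1
    rw [map_mul, map_inv, map_mul, map_inv] at h2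
    apply h43p_cycloChar_conj_ne_one p hp2
    have h3 : cycloChar p complexConjugation = 1 := by
      have h4 : (cycloChar p g)⁻¹ * (cycloChar p complexConjugation)⁻¹⁻¹ * cycloChar p g
          = cycloChar p complexConjugation := by
        rw [inv_inv, mul_comm ((cycloChar p g)⁻¹), mul_assoc, inv_mul_cancel, mul_one]
      rw [← h4]
      have h5 : ((cycloChar p complexConjugation)⁻¹ * cycloChar p g)⁻¹ * cycloChar p g = 1 := h2
      rw [mul_inv_rev] at h5
      exact h5
    exact h3

/-! ## The leaf -/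

/-- **REG** (frozen interface `H47PhiReg`): `Φ_S(Ind_K^ℚ 𝔽_p) = 0`. -/
theorem h43p_phiReg : H47PhiReg := by
  intro p _ hp2 S hpS U₀ hU₀ hchi
  have hp : p.Prime := Fact.out
  have hopen : (levQ S).IsOpen U₀ := ⟨U₀, hU₀, le_rfl⟩
  have hA : Adm p S U₀ := ⟨hp2, hpS, hopen, hchi⟩
  have hgood : (levQ S).Good := (dqGood p S hpS).1
  obtain ⟨hfin, h2chi⟩ := h43p_two_chi2U p S U₀ hA
  obtain ⟨hfinP, hchiP⟩ := h43p_chi2_permRep (k := ZMod p) (levQ S) hgood U₀ hopen hfin
  refine ⟨hfinP, ?_⟩
  have iFI : U₀.FiniteIndex := h56s_finiteIndex_of_isOpen hgood hopen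
  have iFin : Finite (GQ ⧸ U₀) := Subgroup.finite_quotient_of_finiteIndex
  have h2k : (2 : ZMod p) ≠ 0 := by
    intro h
    have h1 : ((2 : ℕ) : ZMod p) = 0 := by exact_mod_cast h
    rw [ZMod.natCast_eq_zero_iff] at h1
    have := (Nat.prime_dvd_prime_iff_eq hp Nat.prime_two).mp h1
    exact hp2 this
  have hneg := h43p_two_finrank_neg (k := ZMod p) (X := GQ ⧸ U₀) h2k
    (fun x => (complexConjugation : GQ)⁻¹ • x)
    (fun x => by
      rw [← mul_smul, complexConjugation_inv, complexConjugation_mul_self, one_smul])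
    (h43p_conj_free p hp2 U₀ hchi)
  have hcard : Nat.card (GQ ⧸ U₀) = U₀.index := (Subgroup.index_eq_card U₀).symm
  have hcN : Module.finrank (ZMod p) (h47g_cNeg (permRep (ZMod p) U₀))
      = Module.finrank (ZMod p) (LinearMap.ker (LinearMap.funLeft (ZMod p) (ZMod p)
          (fun x : GQ ⧸ U₀ => (complexConjugation : GQ)⁻¹ • x) + 1)) := rfl
  unfold h47g_Phi
  rw [hchiP, hcN]
  have h5 : (2 : ℤ) * (Module.finrank (ZMod p) (LinearMap.ker (LinearMap.funLeft (ZMod p) (ZMod p)
      (fun x : GQ ⧸ U₀ => (complexConjugation : GQ)⁻¹ • x) + 1)) : ℤ) = (U₀.index : ℤ) := by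
    rw [← hcard]
    exact_mod_cast hneg
  linarith

end Fermat.Agent.S56G
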