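import Fermat.Agent.S56G.EqIface
import Fermat.Agent.PT.Bridge.DQGood

/-!
# S56, block EQ, row EQ-SHAP (helper57): `H47ShapUB`

`h¹(G_S, (Ind_C^G τ)^D) ≤ dim Hom_C(Y, Z¹(U₀, 𝔽_p))` for `C ≤ G = G_ℚ / U₀` of order prime to `p`.

* `h57s_cob_of_avg` (pure algebra, Higman's criterion): a `1`-cocycle `f` of `Γ` in `M`, trivial
  on a normal subgroup `U` of finite index acting trivially, is a coboundary as soon as there is
  an endomorphism `e` of `M` with `∑_{x ∈ Γ/U} x e x⁻¹ = n`, `n` invertible.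
* `h57s_delta` : `y ↦ δ_y`, the function of `Ind_C^G τ` supported on `C` with `δ_y(1) = y`.
* `h57s_Phi` : `f ↦ (y ↦ (u ↦ f(u)(δ_y)))`, `Z¹(G_S, W^D) → Hom_C(Y, 𝓗)`; its kernel consists
  of coboundaries.
* `h57s_shapUB : H47ShapUB`.
-/

set_option autoImplicit false

open ExtCitation

noncomputable section

namespace Fermat.Agent.S56G

open Fermat.Agent.PT

/-! ## Higman's criterion -/

section Higman

variable {k : Type} [Field k] {Γ : Type} [Group Γ]
variable {M : Type} [AddCommGroup M] [Module k M]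

theorem h57s_cocycle (σ : Representation k Γ M) (f : Γ → M) (hf : d1 σ f = 0) (g h : Γ) :
    f (g * h) = σ g (f h) + f g := by
  have h1 := congrFun hf (g, h)
  simp only [d1_apply, Pi.zero_apply] at h1
  have h2 : σ g (f h) + f g - f (g * h) = 0 := by
    rw [← h1]
    abel
  exact (sub_eq_zero.mp h2).symm

theorem h57s_cocycle_one (σ : Representation k Γ M) (f : Γ → M) (hf : d1 σ f = 0) :
    f 1 = 0 := by
  have h := h57s_cocycle σ f hf 1 1
  rw [mul_one, map_one, Module.End.one_apply] at h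
  have h2 : f 1 + 0 = f 1 + f 1 := by rw [add_zero]; exact h
  exact (add_left_cancel h2).symm

theorem h57s_cocycle_inv (σ : Representation k Γ M) (f : Γ → M) (hf : d1 σ f = 0) (h : Γ) :
    σ h (f h⁻¹) = -f h := by
  have h1 := h57s_cocycle σ f hf h h⁻¹
  rw [mul_inv_cancel, h57s_cocycle_one σ f hf] at h1
  exact eq_neg_of_add_eq_zero_left h1.symm

/-- **Higman's criterion.** -/
theorem h57s_cob_of_avg (σ : Representation k Γ M) (U : Subgroup Γ) [U.Normal]
    [Fintype (Γ ⧸ U)]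
    (hσ : ∀ u ∈ U, ∀ m, σ u m = m)
    (f : Γ → M) (hf : d1 σ f = 0) (hfU : ∀ u ∈ U, f u = 0)
    (e : M →ₗ[k] M) (n : ℕ) (hn : (n : k) ≠ 0)
    (he : ∀ m, ∑ x : Γ ⧸ U, σ x.out (e (σ x.out⁻¹ m)) = (n : k) • m) :
    f ∈ B1 σ := by
  have hc := h57s_cocycle σ f hf
  have hinv := h57s_cocycle_inv σ f hf
  have hs : ∀ g, ∀ u ∈ U, σ (g * u) (e (f (g * u)⁻¹)) = σ g (e (f g⁻¹)) := by
    intro g u hu
    rw [mul_inv_rev, hc u⁻¹ g⁻¹, hfU _ (inv_mem hu), add_zero, hσ _ (inv_mem hu), map_mul,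
      Module.End.mul_apply, hσ u hu]
  have hout : ∀ g : Γ, σ ((QuotientGroup.mk g : Γ ⧸ U).out) (e (f ((QuotientGroup.mk g :
      Γ ⧸ U).out)⁻¹)) = σ g (e (f g⁻¹)) := by
    intro g
    obtain ⟨u, hu⟩ := QuotientGroup.mk_out_eq_mul U g
    rw [hu]
    exact hs g u u.2
  set m₁ : M := ∑ x : Γ ⧸ U, σ x.out (e (f x.out⁻¹)) with hm₁
  have key : ∀ h : Γ, σ h m₁ = m₁ + (n : k) • f h := by
    intro h
    have h1 : ∀ x : Γ ⧸ U, σ h (σ x.out (e (f x.out⁻¹))) =
        σ ((QuotientGroup.mk h * x : Γ ⧸ U).out) (e (f ((QuotientGroup.mk h * x : Γ ⧸ U).out)⁻¹))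
          - σ h (σ x.out (e (σ x.out⁻¹ (f h⁻¹)))) := by
      intro x
      have h2 : (QuotientGroup.mk h * x : Γ ⧸ U) = QuotientGroup.mk (h * x.out) := by
        rw [QuotientGroup.mk_mul, QuotientGroup.out_eq']
      rw [h2, hout (h * x.out), mul_inv_rev, hc x.out⁻¹ h⁻¹, map_add, map_add, map_mul]
      simp only [Module.End.mul_apply]
      abel
    rw [hm₁, map_sum, Finset.sum_congr rfl (fun x _ => h1 x), Finset.sum_sub_distrib,
      ← map_sum, he, map_smul, hinv h, smul_neg, sub_neg_eq_add]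
    congr 1
    exact Fintype.sum_equiv (Equiv.mulLeft (QuotientGroup.mk h : Γ ⧸ U)) _ _ (fun x => rfl)
  rw [mem_B1]
  refine ⟨(n : k)⁻¹ • m₁, ?_⟩
  funext h
  rw [d0_apply, map_smul, key h, smul_add, add_sub_cancel_left, smul_smul, inv_mul_cancel₀ hn,
    one_smul]

/-- conjugation of a cocycle on a subgroup acting trivially. -/
theorem h57s_cocycle_conj (σ : Representation k Γ M) (f : Γ → M) (hf : d1 σ f = 0)
    (U : Subgroup Γ) (hσ : ∀ u ∈ U, ∀ m, σ u m = m) (g u : Γ) (hu : u ∈ U) :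
    f (g⁻¹ * u * g) = σ g⁻¹ (f u) := by
  have hc := h57s_cocycle σ f hf
  have hinv := h57s_cocycle_inv σ f hf g⁻¹
  rw [inv_inv] at hinv
  rw [hc (g⁻¹ * u) g, hc g⁻¹ u, map_mul, Module.End.mul_apply, hσ u hu, hinv]
  abel

theorem h57s_dualTw_eval (χ : Γ →* kˣ) (ρ : Representation k Γ M) (g : Γ)
    (m : Module.Dual k M) (w : M) : (dualTw χ ρ g m) w = (χ g : k) * m (ρ g⁻¹ w) := by
  rw [dualTw_apply, LinearMap.smul_apply, LinearMap.comp_apply, smul_eq_mul]

theorem h57s_chi_mul_inv (χ : Γ →* kˣ) (g : Γ) : (χ g : k) * (χ g⁻¹ : k) = 1 := by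
  rw [← Units.val_mul, ← map_mul, mul_inv_cancel, map_one, Units.val_one]

end Higman

/-! ## The induced module: the function `δ_y` and the partition of unity -/

section Delta

variable {k : Type} [Field k] {G : Type} [Group G]
variable {Y : Type} [AddCommGroup Y] [Module k Y]
variable (C : Subgroup G) (τ : Representation k ↥C Y)

open Classical in
/-- `δ_y`: the function of `Ind_C^G τ` supported on `C` with `δ_y(1) = y`. -/
def h57s_delta : Y →ₗ[k] ↥(h47g_indSpace C τ) where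
  toFun y := ⟨fun x => if h : x ∈ C then τ (⟨x, h⟩ : ↥C)⁻¹ y else 0, by
    intro g c
    by_cases hg : g ∈ C
    · have hgc : g * (c : G) ∈ C := C.mul_mem hg c.2
      simp only [dif_pos hg, dif_pos hgc]
      rw [← Module.End.mul_apply, ← map_mul]
      congr 2
      apply Subtype.ext
      simp
    · have hgc : g * (c : G) ∉ C := fun h => hg ((C.mul_mem_cancel_right c.2).mp h)
      simp only [dif_neg hg, dif_neg hgc, map_zero]⟩
  map_add' y y' := by
    apply Subtype.ext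
    funext x
    by_cases hx : x ∈ C
    · simp [hx]
    · simp [hx]
  map_smul' a y := by
    apply Subtype.ext
    funext x
    by_cases hx : x ∈ C
    · simp [hx]
    · simp [hx]

open Classical in
theorem h57s_delta_apply (y : Y) (x : G) :
    ((h57s_delta C τ y : ↥(h47g_indSpace C τ)) : G → Y) x =
      if h : x ∈ C then τ (⟨x, h⟩ : ↥C)⁻¹ y else 0 := rfl

/-- evaluation at `1`. -/
def h57s_ev : ↥(h47g_indSpace C τ) →ₗ[k] Y where
  toFun φ := (φ : G → Y) 1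
  map_add' _ _ := rfl
  map_smul' _ _ := rfl

@[simp] theorem h57s_ev_apply (φ : ↥(h47g_indSpace C τ)) :
    h57s_ev C τ φ = (φ : G → Y) 1 := rfl

/-- `c · δ_y = δ_{τ(c) y}` for `c ∈ C`. -/
theorem h57s_ind_delta (c : G) (hc : c ∈ C) (y : Y) :
    h47g_ind C τ c (h57s_delta C τ y) = h57s_delta C τ (τ ⟨c, hc⟩ y) := by
  classical
  apply Subtype.ext
  funext x
  rw [h47g_ind_apply, h57s_delta_apply, h57s_delta_apply]
  by_cases hx : x ∈ C
  · have hcx : c⁻¹ * x ∈ C := C.mul_mem (C.inv_mem hc) hx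
    rw [dif_pos hx, dif_pos hcx, ← Module.End.mul_apply, ← map_mul]
    congr 2
    apply Subtype.ext
    simp
  · have hcx : c⁻¹ * x ∉ C := fun h => hx ((C.mul_mem_cancel_left (C.inv_mem hc)).mp h)
    rw [dif_neg hx, dif_neg hcx]

open Classical in
/-- `g r g⁻¹` is the restriction to the coset `g C`. -/
theorem h57s_conj_apply (g : G) (φ : ↥(h47g_indSpace C τ)) (z : G) :
    ((h47g_ind C τ g (h57s_delta C τ (h57s_ev C τ (h47g_ind C τ g⁻¹ φ))) :
      ↥(h47g_indSpace C τ)) : G → Y) z = if g⁻¹ * z ∈ C then (φ : G → Y) z else 0 := by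
  rw [h47g_ind_apply, h57s_delta_apply, h57s_ev_apply, h47g_ind_apply, inv_inv, mul_one]
  by_cases h : g⁻¹ * z ∈ C
  · rw [dif_pos h, if_pos h]
    have h1 := φ.2 g ⟨g⁻¹ * z, h⟩
    rw [← h1]
    show (φ : G → Y) (g * (g⁻¹ * z)) = (φ : G → Y) z
    rw [mul_inv_cancel_left]
  · rw [dif_neg h, if_neg h]

/-- the partition of unity: `∑_{g ∈ G} g r g⁻¹ = #C`. -/
theorem h57s_sum_conj [Fintype G] (φ : ↥(h47g_indSpace C τ)) :
    ∑ g : G, h47g_ind C τ g (h57s_delta C τ (h57s_ev C τ (h47g_ind C τ g⁻¹ φ))) =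
      (Nat.card ↥C : k) • φ := by
  classical
  apply Subtype.ext
  funext z
  rw [Submodule.coe_sum, Finset.sum_apply, Submodule.coe_smul, Pi.smul_apply]
  simp only [h57s_conj_apply]
  have h1 : ∑ g : G, (if g⁻¹ * z ∈ C then (φ : G → Y) z else 0) =
      ∑ g : G, (if g ∈ C then (φ : G → Y) z else 0) :=
    Fintype.sum_equiv ((Equiv.inv G).trans (Equiv.mulRight z)) _ _ (fun g => rfl)
  rw [h1, Finset.sum_ite, Finset.sum_const_zero, add_zero, Finset.sum_const,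
    Nat.card_eq_fintype_card, Fintype.card_subtype, Nat.cast_smul_eq_nsmul]

end Delta

/-! ## The map `Φ` -/

section Main

variable (p : ℕ) [Fact p.Prime] (S : Finset Nat.Primes)
variable (U₀ : Subgroup GQ) [hU₀ : U₀.Normal]
variable {Y : Type} [AddCommGroup Y] [Module (ZMod p) Y]
variable (C : Subgroup (GQ ⧸ U₀)) (τ : Representation (ZMod p) ↥C Y)

theorem h57s_W_apply (g : GQ) (φ : ↥(h47g_indSpace C τ)) :
    h47g_W p U₀ C τ g φ = h47g_ind C τ (QuotientGroup.mk' U₀ g) φ := rfl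

theorem h57s_W_of_mem (u : GQ) (hu : u ∈ U₀) (φ : ↥(h47g_indSpace C τ)) :
    h47g_W p U₀ C τ u φ = φ := by
  have h1 : QuotientGroup.mk' U₀ u = 1 := (QuotientGroup.eq_one_iff u).mpr hu
  rw [h57s_W_apply, h1, map_one, Module.End.one_apply]

theorem h57s_WD_of_mem (hχ : ∀ u ∈ U₀, cycloChar p u = 1) (u : GQ) (hu : u ∈ U₀)
    (m : Module.Dual (ZMod p) ↥(h47g_indSpace C τ)) :
    dualTw (cycloChar p) (h47g_W p U₀ C τ) u m = m := by
  apply LinearMap.ext
  intro φ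
  rw [h57s_dualTw_eval, hχ u hu, Units.val_one, one_mul,
    h57s_W_of_mem p U₀ C τ u⁻¹ (U₀.inv_mem hu)]

/-- `Φ_f(y)(u) = f(u)(δ_y)`. -/
def h57s_Phi : (GQ → Module.Dual (ZMod p) ↥(h47g_indSpace C τ)) →ₗ[ZMod p]
    (Y →ₗ[ZMod p] (↥U₀ → ZMod p)) :=
  LinearMap.mk₂ (ZMod p) (fun f y => fun u : ↥U₀ => f (u : GQ) (h57s_delta C τ y))
    (fun f f' y => by funext u; simp)
    (fun a f y => by funext u; simp)
    (fun f y y' => by funext u; simp)
    (fun a f y => by funext u; simp)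

theorem h57s_Phi_apply (f : GQ → Module.Dual (ZMod p) ↥(h47g_indSpace C τ)) (y : Y)
    (u : ↥U₀) : h57s_Phi p U₀ C τ f y u = f (u : GQ) (h57s_delta C τ y) := rfl

/-- `f(u)(g w) = χ(g) f(g⁻¹ u g)(w)` for `u ∈ U₀`. -/
theorem h57s_key (hχ : ∀ u ∈ U₀, cycloChar p u = 1)
    (f : GQ → Module.Dual (ZMod p) ↥(h47g_indSpace C τ))
    (hf : d1 (dualTw (cycloChar p) (h47g_W p U₀ C τ)) f = 0) (g u : GQ) (hu : u ∈ U₀)
    (w : ↥(h47g_indSpace C τ)) :
    f u (h47g_W p U₀ C τ g w) =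
      ((cycloChar p g : (ZMod p)ˣ) : ZMod p) * f (g⁻¹ * u * g) w := by
  rw [h57s_cocycle_conj _ f hf U₀ (h57s_WD_of_mem p U₀ C τ hχ) g u hu, h57s_dualTw_eval, inv_inv,
    ← mul_assoc, h57s_chi_mul_inv, one_mul]

theorem h57s_Phi_mem (hχ : ∀ u ∈ U₀, cycloChar p u = 1)
    (f : GQ → Module.Dual (ZMod p) ↥(h47g_indSpace C τ))
    (hf : f ∈ Z1 (levQ S) (dualTw (cycloChar p) (h47g_W p U₀ C τ))) :
    h57s_Phi p U₀ C τ f ∈ h47g_HomC p S U₀ C τ := by
  obtain ⟨hd, N, hN, hNf⟩ := (mem_Z1 _ _ f).mp hf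
  have hc := h57s_cocycle _ f hd
  refine ⟨fun y => ?_, fun g hg y u => ?_⟩
  · rw [mem_Z1]
    refine ⟨?_, ⟨N.comap U₀.subtype, ⟨N, hN, rfl⟩, fun g s hs => ?_⟩⟩
    · funext ⟨u, v⟩
      rw [d1_apply, Pi.zero_apply, h57s_Phi_apply, h57s_Phi_apply, h57s_Phi_apply]
      have h1 : ((u * v : ↥U₀) : GQ) = (u : GQ) * (v : GQ) := rfl
      rw [h1, hc, h57s_WD_of_mem p U₀ C τ hχ _ u.2, LinearMap.add_apply]
      simp
    · rw [h57s_Phi_apply, h57s_Phi_apply]
      have h1 : ((g * s : ↥U₀) : GQ) = (g : GQ) * (s : GQ) := rfl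
      have hs' : (s : GQ) ∈ N := hs
      rw [h1, hNf _ _ hs']
  · rw [h57s_Phi_apply, h57s_Phi_apply, ← h57s_ind_delta C τ _ hg y, ← h57s_W_apply,
      h57s_key p U₀ C τ hχ f hd g u u.2]
    rfl

theorem h57s_Phi_ker (hFI : U₀.FiniteIndex) (hC : ¬ p ∣ Nat.card ↥C)
    (hχ : ∀ u ∈ U₀, cycloChar p u = 1)
    (f : GQ → Module.Dual (ZMod p) ↥(h47g_indSpace C τ))
    (hf : f ∈ Z1 (levQ S) (dualTw (cycloChar p) (h47g_W p U₀ C τ)))
    (h0 : h57s_Phi p U₀ C τ f = 0) :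
    f ∈ B1 (dualTw (cycloChar p) (h47g_W p U₀ C τ)) := by
  classical
  have hd := ((mem_Z1 _ _ f).mp hf).1
  have : Finite (GQ ⧸ U₀) := inferInstance
  have hFin : Fintype (GQ ⧸ U₀) := Fintype.ofFinite _
  have hn : ((Nat.card ↥C : ℕ) : ZMod p) ≠ 0 := by
    rw [Ne, ZMod.natCast_eq_zero_iff]
    exact hC
  have hz : ∀ (u : GQ), u ∈ U₀ → ∀ y : Y, f u (h57s_delta C τ y) = 0 := by
    intro u hu y
    have := congrFun (LinearMap.congr_fun h0 y) ⟨u, hu⟩
    exact this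
  have hout : ∀ x : GQ ⧸ U₀, QuotientGroup.mk' U₀ x.out = x := fun x => QuotientGroup.out_eq' x
  -- `f` vanishes on `U₀`
  have hfU : ∀ u ∈ U₀, f u = 0 := by
    intro u hu
    apply LinearMap.ext
    intro φ
    have h1 : f u ((Nat.card ↥C : ZMod p) • φ) = 0 := by
      rw [← h57s_sum_conj C τ φ, map_sum]
      refine Finset.sum_eq_zero fun x _ => ?_
      have h2 : h47g_ind C τ x (h57s_delta C τ (h57s_ev C τ (h47g_ind C τ x⁻¹ φ))) =
          h47g_W p U₀ C τ x.out (h57s_delta C τ (h57s_ev C τ (h47g_ind C τ x⁻¹ φ))) := by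
        rw [h57s_W_apply, hout]
      rw [h2, h57s_key p U₀ C τ hχ f hd x.out u hu]
      have h3 : x.out⁻¹ * u * x.out ∈ U₀ := by
        have := hU₀.conj_mem u hu x.out⁻¹
        simpa using this
      rw [hz _ h3, mul_zero]
    rw [map_smul, smul_eq_mul] at h1
    rcases mul_eq_zero.mp h1 with h | h
    · exact absurd h hn
    · exact h
  refine h57s_cob_of_avg (dualTw (cycloChar p) (h47g_W p U₀ C τ)) U₀
    (h57s_WD_of_mem p U₀ C τ hχ) f hd hfU
    ((h57s_delta C τ ∘ₗ h57s_ev C τ).dualMap) (Nat.card ↥C) hn ?_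
  intro m
  apply LinearMap.ext
  intro φ
  rw [LinearMap.sum_apply, LinearMap.smul_apply, ← map_smul, ← h57s_sum_conj C τ φ, map_sum]
  refine Finset.sum_congr rfl fun x _ => ?_
  rw [h57s_dualTw_eval, LinearMap.dualMap_apply, h57s_dualTw_eval, inv_inv, ← mul_assoc,
    h57s_chi_mul_inv, one_mul, LinearMap.comp_apply, h57s_W_apply, h57s_W_apply, map_inv, hout]

end Main

/-- a quotient by a submodule containing the kernel of a map to a finite dimensional space. -/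
theorem h57s_finrank_le {k : Type} [Field k] {Z H : Type} [AddCommGroup Z] [Module k Z]
    [AddCommGroup H] [Module k H] [Module.Finite k H]
    (Ψ : Z →ₗ[k] H) (B : Submodule k Z) (h : LinearMap.ker Ψ ≤ B) :
    Module.finrank k (Z ⧸ B) ≤ Module.finrank k H := by
  have hι : Function.Injective ((LinearMap.ker Ψ).liftQ Ψ le_rfl) := by
    rw [← LinearMap.ker_eq_bot]
    exact Submodule.ker_liftQ_eq_bot _ _ _ le_rfl
  have hQ : Module.Finite k (Z ⧸ LinearMap.ker Ψ) := Module.Finite.of_injective _ hι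
  have h1 := LinearMap.finrank_le_finrank_of_injective hι
  have h' : LinearMap.ker Ψ ≤ B.comap LinearMap.id := h
  have hπ : Function.Surjective (Submodule.mapQ (LinearMap.ker Ψ) B LinearMap.id h') := by
    intro x
    obtain ⟨z, rfl⟩ := Submodule.Quotient.mk_surjective _ x
    exact ⟨Submodule.Quotient.mk z, rfl⟩
  have h2 := LinearMap.finrank_le_finrank_of_surjective hπ
  exact h2.trans h1

/-- **EQ-SHAP.** -/
theorem h57s_shapUB : H47ShapUB := by
  intro p _ _ S _ U₀ _ hU₀ hχ C hC Y _ _ _ τ hfin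
  have hFI : U₀.FiniteIndex := (Fermat.Agent.PT.Bridge.h23b_levQ_good S U₀ hU₀).2
  have hfin' : Module.Finite (ZMod p) ↥(h47g_HomC p S U₀ C τ) := hfin
  refine h57s_finrank_le
    (((h57s_Phi p U₀ C τ).comp
      (Z1 (levQ S) (dualTw (cycloChar p) (h47g_W p U₀ C τ))).subtype).codRestrict
        (h47g_HomC p S U₀ C τ) (fun f => h57s_Phi_mem p S U₀ C τ hχ f.1 f.2)) _ ?_
  intro f hf
  rw [LinearMap.mem_ker] at hf
  have h1 : h57s_Phi p U₀ C τ f.1 = 0 := congrArg Subtype.val hf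
  exact h57s_Phi_ker p S U₀ C τ hFI hC hχ f.1 f.2 h1

end Fermat.Agent.S56G
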