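import Fermat.Agent.S56G.EqIface
import Fermat.Agent.PT.Alg.H69Iso
import Fermat.Agent.PT.Bridge.DQGood

/-!
# S56 / TATE-EC, leaf EQ-TRANS (helper68): `H47EqDual → H47EqBase`

* A. `h68t_chi2_iso`, `h68t_phi_iso`: `χ₂` and `Φ_S` are invariant under equivariant isomorphisms.
* B. For a finite group `G`, a subgroup `C` of order invertible in `k`, a character `χ` of `G` and
  a finite dimensional representation `τ` of `C`: the pairing
  `⟨f', f⟩ = ∑_g χ(g) f'(g)(f(g))` is an equivariant isomorphism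
  `Ind_C^G τ ≅ (Ind_C^G τ^D)^D`, `τ^D` the twisted dual of `τ` by `χ|_C`
  (`h68t_pair_isHom`, `h68t_pair_bijective`).
* C. `h68t_eqBaseOfDual : H47EqBaseOfDual`.
-/

set_option autoImplicit false

open ExtCitation

noncomputable section

namespace Fermat.Agent.S56G

open Fermat.Agent.PT Fermat.Agent.PT.Tools

/-! ## A. Invariance under isomorphisms -/

section Generic

variable {k : Type} [Field k] {X X' : Type} [AddCommGroup X] [Module k X] [AddCommGroup X']
  [Module k X']

theorem h68t_map_eq (E : X ≃ₗ[k] X') (Z : Submodule k X) (Z' : Submodule k X')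
    (hZ : ∀ x, x ∈ Z ↔ E x ∈ Z') : Z.map (E : X →ₗ[k] X') = Z' := by
  ext x'
  constructor
  · rintro ⟨x, hx, rfl⟩
    exact (hZ x).1 hx
  · intro hx'
    refine ⟨E.symm x', (hZ _).2 ?_, ?_⟩
    · rw [LinearEquiv.apply_symm_apply]; exact hx'
    · exact E.apply_symm_apply x'

theorem h68t_finrank_sub (E : X ≃ₗ[k] X') (Z : Submodule k X) (Z' : Submodule k X')
    (hZ : ∀ x, x ∈ Z ↔ E x ∈ Z') : Module.finrank k ↥Z = Module.finrank k ↥Z' :=
  (E.ofSubmodules Z Z' (h68t_map_eq E Z Z' hZ)).finrank_eq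

theorem h68t_finrank_subquot (E : X ≃ₗ[k] X') (Z B : Submodule k X) (Z' B' : Submodule k X')
    (hZ : ∀ x, x ∈ Z ↔ E x ∈ Z') (hB : ∀ x, x ∈ B ↔ E x ∈ B') :
    Module.finrank k (↥Z ⧸ B.comap Z.subtype) = Module.finrank k (↥Z' ⧸ B'.comap Z'.subtype) := by
  have hq : (B.comap Z.subtype).map
      ((E.ofSubmodules Z Z' (h68t_map_eq E Z Z' hZ) : ↥Z ≃ₗ[k] ↥Z') : ↥Z →ₗ[k] ↥Z') =
      B'.comap Z'.subtype := by
    refine h68t_map_eq _ _ _ fun x => ?_
    rw [Submodule.mem_comap, Submodule.mem_comap]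
    exact hB x.1
  exact (Submodule.Quotient.equiv _ _ _ hq).finrank_eq

end Generic

section Iso

variable {k : Type} [Field k] {G : Type} [Group G] (L : Lev G)
variable {V V' : Type} [AddCommGroup V] [Module k V] [AddCommGroup V'] [Module k V']
variable {ρ : Representation k G V} {ρ' : Representation k G V'}

theorem h68t_finrank_invariants (e : V ≃ₗ[k] V') (he : IsHom ρ ρ' e.toLinearMap) :
    Module.finrank k ρ.invariants = Module.finrank k ρ'.invariants := by
  refine h68t_finrank_sub e _ _ fun x => ⟨fun hx => he.map_invariants hx, fun hx => ?_⟩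
  have h := (h69i_isHom_symm e he).map_invariants hx
  simpa using h

theorem h68t_finrank_HH1 (e : V ≃ₗ[k] V') (he : IsHom ρ ρ' e.toLinearMap) :
    Module.finrank k (HH1 L ρ) = Module.finrank k (HH1 L ρ') := by
  have he' := h69i_isHom_symm e he
  refine h68t_finrank_subquot (LinearEquiv.piCongrRight fun _ : G => e) _ _ _ _
    (fun x => ⟨fun hx => push_mem_Z1 he hx, fun hx => ?_⟩)
    (fun x => ⟨fun hx => push_mem_B1 he hx, fun hx => ?_⟩)
  · have h := push_mem_Z1 (L := L) he' hx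
    have h2 : e.symm.toLinearMap.compLeft G ((LinearEquiv.piCongrRight fun _ : G => e) x) = x := by
      funext g
      simp [LinearMap.compLeft_apply]
    rwa [h2] at h
  · have h := push_mem_B1 he' hx
    have h2 : e.symm.toLinearMap.compLeft G ((LinearEquiv.piCongrRight fun _ : G => e) x) = x := by
      funext g
      simp [LinearMap.compLeft_apply]
    rwa [h2] at h

theorem h68t_finrank_HH2 (e : V ≃ₗ[k] V') (he : IsHom ρ ρ' e.toLinearMap) :
    Module.finrank k (HH2 L ρ) = Module.finrank k (HH2 L ρ') := by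
  have he' := h69i_isHom_symm e he
  refine h68t_finrank_subquot (LinearEquiv.piCongrRight fun _ : G × G => e) _ _ _ _
    (fun x => ⟨fun hx => push_mem_Z2 he hx, fun hx => ?_⟩)
    (fun x => ⟨fun hx => push_mem_B2 he hx, fun hx => ?_⟩)
  · have h := push_mem_Z2 (L := L) he' hx
    have h2 : e.symm.toLinearMap.compLeft (G × G)
        ((LinearEquiv.piCongrRight fun _ : G × G => e) x) = x := by
      funext g
      simp [LinearMap.compLeft_apply]
    rwa [h2] at h
  · have h := push_mem_B2 (L := L) he' hx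
    have h2 : e.symm.toLinearMap.compLeft (G × G)
        ((LinearEquiv.piCongrRight fun _ : G × G => e) x) = x := by
      funext g
      simp [LinearMap.compLeft_apply]
    rwa [h2] at h

theorem h68t_chi2_iso (e : V ≃ₗ[k] V') (he : IsHom ρ ρ' e.toLinearMap) :
    chi2 L ρ = chi2 L ρ' := by
  unfold chi2
  rw [h68t_finrank_invariants e he, h68t_finrank_HH1 L e he, h68t_finrank_HH2 L e he]

end Iso

section PhiIso

variable {p : ℕ} [Fact p.Prime]
variable {V V' : Type} [AddCommGroup V] [Module (ZMod p) V] [AddCommGroup V'] [Module (ZMod p) V']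
variable {ρ : Representation (ZMod p) GQ V} {ρ' : Representation (ZMod p) GQ V'}

theorem h68t_phi_iso (S : Finset Nat.Primes) (e : V ≃ₗ[ZMod p] V')
    (he : IsHom ρ ρ' e.toLinearMap) : h47g_Phi S ρ = h47g_Phi S ρ' := by
  unfold h47g_Phi
  rw [h68t_chi2_iso (levQ S) e he]
  congr 2
  refine h68t_finrank_sub e _ _ fun x => ?_
  simp only [h47g_cNeg, LinearMap.mem_ker, LinearMap.add_apply, Module.End.one_apply]
  have h1 : e (ρ complexConjugation x) = ρ' complexConjugation (e x) := he _ x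
  rw [← h1, ← map_add]
  exact (map_eq_zero_iff e e.injective).symm

end PhiIso

/-! ## B. The pairing between `Ind_C^G τ` and `Ind_C^G τ^D` -/

section Ind

open scoped Classical

variable {k : Type} [Field k] {G : Type} [Group G] [Fintype G] (C : Subgroup G) (χ : G →* kˣ)
variable {Y : Type} [AddCommGroup Y] [Module k Y] (τ : Representation k ↥C Y)

/-- The twisted dual of `τ` by `χ|_C`. -/
abbrev h68t_tauD : Representation k ↥C (Module.Dual k Y) := dualTw (χ.comp C.subtype) τ

omit [Fintype G] in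
theorem h68t_tauD_apply (c : ↥C) (l : Module.Dual k Y) (y : Y) :
    h68t_tauD C χ τ c l y = (χ (c : G) : k) * l (τ c⁻¹ y) := by
  simp [h68t_tauD, dualTw_apply]

/-- The pairing `⟨f', f⟩ = ∑_g χ(g) f'(g)(f(g))`. -/
def h68t_pair : ↥(h47g_indSpace C τ) →ₗ[k]
    Module.Dual k ↥(h47g_indSpace C (h68t_tauD C χ τ)) :=
  LinearMap.mk₂ k
    (fun (f : ↥(h47g_indSpace C τ)) (f' : ↥(h47g_indSpace C (h68t_tauD C χ τ))) =>
      ∑ g : G, (χ g : k) * (f' : G → Module.Dual k Y) g ((f : G → Y) g))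
    (fun f₁ f₂ f' => by
      simp only [Submodule.coe_add, Pi.add_apply, map_add, mul_add, Finset.sum_add_distrib])
    (fun a f f' => by
      simp only [Submodule.coe_smul, Pi.smul_apply, map_smul, smul_eq_mul, Finset.mul_sum]
      refine Finset.sum_congr rfl fun g _ => ?_
      ring)
    (fun f f₁ f₂ => by
      simp only [Submodule.coe_add, Pi.add_apply, LinearMap.add_apply, mul_add,
        Finset.sum_add_distrib])
    (fun a f f' => by
      simp only [Submodule.coe_smul, Pi.smul_apply, LinearMap.smul_apply, smul_eq_mul,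
        Finset.mul_sum]
      refine Finset.sum_congr rfl fun g _ => ?_
      ring)

theorem h68t_pair_apply (f : ↥(h47g_indSpace C τ))
    (f' : ↥(h47g_indSpace C (h68t_tauD C χ τ))) :
    h68t_pair C χ τ f f' =
      ∑ g : G, (χ g : k) * (f' : G → Module.Dual k Y) g ((f : G → Y) g) := rfl

/-- Equivariance of the pairing. -/
theorem h68t_pair_isHom :
    IsHom (h47g_ind C τ)
      (dualTw (V := ↥(h47g_indSpace C (h68t_tauD C χ τ))) χ (h47g_ind C (h68t_tauD C χ τ)))
      (h68t_pair C χ τ) := by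
  intro h f
  apply LinearMap.ext
  intro f'
  rw [dualTw_apply, LinearMap.smul_apply, LinearMap.comp_apply, h68t_pair_apply, h68t_pair_apply,
    smul_eq_mul, Finset.mul_sum]
  refine Fintype.sum_equiv (Equiv.mulLeft h⁻¹) _ _ fun g => ?_
  simp only [h47g_ind_apply, Equiv.coe_mulLeft, inv_inv]
  have h1 : (χ g : k) = (χ h : k) * (χ (h⁻¹ * g) : k) := by
    rw [← Units.val_mul, ← map_mul, mul_inv_cancel_left]
  rw [h1, mul_inv_cancel_left]
  ring

/-- The `δ`-function supported on the coset `g₀ C` with value `z` at `g₀`. -/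
def h68t_delta {Z : Type} [AddCommGroup Z] [Module k Z] (σ : Representation k ↥C Z) (g₀ : G)
    (z : Z) : ↥(h47g_indSpace C σ) :=
  ⟨fun g => if h : g₀⁻¹ * g ∈ C then σ (⟨g₀⁻¹ * g, h⟩ : ↥C)⁻¹ z else 0, by
    intro g c
    dsimp only
    by_cases h : g₀⁻¹ * g ∈ C
    · have h' : g₀⁻¹ * (g * (c : G)) ∈ C := by
        rw [← mul_assoc]; exact C.mul_mem h c.2
      rw [dif_pos h', dif_pos h]
      have h2 : (⟨g₀⁻¹ * (g * (c : G)), h'⟩ : ↥C)⁻¹ = c⁻¹ * (⟨g₀⁻¹ * g, h⟩ : ↥C)⁻¹ := by
        rw [← mul_inv_rev]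
        congr 1
        exact Subtype.ext (by simp [mul_assoc])
      rw [h2, map_mul, Module.End.mul_apply]
    · have h' : g₀⁻¹ * (g * (c : G)) ∉ C := by
        intro hc
        apply h
        have h3 := C.mul_mem hc (C.inv_mem c.2)
        simpa [mul_assoc] using h3
      rw [dif_neg h', dif_neg h, map_zero]⟩

omit [Fintype G] in
theorem h68t_delta_apply_of_mem {Z : Type} [AddCommGroup Z] [Module k Z]
    (σ : Representation k ↥C Z) (g₀ : G) (z : Z) {g : G} (h : g₀⁻¹ * g ∈ C) :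
    (h68t_delta C σ g₀ z : G → Z) g = σ (⟨g₀⁻¹ * g, h⟩ : ↥C)⁻¹ z := dif_pos h

omit [Fintype G] in
theorem h68t_delta_apply_of_not_mem {Z : Type} [AddCommGroup Z] [Module k Z]
    (σ : Representation k ↥C Z) (g₀ : G) (z : Z) {g : G} (h : g₀⁻¹ * g ∉ C) :
    (h68t_delta C σ g₀ z : G → Z) g = 0 := dif_neg h

omit [Fintype G] in
/-- Values of an element of the induced space on the coset `g₀ C`. -/
theorem h68t_ind_coset {Z : Type} [AddCommGroup Z] [Module k Z] (σ : Representation k ↥C Z)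
    (f : ↥(h47g_indSpace C σ)) (g₀ : G) {g : G} (h : g₀⁻¹ * g ∈ C) :
    (f : G → Z) g = σ (⟨g₀⁻¹ * g, h⟩ : ↥C)⁻¹ ((f : G → Z) g₀) := by
  have h1 := f.2 g₀ (⟨g₀⁻¹ * g, h⟩ : ↥C)
  simp only [mul_inv_cancel_left] at h1
  exact h1

/-- Summation of a function supported and constant on a coset. -/
theorem h68t_sum_coset (g₀ : G) (F : G → k) (a : k) (h0 : ∀ g, g₀⁻¹ * g ∉ C → F g = 0)
    (h1 : ∀ g, g₀⁻¹ * g ∈ C → F g = a) : ∑ g : G, F g = (Nat.card ↥C : k) * a := by
  have hF : ∀ g, F g = if g₀⁻¹ * g ∈ C then a else 0 := by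
    intro g
    by_cases h : g₀⁻¹ * g ∈ C
    · rw [if_pos h, h1 g h]
    · rw [if_neg h, h0 g h]
  rw [Fintype.sum_congr _ _ hF, ← Equiv.sum_comp (Equiv.mulLeft g₀)]
  simp only [Equiv.coe_mulLeft, inv_mul_cancel_left]
  rw [Finset.sum_ite, Finset.sum_const_zero, add_zero, Finset.sum_const, nsmul_eq_mul]
  congr 2
  rw [Nat.card_eq_fintype_card, Fintype.card_subtype]

variable {C χ τ}

theorem h68t_pair_delta_right (f : ↥(h47g_indSpace C τ)) (g₀ : G) (l : Module.Dual k Y) :
    h68t_pair C χ τ f (h68t_delta C (h68t_tauD C χ τ) g₀ l) =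
      (Nat.card ↥C : k) * ((χ g₀ : k) * l ((f : G → Y) g₀)) := by
  rw [h68t_pair_apply]
  refine h68t_sum_coset C g₀ _ _ (fun g h => ?_) (fun g h => ?_)
  · rw [h68t_delta_apply_of_not_mem _ _ _ _ h, LinearMap.zero_apply, mul_zero]
  · rw [h68t_delta_apply_of_mem _ _ _ _ h, h68t_ind_coset C τ f g₀ h, h68t_tauD_apply, inv_inv,
      ← Module.End.mul_apply, ← map_mul, mul_inv_cancel, map_one, Module.End.one_apply,
      ← mul_assoc, ← Units.val_mul, ← map_mul]
    congr 3
    simp

theorem h68t_pair_delta_left (f' : ↥(h47g_indSpace C (h68t_tauD C χ τ))) (g₀ : G) (y : Y) :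
    h68t_pair C χ τ (h68t_delta C τ g₀ y) f' =
      (Nat.card ↥C : k) * ((χ g₀ : k) * (f' : G → Module.Dual k Y) g₀ y) := by
  rw [h68t_pair_apply]
  refine h68t_sum_coset C g₀ _ _ (fun g h => ?_) (fun g h => ?_)
  · rw [h68t_delta_apply_of_not_mem _ _ _ _ h, map_zero, mul_zero]
  · rw [h68t_delta_apply_of_mem _ _ _ _ h, h68t_ind_coset C (h68t_tauD C χ τ) f' g₀ h,
      h68t_tauD_apply, inv_inv, ← Module.End.mul_apply, ← map_mul, mul_inv_cancel, map_one,
      Module.End.one_apply, ← mul_assoc, ← Units.val_mul, ← map_mul]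
    congr 3
    simp

theorem h68t_pair_injective (hC : (Nat.card ↥C : k) ≠ 0) :
    Function.Injective (h68t_pair C χ τ) := by
  rw [injective_iff_map_eq_zero]
  intro f hf
  apply Subtype.ext
  funext g₀
  show (f : G → Y) g₀ = 0
  rw [← Module.forall_dual_apply_eq_zero_iff k]
  intro l
  have h := h68t_pair_delta_right (χ := χ) f g₀ l
  rw [hf, LinearMap.zero_apply] at h
  have h2 := (mul_eq_zero.mp h.symm).resolve_left hC
  exact (mul_eq_zero.mp h2).resolve_left (Units.ne_zero _)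

theorem h68t_pair_flip_injective (hC : (Nat.card ↥C : k) ≠ 0) :
    Function.Injective (h68t_pair C χ τ).flip := by
  rw [injective_iff_map_eq_zero]
  intro f' hf'
  apply Subtype.ext
  funext g₀
  show (f' : G → Module.Dual k Y) g₀ = 0
  apply LinearMap.ext
  intro y
  have h := h68t_pair_delta_left (χ := χ) f' g₀ y
  have h0 : h68t_pair C χ τ (h68t_delta C τ g₀ y) f' =
      (h68t_pair C χ τ).flip f' (h68t_delta C τ g₀ y) := rfl
  rw [h0, hf', LinearMap.zero_apply] at h
  have h2 := (mul_eq_zero.mp h.symm).resolve_left hC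
  exact (mul_eq_zero.mp h2).resolve_left (Units.ne_zero _)

/-- The pairing is an isomorphism `Ind_C^G τ ≅ (Ind_C^G τ^D)^*`. -/
theorem h68t_pair_bijective [FiniteDimensional k Y] (hC : (Nat.card ↥C : k) ≠ 0) :
    Function.Bijective (h68t_pair C χ τ) := by
  have h1 := LinearMap.finrank_le_finrank_of_injective (h68t_pair_injective (χ := χ) (τ := τ) hC)
  have h2 := LinearMap.finrank_le_finrank_of_injective
    (h68t_pair_flip_injective (χ := χ) (τ := τ) hC)
  have d1 : Module.finrank k (Module.Dual k ↥(h47g_indSpace C (h68t_tauD C χ τ))) =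
      Module.finrank k ↥(h47g_indSpace C (h68t_tauD C χ τ)) :=
    Subspace.dual_finrank_eq (K := k) (V := ↥(h47g_indSpace C (h68t_tauD C χ τ)))
  have d2 : Module.finrank k (Module.Dual k ↥(h47g_indSpace C τ)) =
      Module.finrank k ↥(h47g_indSpace C τ) :=
    Subspace.dual_finrank_eq (K := k) (V := ↥(h47g_indSpace C τ))
  have h3 : Module.finrank k ↥(h47g_indSpace C τ) =
      Module.finrank k (Module.Dual k ↥(h47g_indSpace C (h68t_tauD C χ τ))) :=
    le_antisymm h1 (d1.le.trans (h2.trans d2.le))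
  exact ⟨h68t_pair_injective hC,
    (LinearMap.injective_iff_surjective_of_finrank_eq_finrank h3).mp (h68t_pair_injective hC)⟩

end Ind

/-! ## C. Transport of the equivariant base case -/

/-- **EQ-TRANS**: `H47EqDual → H47EqBase`. -/
theorem h68t_eqBaseOfDual : H47EqBaseOfDual := by
  intro hdual p _ hp2 U₀ _ hU₀ hχ
  obtain ⟨T₀, hT₀⟩ := hdual p hp2 U₀ hU₀ hχ
  refine ⟨T₀, fun S hTS hpS hUS C hcyc hpC Y _ _ _ τ => ?_⟩
  classical
  have : U₀.FiniteIndex := (Fermat.Agent.PT.Bridge.h23b_levFin_good U₀ hU₀).2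
  have : Finite (GQ ⧸ U₀) := Subgroup.finite_quotient_of_finiteIndex
  let _ : Fintype (GQ ⧸ U₀) := Fintype.ofFinite _
  let χb : GQ ⧸ U₀ →* (ZMod p)ˣ :=
    QuotientGroup.lift U₀ (cycloChar p) (fun u hu => hχ u hu)
  have hC : ((Nat.card ↥C : ℕ) : ZMod p) ≠ 0 := by
    rw [Ne, ZMod.natCast_eq_zero_iff]
    exact hpC
  have hbij := h68t_pair_bijective (χ := χb) (τ := τ) hC
  have hE : IsHom (h47g_W p U₀ C τ)
      (dualTw (V := ↥(h47g_indSpace C (h68t_tauD C χb τ))) (cycloChar p)
        (h47g_W p U₀ C (h68t_tauD C χb τ)))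
      (LinearEquiv.ofBijective (h68t_pair C χb τ) hbij).toLinearMap := by
    intro s f
    exact h68t_pair_isHom C χb τ (QuotientGroup.mk' U₀ s) f
  have h0 := hT₀ S hTS hpS hUS C hcyc hpC (Module.Dual (ZMod p) Y) (h68t_tauD C χb τ)
  rw [← h68t_phi_iso S (LinearEquiv.ofBijective (h68t_pair C χb τ) hbij) hE] at h0
  exact h0

end Fermat.Agent.S56G
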