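import Mathlib
import Fermat.Agent.S56G.Iface

/-!
# S56, block GW-LINALG (sub-architect helper98): frozen leaf interfaces

Target: `H47GWOfGE : H47TateGE → H47GW` (`S56G/Iface.lean`), assembled in `S56G/H98GWAsm.lean`:
`h98g_gwOfGE_of : H98GwPair → H98GwH2 → H98GwCDual → H47GWOfGE`.

Notation: `M = ρ` (space `V`, `d = dim V`), `M' = ρ^D = dualTw χ ρ`, `L_v = Ls v`,
`L_v^⊥ = h47g_ann D ρ v (Ls v)`.

* `H98GwPair` (reciprocity inequality, pure algebra over a good datum with a good trace):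
  `h¹_L(M) + h¹(G, M') + ∑_v dim B¹_v(M) ≤ h¹_{L^⊥}(M') + dim Ш¹(M) + ∑_v dim L_v`.
* `H98GwH2` (the `H²`-formula as an inequality, from `θ¹` for `M'` and `M ≅ M'^D`):
  `dim Ш¹(M) + ∑_v h⁰_v(M) ≤ h²(G, M') + h⁰(M)`.
* `H98GwCDual` : `dim (M')^{c = -1} = dim M^{c = 1}`.
* `H98GwLA` (pure linear algebra, Mathlib only; a tool for `H98GwPair`).

Assembly: `GE(M')`: `h⁰(M') - h¹(M') + h²(M') + dim M'^{c=-1} ≤ 0`, `dim B¹_v + h⁰_v = d`, so
`h¹_L + h⁰(M') + dim M^{c=1} + #S d ≤ h¹_L + h¹(M') - h²(M') + ∑ (dim B¹_v + h⁰_v)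
  ≤ h¹_{L^⊥} + dim Ш¹(M) + ∑ dim L_v - h²(M') + ∑ h⁰_v ≤ h¹_{L^⊥} + ∑ dim L_v + h⁰(M)`.

Nothing is assumed in this file.
-/

set_option autoImplicit false

open ExtCitation

noncomputable section

namespace Fermat.Agent.S56G

open Fermat.Agent.PT

/-- **GW-LA (pure linear algebra).**  `r : A → E`, `B ≤ E`, and a family of functionals
`Ψ : A' → E^*` vanishing on `r(A) + B`:
`dim A' + dim A + dim B ≤ dim E + dim r⁻¹(B) + dim ker Ψ`. -/
def H98GwLA : Prop :=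
  ∀ (k : Type) [Field k] (A A' E : Type) [AddCommGroup A] [Module k A] [AddCommGroup A']
    [Module k A'] [AddCommGroup E] [Module k E] [FiniteDimensional k A] [FiniteDimensional k A']
    [FiniteDimensional k E] (r : A →ₗ[k] E) (B : Submodule k E) (Ψ : A' →ₗ[k] Module.Dual k E),
    (∀ y x, Ψ y (r x) = 0) → (∀ y, ∀ b ∈ B, Ψ y b = 0) →
    Module.finrank k A' + Module.finrank k A + Module.finrank k ↥B ≤
      Module.finrank k E + Module.finrank k ↥(B.comap r) + Module.finrank k ↥(LinearMap.ker Ψ)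

/-- **GW-PAIR (the reciprocity inequality).**  For a good datum with a good trace whose local
invariants are injective on `H²_v(k(χ))`, a finite dimensional discrete `ρ` with `H¹(ρ)`,
`H¹(ρ^D)` finite, and local conditions `B¹_v ≤ L_v ≤ Z¹_v` of finite dimension:
the Selmer cocycles of `(ρ, L)` and `(ρ^D, L^⊥)` are finite dimensional and
`h¹_L(ρ) + h¹(ρ^D) + ∑_v dim B¹_v(ρ) ≤ h¹_{L^⊥}(ρ^D) + dim Ш¹(ρ) + ∑_v dim L_v`. -/
def H98GwPair : Prop :=
  ∀ (k : Type) [Field k] (D : Datum k) (tr : D.CC3 k →ₗ[k] k), D.Good → D.TrOK tr →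
    (∀ v, ∀ z ∈ Z2 (D.levH v) (chiRep (D.chiAt v)), D.invAt tr v z = 0 →
      z ∈ B2 (D.levH v) (chiRep (D.chiAt v))) →
    ∀ (V : Type) [AddCommGroup V] [Module k V] [FiniteDimensional k V]
      (ρ : Representation k D.G V), IsDisc D.lev ρ →
      Module.Finite k (HH1 D.lev ρ) → Module.Finite k (HH1 D.lev (dualTw D.chi ρ)) →
      ∀ Ls : ∀ v : D.P, Submodule k (D.H v → V),
        (∀ v, B1 (D.repAt ρ v) ≤ Ls v) →
        (∀ v, Ls v ≤ Z1 (D.levH v) (D.repAt ρ v)) →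
        (∀ v, Module.Finite k ↥(Ls v)) →
        Module.Finite k ↥(h47g_ZSel D ρ Ls) ∧
        Module.Finite k ↥(h47g_ZSel D (dualTw D.chi ρ) (fun v => h47g_ann D ρ v (Ls v))) ∧
        Module.finrank k (h47g_HSel D ρ Ls) + Module.finrank k (HH1 D.lev (dualTw D.chi ρ))
            + ∑ v, Module.finrank k ↥(B1 (D.repAt ρ v))
          ≤ Module.finrank k (h47g_HSel D (dualTw D.chi ρ) (fun v => h47g_ann D ρ v (Ls v)))
            + Module.finrank k (D.Sha1 ρ) + ∑ v, Module.finrank k ↥(Ls v)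

/-- **GW-H2 (the `H²`-formula as an inequality).**  From the first duality
`H¹_c((ρ^D)^D) × H²(ρ^D) → k` and `ρ ≅ (ρ^D)^D`:
`dim Ш¹(ρ) + ∑_v h⁰_v(ρ) ≤ h²(ρ^D) + h⁰(ρ)`. -/
def H98GwH2 : Prop :=
  ∀ (k : Type) [Field k] (D : Datum k) (tr : D.CC3 k →ₗ[k] k), D.Good → D.TrOK tr →
    ∀ (V : Type) [AddCommGroup V] [Module k V] [FiniteDimensional k V]
      (ρ : Representation k D.G V), IsDisc D.lev ρ →
      Module.Finite k (HH1 D.lev ρ) → Module.Finite k (HH2 D.lev (dualTw D.chi ρ)) →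
      D.Perf1 (dualTw D.chi (dualTw D.chi ρ)) (dualTw D.chi ρ) tr LinearMap.id →
      Module.finrank k (D.Sha1 ρ) + ∑ v, Module.finrank k ↥(D.repAt ρ v).invariants
        ≤ Module.finrank k (HH2 D.lev (dualTw D.chi ρ)) + Module.finrank k ↥ρ.invariants

/-- **GW-CDUAL.**  Complex conjugation acts by `-1` on `μ_p` (`p` odd):
`dim (ρ^D)^{c = -1} = dim ρ^{c = 1}`. -/
def H98GwCDual : Prop :=
  ∀ (p : ℕ) [Fact p.Prime], p ≠ 2 →
    ∀ (V : Type) [AddCommGroup V] [Module (ZMod p) V] [FiniteDimensional (ZMod p) V]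
      (ρ : Representation (ZMod p) GQ V),
      Module.finrank (ZMod p) ↥(h47g_cNeg (dualTw (cycloChar p) ρ)) =
        Module.finrank (ZMod p) ↥(h47g_cFix ρ)

end Fermat.Agent.S56G
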