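import Mathlib
import Fermat.Agent.S56G.EqIface
import Fermat.Agent.S56G.H98GWIface

/-!
# S56, block GW-LINALG (sub-architect helper98): frozen leaves of the `H²`-formula

Targets: `H47H2Formula` (`S56G/EqIface.lean`) and `H98GwH2` (`S56G/H98GWIface.lean`), assembled in
`S56G/H98H2Asm.lean` from three pure algebra leaves over an abstract datum:

* `H98GwCone`    : `dim H¹_c(ρ) + h⁰(ρ) = dim Ш¹(ρ) + ∑_v h⁰_v(ρ)`
                   (the cone sequence `0 → H⁰ → ⊕_v H⁰_v → H¹_c → Ш¹ → 0`);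
* `H98GwPerfDim` : the first duality `H¹_c(σ^D) × H²(σ) → k` perfect, `H¹_c(σ^D)` finite
                   `⟹ H²(σ)` finite and `h²(σ) = dim H¹_c(σ^D)`;
* `H98GwHC1Iso`  : an equivariant linear isomorphism `ρ ≅ ρ'` induces `H¹_c(ρ) ≅ H¹_c(ρ')`.

Then `h²(W^D) = dim H¹_c(W^{DD}) = dim H¹_c(W) = dim Ш¹(W) + ∑_v h⁰_v(W) - h⁰(W)`.

Nothing is assumed in this file.
-/

set_option autoImplicit false

open ExtCitation

noncomputable section

namespace Fermat.Agent.S56G

open Fermat.Agent.PT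

/-- **GW-CONE.**  `dim H¹_c(ρ) + h⁰(ρ) = dim Ш¹(ρ) + ∑_v h⁰_v(ρ)` for a good datum and a finite
dimensional discrete `ρ` with `H¹(ρ)` finite. -/
def H98GwCone : Prop :=
  ∀ (k : Type) [Field k] (D : Datum k), D.Good →
    ∀ (V : Type) [AddCommGroup V] [Module k V] [FiniteDimensional k V]
      (ρ : Representation k D.G V), IsDisc D.lev ρ → Module.Finite k (HH1 D.lev ρ) →
      Module.Finite k (D.Sha1 ρ) ∧
      Module.finrank k (D.HC1 ρ) + Module.finrank k ↥ρ.invariants =
        Module.finrank k (D.Sha1 ρ) + ∑ v, Module.finrank k ↥(D.repAt ρ v).invariants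

/-- **GW-PERFDIM.**  If the first duality `H¹_c(σ^D) × H²(σ) → k` is perfect and `H¹_c(σ^D)` is
finite, then `H²(σ)` is finite and `h²(σ) = dim H¹_c(σ^D)`. -/
def H98GwPerfDim : Prop :=
  ∀ (k : Type) [Field k] (D : Datum k) (tr : D.CC3 k →ₗ[k] k), D.Good → D.TrOK tr →
    ∀ (V : Type) [AddCommGroup V] [Module k V] [FiniteDimensional k V]
      (σ : Representation k D.G V), IsDisc D.lev σ →
      Module.Finite k (D.HC1 (dualTw D.chi σ)) →
      D.Perf1 (dualTw D.chi σ) σ tr LinearMap.id →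
      Module.Finite k (HH2 D.lev σ) ∧
      Module.finrank k (HH2 D.lev σ) = Module.finrank k (D.HC1 (dualTw D.chi σ))

/-- **GW-HC1ISO.**  An equivariant linear isomorphism induces an isomorphism on `H¹_c`. -/
def H98GwHC1Iso : Prop :=
  ∀ (k : Type) [Field k] (D : Datum k)
    (V V' : Type) [AddCommGroup V] [Module k V] [AddCommGroup V'] [Module k V']
    (ρ : Representation k D.G V) (ρ' : Representation k D.G V') (e : V ≃ₗ[k] V'),
    (∀ g v, e (ρ g v) = ρ' g (e v)) →
    Nonempty (D.HC1 ρ ≃ₗ[k] D.HC1 ρ')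

end Fermat.Agent.S56G
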