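import Mathlib
import Fermat.Agent.S56G.H98H2Iface
import Fermat.Agent.PT.Alg.H93CountPair
import Fermat.Agent.PT.Alg.H42CountGlue

/-!
# S56, block GW-LINALG, row GW-PERFDIM (helper70): `h²(σ) = dim H¹_c(σ^D)`

* `h70p_injDual` : a bilinear pairing `X × Y → k` which kills `X₀ × Y` and whose right kernel is
  `Y₀` induces an injection `Y ⧸ Y₀ → Dual (X ⧸ X₀)`  (linear algebra, Mathlib only).
* `h70p_finrank_of_pairing` : a pairing `X × Y → k` with left kernel `X₀`, right kernel `Y₀` and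
  `X ⧸ X₀` finite dimensional: `Y ⧸ Y₀` is finite dimensional of the same dimension.
* `h70p_perfDim : H98GwPerfDim` (the exact frozen Prop of `S56G/H98H2Iface.lean`).
-/

set_option autoImplicit false
set_option linter.style.haveILetI false

open ExtCitation

noncomputable section

namespace Fermat.Agent.S56G

open Fermat.Agent.PT

section LinAlg

variable {k X Y : Type*} [Field k] [AddCommGroup X] [Module k X] [AddCommGroup Y] [Module k Y]

/-- the map `Y → Dual (X ⧸ X₀)` induced by a pairing which kills `X₀ × Y`. -/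
def h70p_toDual (X₀ : Submodule k X) (P : X →ₗ[k] Y →ₗ[k] k)
    (hX₀ : ∀ x ∈ X₀, ∀ y, P x y = 0) : Y →ₗ[k] Module.Dual k (X ⧸ X₀) where
  toFun y := X₀.liftQ (P.flip y) (fun x hx => by
    rw [LinearMap.mem_ker, LinearMap.flip_apply]
    exact hX₀ x hx y)
  map_add' y y' := by
    apply Submodule.linearMap_qext
    ext x
    simp
  map_smul' c y := by
    apply Submodule.linearMap_qext
    ext x
    simp

@[simp] theorem h70p_toDual_mk (X₀ : Submodule k X) (P : X →ₗ[k] Y →ₗ[k] k)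
    (hX₀ : ∀ x ∈ X₀, ∀ y, P x y = 0) (y : Y) (x : X) :
    h70p_toDual X₀ P hX₀ y (Submodule.Quotient.mk x) = P x y := rfl

/-- a pairing `X × Y → k` which kills `X₀ × Y` and `X × Y₀` and whose right kernel is inside
`Y₀` induces an injection `Y ⧸ Y₀ → Dual (X ⧸ X₀)`. -/
theorem h70p_injDual (X₀ : Submodule k X) (Y₀ : Submodule k Y) (P : X →ₗ[k] Y →ₗ[k] k)
    (hX₀ : ∀ x ∈ X₀, ∀ y, P x y = 0) (hY₀ : ∀ y ∈ Y₀, ∀ x, P x y = 0)
    (hR : ∀ y, (∀ x, P x y = 0) → y ∈ Y₀) :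
    ∃ ι : (Y ⧸ Y₀) →ₗ[k] Module.Dual k (X ⧸ X₀), Function.Injective ι := by
  have hker : Y₀ ≤ LinearMap.ker (h70p_toDual X₀ P hX₀) := by
    intro y hy
    rw [LinearMap.mem_ker]
    apply Submodule.linearMap_qext
    ext x
    simp only [LinearMap.comp_apply, Submodule.mkQ_apply, h70p_toDual_mk, LinearMap.zero_apply]
    exact hY₀ y hy x
  refine ⟨Y₀.liftQ (h70p_toDual X₀ P hX₀) hker, ?_⟩
  rw [← LinearMap.ker_eq_bot, Submodule.ker_liftQ_eq_bot']
  refine le_antisymm hker ?_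
  intro y hy
  rw [LinearMap.mem_ker] at hy
  apply hR
  intro x
  have := congrArg (fun f : Module.Dual k (X ⧸ X₀) => f (Submodule.Quotient.mk x)) hy
  simpa using this

/-- a pairing `X × Y → k` with left kernel `X₀` and right kernel `Y₀`, `X ⧸ X₀` finite
dimensional: `Y ⧸ Y₀` is finite dimensional of the same dimension. -/
theorem h70p_finrank_of_pairing (X₀ : Submodule k X) (Y₀ : Submodule k Y)
    (P : X →ₗ[k] Y →ₗ[k] k)
    (hX₀ : ∀ x ∈ X₀, ∀ y, P x y = 0) (hY₀ : ∀ y ∈ Y₀, ∀ x, P x y = 0)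
    (hL : ∀ x, (∀ y, P x y = 0) → x ∈ X₀) (hR : ∀ y, (∀ x, P x y = 0) → y ∈ Y₀)
    [hfin : Module.Finite k (X ⧸ X₀)] :
    Module.Finite k (Y ⧸ Y₀) ∧ Module.finrank k (Y ⧸ Y₀) = Module.finrank k (X ⧸ X₀) := by
  obtain ⟨ι, hι⟩ := h70p_injDual X₀ Y₀ P hX₀ hY₀ hR
  have hfinY : Module.Finite k (Y ⧸ Y₀) := Module.Finite.of_injective ι hι
  refine ⟨hfinY, le_antisymm ?_ ?_⟩
  · have h1 := LinearMap.finrank_le_finrank_of_injective hι
    rwa [Subspace.dual_finrank_eq] at h1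
  · obtain ⟨ι', hι'⟩ := h70p_injDual Y₀ X₀ P.flip
      (fun y hy x => by rw [LinearMap.flip_apply]; exact hY₀ y hy x)
      (fun x hx y => by rw [LinearMap.flip_apply]; exact hX₀ x hx y)
      (fun x hx => hL x (fun y => by have := hx y; rwa [LinearMap.flip_apply] at this))
    have h1 := LinearMap.finrank_le_finrank_of_injective hι'
    rwa [Subspace.dual_finrank_eq] at h1

end LinAlg

section Pair

variable {k : Type} [Field k] (D : Datum k) (tr : D.CC3 k →ₗ[k] k)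
variable {V : Type} [AddCommGroup V] [Module k V] (σ : Representation k D.G V)

/-- the first duality pairing on cocycles, `Z¹_c(σ^D) × Z²(σ) → k`. -/
def h70p_pair : ↥(D.ZC1 (dualTw D.chi σ)) →ₗ[k] ↥(Z2 D.lev σ) →ₗ[k] k :=
  (h93c_pairL D σ tr (LinearMap.id : Module.Dual k V →ₗ[k] Module.Dual k V)).compl₁₂
    (D.ZC1 (dualTw D.chi σ)).subtype (Z2 D.lev σ).subtype

theorem h70p_pair_apply (z : ↥(D.ZC1 (dualTw D.chi σ))) (y : ↥(Z2 D.lev σ)) :
    h70p_pair D tr σ z y =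
      D.pair1 σ tr LinearMap.id (z : D.CC1 (Module.Dual k V)) (y : D.G × D.G → V) := rfl

theorem h70p_pair_left (htr : D.TrOK tr)
    (z : ↥(D.ZC1 (dualTw D.chi σ)))
    (hz : z ∈ (D.BC1 (dualTw D.chi σ)).comap (D.ZC1 (dualTw D.chi σ)).subtype)
    (y : ↥(Z2 D.lev σ)) : h70p_pair D tr σ z y = 0 := by
  rw [h70p_pair_apply]
  obtain ⟨α, hα⟩ := hz
  rw [Submodule.subtype_apply] at hα
  rw [← hα]
  exact h93c_pair1_coneD0 D (dualTw D.chi σ) σ tr LinearMap.id
    (h42g_isEquivariant_id D.chi σ) htr α y.2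

theorem h70p_pair_right (hg : D.Good) (hσ : IsDisc D.lev σ) (htr : D.TrOK tr)
    (y : ↥(Z2 D.lev σ)) (hy : y ∈ (B2 D.lev σ).comap (Z2 D.lev σ).subtype)
    (z : ↥(D.ZC1 (dualTw D.chi σ))) : h70p_pair D tr σ z y = 0 := by
  rw [h70p_pair_apply]
  rw [Submodule.mem_comap, Submodule.subtype_apply, mem_B2] at hy
  obtain ⟨x, hx, hxy⟩ := hy
  rw [← hxy]
  exact h93c_pair1_d1 D (dualTw D.chi σ) σ tr LinearMap.id hg
    (h42g_isEquivariant_id D.chi σ) hσ htr z.2 hx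

theorem h70p_pair_kerL (hperf : D.Perf1 (dualTw D.chi σ) σ tr LinearMap.id)
    (z : ↥(D.ZC1 (dualTw D.chi σ))) (hz : ∀ y, h70p_pair D tr σ z y = 0) :
    z ∈ (D.BC1 (dualTw D.chi σ)).comap (D.ZC1 (dualTw D.chi σ)).subtype := by
  rw [Submodule.mem_comap, Submodule.subtype_apply]
  exact hperf.1 (z : D.CC1 (Module.Dual k V)) z.2 (fun y hy => hz ⟨y, hy⟩)

theorem h70p_pair_kerR (hperf : D.Perf1 (dualTw D.chi σ) σ tr LinearMap.id)
    (y : ↥(Z2 D.lev σ)) (hy : ∀ z, h70p_pair D tr σ z y = 0) :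
    y ∈ (B2 D.lev σ).comap (Z2 D.lev σ).subtype := by
  rw [Submodule.mem_comap, Submodule.subtype_apply]
  exact hperf.2 (y : D.G × D.G → V) y.2 (fun z hz => hy ⟨z, hz⟩)

end Pair

/-- the statement of GW-PERFDIM for one representation. -/
theorem h70p_perfDim_at {k : Type} [Field k] (D : Datum k) (tr : D.CC3 k →ₗ[k] k)
    (hg : D.Good) (htr : D.TrOK tr)
    {V : Type} [AddCommGroup V] [Module k V]
    (σ : Representation k D.G V) (hσ : IsDisc D.lev σ)
    (hfin : Module.Finite k (D.HC1 (dualTw D.chi σ)))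
    (hperf : D.Perf1 (dualTw D.chi σ) σ tr LinearMap.id) :
    Module.Finite k (HH2 D.lev σ) ∧
      Module.finrank k (HH2 D.lev σ) = Module.finrank k (D.HC1 (dualTw D.chi σ)) := by
  have h1 := h70p_pair_left D tr σ htr
  have h2 := h70p_pair_right D tr σ hg hσ htr
  have h3 := h70p_pair_kerL D tr σ hperf
  have h4 := h70p_pair_kerR D tr σ hperf
  have key := @h70p_finrank_of_pairing k ↥(D.ZC1 (dualTw D.chi σ)) ↥(Z2 D.lev σ) _ _ _ _ _
    ((D.BC1 (dualTw D.chi σ)).comap (D.ZC1 (dualTw D.chi σ)).subtype)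
    ((B2 D.lev σ).comap (Z2 D.lev σ).subtype) (h70p_pair D tr σ) h1 h2 h3 h4
  exact key

/-- **GW-PERFDIM.**  If the first duality `H¹_c(σ^D) × H²(σ) → k` is perfect and `H¹_c(σ^D)` is
finite, then `H²(σ)` is finite and `h²(σ) = dim H¹_c(σ^D)`. -/
theorem h70p_perfDim : H98GwPerfDim :=
  fun _ _ D tr hg htr _ _ _ _ σ hσ hfin hperf =>
    h70p_perfDim_at D tr hg htr σ hσ hfin hperf

end Fermat.Agent.S56G
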