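import Fermat.Agent.S56G.H98H2Iface

/-!
# S56, block GW-LINALG, leaf GW-HC1ISO (helper52)

`h52g_hc1Iso : H98GwHC1Iso` (exact frozen Prop of `S56G/H98H2Iface.lean`): an equivariant linear
isomorphism `ρ ≃ ρ'` induces an isomorphism `H¹_c(ρ) ≃ H¹_c(ρ')`.
-/

set_option autoImplicit false
set_option linter.style.haveILetI false

noncomputable section

namespace Fermat.Agent.S56G

open Fermat.Agent.PT

variable {k : Type} [Field k] (D : Datum k)
  {V V' : Type} [AddCommGroup V] [Module k V] [AddCommGroup V'] [Module k V']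

/-- push-forward of cone `1`-cochains along a linear map. -/
def h52g_push (e : V →ₗ[k] V') : D.CC1 V →ₗ[k] D.CC1 V' :=
  LinearMap.prodMap (e.compLeft D.G) (e.compLeft D.P)

@[simp] lemma h52g_push_apply (e : V →ₗ[k] V') (z : D.CC1 V) :
    h52g_push D e z = (fun g => e (z.1 g), fun v => e (z.2 v)) := rfl

variable {D}

lemma h52g_push_mem_ZC1 (ρ : Representation k D.G V) (ρ' : Representation k D.G V')
    (e : V →ₗ[k] V') (he : ∀ g v, e (ρ g v) = ρ' g (e v)) {z : D.CC1 V}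
    (hz : z ∈ D.ZC1 ρ) : h52g_push D e z ∈ D.ZC1 ρ' := by
  obtain ⟨hker, hlc⟩ := hz
  refine ⟨?_, ?_⟩
  · have hker' : D.coneD1 ρ z = 0 := hker
    show D.coneD1 ρ' (h52g_push D e z) = 0
    clear hker
    rename' hker' => hker
    rw [Datum.coneD1_apply] at hker ⊢
    have h1 := congrArg Prod.fst hker
    have h2 := congrArg Prod.snd hker
    simp only [Prod.fst_zero, Prod.snd_zero] at h1 h2
    refine Prod.ext ?_ ?_
    · funext x
      have := congrFun h1 x
      simp only [d1, LinearMap.coe_mk, AddHom.coe_mk, Pi.zero_apply, h52g_push_apply,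
        Prod.fst_zero] at this ⊢
      rw [← he, ← map_sub, ← map_add, this, map_zero]
    · funext v s
      have := congrFun (congrFun h2 v) s
      simp only [d0, res1_apply, LinearMap.coe_mk, AddHom.coe_mk, Pi.zero_apply,
        Pi.sub_apply, h52g_push_apply, Prod.snd_zero, Datum.repAt, resRep_apply] at this ⊢
      rw [← he, ← map_sub, ← map_sub, this, map_zero]
  · obtain ⟨h1, -⟩ := hlc
    refine ⟨?_, trivial⟩
    exact (h1 : IsLC1 D.lev z.1).comp e

lemma h52g_push_mem_BC1 (ρ : Representation k D.G V) (ρ' : Representation k D.G V')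
    (e : V →ₗ[k] V') (he : ∀ g v, e (ρ g v) = ρ' g (e v)) {z : D.CC1 V}
    (hz : z ∈ D.BC1 ρ) : h52g_push D e z ∈ D.BC1 ρ' := by
  obtain ⟨α, rfl⟩ := hz
  refine ⟨e α, ?_⟩
  rw [Datum.coneD0_apply, Datum.coneD0_apply, h52g_push_apply]
  refine Prod.ext ?_ rfl
  funext g
  simp only [d0, LinearMap.coe_mk, AddHom.coe_mk]
  rw [← he, ← map_sub]

/-- **GW-HC1ISO** (exact frozen Prop). -/
theorem h52g_hc1Iso : H98GwHC1Iso := by
  intro k _ D V V' _ _ _ _ ρ ρ' e he
  have he' : ∀ g v, e.symm (ρ' g v) = ρ g (e.symm v) := by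
    intro g v
    apply e.injective
    rw [he, e.apply_symm_apply, e.apply_symm_apply]
  -- the equivalence on cone cochains
  let E : D.CC1 V ≃ₗ[k] D.CC1 V' :=
    LinearEquiv.ofLinearMap (h52g_push D e.toLinearMap) (h52g_push D e.symm.toLinearMap)
      (by
        apply LinearMap.ext
        intro z
        simp [h52g_push_apply])
      (by
        apply LinearMap.ext
        intro z
        simp [h52g_push_apply])
  have hZ : (D.ZC1 ρ).map (E : D.CC1 V →ₗ[k] D.CC1 V') = D.ZC1 ρ' := by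
    apply le_antisymm
    · rintro _ ⟨z, hz, rfl⟩
      exact h52g_push_mem_ZC1 ρ ρ' e.toLinearMap he hz
    · intro w hw
      refine ⟨E.symm w, h52g_push_mem_ZC1 ρ' ρ e.symm.toLinearMap he' hw, ?_⟩
      exact E.apply_symm_apply w
  let F : ↥(D.ZC1 ρ) ≃ₗ[k] ↥(D.ZC1 ρ') := E.ofSubmodules (D.ZC1 ρ) (D.ZC1 ρ') hZ
  have hF : ∀ z : ↥(D.ZC1 ρ), ((F z : ↥(D.ZC1 ρ')) : D.CC1 V') = E (z : D.CC1 V) :=
    fun z => rfl
  refine ⟨Submodule.Quotient.equiv _ _ F ?_⟩
  apply le_antisymm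
  · rintro _ ⟨z, hz, rfl⟩
    have hz' : (z : D.CC1 V) ∈ D.BC1 ρ := hz
    show ((F z : ↥(D.ZC1 ρ')) : D.CC1 V') ∈ D.BC1 ρ'
    exact h52g_push_mem_BC1 ρ ρ' e.toLinearMap he hz'
  · intro w hw
    have hw' : (w : D.CC1 V') ∈ D.BC1 ρ' := hw
    refine ⟨F.symm w, ?_, F.apply_symm_apply w⟩
    show ((F.symm w : ↥(D.ZC1 ρ)) : D.CC1 V) ∈ D.BC1 ρ
    have h1 := h52g_push_mem_BC1 ρ' ρ e.symm.toLinearMap he' hw'
    have h2 : ((F.symm w : ↥(D.ZC1 ρ)) : D.CC1 V) = E.symm (w : D.CC1 V') := by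
      apply E.injective
      rw [E.apply_symm_apply, ← hF, F.apply_symm_apply]
    rw [h2]
    exact h1

end Fermat.Agent.S56G
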