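import Mathlib
import Fermat.Agent.S56G.H98Frame
import Fermat.Agent.S56G.H98GWIface

/-!
# S56, block GW-LINALG (helper98): the conditional assembly

`h98g_gwOfGE_of : H98GwPair → H98GwH2 → H98GwCDual → H47GWOfGE`.
-/

set_option autoImplicit false

open ExtCitation

namespace Fermat.Agent.S56G

open Fermat.Agent.PT

/-- `dim B¹(σ) + h⁰(σ) = dim V` (rank–nullity for `d⁰`). -/
theorem h98g_finrank_B1_add {k : Type} [Field k] {G : Type} [Group G] {V : Type}
    [AddCommGroup V] [Module k V] [FiniteDimensional k V] (σ : Representation k G V) :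
    Module.finrank k ↥(B1 σ) + Module.finrank k ↥σ.invariants = Module.finrank k V := by
  have h := LinearMap.finrank_range_add_finrank_ker (d0 σ)
  have hker : LinearMap.ker (d0 σ) = σ.invariants := by
    ext v
    rw [LinearMap.mem_ker, Representation.mem_invariants]
    constructor
    · intro h g
      have := congrFun h g
      simpa [sub_eq_zero] using this
    · intro h
      funext g
      simp [h g]
  rw [hker] at h
  exact h

/-- The local invariant is injective on `H²_v(k(χ))`: from the local duality `H² × H⁰` for the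
module `k(χ)`, whose twisted dual is the trivial module. -/
theorem h98g_inv_inj {k : Type} [Field k] {H : Type} [Group H] (L : Lev H) (χ : H →* kˣ)
    (inv : (H × H → k) →ₗ[k] k)
    (hP : LPerf2 L inv (chiRep χ) (dualTw χ (chiRep χ)) (Module.Dual.eval k k))
    (z : H × H → k) (hz : z ∈ Z2 L (chiRep χ)) (h0 : inv z = 0) : z ∈ B2 L (chiRep χ) := by
  refine hP.1 z hz fun w hw => ?_
  have hcup : cup20 (Module.Dual.eval k k) (dualTw χ (chiRep χ)) z w = w 1 • z := by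
    funext q
    obtain ⟨g, h⟩ := q
    rw [cup20_apply, (Representation.mem_invariants _ _).mp hw (g * h)]
    simp only [Module.Dual.eval_apply, Pi.smul_apply, smul_eq_mul]
    have : z (g, h) = z (g, h) • (1 : k) := by simp
    rw [this, map_smul]
    simp [mul_comm]
  rw [hcup, map_smul, h0, smul_zero]

/-- `k(χ)` is discrete as soon as `χ` is trivial on a level. -/
theorem h98g_isDisc_chiRep {k : Type} [Field k] {H : Type} [Group H] (L : Lev H) (χ : H →* kˣ)
    (hχ : ∃ N ∈ L.sets, ∀ s ∈ N, χ s = 1) : IsDisc L (chiRep χ) := by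
  obtain ⟨N, hN, h⟩ := hχ
  intro t
  refine ⟨N, hN, fun s hs => ?_⟩
  rw [chiRep_apply, h s hs]
  simp

/-- The integer arithmetic of the assembly. -/
theorem h98g_arith (hSel hSel' h0 h0D h1D h2D cFix cNegD sha sB sInv sL cd : ℤ)
    (hΦ : h0D - h1D + h2D + cNegD ≤ 0) (hcd : cNegD = cFix)
    (hpair : hSel + h1D + sB ≤ hSel' + sha + sL) (hh2 : sha + sInv ≤ h2D + h0)
    (hsum : sB + sInv = cd) : hSel + h0D + cFix + cd ≤ hSel' + h0 + sL := by
  linarith

/-- **GW-LINALG, conditional assembly.** -/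
theorem h98g_gwOfGE_of (hPair : H98GwPair) (hH2 : H98GwH2) (hC : H98GwCDual) : H47GWOfGE := by
  intro hGE p _ hp2 V _ _ _ ρ hρ
  have hχfin : ∃ N ∈ levFin.sets, ∀ s ∈ N, cycloChar p s = 1 := by
    obtain ⟨N, hN, h⟩ := (Bridge.dqGood p {pPrime p} (Finset.mem_singleton_self _)).2.2.2.2
    exact ⟨N, Bridge.h23b_levQ_sets_subset_levFin _ hN, h⟩
  have hρD : IsDisc levFin (dualTw (cycloChar p) ρ) :=
    h57_isDisc_dualTw levFin (cycloChar p) hχfin ρ hρ
  obtain ⟨T₀, hT₀⟩ := hGE p hp2 (Module.Dual (ZMod p) V) (dualTw (cycloChar p) ρ) hρD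
  refine ⟨T₀, fun S hTS hpS hρS Ls hB hZ hfin => ?_⟩
  obtain ⟨tr, htr, hgood, hVV, hθ1, hloc⟩ := h98g_frame p hp2 S hpS
  have hρDS : IsDisc (levQ S) (dualTw (cycloChar p) ρ) :=
    h57_isDisc_dualTw (levQ S) (cycloChar p) hgood.2.2.2.2 ρ hρS
  obtain ⟨⟨hf1, hf2⟩, hΦ⟩ := hT₀ S hTS hpS hρDS
  have hInj : ∀ v, ∀ z ∈ Z2 ((DQ p S).levH v) (chiRep ((DQ p S).chiAt v)),
      (DQ p S).invAt tr v z = 0 → z ∈ B2 ((DQ p S).levH v) (chiRep ((DQ p S).chiAt v)) := by
    intro v z hz h0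
    have hχv := (localAux (ZMod p) (DQ p S) tr hgood htr v).1
    have hdisc := h98g_isDisc_chiRep ((DQ p S).levH v) ((DQ p S).chiAt v) hχv
    exact h98g_inv_inj _ _ _ (hloc v (ZMod p) (chiRep ((DQ p S).chiAt v)) hdisc).2 z hz h0
  have hH1 : Module.Finite (ZMod p) (HH1 (DQ p S).lev ρ) := (hVV V ρ hρS).1
  obtain ⟨hfz, hfz', hpair⟩ := hPair (ZMod p) (DQ p S) tr hgood htr hInj V ρ hρS hH1 hf1
    Ls hB hZ hfin
  have hh2 := hH2 (ZMod p) (DQ p S) tr hgood htr V ρ hρS hH1 hf2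
    (hθ1 (Module.Dual (ZMod p) V) (dualTw (DQ p S).chi ρ) hρDS)
  have hcd := hC p hp2 V ρ
  have hB1 : ∀ v : (DQ p S).P, Module.finrank (ZMod p) ↥(B1 ((DQ p S).repAt ρ v))
      + Module.finrank (ZMod p) ↥((DQ p S).repAt ρ v).invariants
      = Module.finrank (ZMod p) V := fun v => h98g_finrank_B1_add _
  have hsum : ∑ v : (DQ p S).P, Module.finrank (ZMod p) ↥(B1 ((DQ p S).repAt ρ v))
      + ∑ v : (DQ p S).P, Module.finrank (ZMod p) ↥((DQ p S).repAt ρ v).invariants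
      = S.card * Module.finrank (ZMod p) V := by
    rw [← Finset.sum_add_distrib, Finset.sum_congr rfl (fun v _ => hB1 v)]
    simp only [Finset.sum_const, smul_eq_mul]
    have : (Finset.univ : Finset (DQ p S).P).card = S.card := by
      change (Finset.univ : Finset ↥S).card = S.card
      simp
    rw [this]
  refine ⟨hfz, hfz', ?_⟩
  have hΦ' : (Module.finrank (ZMod p) ↥(dualTw (cycloChar p) ρ).invariants : ℤ)
      - Module.finrank (ZMod p) (HH1 (levQ S) (dualTw (cycloChar p) ρ))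
      + Module.finrank (ZMod p) (HH2 (levQ S) (dualTw (cycloChar p) ρ))
      + Module.finrank (ZMod p) ↥(h47g_cNeg (dualTw (cycloChar p) ρ)) ≤ 0 := hΦ
  have hcdZ : (Module.finrank (ZMod p) ↥(h47g_cNeg (dualTw (cycloChar p) ρ)) : ℤ)
      = Module.finrank (ZMod p) ↥(h47g_cFix ρ) := by
    exact_mod_cast hcd
  have hpairZ : ((Module.finrank (ZMod p) (h47g_HSel (DQ p S) ρ Ls) : ℕ) : ℤ)
      + Module.finrank (ZMod p) (HH1 (DQ p S).lev (dualTw (DQ p S).chi ρ))
      + ((∑ v : (DQ p S).P, Module.finrank (ZMod p) ↥(B1 ((DQ p S).repAt ρ v)) : ℕ) : ℤ)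
      ≤ (Module.finrank (ZMod p) (h47g_HSel (DQ p S) (dualTw (DQ p S).chi ρ)
            (fun v => h47g_ann (DQ p S) ρ v (Ls v))) : ℤ)
        + Module.finrank (ZMod p) ((DQ p S).Sha1 ρ)
        + ((∑ v : (DQ p S).P, Module.finrank (ZMod p) ↥(Ls v) : ℕ) : ℤ) := by
    exact_mod_cast hpair
  have hh2Z : ((Module.finrank (ZMod p) ((DQ p S).Sha1 ρ) : ℕ) : ℤ)
      + ((∑ v : (DQ p S).P, Module.finrank (ZMod p) ↥((DQ p S).repAt ρ v).invariants : ℕ) : ℤ)
      ≤ (Module.finrank (ZMod p) (HH2 (DQ p S).lev (dualTw (DQ p S).chi ρ)) : ℤ)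
        + Module.finrank (ZMod p) ↥ρ.invariants := by
    exact_mod_cast hh2
  have hsumZ : ((∑ v : (DQ p S).P, Module.finrank (ZMod p) ↥(B1 ((DQ p S).repAt ρ v)) : ℕ) : ℤ)
      + ((∑ v : (DQ p S).P, Module.finrank (ZMod p) ↥((DQ p S).repAt ρ v).invariants : ℕ) : ℤ)
      = (S.card : ℤ) * Module.finrank (ZMod p) V := by
    exact_mod_cast hsum
  have hcast : (∑ v : (DQ p S).P, (Module.finrank (ZMod p) ↥(Ls v) : ℤ))
      = ((∑ v : (DQ p S).P, Module.finrank (ZMod p) ↥(Ls v) : ℕ) : ℤ) := by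
    push_cast
    rfl
  rw [hcast]
  exact h98g_arith _ _ _ _ _ _ _ _ _ _ _ _ _ hΦ' hcdZ hpairZ hh2Z hsumZ

end Fermat.Agent.S56G
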