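import Mathlib
import Fermat.Agent.S56G.H98Frame
import Fermat.Agent.S56G.H98H2Iface

/-!
# S56, block GW-LINALG (helper98): conditional assembly of the `H²`-formula

* `h98g_h2_abs`        : the abstract `H²`-formula (equality) from the three leaves;
* `h98g_gwH2_of`       : `H98GwCone → H98GwPerfDim → H98GwHC1Iso → H98GwH2`;
* `h98g_h2Formula_of`  : `H98GwCone → H98GwPerfDim → H98GwHC1Iso → H47H2Formula`.
-/

set_option autoImplicit false

open ExtCitation

namespace Fermat.Agent.S56G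

open Fermat.Agent.PT

/-- The evaluation isomorphism `V ≅ V^{**}` is equivariant for `ρ` and `(ρ^D)^D`. -/
theorem h98g_eval_equivariant {k : Type} [Field k] {G : Type} [Group G] (χ : G →* kˣ)
    {V : Type} [AddCommGroup V] [Module k V] [FiniteDimensional k V]
    (ρ : Representation k G V) (g : G) (v : V) :
    Module.evalEquiv k V (ρ g v) = dualTw χ (dualTw χ ρ) g (Module.evalEquiv k V v) := by
  refine LinearMap.ext fun f => ?_
  rw [dualTw_apply]
  simp only [Module.evalEquiv_apply, Module.Dual.eval_apply, LinearMap.smul_apply,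
    LinearMap.coe_comp, Function.comp_apply, smul_eq_mul]
  rw [dualTw_apply]
  simp only [LinearMap.smul_apply, LinearMap.coe_comp, Function.comp_apply, smul_eq_mul,
    inv_inv, map_inv]
  rw [← mul_assoc]
  have : ((χ g : kˣ) : k) * (((χ g)⁻¹ : kˣ) : k) = 1 := by
    rw [← Units.val_mul, mul_inv_cancel, Units.val_one]
  rw [this, one_mul]

/-- The abstract `H²`-formula. -/
theorem h98g_h2_abs (hCone : H98GwCone) (hPD : H98GwPerfDim) (hIso : H98GwHC1Iso)
    {k : Type} [Field k] (D : Datum k) (tr : D.CC3 k →ₗ[k] k) (hg : D.Good) (htr : D.TrOK tr)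
    {V : Type} [AddCommGroup V] [Module k V] [FiniteDimensional k V]
    (ρ : Representation k D.G V) (hρ : IsDisc D.lev ρ) (hH1 : Module.Finite k (HH1 D.lev ρ))
    (hP : D.Perf1 (dualTw D.chi (dualTw D.chi ρ)) (dualTw D.chi ρ) tr LinearMap.id) :
    Module.Finite k (HH2 D.lev (dualTw D.chi ρ)) ∧ Module.Finite k (D.Sha1 ρ) ∧
      Module.finrank k (HH2 D.lev (dualTw D.chi ρ)) + Module.finrank k ↥ρ.invariants =
        Module.finrank k (D.Sha1 ρ) + ∑ v, Module.finrank k ↥(D.repAt ρ v).invariants := by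
  obtain ⟨hfS, hcone⟩ := hCone k D hg V ρ hρ hH1
  have hfHC : Module.Finite k (D.HC1 ρ) := h42g_finite_HC1 D ρ hH1
  obtain ⟨e⟩ := hIso k D V (Module.Dual k (Module.Dual k V)) ρ
    (dualTw D.chi (dualTw D.chi ρ)) (Module.evalEquiv k V)
    (fun g v => h98g_eval_equivariant D.chi ρ g v)
  have hfHC' : Module.Finite k (D.HC1 (dualTw D.chi (dualTw D.chi ρ))) := Module.Finite.equiv e
  have hρD : IsDisc D.lev (dualTw D.chi ρ) := h57_isDisc_dualTw D.lev D.chi hg.2.2.2.2 ρ hρ
  obtain ⟨hf2, h2⟩ := hPD k D tr hg htr (Module.Dual k V) (dualTw D.chi ρ) hρD hfHC' hP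
  refine ⟨hf2, hfS, ?_⟩
  rw [h2, ← e.finrank_eq, hcone]

/-- `H98GwH2` from the three leaves. -/
theorem h98g_gwH2_of (hCone : H98GwCone) (hPD : H98GwPerfDim) (hIso : H98GwHC1Iso) :
    H98GwH2 := by
  intro k _ D tr hg htr V _ _ _ ρ hρ hH1 _ hP
  obtain ⟨-, -, h⟩ := h98g_h2_abs hCone hPD hIso D tr hg htr ρ hρ hH1 hP
  omega

/-- `H47H2Formula` from the three leaves. -/
theorem h98g_h2Formula_of (hCone : H98GwCone) (hPD : H98GwPerfDim) (hIso : H98GwHC1Iso) :
    H47H2Formula := by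
  intro p _ hp2 S hpS V _ _ _ W hW
  obtain ⟨tr, htr, hgood, hVV, hθ1, -⟩ := h98g_frame p hp2 S hpS
  have hWD : IsDisc (levQ S) (dualTw (cycloChar p) W) :=
    h57_isDisc_dualTw (levQ S) (cycloChar p) hgood.2.2.2.2 W hW
  obtain ⟨hf2, hfS, h⟩ := h98g_h2_abs hCone hPD hIso (DQ p S) tr hgood htr W hW (hVV V W hW).1
    (hθ1 (Module.Dual (ZMod p) V) (dualTw (DQ p S).chi W) hWD)
  refine ⟨hf2, hfS, ?_⟩
  have h' : Module.finrank (ZMod p) (HH2 (levQ S) (dualTw (cycloChar p) W))
      + Module.finrank (ZMod p) ↥W.invariants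
      = Module.finrank (ZMod p) ((DQ p S).Sha1 W)
        + ∑ v : (DQ p S).P, Module.finrank (ZMod p) ↥((DQ p S).repAt W v).invariants := h
  rw [h', add_comm]

end Fermat.Agent.S56G
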