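import Mathlib
import Fermat.Agent.PT.Defs
import Fermat.Agent.PT.Alg.H93CountLC
import Fermat.Agent.PT.Alg.H93CountLeib
import Fermat.Agent.PT.Alg.H57LocalAux
import Fermat.Agent.PT.Arith.Glue

/-!
# S56, block GW-LINALG, leaf GW-PAIR (helper98): cup products of `1`-cocycles

For an equivariant pairing `β : ρ × σ → k(χ)`:

* `h98g_cup11_mem_Z2` : cocycle `∪` cocycle is a continuous `2`-cocycle of `k(χ)`;
* `h98g_cup11_mem_B2_left`  : coboundary `∪` cocycle is a continuous coboundary;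
* `h98g_cup11_mem_B2_right` : cocycle `∪` coboundary is a continuous coboundary;
* `h98g_recip` : the reciprocity law `∑_v inv_v (res_v x ∪ res_v y) = 0` for global cocycles,
  from `TrOK`.
-/

set_option autoImplicit false

namespace Fermat.Agent.S56G

open Fermat.Agent.PT

section Gen

variable {k : Type} [Field k] {H : Type} [Group H] (L : Lev H) (χ : H →* kˣ)
variable {V W : Type} [AddCommGroup V] [Module k V] [AddCommGroup W] [Module k W]
variable (ρ : Representation k H V) (σ : Representation k H W) (β : V →ₗ[k] W →ₗ[k] k)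

/-- The evaluation pairing `ρ × ρ^D → k(χ)` is equivariant. -/
theorem h98g_isEquivariant_eval :
    IsEquivariant χ ρ (dualTw χ ρ) (Module.Dual.eval k V) := by
  intro g v f
  rw [dualTw_apply]
  simp only [Module.Dual.eval_apply, LinearMap.smul_apply, LinearMap.coe_comp,
    Function.comp_apply, smul_eq_mul]
  rw [← Module.End.mul_apply, ← map_mul, inv_mul_cancel, map_one, Module.End.one_apply]

variable {χ ρ σ β}

/-- `d²(a ∪ y) = 0` for `1`-cocycles `a`, `y`. -/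
theorem h98g_d2_cup11 (hβ : IsEquivariant χ ρ σ β) {a : H → V} (ha : d1 ρ a = 0)
    {y : H → W} (hy : d1 σ y = 0) : d2 (chiRep χ) (cup11 β σ a y) = 0 := by
  have h := h93c_leib_d1_glob χ ρ σ β hβ a ha y
  rw [hy] at h
  have h0 : cup12 β σ a (0 : H × H → W) = 0 := by
    funext p
    simp [cup12]
  rw [h0] at h
  exact neg_eq_zero.mp h.symm

variable {L}

/-- cocycle `∪` cocycle is a continuous `2`-cocycle of `k(χ)`. -/
theorem h98g_cup11_mem_Z2 (hL : L.Good) (hβ : IsEquivariant χ ρ σ β) (hσ : IsDisc L σ)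
    {a : H → V} (ha : a ∈ Z1 L ρ) {y : H → W} (hy : y ∈ Z1 L σ) :
    cup11 β σ a y ∈ Z2 L (chiRep χ) := by
  rw [mem_Z2]
  obtain ⟨ha1, ha2⟩ := (mem_Z1 L ρ a).1 ha
  obtain ⟨hy1, hy2⟩ := (mem_Z1 L σ y).1 hy
  exact ⟨h98g_d2_cup11 hβ ha1 hy1, h93c_lc_cup11 σ β hL hσ ha2 hy2⟩

/-- coboundary `∪` cocycle is a continuous coboundary. -/
theorem h98g_cup11_mem_B2_left (hβ : IsEquivariant χ ρ σ β)
    {a : H → V} (ha : a ∈ B1 ρ) {y : H → W} (hy : y ∈ Z1 L σ) :
    cup11 β σ a y ∈ B2 L (chiRep χ) := by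
  obtain ⟨m, rfl⟩ := (mem_B1 ρ a).1 ha
  obtain ⟨hy1, hy2⟩ := (mem_Z1 L σ y).1 hy
  rw [mem_B2]
  refine ⟨h93c_cup01 β m y, h93c_lc_cup01 β m hy2, ?_⟩
  have h := h93c_leib_d1_loc χ ρ σ β hβ m y
  rw [hy1] at h
  have h0 : cup02 β m (0 : H × H → W) = 0 := by
    funext p
    simp [cup02]
  rw [h0, neg_zero, sub_eq_zero] at h
  exact h.symm

/-- cocycle `∪` coboundary is a continuous coboundary. -/
theorem h98g_cup11_mem_B2_right (hβ : IsEquivariant χ ρ σ β) (hσ : IsDisc L σ)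
    {a : H → V} (ha : a ∈ Z1 L ρ) {y : H → W} (hy : y ∈ B1 σ) :
    cup11 β σ a y ∈ B2 L (chiRep χ) := by
  obtain ⟨f, rfl⟩ := (mem_B1 σ y).1 hy
  obtain ⟨ha1, N₁, hN₁, haN⟩ := (mem_Z1 L ρ a).1 ha
  obtain ⟨N₂, hN₂, hfN⟩ := hσ f
  obtain ⟨N, hN, hle⟩ := L.directed N₁ hN₁ N₂ hN₂
  rw [mem_B2]
  refine ⟨fun g => - β (a g) (σ g f), ⟨N, hN, fun g s hs => ?_⟩, ?_⟩
  · simp only
    rw [haN g s (hle hs).1, map_mul, Module.End.mul_apply, hfN s (hle hs).2]
  · funext ⟨g, h⟩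
    have ha' := congrFun ha1 (g, h)
    simp only [d1_apply, Pi.zero_apply] at ha'
    have h2 : a (g * h) = ρ g (a h) + a g := by
      have h3 : ρ g (a h) + a g - a (g * h) = 0 := by
        rw [← ha']
        abel
      exact (sub_eq_zero.mp h3).symm
    have h1 : β (ρ g (a h)) (σ g (σ h f)) = (χ g : k) * β (a h) (σ h f) :=
      hβ g (a h) (σ h f)
    simp only [d1_apply, cup11_apply, d0_apply, chiRep_apply, map_sub, h2, map_add,
      LinearMap.add_apply, map_mul, Module.End.mul_apply, h1]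
    ring

end Gen

section Glob

variable {k : Type} [Field k] (D : Datum k)
variable {V W : Type} [AddCommGroup V] [Module k V] [AddCommGroup W] [Module k W]
variable {ρ : Representation k D.G V} {σ : Representation k D.G W} {β : V →ₗ[k] W →ₗ[k] k}

/-- Equivariance passes to the local groups. -/
theorem h98g_isEquivariant_repAt (hβ : IsEquivariant D.chi ρ σ β) (v : D.P) :
    IsEquivariant (D.chiAt v) (D.repAt ρ v) (D.repAt σ v) β :=
  fun h x w => hβ (D.loc v h) x w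

/-- The restriction of a continuous cocycle is a continuous cocycle. -/
theorem h98g_res1_mem_Z1 (hg : D.Good) (v : D.P) {x : D.G → V} (hx : x ∈ Z1 D.lev ρ) :
    res1 k V (D.loc v) x ∈ Z1 (D.levH v) (D.repAt ρ v) := by
  obtain ⟨h1, h2⟩ := (mem_Z1 D.lev ρ x).1 hx
  rw [mem_Z1]
  refine ⟨?_, h93c_lc_res1 D hg v h2⟩
  rw [h93c_d1_res, h1]
  rfl

/-- The restriction of a coboundary is a coboundary. -/
theorem h98g_res1_mem_B1 (v : D.P) {x : D.G → V} (hx : x ∈ B1 ρ) :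
    res1 k V (D.loc v) x ∈ B1 (D.repAt ρ v) := by
  obtain ⟨m, rfl⟩ := (mem_B1 ρ x).1 hx
  exact (mem_B1 _ _).2 ⟨m, h93c_d0_res D ρ v m⟩

/-- **Reciprocity.**  `∑_v inv_v (res_v x ∪ res_v y) = 0` for continuous global cocycles. -/
theorem h98g_recip (tr : D.CC3 k →ₗ[k] k) (hg : D.Good) (htr : D.TrOK tr)
    (hβ : IsEquivariant D.chi ρ σ β) (hσ : IsDisc D.lev σ)
    {x : D.G → V} (hx : x ∈ Z1 D.lev ρ) {y : D.G → W} (hy : y ∈ Z1 D.lev σ) :
    ∑ v, D.invAt tr v (cup11 β (D.repAt σ v) (res1 k V (D.loc v) x) (res1 k W (D.loc v) y))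
      = 0 := by
  have hz := h98g_cup11_mem_Z2 hg.1 hβ hσ hx hy
  obtain ⟨hz1, hz2⟩ := (mem_Z2 D.lev (chiRep D.chi) _).1 hz
  have hB : D.coneD2 (chiRep D.chi) ((cup11 β σ x y, fun _ => 0) : D.CC2 k)
      ∈ D.BC3 (chiRep D.chi) := by
    refine ⟨(cup11 β σ x y, fun _ => 0), ⟨hz2, ?_⟩, rfl⟩
    intro v _
    exact (lc1 (D.levH v) k k).zero_mem
  have h0 := htr _ hB
  rw [Datum.coneD2_apply, hz1] at h0
  have h1 : ((0 : D.G × D.G × D.G → k), fun v => res2 k k (D.loc v) (cup11 β σ x y)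
      - d1 (D.repAt (chiRep D.chi) v) ((fun _ => 0 : ∀ v : D.P, D.H v → k) v))
      = ((0, fun v => cup11 β (D.repAt σ v) (res1 k V (D.loc v) x) (res1 k W (D.loc v) y)) :
          D.CC3 k) := by
    refine Prod.ext rfl ?_
    funext v
    simp only [map_zero, sub_zero]
    rfl
  rw [h1, h98a_tr_snd] at h0
  exact h0

end Glob

end Fermat.Agent.S56G
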