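import Mathlib

/-!
# S56, block GW-LINALG, leaf GW-PAIR (helper98): the linear algebra

* `h98g_la` : `r : A → E`, `j : B₀ ↪ E`, functionals `Ψ : A' → E^*` vanishing on `r(A) + j(B₀)`:
  `dim A' + dim A + dim B₀ ≤ dim E + dim r⁻¹(j(B₀)) + dim ker Ψ`;
* `h98g_finrank_quot` : `dim (Z / B) + dim B = dim Z` for `B ≤ Z` (quotient of subtypes);
* `h98g_finrank_comap_subtype` : `dim (B.comap Z.subtype) = dim B` for `B ≤ Z`.
-/

set_option autoImplicit false

namespace Fermat.Agent.S56G

open Module

theorem h98g_finrank_comap_subtype {k M : Type*} [Field k] [AddCommGroup M] [Module k M]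
    (Z B : Submodule k M) (hBZ : B ≤ Z) :
    finrank k ↥(B.comap Z.subtype) = finrank k ↥B :=
  (Submodule.comapSubtypeEquivOfLe hBZ).finrank_eq

theorem h98g_finrank_quot {k M : Type*} [Field k] [AddCommGroup M] [Module k M]
    (Z B : Submodule k M) (hBZ : B ≤ Z) [Module.Finite k ↥Z] :
    finrank k (↥Z ⧸ B.comap Z.subtype) + finrank k ↥B = finrank k ↥Z := by
  rw [← h98g_finrank_comap_subtype Z B hBZ]
  exact Submodule.finrank_quotient_add_finrank _

theorem h98g_la {k A A' E B₀ : Type*} [Field k] [AddCommGroup A] [Module k A]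
    [AddCommGroup A'] [Module k A'] [AddCommGroup E] [Module k E] [AddCommGroup B₀]
    [Module k B₀] [FiniteDimensional k A] [FiniteDimensional k A'] [FiniteDimensional k E]
    [FiniteDimensional k B₀]
    (r : A →ₗ[k] E) (j : B₀ →ₗ[k] E) (hj : Function.Injective j)
    (Ψ : A' →ₗ[k] Module.Dual k E)
    (h1 : ∀ y x, Ψ y (r x) = 0) (h2 : ∀ y b, Ψ y (j b) = 0) :
    finrank k A' + finrank k A + finrank k B₀ ≤
      finrank k E + finrank k ↥((LinearMap.range j).comap r) + finrank k ↥(LinearMap.ker Ψ) := by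
  set s : A × B₀ →ₗ[k] E := r.coprod (-j) with hs
  have hΨ : LinearMap.range Ψ ≤ (LinearMap.range s).dualAnnihilator := by
    rintro _ ⟨y, rfl⟩
    rw [Submodule.mem_dualAnnihilator]
    rintro _ ⟨⟨x, b⟩, rfl⟩
    simp [hs, LinearMap.coprod_apply, h1, h2]
  have e1 := LinearMap.finrank_range_add_finrank_ker Ψ
  have e2 := LinearMap.finrank_range_add_finrank_ker s
  have e3 := Subspace.finrank_add_finrank_dualAnnihilator_eq (LinearMap.range s)
  have e4 := Submodule.finrank_mono hΨ
  have e5 : finrank k (A × B₀) = finrank k A + finrank k B₀ := Module.finrank_prod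
  have e6 : finrank k ↥(LinearMap.ker s) ≤ finrank k ↥((LinearMap.range j).comap r) := by
    have hmem : ∀ z : ↥(LinearMap.ker s), (z : A × B₀).1 ∈ (LinearMap.range j).comap r := by
      rintro ⟨⟨x, b⟩, hz⟩
      rw [LinearMap.mem_ker] at hz
      simp only [hs, LinearMap.coprod_apply, LinearMap.neg_apply] at hz
      refine ⟨b, ?_⟩
      have : r x - j b = 0 := by rw [sub_eq_add_neg]; exact hz
      exact (sub_eq_zero.mp this).symm
    let φ : ↥(LinearMap.ker s) →ₗ[k] ↥((LinearMap.range j).comap r) :=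
      LinearMap.codRestrict _ ((LinearMap.fst k A B₀).comp (LinearMap.ker s).subtype) hmem
    refine LinearMap.finrank_le_finrank_of_injective (f := φ) ?_
    rintro ⟨⟨x, b⟩, hz⟩ ⟨⟨x', b'⟩, hz'⟩ h
    have hx : x = x' := congrArg Subtype.val h
    subst hx
    rw [LinearMap.mem_ker] at hz hz'
    simp only [hs, LinearMap.coprod_apply, LinearMap.neg_apply] at hz hz'
    have hb : j b = j b' := by
      have h3 : -j b = -j b' := add_left_cancel (hz.trans hz'.symm)
      exact neg_injective h3
    have := hj hb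
    subst this
    rfl
  omega

end Fermat.Agent.S56G
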