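import Mathlib
import Fermat.Agent.PT.Alg.Tools
import Fermat.Agent.PT.Alg.H42CountGlue
import Fermat.Agent.S56G.H98GWIface
import Fermat.Agent.S56G.H98PairCup
import Fermat.Agent.S56G.H98PairLA

/-!
# S56, block GW-LINALG, leaf GW-PAIR (helper98): the reciprocity inequality

`h98g_pair : H98GwPair`.
-/

set_option autoImplicit false

namespace Fermat.Agent.S56G

open Fermat.Agent.PT Module

section CupLin

variable {k : Type} [Field k] {H : Type} [Group H]
variable {V W : Type} [AddCommGroup V] [Module k V] [AddCommGroup W] [Module k W]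
variable (β : V →ₗ[k] W →ₗ[k] k) (σ : Representation k H W)

theorem h98g_cup11_add_left (b b' : H → V) (y : H → W) :
    cup11 β σ (b + b') y = cup11 β σ b y + cup11 β σ b' y := by
  funext p
  simp [cup11]

theorem h98g_cup11_smul_left (c : k) (b : H → V) (y : H → W) :
    cup11 β σ (c • b) y = c • cup11 β σ b y := by
  funext p
  simp [cup11]

theorem h98g_cup11_add_right (b : H → V) (y y' : H → W) :
    cup11 β σ b (y + y') = cup11 β σ b y + cup11 β σ b y' := by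
  funext p
  simp [cup11]

theorem h98g_cup11_smul_right (c : k) (b : H → V) (y : H → W) :
    cup11 β σ b (c • y) = c • cup11 β σ b y := by
  funext p
  simp [cup11]

theorem h98g_cup11_zero_left (y : H → W) : cup11 β σ (0 : H → V) y = 0 := by
  funext p
  simp [cup11]

end CupLin

section Main

variable {k : Type} [Field k] (D : Datum k) (tr : D.CC3 k →ₗ[k] k)
variable {V : Type} [AddCommGroup V] [Module k V]
variable (ρ : Representation k D.G V) (Ls : ∀ v : D.P, Submodule k (D.H v → V))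

/-- The local pairing of a family of local conditions with a global cocycle of `ρ^D`. -/
noncomputable def h98g_Psi :
    ↥(Z1 D.lev (dualTw D.chi ρ)) →ₗ[k] Module.Dual k (∀ v : D.P, ↥(Ls v)) :=
  LinearMap.mk₂ k
    (fun (y : ↥(Z1 D.lev (dualTw D.chi ρ))) (b : ∀ v : D.P, ↥(Ls v)) =>
      ∑ v, D.invAt tr v (cup11 (Module.Dual.eval k V) (D.repAt (dualTw D.chi ρ) v)
        ((b v : D.H v → V)) (res1 k (Module.Dual k V) (D.loc v) (y : D.G → Module.Dual k V))))
    (fun y y' b => by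
      simp only [Submodule.coe_add, map_add, h98g_cup11_add_right, Finset.sum_add_distrib])
    (fun c y b => by
      simp only [Submodule.coe_smul, map_smul, h98g_cup11_smul_right, smul_eq_mul,
        Finset.mul_sum])
    (fun y b b' => by
      simp only [Pi.add_apply, Submodule.coe_add, map_add, h98g_cup11_add_left,
        Finset.sum_add_distrib])
    (fun c y b => by
      simp only [Pi.smul_apply, Submodule.coe_smul, map_smul, h98g_cup11_smul_left, smul_eq_mul,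
        Finset.mul_sum])

theorem h98g_Psi_apply (y : ↥(Z1 D.lev (dualTw D.chi ρ))) (b : ∀ v : D.P, ↥(Ls v)) :
    h98g_Psi D tr ρ Ls y b =
      ∑ v, D.invAt tr v (cup11 (Module.Dual.eval k V) (D.repAt (dualTw D.chi ρ) v)
        ((b v : D.H v → V)) (res1 k (Module.Dual k V) (D.loc v) (y : D.G → Module.Dual k V))) :=
  rfl

/-- The restriction map from the Selmer cocycles to the family of local conditions. -/
noncomputable def h98g_r : ↥(h47g_ZSel D ρ Ls) →ₗ[k] (∀ v : D.P, ↥(Ls v)) :=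
  LinearMap.pi fun v =>
    LinearMap.codRestrict (Ls v) ((res1 k V (D.loc v)).comp (h47g_ZSel D ρ Ls).subtype)
      (fun x => ((h47g_mem_ZSel D ρ Ls x.1).1 x.2).2 v)

theorem h98g_r_apply (x : ↥(h47g_ZSel D ρ Ls)) (v : D.P) :
    ((h98g_r D ρ Ls x v : ↥(Ls v)) : D.H v → V) = res1 k V (D.loc v) (x : D.G → V) := rfl

/-- The inclusion of the local coboundaries into the local conditions. -/
noncomputable def h98g_j (hB : ∀ v, B1 (D.repAt ρ v) ≤ Ls v) :
    (∀ v : D.P, ↥(B1 (D.repAt ρ v))) →ₗ[k] (∀ v : D.P, ↥(Ls v)) :=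
  LinearMap.pi fun v => (Submodule.inclusion (hB v)).comp (LinearMap.proj v)

theorem h98g_j_apply (hB : ∀ v, B1 (D.repAt ρ v) ≤ Ls v) (b : ∀ v : D.P, ↥(B1 (D.repAt ρ v)))
    (v : D.P) : ((h98g_j D ρ Ls hB b v : ↥(Ls v)) : D.H v → V) = (b v : D.H v → V) := rfl

theorem h98g_j_injective (hB : ∀ v, B1 (D.repAt ρ v) ≤ Ls v) :
    Function.Injective (h98g_j D ρ Ls hB) := by
  intro b b' h
  funext v
  apply Subtype.ext
  have := congrArg (fun e : ∀ v : D.P, ↥(Ls v) => ((e v : ↥(Ls v)) : D.H v → V)) h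
  simpa [h98g_j_apply] using this

variable {D ρ Ls}

/-- (K1) reciprocity: the pairing vanishes on the restrictions of the Selmer cocycles. -/
theorem h98g_Psi_r (hg : D.Good) (htr : D.TrOK tr) [FiniteDimensional k V]
    (hρ : IsDisc D.lev ρ) (y : ↥(Z1 D.lev (dualTw D.chi ρ))) (x : ↥(h47g_ZSel D ρ Ls)) :
    h98g_Psi D tr ρ Ls y (h98g_r D ρ Ls x) = 0 := by
  rw [h98g_Psi_apply]
  have hσ : IsDisc D.lev (dualTw D.chi ρ) := h57_isDisc_dualTw D.lev D.chi hg.2.2.2.2 ρ hρ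
  exact h98g_recip D tr hg htr (h98g_isEquivariant_eval D.chi ρ) hσ
    ((h47g_mem_ZSel D ρ Ls x.1).1 x.2).1 y.2

/-- (K2) the pairing vanishes on the local coboundaries. -/
theorem h98g_Psi_j (hg : D.Good) (htr : D.TrOK tr) (hB : ∀ v, B1 (D.repAt ρ v) ≤ Ls v)
    (y : ↥(Z1 D.lev (dualTw D.chi ρ))) (b : ∀ v : D.P, ↥(B1 (D.repAt ρ v))) :
    h98g_Psi D tr ρ Ls y (h98g_j D ρ Ls hB b) = 0 := by
  rw [h98g_Psi_apply]
  refine Finset.sum_eq_zero fun v _ => ?_
  rw [h98g_j_apply]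
  refine h57_invOK D tr htr v _ ?_
  exact h98g_cup11_mem_B2_left
    (h98g_isEquivariant_repAt D (h98g_isEquivariant_eval D.chi ρ) v) (b v).2
    (h98g_res1_mem_Z1 D hg v y.2)

/-- (K3) the kernel of the pairing is the space of dual Selmer cocycles. -/
theorem h98g_ker_Psi (hg : D.Good) (htr : D.TrOK tr) [FiniteDimensional k V]
    (hInj : ∀ v, ∀ z ∈ Z2 (D.levH v) (chiRep (D.chiAt v)), D.invAt tr v z = 0 →
      z ∈ B2 (D.levH v) (chiRep (D.chiAt v)))
    (hρ : IsDisc D.lev ρ) (hZ : ∀ v, Ls v ≤ Z1 (D.levH v) (D.repAt ρ v)) :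
    LinearMap.ker (h98g_Psi D tr ρ Ls) =
      (h47g_ZSel D (dualTw D.chi ρ) (fun v => h47g_ann D ρ v (Ls v))).comap
        (Z1 D.lev (dualTw D.chi ρ)).subtype := by
  classical
  have hσ : IsDisc D.lev (dualTw D.chi ρ) := h57_isDisc_dualTw D.lev D.chi hg.2.2.2.2 ρ hρ
  ext y
  rw [LinearMap.mem_ker, Submodule.mem_comap, h47g_mem_ZSel]
  constructor
  · intro h
    refine ⟨y.2, fun v => ?_⟩
    rw [h47g_mem_ann]
    refine ⟨h98g_res1_mem_Z1 D hg v y.2, fun b hb => ?_⟩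
    have hz : cup11 (Module.Dual.eval k V) (D.repAt (dualTw D.chi ρ) v) b
        (res1 k (Module.Dual k V) (D.loc v) (y : D.G → Module.Dual k V))
        ∈ Z2 (D.levH v) (chiRep (D.chiAt v)) :=
      h98g_cup11_mem_Z2 (hg.2.1 v)
        (h98g_isEquivariant_repAt D (h98g_isEquivariant_eval D.chi ρ) v)
        (h57_isDisc_repAt D hg v _ hσ) (hZ v hb) (h98g_res1_mem_Z1 D hg v y.2)
    refine hInj v _ hz ?_
    have h1 := congrArg (fun f : Module.Dual k (∀ v : D.P, ↥(Ls v)) =>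
      f (Pi.single v ⟨b, hb⟩)) h
    simp only [LinearMap.zero_apply] at h1
    rw [h98g_Psi_apply, Finset.sum_eq_single v] at h1
    · simpa using h1
    · intro w _ hw
      rw [Pi.single_eq_of_ne hw]
      simp [h98g_cup11_zero_left]
    · intro h
      exact absurd (Finset.mem_univ v) h
  · rintro ⟨-, h⟩
    refine LinearMap.ext fun b => ?_
    rw [h98g_Psi_apply, LinearMap.zero_apply]
    refine Finset.sum_eq_zero fun v _ => ?_
    exact h57_invOK D tr htr v _ (((h47g_mem_ann D ρ v (Ls v) _).1 (h v)).2 _ (b v).2)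

theorem h98g_mem_ZSha1 (f : D.G → V) :
    f ∈ D.ZSha1 ρ ↔ f ∈ Z1 D.lev ρ ∧ ∀ v, res1 k V (D.loc v) f ∈ B1 (D.repAt ρ v) := by
  simp [Datum.ZSha1, Submodule.mem_iInf]

/-- (K4) the Selmer cocycles which are locally coboundaries. -/
theorem h98g_comap_r (hB : ∀ v, B1 (D.repAt ρ v) ≤ Ls v) :
    (LinearMap.range (h98g_j D ρ Ls hB)).comap (h98g_r D ρ Ls) =
      (D.ZSha1 ρ).comap (h47g_ZSel D ρ Ls).subtype := by
  ext x
  rw [Submodule.mem_comap, Submodule.mem_comap, LinearMap.mem_range, h98g_mem_ZSha1]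
  have hx := (h47g_mem_ZSel D ρ Ls x.1).1 x.2
  constructor
  · rintro ⟨b, hb⟩
    refine ⟨hx.1, fun v => ?_⟩
    have := congrArg (fun e : ∀ v : D.P, ↥(Ls v) => ((e v : ↥(Ls v)) : D.H v → V)) hb
    simp only [h98g_j_apply, h98g_r_apply] at this
    change res1 k V (D.loc v) (x : D.G → V) ∈ B1 (D.repAt ρ v)
    rw [← this]
    exact (b v).2
  · rintro ⟨-, h⟩
    refine ⟨fun v => ⟨res1 k V (D.loc v) (x : D.G → V), h v⟩, ?_⟩
    funext v
    apply Subtype.ext
    rfl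

end Main

/-- **GW-PAIR**: the reciprocity inequality. -/
theorem h98g_pair : H98GwPair := by
  intro k _ D tr hg htr hInj V _ _ _ ρ hρ hH1 hH1' Ls hB hZ hfin
  classical
  have hσ : IsDisc D.lev (dualTw D.chi ρ) := h57_isDisc_dualTw D.lev D.chi hg.2.2.2.2 ρ hρ
  have hZ1 : Module.Finite k ↥(Z1 D.lev ρ) := h42g_finite_Z1 D.lev ρ hH1
  have hZ1' : Module.Finite k ↥(Z1 D.lev (dualTw D.chi ρ)) := h42g_finite_Z1 D.lev _ hH1'
  have hle : h47g_ZSel D ρ Ls ≤ Z1 D.lev ρ := inf_le_left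
  have hle' : h47g_ZSel D (dualTw D.chi ρ) (fun v => h47g_ann D ρ v (Ls v))
      ≤ Z1 D.lev (dualTw D.chi ρ) := inf_le_left
  have hfz : Module.Finite k ↥(h47g_ZSel D ρ Ls) := Submodule.finiteDimensional_of_le hle
  have hfz' : Module.Finite k
      ↥(h47g_ZSel D (dualTw D.chi ρ) (fun v => h47g_ann D ρ v (Ls v))) :=
    Submodule.finiteDimensional_of_le hle'
  have : ∀ v, Module.Finite k ↥(Ls v) := hfin
  have : ∀ v, Module.Finite k ↥(B1 (D.repAt ρ v)) := fun v => by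
    unfold B1
    infer_instance
  refine ⟨hfz, hfz', ?_⟩
  have hB1Z : B1 ρ ≤ h47g_ZSel D ρ Ls := by
    intro x hx
    rw [h47g_mem_ZSel]
    exact ⟨Tools.B1_le_Z1 hρ hx, fun v => hB v (h98g_res1_mem_B1 D v hx)⟩
  have hB1S : B1 ρ ≤ D.ZSha1 ρ := by
    intro x hx
    rw [h98g_mem_ZSha1]
    exact ⟨Tools.B1_le_Z1 hρ hx, fun v => h98g_res1_mem_B1 D v hx⟩
  have hSZ : D.ZSha1 ρ ≤ h47g_ZSel D ρ Ls := by
    intro x hx
    rw [h98g_mem_ZSha1] at hx
    rw [h47g_mem_ZSel]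
    exact ⟨hx.1, fun v => hB v (hx.2 v)⟩
  have hB1Z' : B1 (dualTw D.chi ρ)
      ≤ h47g_ZSel D (dualTw D.chi ρ) (fun v => h47g_ann D ρ v (Ls v)) := by
    intro y hy
    rw [h47g_mem_ZSel]
    refine ⟨Tools.B1_le_Z1 hσ hy, fun v => ?_⟩
    rw [h47g_mem_ann]
    refine ⟨h98g_res1_mem_Z1 D hg v (Tools.B1_le_Z1 hσ hy), fun b hb => ?_⟩
    exact h98g_cup11_mem_B2_right
      (h98g_isEquivariant_repAt D (h98g_isEquivariant_eval D.chi ρ) v)
      (h57_isDisc_repAt D hg v _ hσ) (hZ v hb) (h98g_res1_mem_B1 D v hy)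
  have : Module.Finite k ↥(D.ZSha1 ρ) := Submodule.finiteDimensional_of_le hSZ
  have q1 : finrank k (h47g_HSel D ρ Ls) + finrank k ↥(B1 ρ)
      = finrank k ↥(h47g_ZSel D ρ Ls) := h98g_finrank_quot _ _ hB1Z
  have q2 : finrank k (HH1 D.lev (dualTw D.chi ρ)) + finrank k ↥(B1 (dualTw D.chi ρ))
      = finrank k ↥(Z1 D.lev (dualTw D.chi ρ)) := h98g_finrank_quot _ _ (Tools.B1_le_Z1 hσ)
  have q3 : finrank k (h47g_HSel D (dualTw D.chi ρ) (fun v => h47g_ann D ρ v (Ls v)))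
      + finrank k ↥(B1 (dualTw D.chi ρ))
      = finrank k ↥(h47g_ZSel D (dualTw D.chi ρ) (fun v => h47g_ann D ρ v (Ls v))) :=
    h98g_finrank_quot _ _ hB1Z'
  have q4 : finrank k (D.Sha1 ρ) + finrank k ↥(B1 ρ) = finrank k ↥(D.ZSha1 ρ) :=
    h98g_finrank_quot _ _ hB1S
  have la := h98g_la (h98g_r D ρ Ls) (h98g_j D ρ Ls hB) (h98g_j_injective D ρ Ls hB)
    (h98g_Psi D tr ρ Ls) (fun y x => h98g_Psi_r tr hg htr hρ y x)
    (fun y b => h98g_Psi_j tr hg htr hB y b)
  rw [h98g_comap_r hB, h98g_ker_Psi tr hg htr hInj hρ hZ,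
    h98g_finrank_comap_subtype _ _ hSZ, h98g_finrank_comap_subtype _ _ hle',
    Module.finrank_pi_fintype, Module.finrank_pi_fintype] at la
  omega

end Fermat.Agent.S56G
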