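import Fermat.Agent.S56G.H98H2Iface
import Fermat.Agent.PT.Alg.H93Count
import Fermat.Agent.PT.Alg.H42CountGlue
import Fermat.Agent.PT.Alg.ToolsSES

/-!
# S56, block GW-LINALG, leaf GW-CONE (helper9, prefix `h9g_`)

`h9g_cone : H98GwCone` — `dim H¹_c(ρ) + h⁰(ρ) = dim Ш¹(ρ) + ∑_v h⁰_v(ρ)`: the cone sequence
`0 → H⁰ → ⊕_v H⁰_v → H¹_c → Ш¹ → 0`.

Proof on the level of cone cocycles `Z = Z¹_c(ρ)` (finite dimensional):
* `φ : Z → Ш¹` (`h93c_phi`) is surjective, so `dim Z = dim Ш¹ + dim ker φ`;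
* `ker φ` is the range of `j : V × ∏_v H⁰_v → Z`, `(α, b) ↦ (d⁰ α, (α + b_v)_v)`, and `ker j` is
  the range of the injective map `H⁰ → V × ∏_v H⁰_v`, `α ↦ (α, (-α)_v)`;
* the coboundaries in `Z` are the range of the injective map `α ↦ j (α, 0)` (there is a place).
-/

set_option autoImplicit false

open ExtCitation

noncomputable section

namespace Fermat.Agent.S56G

open Fermat.Agent.PT Fermat.Agent.PT.Tools

section Cone

variable {k : Type} [Field k] (D : Datum k) {V : Type} [AddCommGroup V] [Module k V]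
  (ρ : Representation k D.G V)

/-- restriction of `d⁰`. -/
theorem h9g_res1_d0 (v : D.P) (α : V) :
    res1 k V (D.loc v) (d0 ρ α) = d0 (D.repAt ρ v) α := rfl

/-- global invariants are local invariants. -/
theorem h9g_inv_res (v : D.P) {α : V} (hα : α ∈ ρ.invariants) :
    α ∈ (D.repAt ρ v).invariants := fun h => hα (D.loc v h)

/-- `(α, b) ↦ (d⁰ α, (α + b_v)_v)`. -/
def h9g_j : V × (∀ v : D.P, ↥(D.repAt ρ v).invariants) →ₗ[k] D.CC1 V :=
  LinearMap.prod (d0 ρ ∘ₗ LinearMap.fst k V _)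
    (LinearMap.pi fun v => LinearMap.fst k V _ +
      (D.repAt ρ v).invariants.subtype ∘ₗ LinearMap.proj v ∘ₗ LinearMap.snd k V _)

theorem h9g_j_apply (x : V × (∀ v : D.P, ↥(D.repAt ρ v).invariants)) :
    h9g_j D ρ x = (d0 ρ x.1, fun v => x.1 + (x.2 v : V)) := rfl

theorem h9g_j_mem (hρ : IsDisc D.lev ρ) (x : V × (∀ v : D.P, ↥(D.repAt ρ v).invariants)) :
    h9g_j D ρ x ∈ D.ZC1 ρ := by
  refine ⟨?_, ⟨isLC1_d0 hρ x.1, Submodule.mem_top⟩⟩
  rw [SetLike.mem_coe, LinearMap.mem_ker, Datum.coneD1_apply, Prod.mk_eq_zero]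
  refine ⟨d1_d0 ρ x.1, funext fun v => ?_⟩
  have hb : d0 (D.repAt ρ v) (x.2 v : V) = 0 := (d0_eq_zero_iff _ _).2 (x.2 v).2
  simp only [Pi.zero_apply, h9g_j_apply]
  rw [map_add, hb, add_zero, h9g_res1_d0, sub_self]

/-- `j` as a map into the cone cocycles. -/
def h9g_jZ (hρ : IsDisc D.lev ρ) :
    V × (∀ v : D.P, ↥(D.repAt ρ v).invariants) →ₗ[k] ↥(D.ZC1 ρ) :=
  LinearMap.codRestrict (D.ZC1 ρ) (h9g_j D ρ) (h9g_j_mem D ρ hρ)

theorem h9g_range_jZ (hρ : IsDisc D.lev ρ) :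
    LinearMap.range (h9g_jZ D ρ hρ) = LinearMap.ker (h93c_phi D ρ) := by
  ext z
  rw [LinearMap.mem_ker, h93c_phi_eq_zero_iff]
  constructor
  · rintro ⟨x, rfl⟩
    exact ⟨x.1, rfl⟩
  · rintro ⟨α, hα⟩
    have hz : D.coneD1 ρ z.1 = 0 := z.2.1
    rw [Datum.coneD1_apply, Prod.mk_eq_zero] at hz
    have hb : ∀ v, (z.1.2 v - α) ∈ (D.repAt ρ v).invariants := by
      intro v
      rw [← d0_eq_zero_iff, map_sub, sub_eq_zero]
      have h1 := congrFun hz.2 v
      simp only [Pi.zero_apply] at h1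
      rw [← sub_eq_zero.mp h1, ← hα]
      rfl
    refine ⟨(α, fun v => ⟨z.1.2 v - α, hb v⟩), ?_⟩
    apply Subtype.ext
    refine Prod.ext hα (funext fun v => ?_)
    change α + (z.1.2 v - α) = z.1.2 v
    abel

/-- `α ↦ (α, (-α)_v)`. -/
def h9g_m : ↥ρ.invariants →ₗ[k] V × (∀ v : D.P, ↥(D.repAt ρ v).invariants) where
  toFun α := ((α : V), fun v => ⟨-(α : V), h9g_inv_res D ρ v (neg_mem α.2)⟩)
  map_add' α β := by
    refine Prod.ext rfl (funext fun v => Subtype.ext ?_)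
    change -((α : V) + (β : V)) = -(α : V) + -(β : V)
    abel
  map_smul' c α := by
    refine Prod.ext rfl (funext fun v => Subtype.ext ?_)
    change -(c • (α : V)) = c • -(α : V)
    rw [smul_neg]

theorem h9g_m_injective : Function.Injective (h9g_m D ρ) := by
  intro α β h
  exact Subtype.ext (congrArg Prod.fst h)

theorem h9g_range_m (hρ : IsDisc D.lev ρ) :
    LinearMap.range (h9g_m D ρ) = LinearMap.ker (h9g_jZ D ρ hρ) := by
  ext x
  rw [LinearMap.mem_ker]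
  constructor
  · rintro ⟨α, rfl⟩
    apply Subtype.ext
    refine Prod.ext ?_ (funext fun v => ?_)
    · exact (d0_eq_zero_iff ρ _).2 α.2
    · change (α : V) + -(α : V) = 0
      exact add_neg_cancel _
  · intro hx
    have h1 : h9g_j D ρ x = 0 := congrArg Subtype.val hx
    rw [h9g_j_apply, Prod.mk_eq_zero] at h1
    have hα : x.1 ∈ ρ.invariants := (d0_eq_zero_iff ρ _).1 h1.1
    refine ⟨⟨x.1, hα⟩, ?_⟩
    refine Prod.ext rfl (funext fun v => Subtype.ext ?_)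
    have h2 : x.1 + (x.2 v : V) = 0 := congrFun h1.2 v
    change -x.1 = (x.2 v : V)
    exact (eq_neg_of_add_eq_zero_right h2).symm

/-- `α ↦ j (α, 0)`, the cone coboundary of `α` as a cone cocycle. -/
def h9g_cZ (hρ : IsDisc D.lev ρ) : V →ₗ[k] ↥(D.ZC1 ρ) :=
  h9g_jZ D ρ hρ ∘ₗ LinearMap.inl k V _

theorem h9g_cZ_val (hρ : IsDisc D.lev ρ) (α : V) :
    ((h9g_cZ D ρ hρ α : ↥(D.ZC1 ρ)) : D.CC1 V) = D.coneD0 ρ α := by
  refine Prod.ext rfl (funext fun v => ?_)
  change α + ((0 : ↥(D.repAt ρ v).invariants) : V) = α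
  rw [Submodule.coe_zero, add_zero]

theorem h9g_cZ_injective (hP : Nonempty D.P) (hρ : IsDisc D.lev ρ) :
    Function.Injective (h9g_cZ D ρ hρ) := by
  intro α β h
  obtain ⟨v⟩ := hP
  have h1 : D.coneD0 ρ α = D.coneD0 ρ β := by
    rw [← h9g_cZ_val D ρ hρ, ← h9g_cZ_val D ρ hρ, h]
  exact congrFun (congrArg Prod.snd h1) v

theorem h9g_range_cZ (hρ : IsDisc D.lev ρ) :
    LinearMap.range (h9g_cZ D ρ hρ) = (D.BC1 ρ).comap (D.ZC1 ρ).subtype := by
  ext z
  rw [Submodule.mem_comap]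
  constructor
  · rintro ⟨α, rfl⟩
    exact ⟨α, (h9g_cZ_val D ρ hρ α).symm⟩
  · rintro ⟨α, hα⟩
    refine ⟨α, Subtype.ext ?_⟩
    rw [h9g_cZ_val]
    exact hα

end Cone

/-- **GW-CONE.** -/
theorem h9g_cone : H98GwCone := by
  intro k _ D hg V _ _ _ ρ hρ hfin
  have hZfin : Module.Finite k ↥(D.ZC1 ρ) := h42g_finite_ZC1 D ρ hfin
  have hShafin : Module.Finite k (D.Sha1 ρ) :=
    Module.Finite.of_surjective (h93c_phi D ρ) (h93c_phi_surjective D ρ)
  refine ⟨hShafin, ?_⟩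
  have e1 : Module.finrank k (D.Sha1 ρ) + Module.finrank k ↥(LinearMap.ker (h93c_phi D ρ)) =
      Module.finrank k ↥(D.ZC1 ρ) := by
    have h := LinearMap.finrank_range_add_finrank_ker (h93c_phi D ρ)
    rw [LinearMap.range_eq_top.mpr (h93c_phi_surjective D ρ), finrank_top] at h
    exact h
  have e2 : Module.finrank k ↥(LinearMap.ker (h93c_phi D ρ)) +
      Module.finrank k ↥ρ.invariants =
      Module.finrank k (V × (∀ v : D.P, ↥(D.repAt ρ v).invariants)) := by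
    have h := LinearMap.finrank_range_add_finrank_ker (h9g_jZ D ρ hρ)
    rw [h9g_range_jZ, ← h9g_range_m D ρ hρ,
      LinearMap.finrank_range_of_inj (h9g_m_injective D ρ)] at h
    exact h
  have e3 : Module.finrank k (V × (∀ v : D.P, ↥(D.repAt ρ v).invariants)) =
      Module.finrank k V + ∑ v, Module.finrank k ↥(D.repAt ρ v).invariants := by
    rw [Module.finrank_prod, Module.finrank_pi_fintype]
  have e4 : Module.finrank k (D.HC1 ρ) +
      Module.finrank k ↥((D.BC1 ρ).comap (D.ZC1 ρ).subtype) =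
      Module.finrank k ↥(D.ZC1 ρ) :=
    Submodule.finrank_quotient_add_finrank _
  have e5 : Module.finrank k ↥((D.BC1 ρ).comap (D.ZC1 ρ).subtype) = Module.finrank k V := by
    rw [← h9g_range_cZ D ρ hρ]
    exact LinearMap.finrank_range_of_inj (h9g_cZ_injective D ρ hg.2.2.1 hρ)
  omega

end Fermat.Agent.S56G
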