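import Mathlib
import Fermat.Agent.S56G.H98GWAsm
import Fermat.Agent.S56G.H98H2Asm
import Fermat.Agent.S56G.H98Pair
import Fermat.Agent.S56G.H9GwCone
import Fermat.Agent.S56G.H52HC1Iso
import Fermat.Agent.S56G.H96CNeg

/-!
# S56, block GW-LINALG (helper98): wiring of the landed leaves

Everything except `H98GwPerfDim` (leaf GW-PERFDIM) is landed:

* `h98g_h2Formula_ofPD : H98GwPerfDim → H47H2Formula`;
* `h98g_gwOfGE_ofPD    : H98GwPerfDim → H47GWOfGE`;
* `h98g_gw_ofPD        : H98GwPerfDim → H47TateGE → H47GW`.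
-/

set_option autoImplicit false

namespace Fermat.Agent.S56G

open Fermat.Agent.PT

theorem h98g_h2Formula_ofPD (hPD : H98GwPerfDim) : H47H2Formula :=
  h98g_h2Formula_of h9g_cone hPD h52g_hc1Iso

theorem h98g_gwOfGE_ofPD (hPD : H98GwPerfDim) : H47GWOfGE :=
  h98g_gwOfGE_of h98g_pair (h98g_gwH2_of h9g_cone hPD h52g_hc1Iso) h96n_cNegDual

theorem h98g_gw_ofPD (hPD : H98GwPerfDim) (hGE : H47TateGE) : H47GW :=
  h98g_gwOfGE_ofPD hPD hGE

end Fermat.Agent.S56G
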