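import Mathlib
import Fermat.Agent.S56G.H98GWWire
import Fermat.Agent.S56G.H70PerfDim

/-!
# S56, block GW-LINALG (helper98): the final statements

* `h98g_h2Formula : H47H2Formula`   (T2 = EQ-H2, unconditional);
* `h98g_gwOfGE    : H47GWOfGE`      (`H47TateGE → H47GW`, unconditional);
* `h98g_finH2`    : `H²(G_S, σ)` is finite for every finite dimensional discrete `σ`.
-/

set_option autoImplicit false

open ExtCitation

namespace Fermat.Agent.S56G

open Fermat.Agent.PT

/-- **T2 (the `H²`-formula)**, unconditional. -/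
theorem h98g_h2Formula : H47H2Formula := h98g_h2Formula_ofPD h70p_perfDim

/-- **GW-LINALG**: `H47TateGE → H47GW`, unconditional. -/
theorem h98g_gwOfGE : H47GWOfGE := h98g_gwOfGE_ofPD h70p_perfDim

/-- `H¹` and `H²` of `G_{ℚ,S}` are finite for every finite dimensional discrete representation
(`p` odd, `p ∈ S`). -/
theorem h98g_finH12 (p : ℕ) [Fact p.Prime] (hp2 : p ≠ 2) (S : Finset Nat.Primes)
    (hpS : pPrime p ∈ S) (V : Type) [AddCommGroup V] [Module (ZMod p) V]
    [FiniteDimensional (ZMod p) V] (σ : Representation (ZMod p) GQ V)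
    (hσ : IsDisc (levQ S) σ) : FinH12 (levQ S) σ := by
  obtain ⟨tr, htr, hgood, hVV, hθ1, -⟩ := h98g_frame p hp2 S hpS
  have hσD : IsDisc (DQ p S).lev (dualTw (DQ p S).chi σ) :=
    h57_isDisc_dualTw (levQ S) (cycloChar p) hgood.2.2.2.2 σ hσ
  have hfHC : Module.Finite (ZMod p) ((DQ p S).HC1 (dualTw (DQ p S).chi σ)) :=
    h42g_finite_HC1 (DQ p S) _ (hVV _ _ hσD).1
  exact ⟨(hVV V σ hσ).1,
    (h70p_perfDim (ZMod p) (DQ p S) tr hgood htr V σ hσ hfHC (hθ1 V σ hσ)).1⟩

end Fermat.Agent.S56G
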