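import Fermat.Agent.S56G.TateAsm
import Fermat.Agent.S56G.EqAsm
import Fermat.Agent.S56G.BA.H87Final
import Fermat.Agent.S56G.H43PhiReg
import Fermat.Agent.S56G.H57ShapUB
import Fermat.Agent.S56G.H96CNeg
import Fermat.Agent.S56G.H98GWFinal
import Fermat.Agent.S56G.H68EqTrans
import Fermat.Agent.S56G.H33AnnTop

/-!
# S56, block GW + TATE-EC (architect helper47): the wiring

All landed leaves are plugged in; the ONLY remaining inputs of `H47GW` are

* `H47PhiAdd`  (block ADD: additivity of `Φ_S` in short exact sequences),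
* `H47EqArith` (block EQ-ARITH: equivariant Kummer theory + the `S`-unit lattice).

`h47g_gw_of : H47PhiAdd → H47EqArith → H47GW`,
`h47g_tateGE_of : H47PhiAdd → H47EqArith → H47TateGE`.
-/

set_option autoImplicit false

namespace Fermat.Agent.S56G

/-- `Φ_S((Ind_C^G τ)^D) ≥ 0` from EQ-ARITH. -/
theorem h47g_eqDual_of (hArith : H47EqArith) : H47EqDual :=
  h47g_eqDualAsm h57s_shapUB hArith h98g_h2Formula h96n_cNegDual

/-- The equivariant base case from EQ-ARITH. -/
theorem h47g_eqBase_of (hArith : H47EqArith) : H47EqBase :=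
  h68t_eqBaseOfDual (h47g_eqDual_of hArith)

/-- Tate's global Euler characteristic (as an inequality) from ADD and EQ-ARITH. -/
theorem h47g_tateGE_of (hAdd : H47PhiAdd) (hArith : H47EqArith) : H47TateGE :=
  h47g_tateAsm h87h_brauerArtin hAdd h43p_phiReg (h47g_eqBase_of hArith)

/-- The Greenberg–Wiles inequality from ADD and EQ-ARITH. -/
theorem h47g_gw_of (hAdd : H47PhiAdd) (hArith : H47EqArith) : H47GW :=
  h98g_gwOfGE (h47g_tateGE_of hAdd hArith)

end Fermat.Agent.S56G
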