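import Mathlib
import Fermat.Agent.S56G.EqIface

/-!
# S56, block EQ-ARITH of TATE-EC (sub-architect helper93): frozen interfaces

Target: `H47EqArith` (`S56G/EqIface.lean`).  Every declaration is a definition or a frozen
interface `Prop`; nothing is assumed.

Notation: `U₀ = G_K ⊲ G_ℚ`, `G = G_ℚ / U₀ = Gal(K/ℚ)`, `μ_p ⊆ K`, `C ≤ G` of order prime to `p`,
`(Y, τ)` a representation of `C`, `W = Ind_C^G τ`.  For representations `N` of `C` write
`m(N) = dim Hom_C(Y, N)` (`h93e_hom τ ν`).

## The chain  (`h93e_eqArith_of`, assembly `H93EqArithAsm`)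

* `H93EqPkg`  (THE ARITHMETIC, blocks K + C + T + L of finding 1130): for `S ⊇ T₀` there are
  - `A` = the group of `S`-units of `K` (additively), finitely generated, with its action `α`
    of `G`;
  - `X` = a finite `G`-set covering the places of `K` above `S ∪ {∞}`, with base points `pt`
    fixed by the local groups (`pt (some q)`) resp. by complex conjugation (`pt none`);
  - `L : A → ℝ^X` the logarithms of the absolute values: equivariant, kernel = torsion,
    discrete image, weighted product formula `∑ w_x L(a)_x = 0`;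
  - `z = ζ_p` generating `A[p]`, on which `G` acts through the cyclotomic character;
  - `κ : A → Z¹(U₀, 𝔽_p)` the Kummer map: kernel `p A`, image = all cocycles of level `S`
    (this is where `Cl_S(K)[p] = 0`, i.e. `S ⊇ T₀`, is used), equivariant for the twisted
    conjugation action.
* `H93EqLatAlg` (PURE ALGEBRA, blocks T + L + R): for such a package over a finite group `C` of
  order prime to `p`: `m(A/p) + m(𝔽_p) ≤ m(𝔽_p(χ)) + m(𝔽_p^X)`
  (`0 → μ/p → A/p → Λ/p → 0`, `Λ = A/tors`; `Λ ⊗ ℝ ⊕ ℝ ↪ ℝ^X` equivariantly; averaging +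
  density of `ℚ` give an equivariant injection `Λ ⊕ ℤ ↪ ℤ^X`; lattice lemma).
* `H93EqFrobAlg` (PURE ALGEBRA, block F): `dim W^G ≤ m(𝔽_p)`, `m(𝔽_p(χ)) ≤ dim (W^D)^G`,
  `m(𝔽_p^X) ≤ ∑_i dim W^{D_i}` for a `G`-set `X` covered by the orbits of points `pt i` fixed
  by the subgroups `D_i`.
-/

set_option autoImplicit false

open ExtCitation

noncomputable section

namespace Fermat.Agent.S56G

open Fermat.Agent.PT

/-! ## Definitions -/

section Alg

variable {k : Type} [Field k] {Γ : Type} [Group Γ]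

/-- `Hom_Γ(Y, N)`: the equivariant linear maps. -/
def h93e_hom {Y N : Type} [AddCommGroup Y] [Module k Y] [AddCommGroup N] [Module k N]
    (τ : Representation k Γ Y) (ν : Representation k Γ N) : Submodule k (Y →ₗ[k] N) where
  carrier := {Φ | ∀ g y, Φ (τ g y) = ν g (Φ y)}
  add_mem' := by
    intro Φ Φ' h h' g y
    simp only [LinearMap.add_apply, h g y, h' g y, map_add]
  zero_mem' := by
    intro g y
    simp
  smul_mem' := by
    intro a Φ h g y
    simp only [LinearMap.smul_apply, h g y, map_smul]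

lemma h93e_mem_hom {Y N : Type} [AddCommGroup Y] [Module k Y] [AddCommGroup N] [Module k N]
    (τ : Representation k Γ Y) (ν : Representation k Γ N) (Φ : Y →ₗ[k] N) :
    Φ ∈ h93e_hom τ ν ↔ ∀ g y, Φ (τ g y) = ν g (Φ y) := Iff.rfl

variable (k)

/-- The permutation representation on the functions `X → k` of an action
`σ : Γ →* Equiv.Perm X`: `(g f)(x) = f(σ(g)⁻¹ x)`. -/
def h93e_perm {X : Type} (σ : Γ →* Equiv.Perm X) : Representation k Γ (X → k) where
  toFun g := LinearMap.funLeft k k (fun x : X => (σ g)⁻¹ x)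
  map_one' := by
    ext f x
    simp [LinearMap.funLeft_apply]
  map_mul' g h := by
    ext f x
    simp [LinearMap.funLeft_apply, mul_inv_rev]

@[simp] lemma h93e_perm_apply {X : Type} (σ : Γ →* Equiv.Perm X) (g : Γ) (f : X → k) (x : X) :
    h93e_perm k σ g f x = f ((σ g)⁻¹ x) := rfl

end Alg

/-! ## Frozen interfaces -/

/-- **EQA-R (the lattice inequality, pure algebra).**  `C` a finite group of order prime to `p`,
`A` a finitely generated abelian group with an action `α` of `C`, `X` a finite nonempty `C`-set,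
`L : A → ℝ^X` additive, equivariant, with kernel the torsion of `A`, discrete image, contained in
the hyperplane `∑ w_x t_x = 0` (`w > 0`); `A[p]` is generated by `z ≠ 0`, on which `C` acts
through `χ`; `κ : A → H` additive with kernel `p A`; `M` = the linear maps `Φ : Y → κ(A)` which
are equivariant for the action induced by `α`.  Then `M` is finite dimensional and
`dim M + m(𝔽_p) ≤ m(𝔽_p(χ)) + m(𝔽_p^X)`. -/
def H93EqLatAlg : Prop :=
  ∀ (p : ℕ) [Fact p.Prime] (C : Type) [Group C] [Finite C], ¬ p ∣ Nat.card C →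
    ∀ (A : Type) [AddCommGroup A] [Module.Finite ℤ A] (α : Representation ℤ C A)
      (X : Type) [Fintype X] [Nonempty X] (σ : C →* Equiv.Perm X)
      (L : A →+ (X → ℝ)) (w : X → ℝ),
      (∀ c a x, L (α c a) (σ c x) = L a x) →
      (∀ a, L a = 0 ↔ ∃ n : ℕ, 0 < n ∧ n • a = 0) →
      (∃ ε : ℝ, 0 < ε ∧ ∀ a, L a ≠ 0 → ∃ x, ε ≤ |L a x|) →
      (∀ x, 0 < w x) → (∀ a, ∑ x, w x * L a x = 0) →
      ∀ (χ : C →* (ZMod p)ˣ) (z : A), z ≠ 0 → p • z = 0 →
        (∀ a : A, p • a = 0 → ∃ n : ℕ, a = n • z) →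
        (∀ c, α c z = ((χ c : (ZMod p)ˣ) : ZMod p).val • z) →
        ∀ (H : Type) [AddCommGroup H] [Module (ZMod p) H] (κ : A →+ H),
          (∀ a, κ a = 0 ↔ ∃ b, a = p • b) →
          ∀ (Y : Type) [AddCommGroup Y] [Module (ZMod p) Y] [FiniteDimensional (ZMod p) Y]
            (τ : Representation (ZMod p) C Y) (M : Submodule (ZMod p) (Y →ₗ[ZMod p] H)),
            (∀ Φ, Φ ∈ M ↔ (∀ y, ∃ a, Φ y = κ a) ∧
              ∀ c y a, Φ y = κ a → Φ (τ c y) = κ (α c a)) →
            Module.Finite (ZMod p) ↥M ∧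
            Module.finrank (ZMod p) ↥M
                + Module.finrank (ZMod p)
                    ↥(h93e_hom τ (Representation.trivial (ZMod p) C (ZMod p)))
              ≤ Module.finrank (ZMod p) ↥(h93e_hom τ (chiRep χ))
                + Module.finrank (ZMod p) ↥(h93e_hom τ (h93e_perm (ZMod p) σ))

/-- **EQA-F (Frobenius reciprocity / Mackey, pure algebra).**  `G` a finite group, `C ≤ G` of
order prime to `p`, `W = Ind_C^G τ`:
(a) `dim W^G ≤ m(𝔽_p)`;  (b) `m(𝔽_p(χ)) ≤ dim (W^D)^G` for every character `χ` of `G`;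
(c) `m(𝔽_p^X) ≤ ∑_i dim W^{D_i}` for every finite `G`-set `X` covered by the orbits of points
`pt i` fixed by the subgroups `D i`. -/
def H93EqFrobAlg : Prop :=
  ∀ (p : ℕ) [Fact p.Prime] (G : Type) [Group G] [Finite G] (C : Subgroup G),
    ¬ p ∣ Nat.card ↥C →
    ∀ (Y : Type) [AddCommGroup Y] [Module (ZMod p) Y] [FiniteDimensional (ZMod p) Y]
      (τ : Representation (ZMod p) ↥C Y),
      (Module.finrank (ZMod p) ↥(h47g_ind C τ).invariants ≤
        Module.finrank (ZMod p)
          ↥(h93e_hom τ (Representation.trivial (ZMod p) ↥C (ZMod p)))) ∧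
      (∀ χ : G →* (ZMod p)ˣ,
        Module.finrank (ZMod p) ↥(h93e_hom τ (chiRep (χ.comp C.subtype))) ≤
          Module.finrank (ZMod p) ↥(dualTw χ (h47g_ind C τ)).invariants) ∧
      (∀ (X : Type) [Fintype X] (σ : G →* Equiv.Perm X) (ι : Type) [Fintype ι] (pt : ι → X)
        (D : ι → Subgroup G),
        (∀ x, ∃ i g, σ g (pt i) = x) → (∀ i, ∀ d ∈ D i, σ d (pt i) = pt i) →
        Module.finrank (ZMod p) ↥(h93e_hom τ (h93e_perm (ZMod p) (σ.comp C.subtype))) ≤
          ∑ i, Module.finrank (ZMod p)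
            ↥(resRep (h47g_ind C τ) (D i).subtype).invariants)

/-- **EQA-PKG (the arithmetic package).**  For `K/ℚ` finite normal containing `μ_p`
(`U₀ = G_K`) there is a finite set of primes `T₀` such that for all `S ⊇ T₀ ∪ {p}` outside which
`K` is unramified: the `S`-units `A` of `K` with the action `α` of `G = G_ℚ / U₀`, the places `X`
above `S ∪ {∞}` with base points `pt`, the logarithms `L`, the root of unity `z = ζ_p` and the
Kummer map `κ` (see the header). -/
def H93EqPkg : Prop :=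
  ∀ (p : ℕ) [Fact p.Prime], p ≠ 2 →
    ∀ (U₀ : Subgroup GQ) [U₀.Normal], U₀ ∈ levFin.sets → (∀ u ∈ U₀, cycloChar p u = 1) →
      ∃ T₀ : Finset Nat.Primes, ∀ S : Finset Nat.Primes, T₀ ⊆ S → pPrime p ∈ S →
        U₀ ∈ (levQ S).sets →
        ∃ (A : Type) (_ : AddCommGroup A) (_ : Module.Finite ℤ A)
          (α : Representation ℤ (GQ ⧸ U₀) A)
          (X : Type) (_ : Fintype X) (σ : (GQ ⧸ U₀) →* Equiv.Perm X) (pt : Option ↥S → X)
          (L : A →+ (X → ℝ)) (w : X → ℝ) (z : A) (κ : A →+ (↥U₀ → ZMod p)),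
          -- the places
          (∀ x, ∃ i g, σ g (pt i) = x) ∧
          (∀ (q : ↥S) (h : primeLocalGaloisGroup q.1),
            σ (QuotientGroup.mk' U₀ (primeLocalToGlobal q.1 h)) (pt (some q)) = pt (some q)) ∧
          σ (QuotientGroup.mk' U₀ complexConjugation) (pt none) = pt none ∧
          -- the logarithms of the absolute values
          (∀ g a x, L (α g a) (σ g x) = L a x) ∧
          (∀ a, L a = 0 ↔ ∃ n : ℕ, 0 < n ∧ n • a = 0) ∧
          (∃ ε : ℝ, 0 < ε ∧ ∀ a, L a ≠ 0 → ∃ x, ε ≤ |L a x|) ∧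
          (∀ x, 0 < w x) ∧ (∀ a, ∑ x, w x * L a x = 0) ∧
          -- the roots of unity
          z ≠ 0 ∧ p • z = 0 ∧ (∀ a : A, p • a = 0 → ∃ n : ℕ, a = n • z) ∧
          (∀ g : GQ, α (QuotientGroup.mk' U₀ g) z =
            ((cycloChar p g : (ZMod p)ˣ) : ZMod p).val • z) ∧
          -- the Kummer map
          (∀ a, κ a = 0 ↔ ∃ b, a = p • b) ∧
          (∀ φ : ↥U₀ → ZMod p,
            φ ∈ Z1 (chi2Lev (levQ S) U₀) (chi2Triv (ZMod p) U₀) ↔ ∃ a, κ a = φ) ∧
          (∀ (g : GQ) (a : A) (u : ↥U₀), κ (α (QuotientGroup.mk' U₀ g) a) u =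
            ((cycloChar p g : (ZMod p)ˣ) : ZMod p) * κ a (h47g_conj U₀ g u))

/-- **EQA-ASM.**  Assembly of `H47EqArith`. -/
def H93EqArithAsm : Prop :=
  H93EqLatAlg → H93EqFrobAlg → H93EqPkg → H47EqArith

end Fermat.Agent.S56G
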