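import Fermat.Agent.S56G.EqIface
import Fermat.Agent.PT.Glob.KIface4
import Fermat.Agent.PT.Glob.H96KKumBasic
import Fermat.Agent.PT.Glob.H32KKumZ1
import Fermat.Agent.PT.Bridge.Levels
import Fermat.Agent.Bridge.FrobeniusConj

/-!
# S56, block EQ-ARITH of TATE-EC, leaf (K) (helper96): equivariance of the Kummer map

For `L/ℚ` normal with `μ_p ⊆ L`, `U₀ = G_L`, `B ≠ 0`, `B ^ p ∈ L`, `g ∈ G_ℚ`, `u ∈ U₀`:

* `h96q_kumQ_conj` : `kumQ p ζ (g B) u = χ(g) · kumQ p ζ B (g⁻¹ u g)`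
  (`u (g B) = g ((g⁻¹ u g) B)`, `g ζ = ζ ^ χ(g)`);
* `h96q_map_pow_mem` : `(g B) ^ p = g (B ^ p) ∈ L`;
* `h96q_dvdValOut_map` : the condition `DvdValOut p S L` is Galois stable.

So the Kummer map `κ : {a ∈ Lˣ : p ∣ v(a) outside S} / Lˣᵖ → Z¹(U₀, 𝔽_p)`, `a = B ^ p ↦ kumQ p ζ B`,
of `KKumZ1` is equivariant for the Galois action on the source and the twisted conjugation action
`(g φ)(u) = χ(g) φ(g⁻¹ u g)` on the target.
-/

set_option autoImplicit false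
set_option linter.style.haveILetI false

open ExtCitation
open scoped Pointwise

noncomputable section

namespace Fermat.Agent.S56G

open Fermat.Agent.PT Fermat.Agent.PT.Glob

local notation "Qb" => AlgebraicClosure ℚ

/-- **Equivariance of the Kummer function.** -/
theorem h96q_kumQ_conj (p : ℕ) [Fact p.Prime] (L : IntermediateField ℚ Qb) (ζ B : Qb)
    (hζL : ζ ∈ L) (hζ : IsPrimitiveRoot ζ p) (hB : B ≠ 0) (hBp : B ^ p ∈ L) (g u : GQ)
    (hu : g⁻¹ * u * g ∈ L.fixingSubgroup) :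
    kumQ p ζ (g B) u =
      ((cycloChar p g : (ZMod p)ˣ) : ZMod p) * kumQ p ζ B (g⁻¹ * u * g) := by
  have hp : p.Prime := Fact.out
  haveI : NeZero p := ⟨hp.ne_zero⟩
  have hgB : g B ≠ 0 := by
    intro h0
    exact hB ((map_eq_zero_iff g (AlgEquiv.injective g)).1 h0)
  have h1 := (h96k_kKumBasic p L ζ B hζL hζ hB hBp).1 (g⁻¹ * u * g) hu
  have h2 : u (g B) = g ((g⁻¹ * u * g) B) := by
    simp only [AlgEquiv.mul_apply]
    rw [← AlgEquiv.mul_apply g g⁻¹, mul_inv_cancel, AlgEquiv.one_apply]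
  have h3 : g ζ = ζ ^ ((cycloChar p g : (ZMod p)ˣ) : ZMod p).val :=
    pt79_cycloChar_spec p g ζ hζ.pow_eq_one
  have h4 : u (g B) = ζ ^ (((cycloChar p g : (ZMod p)ˣ) : ZMod p).val *
      (kumQ p ζ B (g⁻¹ * u * g)).val) * g B := by
    rw [h2, h1, map_mul, map_pow, h3, ← pow_mul]
  have h5 := h96k_kumQ_eq_natCast hζ hgB h4
  rw [h5, Nat.cast_mul, ZMod.natCast_zmod_val, ZMod.natCast_zmod_val]

/-- a normal field is Galois stable. -/
theorem h96q_map_mem (L : IntermediateField ℚ Qb) [Normal ℚ L] {x : Qb} (hx : x ∈ L) (g : GQ) :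
    g x ∈ L := by
  haveI : Normal ℚ Qb := pt79_normal_Qbar
  have h := IntermediateField.normal_iff_forall_map_le'.1 (inferInstance : Normal ℚ L) g
  exact h ⟨x, hx, rfl⟩

/-- `(g B) ^ p ∈ L` for `L/ℚ` normal. -/
theorem h96q_map_pow_mem (p : ℕ) (L : IntermediateField ℚ Qb) [Normal ℚ L] (B : Qb)
    (hBp : B ^ p ∈ L) (g : GQ) : (g B) ^ p ∈ L := by
  rw [← map_pow]
  exact h96q_map_mem L hBp g

/-- the condition "`n ∣ v(a)` outside `S`" is Galois stable for `L/ℚ` normal. -/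
theorem h96q_dvdValOut_map (n : ℕ) (S : Finset Nat.Primes) (L : IntermediateField ℚ Qb)
    [Normal ℚ L] (a : Qb) (h : DvdValOut n S L a) (g : GQ) : DvdValOut n S L (g a) := by
  intro q hq A hA
  have hA' : (g⁻¹ • A).LiesOverPrime (q : ℕ) :=
    (Fermat.Agent.Bridge.liesOverPrime_smul_iff A g⁻¹ (q : ℕ)).2 hA
  obtain ⟨π, hπL, hπ0, u, hu, hu', ha⟩ := h q hq (g⁻¹ • A) hA'
  rw [Fermat.Agent.Bridge.mem_smul_iff, inv_inv] at hu hu'
  refine ⟨g π, h96q_map_mem L hπL g, ?_, g u, hu, ?_, ?_⟩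
  · intro h0
    exact hπ0 ((map_eq_zero_iff g (AlgEquiv.injective g)).1 h0)
  · rw [← map_inv₀]
    exact hu'
  · rw [ha, map_mul, map_pow]

/-- the Kummer parameter of a character is unique up to `p`-th powers: if `kumQ p ζ B` and
`kumQ p ζ B'` agree on `U = G_L` then `B' / B ∈ L`. -/
theorem h96q_div_mem_of_kumQ_eq (p : ℕ) [Fact p.Prime] (L : IntermediateField ℚ Qb) (ζ B B' : Qb)
    (hζL : ζ ∈ L) (hζ : IsPrimitiveRoot ζ p) (hB : B ≠ 0) (hBp : B ^ p ∈ L) (hB' : B' ≠ 0)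
    (hBp' : B' ^ p ∈ L)
    (h : ∀ u ∈ L.fixingSubgroup, kumQ p ζ B' u = kumQ p ζ B u) : B' / B ∈ L := by
  have hp : p.Prime := Fact.out
  haveI : NeZero p := ⟨hp.ne_zero⟩
  have hIsGal : IsGalois ℚ Qb := Fermat.Agent.PT.Bridge.h23b_isGalois_Qb
  have h1 := (h96k_kKumBasic p L ζ B hζL hζ hB hBp).1
  have h2 := (h96k_kKumBasic p L ζ B' hζL hζ hB' hBp').1
  have hfix : ∀ u ∈ L.fixingSubgroup, u (B' / B) = B' / B := by
    intro u hu
    rw [map_div₀, h1 u hu, h2 u hu, h u hu]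
    have hz : ζ ^ (kumQ p ζ B u).val ≠ 0 := pow_ne_zero _ (hζ.ne_zero hp.ne_zero)
    field_simp
  have h3 : B' / B ∈ IntermediateField.fixedField L.fixingSubgroup := by
    rw [IntermediateField.mem_fixedField_iff]
    exact fun u hu => hfix u hu
  rwa [InfiniteGalois.fixedField_fixingSubgroup] at h3

/-! ## Calculus of `kumQ` on `U = G_L` -/

section Calc

variable (p : ℕ) [Fact p.Prime] (L : IntermediateField ℚ Qb) (ζ : Qb)

/-- `kumQ` of an element of `L` vanishes on `G_L`. -/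
theorem h96q_kumQ_of_mem (hζ : IsPrimitiveRoot ζ p) {y : Qb} (hy : y ∈ L) (hy0 : y ≠ 0)
    {u : GQ} (hu : u ∈ L.fixingSubgroup) : kumQ p ζ y u = 0 := by
  have hp : p.Prime := Fact.out
  haveI : NeZero p := ⟨hp.ne_zero⟩
  apply h96k_kumQ_eq hζ hy0
  rw [ZMod.val_zero, pow_zero, one_mul]
  exact (IntermediateField.mem_fixingSubgroup_iff L u).1 hu y hy

/-- `kumQ` is multiplicative in `B` on `G_L`. -/
theorem h96q_kumQ_mul (hζL : ζ ∈ L) (hζ : IsPrimitiveRoot ζ p) {B B' : Qb} (hB : B ≠ 0)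
    (hBp : B ^ p ∈ L) (hB' : B' ≠ 0) (hBp' : B' ^ p ∈ L) {u : GQ}
    (hu : u ∈ L.fixingSubgroup) :
    kumQ p ζ (B * B') u = kumQ p ζ B u + kumQ p ζ B' u := by
  have hp : p.Prime := Fact.out
  haveI : NeZero p := ⟨hp.ne_zero⟩
  have h1 := (h96k_kKumBasic p L ζ B hζL hζ hB hBp).1 u hu
  have h2 := (h96k_kKumBasic p L ζ B' hζL hζ hB' hBp').1 u hu
  have h3 : u (B * B') = ζ ^ ((kumQ p ζ B u).val + (kumQ p ζ B' u).val) * (B * B') := by
    rw [map_mul, h1, h2, pow_add]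
    ring
  have h4 := h96k_kumQ_eq_natCast hζ (mul_ne_zero hB hB') h3
  rw [h4, Nat.cast_add, ZMod.natCast_zmod_val, ZMod.natCast_zmod_val]

/-- `kumQ p ζ B` on `G_L` only depends on `B ^ p`. -/
theorem h96q_kumQ_congr_pow (hζL : ζ ∈ L) (hζ : IsPrimitiveRoot ζ p) {B B' : Qb} (hB : B ≠ 0)
    (hBp : B ^ p ∈ L) (hB' : B' ≠ 0) (h : B' ^ p = B ^ p) {u : GQ}
    (hu : u ∈ L.fixingSubgroup) : kumQ p ζ B' u = kumQ p ζ B u := by
  have hp : p.Prime := Fact.out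
  haveI : NeZero p := ⟨hp.ne_zero⟩
  have h1 := (h96k_kKumBasic p L ζ B hζL hζ hB hBp).1 u hu
  -- `B' / B` is a `p`-th root of unity, hence a power of `ζ`, hence fixed by `u`
  have h2 : (B' / B) ^ p = 1 := by
    rw [div_pow, h, div_self (pow_ne_zero _ hB)]
  obtain ⟨i, -, hi⟩ := hζ.eq_pow_of_pow_eq_one h2
  have hζu : u ζ = ζ := (IntermediateField.mem_fixingSubgroup_iff L u).1 hu ζ hζL
  have h3 : B' = ζ ^ i * B := by
    rw [hi]
    field_simp
  apply h96k_kumQ_eq hζ hB'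
  rw [h3, map_mul, map_pow, hζu, h1]
  ring

end Calc

/-! ## The abstract Kummer package -/

/-- Realisation data for the Kummer map: an additive group `A` with an action `α` of
`G = G_ℚ / U₀` and a multiplicative equivariant realisation `ι : A → Lˣ` (`L = fieldOf U₀`) whose
image consists of elements with `p ∣ v` outside `S`, generates them modulo `p`-th powers
(`Cl_S(L)[p] = 0`), and is saturated. -/
structure H96KumData (p : ℕ) (S : Finset Nat.Primes) (U₀ : Subgroup GQ) [U₀.Normal]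
    (A : Type) [AddCommGroup A] (α : Representation ℤ (GQ ⧸ U₀) A) (ι : A → Qb) : Prop where
  ne_zero : ∀ a, ι a ≠ 0
  mem : ∀ a, ι a ∈ fieldOf U₀
  add : ∀ a b, ι (a + b) = ι a * ι b
  equiv : ∀ (g : GQ) (a : A), ι (α (QuotientGroup.mk' U₀ g) a) = g (ι a)
  val : ∀ a, DvdValOut p S (fieldOf U₀) (ι a)
  gen : ∀ x ∈ fieldOf U₀, x ≠ 0 → DvdValOut p S (fieldOf U₀) x →
    ∃ a, ∃ y ∈ fieldOf U₀, y ≠ 0 ∧ x = ι a * y ^ p
  sat : ∀ a, ∀ y ∈ fieldOf U₀, ι a = y ^ p → ∃ b, a = p • b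

/-- a chosen `p`-th root. -/
def h96q_root (p : ℕ) (x : Qb) : Qb :=
  open scoped Classical in
  if h : ∃ B : Qb, B ^ p = x then h.choose else 0

theorem h96q_root_pow (p : ℕ) (hp : 0 < p) (x : Qb) : h96q_root p x ^ p = x := by
  have h : ∃ B : Qb, B ^ p = x := IsAlgClosed.exists_pow_nat_eq x hp
  unfold h96q_root
  rw [dif_pos h]
  exact h.choose_spec

theorem h96q_root_ne_zero (p : ℕ) (hp : 0 < p) {x : Qb} (hx : x ≠ 0) : h96q_root p x ≠ 0 := by
  intro h0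
  apply hx
  rw [← h96q_root_pow p hp x, h0, zero_pow hp.ne']

/-- **The Kummer leaf of `H93EqPkg`** (abstract form): the three `κ`-clauses for any realisation
datum. -/
theorem h96q_kummerPkg (p : ℕ) [Fact p.Prime] (hp2 : p ≠ 2) (S : Finset Nat.Primes)
    (hpS : pPrime p ∈ S) (U₀ : Subgroup GQ) [U₀.Normal] (hU₀ : U₀ ∈ (levQ S).sets)
    (hchi : ∀ u ∈ U₀, cycloChar p u = 1)
    (A : Type) [AddCommGroup A] (α : Representation ℤ (GQ ⧸ U₀) A) (ι : A → Qb)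
    (h : H96KumData p S U₀ A α ι) :
    ∃ κ : A →+ (↥U₀ → ZMod p),
      (∀ a, κ a = 0 ↔ ∃ b, a = p • b) ∧
      (∀ φ : ↥U₀ → ZMod p,
        φ ∈ Z1 (chi2Lev (levQ S) U₀) (chi2Triv (ZMod p) U₀) ↔ ∃ a, κ a = φ) ∧
      (∀ (g : GQ) (a : A) (u : ↥U₀), κ (α (QuotientGroup.mk' U₀ g) a) u =
        ((cycloChar p g : (ZMod p)ˣ) : ZMod p) * κ a (h47g_conj U₀ g u)) := by
  have hp : p.Prime := Fact.out
  haveI : NeZero p := ⟨hp.ne_zero⟩
  have hadm : Adm p S U₀ := ⟨hp2, hpS, ⟨U₀, hU₀, le_refl _⟩, hchi⟩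
  obtain ⟨-, hfix⟩ := h32k_open S U₀ hadm.isOpen
  obtain ⟨ζ, hζ⟩ := pt79_exists_primitiveRoot p
  have hζL : ζ ∈ fieldOf U₀ := by
    rw [← Fermat.Agent.PT.Bridge.h23b_cycloChar_trivial_iff p (fieldOf U₀) hζ, hfix]
    exact hchi
  obtain ⟨hZ1, hZ2⟩ := h32k_kKumZ1 p S U₀ ζ hadm hζL hζ
  have hmemU : ∀ u : ↥U₀, (u : GQ) ∈ (fieldOf U₀).fixingSubgroup := fun u => by
    rw [hfix]
    exact u.2
  -- abbreviations
  have hr0 : ∀ a, h96q_root p (ι a) ≠ 0 := fun a => h96q_root_ne_zero p hp.pos (h.ne_zero a)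
  have hrp : ∀ a, h96q_root p (ι a) ^ p ∈ fieldOf U₀ := fun a => by
    rw [h96q_root_pow p hp.pos]
    exact h.mem a
  have hι0 : ι 0 = 1 := by
    have h1 := h.add 0 0
    rw [add_zero] at h1
    have h2 : ι 0 * 1 = ι 0 * ι 0 := by rw [mul_one]; exact h1
    exact (mul_left_cancel₀ (h.ne_zero 0) h2).symm
  have hιn : ∀ (n : ℕ) (b : A), ι (n • b) = ι b ^ n := by
    intro n b
    induction n with
    | zero => rw [zero_smul, pow_zero, hι0]
    | succ n ih => rw [succ_nsmul, h.add, ih, pow_succ]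
  -- the map
  let κ₀ : A → ↥U₀ → ZMod p := fun a u => kumQ p ζ (h96q_root p (ι a)) (u : GQ)
  have hκ0 : κ₀ 0 = 0 := by
    funext u
    show kumQ p ζ (h96q_root p (ι 0)) (u : GQ) = 0
    have h1 : kumQ p ζ (h96q_root p (ι 0)) (u : GQ) = kumQ p ζ 1 (u : GQ) := by
      refine h96q_kumQ_congr_pow p (fieldOf U₀) ζ hζL hζ one_ne_zero ?_ (hr0 0) ?_ (hmemU u)
      · rw [one_pow]
        exact one_mem _
      · rw [h96q_root_pow p hp.pos, hι0, one_pow]
    rw [h1]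
    exact h96q_kumQ_of_mem p (fieldOf U₀) ζ hζ (one_mem _) one_ne_zero (hmemU u)
  have hκadd : ∀ a b, κ₀ (a + b) = κ₀ a + κ₀ b := by
    intro a b
    funext u
    show kumQ p ζ (h96q_root p (ι (a + b))) (u : GQ) =
      kumQ p ζ (h96q_root p (ι a)) (u : GQ) + kumQ p ζ (h96q_root p (ι b)) (u : GQ)
    rw [← h96q_kumQ_mul p (fieldOf U₀) ζ hζL hζ (hr0 a) (hrp a) (hr0 b) (hrp b) (hmemU u)]
    refine h96q_kumQ_congr_pow p (fieldOf U₀) ζ hζL hζ (mul_ne_zero (hr0 a) (hr0 b)) ?_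
      (hr0 (a + b)) ?_ (hmemU u)
    · rw [mul_pow]
      exact mul_mem (hrp a) (hrp b)
    · rw [h96q_root_pow p hp.pos, mul_pow, h96q_root_pow p hp.pos, h96q_root_pow p hp.pos,
        h.add]
  refine ⟨⟨⟨κ₀, hκ0⟩, hκadd⟩, ?_, ?_, ?_⟩
  · -- the kernel
    intro a
    show κ₀ a = 0 ↔ _
    constructor
    · intro h0
      have h1 : ∀ g ∈ (fieldOf U₀).fixingSubgroup, kumQ p ζ (h96q_root p (ι a)) g = 0 := by
        intro g hg
        rw [hfix] at hg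
        exact congrFun h0 ⟨g, hg⟩
      have h2 := ((h96k_kKumBasic p (fieldOf U₀) ζ (h96q_root p (ι a)) hζL hζ (hr0 a)
        (hrp a)).2.2.2).1 h1
      exact h.sat a _ h2 (h96q_root_pow p hp.pos (ι a)).symm
    · rintro ⟨b, rfl⟩
      funext u
      show kumQ p ζ (h96q_root p (ι (p • b))) (u : GQ) = 0
      have h1 : kumQ p ζ (h96q_root p (ι (p • b))) (u : GQ) = kumQ p ζ (ι b) (u : GQ) := by
        refine h96q_kumQ_congr_pow p (fieldOf U₀) ζ hζL hζ (h.ne_zero b) ?_ (hr0 _) ?_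
          (hmemU u)
        · exact pow_mem (h.mem b) p
        · rw [h96q_root_pow p hp.pos, hιn]
      rw [h1]
      exact h96q_kumQ_of_mem p (fieldOf U₀) ζ hζ (h.mem b) (h.ne_zero b) (hmemU u)
  · -- the image
    intro φ
    constructor
    · intro hφ
      obtain ⟨B, hB0, hBp, hBval, hBφ⟩ := hZ2 φ hφ
      obtain ⟨a, y, hy, hy0, hxy⟩ := h.gen (B ^ p) hBp (pow_ne_zero _ hB0) hBval
      refine ⟨a, ?_⟩
      funext u
      show kumQ p ζ (h96q_root p (ι a)) (u : GQ) = φ u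
      rw [hBφ u]
      have h1 : kumQ p ζ B (u : GQ) = kumQ p ζ (h96q_root p (ι a) * y) (u : GQ) := by
        refine h96q_kumQ_congr_pow p (fieldOf U₀) ζ hζL hζ (mul_ne_zero (hr0 a) hy0) ?_ hB0 ?_
          (hmemU u)
        · rw [mul_pow]
          exact mul_mem (hrp a) (pow_mem hy p)
        · rw [hxy, mul_pow, h96q_root_pow p hp.pos]
      rw [h1, h96q_kumQ_mul p (fieldOf U₀) ζ hζL hζ (hr0 a) (hrp a) hy0 (pow_mem hy p) (hmemU u),
        h96q_kumQ_of_mem p (fieldOf U₀) ζ hζ hy hy0 (hmemU u), add_zero]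
    · rintro ⟨a, rfl⟩
      have h1 := hZ1 (h96q_root p (ι a)) (hr0 a) (hrp a) (by
        rw [h96q_root_pow p hp.pos]
        exact h.val a)
      exact h1
  · -- equivariance
    intro g a u
    show kumQ p ζ (h96q_root p (ι (α (QuotientGroup.mk' U₀ g) a))) (u : GQ) =
      ((cycloChar p g : (ZMod p)ˣ) : ZMod p) *
        kumQ p ζ (h96q_root p (ι a)) ((h47g_conj U₀ g u : ↥U₀) : GQ)
    have hgr0 : g (h96q_root p (ι a)) ≠ 0 := by
      intro h0
      exact hr0 a ((map_eq_zero_iff g (AlgEquiv.injective g)).1 h0)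
    have hgι : g (ι a) ∈ fieldOf U₀ := by
      rw [← h.equiv]
      exact h.mem _
    have h1 : kumQ p ζ (h96q_root p (ι (α (QuotientGroup.mk' U₀ g) a))) (u : GQ) =
        kumQ p ζ (g (h96q_root p (ι a))) (u : GQ) := by
      refine h96q_kumQ_congr_pow p (fieldOf U₀) ζ hζL hζ hgr0 ?_ (hr0 _) ?_ (hmemU u)
      · rw [← map_pow, h96q_root_pow p hp.pos]
        exact hgι
      · rw [h96q_root_pow p hp.pos, h.equiv, ← map_pow, h96q_root_pow p hp.pos]
    rw [h1]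
    exact h96q_kumQ_conj p (fieldOf U₀) ζ (h96q_root p (ι a)) hζL hζ (hr0 a) (hrp a) g (u : GQ)
      (hmemU (h47g_conj U₀ g u))

end Fermat.Agent.S56G
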