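import Mathlib
import Fermat.Agent.S56G.EqArithIface
import Fermat.Agent.S56G.H96KumEq

/-!
# S56, block EQ-ARITH of TATE-EC (sub-architect helper93): the arithmetic package, definitions

Concrete objects for `H93EqPkg` (`S56G/EqArithIface.lean`), in the language of `ℚ̄`
(`K = fieldOf U₀ = ℚ̄^{U₀}`, `G = G_ℚ / U₀`):

* `h93p_SU S U₀` : the `S`-units of `K`, a subgroup of `ℚ̄ˣ`
  (`a ∈ K`, and `a, a⁻¹ ∈ V` for every valuation subring `V` of `ℚ̄` over a prime `q ∉ S`);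
* `h93p_A S U₀ = Additive (h93p_SU S U₀)`, `h93p_iota : A → ℚ̄`;
* `h93p_act S U₀ : Representation ℤ (G_ℚ / U₀) A` : the Galois action
  (`h93p_iota_act : ι (α (mk g) a) = g (ι a)`);
* `h93p_log S i : ℚ̄ → ℝ`, `i : Option S` : the local logarithms
  `log ‖x‖_q` (norm of `PadicAlgCl q` through `padicEmbedding q`) resp. `log ‖x‖_∞`
  (through `complexEmbedding`);
* `h93p_D S U₀ i ≤ G` : the images of the local Galois groups resp. of complex conjugation.

Everything here is a definition with its defining equations; the frozen leaves are in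
`S56G/H93PkgIface.lean`.
-/

set_option autoImplicit false
set_option linter.style.haveILetI false

open ExtCitation
open scoped Pointwise

noncomputable section

namespace Fermat.Agent.S56G

open Fermat.Agent.PT Fermat.Agent.PT.Glob

local notation "Qb" => AlgebraicClosure ℚ

/-- The `S`-units of `K = fieldOf U₀`, as a subgroup of `ℚ̄ˣ`. -/
def h93p_SU (S : Finset Nat.Primes) (U₀ : Subgroup GQ) : Subgroup Qbˣ where
  carrier := {a | (a : Qb) ∈ fieldOf U₀ ∧ ∀ q : Nat.Primes, q ∉ S →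
    ∀ V : ValuationSubring Qb, V.LiesOverPrime (q : ℕ) →
      (a : Qb) ∈ V ∧ ((a⁻¹ : Qbˣ) : Qb) ∈ V}
  mul_mem' := by
    rintro a b ⟨ha, ha'⟩ ⟨hb, hb'⟩
    refine ⟨?_, fun q hq V hV => ⟨?_, ?_⟩⟩
    · rw [Units.val_mul]
      exact mul_mem ha hb
    · rw [Units.val_mul]
      exact mul_mem (ha' q hq V hV).1 (hb' q hq V hV).1
    · rw [mul_inv, Units.val_mul]
      exact mul_mem (ha' q hq V hV).2 (hb' q hq V hV).2
  one_mem' := by
    refine ⟨?_, fun q hq V hV => ⟨?_, ?_⟩⟩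
    · rw [Units.val_one]
      exact one_mem _
    · rw [Units.val_one]
      exact one_mem _
    · rw [inv_one, Units.val_one]
      exact one_mem _
  inv_mem' := by
    rintro a ⟨ha, ha'⟩
    refine ⟨?_, fun q hq V hV => ⟨(ha' q hq V hV).2, ?_⟩⟩
    · rw [Units.val_inv_eq_inv_val]
      exact inv_mem ha
    · rw [inv_inv]
      exact (ha' q hq V hV).1

lemma h93p_mem_SU (S : Finset Nat.Primes) (U₀ : Subgroup GQ) (a : Qbˣ) :
    a ∈ h93p_SU S U₀ ↔ (a : Qb) ∈ fieldOf U₀ ∧ ∀ q : Nat.Primes, q ∉ S →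
      ∀ V : ValuationSubring Qb, V.LiesOverPrime (q : ℕ) →
        (a : Qb) ∈ V ∧ ((a⁻¹ : Qbˣ) : Qb) ∈ V := Iff.rfl

/-- The Galois action on `ℚ̄ˣ`. -/
def h93p_gal (g : GQ) : Qbˣ →* Qbˣ := Units.map ((g : Qb →+* Qb) : Qb →* Qb)

@[simp] lemma h93p_gal_val (g : GQ) (a : Qbˣ) : ((h93p_gal g a : Qbˣ) : Qb) = g (a : Qb) := rfl

lemma h93p_gal_one (a : Qbˣ) : h93p_gal 1 a = a := Units.ext rfl

lemma h93p_gal_mul (g h : GQ) (a : Qbˣ) : h93p_gal (g * h) a = h93p_gal g (h93p_gal h a) :=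
  Units.ext rfl

/-- `fieldOf U₀` is Galois stable for `U₀` normal. -/
lemma h93p_map_mem_fieldOf (U₀ : Subgroup GQ) [U₀.Normal] {x : Qb} (hx : x ∈ fieldOf U₀)
    (g : GQ) : g x ∈ fieldOf U₀ := by
  rw [IntermediateField.mem_fixedField_iff] at hx ⊢
  intro u hu
  have h1 : g⁻¹ * u * g ∈ U₀ := by
    have := (inferInstance : U₀.Normal).conj_mem u hu g⁻¹
    rwa [inv_inv] at this
  have h2 := hx _ h1
  have h3 : u (g x) = g ((g⁻¹ * u * g) x) := by
    simp [AlgEquiv.mul_apply]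
  rw [h3, h2]

/-- The `S`-units are Galois stable. -/
lemma h93p_gal_mem (S : Finset Nat.Primes) (U₀ : Subgroup GQ) [U₀.Normal] (g : GQ) {a : Qbˣ}
    (ha : a ∈ h93p_SU S U₀) : h93p_gal g a ∈ h93p_SU S U₀ := by
  obtain ⟨ha1, ha2⟩ := ha
  refine ⟨h93p_map_mem_fieldOf U₀ ha1 g, fun q hq V hV => ?_⟩
  have hV' : (g⁻¹ • V).LiesOverPrime (q : ℕ) :=
    (Fermat.Agent.Bridge.liesOverPrime_smul_iff V g⁻¹ (q : ℕ)).2 hV
  obtain ⟨h1, h2⟩ := ha2 q hq (g⁻¹ • V) hV'
  rw [Fermat.Agent.Bridge.mem_smul_iff, inv_inv] at h1 h2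
  refine ⟨h1, ?_⟩
  rw [← map_inv, h93p_gal_val]
  exact h2

/-- The additive group of `S`-units. -/
abbrev h93p_A (S : Finset Nat.Primes) (U₀ : Subgroup GQ) : Type := Additive ↥(h93p_SU S U₀)

/-- The realisation `A → ℚ̄`. -/
def h93p_iota (S : Finset Nat.Primes) (U₀ : Subgroup GQ) (a : h93p_A S U₀) : Qb :=
  (((Additive.toMul a : ↥(h93p_SU S U₀)) : Qbˣ) : Qb)

lemma h93p_iota_ne_zero (S : Finset Nat.Primes) (U₀ : Subgroup GQ) (a : h93p_A S U₀) :
    h93p_iota S U₀ a ≠ 0 := Units.ne_zero _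

lemma h93p_iota_mem (S : Finset Nat.Primes) (U₀ : Subgroup GQ) (a : h93p_A S U₀) :
    h93p_iota S U₀ a ∈ fieldOf U₀ := (Additive.toMul a : ↥(h93p_SU S U₀)).2.1

lemma h93p_iota_add (S : Finset Nat.Primes) (U₀ : Subgroup GQ) (a b : h93p_A S U₀) :
    h93p_iota S U₀ (a + b) = h93p_iota S U₀ a * h93p_iota S U₀ b := rfl

lemma h93p_iota_zero (S : Finset Nat.Primes) (U₀ : Subgroup GQ) :
    h93p_iota S U₀ 0 = 1 := rfl

lemma h93p_iota_nsmul (S : Finset Nat.Primes) (U₀ : Subgroup GQ) (n : ℕ) (a : h93p_A S U₀) :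
    h93p_iota S U₀ (n • a) = h93p_iota S U₀ a ^ n := rfl

lemma h93p_iota_neg (S : Finset Nat.Primes) (U₀ : Subgroup GQ) (a : h93p_A S U₀) :
    h93p_iota S U₀ (-a) = (h93p_iota S U₀ a)⁻¹ := by
  show (((Additive.toMul a : ↥(h93p_SU S U₀))⁻¹ : ↥(h93p_SU S U₀)) : Qbˣ).1 = _
  rw [Subgroup.coe_inv, Units.val_inv_eq_inv_val]
  rfl

lemma h93p_iota_injective (S : Finset Nat.Primes) (U₀ : Subgroup GQ) :
    Function.Injective (h93p_iota S U₀) := by
  intro a b h
  have h1 : ((Additive.toMul a : ↥(h93p_SU S U₀)) : Qbˣ) = (Additive.toMul b : ↥(h93p_SU S U₀)) :=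
    Units.ext h
  exact Additive.toMul.injective (Subtype.ext h1)

lemma h93p_iota_val (S : Finset Nat.Primes) (U₀ : Subgroup GQ) (a : h93p_A S U₀)
    (q : Nat.Primes) (hq : q ∉ S) (V : ValuationSubring Qb) (hV : V.LiesOverPrime (q : ℕ)) :
    h93p_iota S U₀ a ∈ V ∧ (h93p_iota S U₀ a)⁻¹ ∈ V := by
  have h := (Additive.toMul a : ↥(h93p_SU S U₀)).2.2 q hq V hV
  refine ⟨h.1, ?_⟩
  have h2 := h.2
  rw [Units.val_inv_eq_inv_val] at h2
  exact h2

/-- Every `S`-unit of `K` (as an element of `ℚ̄`) is in the image of `ι`. -/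
lemma h93p_exists_iota (S : Finset Nat.Primes) (U₀ : Subgroup GQ) (x : Qb) (hx0 : x ≠ 0)
    (hx : x ∈ fieldOf U₀)
    (hV : ∀ q : Nat.Primes, q ∉ S → ∀ V : ValuationSubring Qb, V.LiesOverPrime (q : ℕ) →
      x ∈ V ∧ x⁻¹ ∈ V) :
    ∃ a : h93p_A S U₀, h93p_iota S U₀ a = x := by
  refine ⟨Additive.ofMul ⟨Units.mk0 x hx0, hx, fun q hq V hV' => ?_⟩, rfl⟩
  refine ⟨(hV q hq V hV').1, ?_⟩
  rw [Units.val_inv_eq_inv_val]
  exact (hV q hq V hV').2

/-- The Galois action of `G_ℚ` on the `S`-units. -/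
def h93p_galSU (S : Finset Nat.Primes) (U₀ : Subgroup GQ) [U₀.Normal] (g : GQ) :
    ↥(h93p_SU S U₀) →* ↥(h93p_SU S U₀) :=
  ((h93p_gal g).comp (h93p_SU S U₀).subtype).codRestrict (h93p_SU S U₀)
    (fun a => h93p_gal_mem S U₀ g a.2)

/-- The action of `G_ℚ` on `A`. -/
def h93p_actQ (S : Finset Nat.Primes) (U₀ : Subgroup GQ) [U₀.Normal] :
    GQ →* (h93p_A S U₀ →ₗ[ℤ] h93p_A S U₀) where
  toFun g := (MonoidHom.toAdditive (h93p_galSU S U₀ g)).toIntLinearMap
  map_one' := by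
    apply LinearMap.ext
    intro a
    apply Additive.toMul.injective
    apply Subtype.ext
    exact h93p_gal_one _
  map_mul' g h := by
    apply LinearMap.ext
    intro a
    apply Additive.toMul.injective
    apply Subtype.ext
    exact h93p_gal_mul g h _

lemma h93p_iota_actQ (S : Finset Nat.Primes) (U₀ : Subgroup GQ) [U₀.Normal] (g : GQ)
    (a : h93p_A S U₀) : h93p_iota S U₀ (h93p_actQ S U₀ g a) = g (h93p_iota S U₀ a) := rfl

lemma h93p_actQ_of_mem (S : Finset Nat.Primes) (U₀ : Subgroup GQ) [U₀.Normal] (u : GQ)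
    (hu : u ∈ U₀) : h93p_actQ S U₀ u = 1 := by
  apply LinearMap.ext
  intro a
  apply h93p_iota_injective
  rw [h93p_iota_actQ]
  have h := h93p_iota_mem S U₀ a
  rw [IntermediateField.mem_fixedField_iff] at h
  exact h u hu

/-- **The Galois action of `G = G_ℚ / U₀` on the `S`-units of `K`.** -/
def h93p_act (S : Finset Nat.Primes) (U₀ : Subgroup GQ) [U₀.Normal] :
    Representation ℤ (GQ ⧸ U₀) (h93p_A S U₀) :=
  QuotientGroup.lift U₀ (h93p_actQ S U₀) (fun u hu => h93p_actQ_of_mem S U₀ u hu)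

@[simp] lemma h93p_act_mk (S : Finset Nat.Primes) (U₀ : Subgroup GQ) [U₀.Normal] (g : GQ) :
    h93p_act S U₀ (QuotientGroup.mk' U₀ g) = h93p_actQ S U₀ g := rfl

lemma h93p_iota_act (S : Finset Nat.Primes) (U₀ : Subgroup GQ) [U₀.Normal] (g : GQ)
    (a : h93p_A S U₀) :
    h93p_iota S U₀ (h93p_act S U₀ (QuotientGroup.mk' U₀ g) a) = g (h93p_iota S U₀ a) := rfl

/-! ## The local logarithms -/

/-- `log ‖x‖_q`, the norm of `PadicAlgCl q` through `padicEmbedding q` (`‖q‖_q = 1 / q`). -/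
def h93p_logQ (q : Nat.Primes) (x : Qb) : ℝ :=
  haveI : Fact (q : ℕ).Prime := ⟨q.2⟩
  Real.log ‖padicEmbedding (q : ℕ) x‖

/-- `log ‖x‖_∞` through `complexEmbedding`. -/
def h93p_logInf (x : Qb) : ℝ := Real.log ‖complexEmbedding x‖

/-- The local logarithms at the places `S ∪ {∞}`. -/
def h93p_log (S : Finset Nat.Primes) : Option ↥S → Qb → ℝ
  | some q => h93p_logQ q.1
  | none => h93p_logInf

@[simp] lemma h93p_log_some (S : Finset Nat.Primes) (q : ↥S) (x : Qb) :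
    h93p_log S (some q) x = h93p_logQ q.1 x := rfl

@[simp] lemma h93p_log_none (S : Finset Nat.Primes) (x : Qb) :
    h93p_log S none x = h93p_logInf x := rfl

lemma h93p_log_mul (S : Finset Nat.Primes) (i : Option ↥S) {x y : Qb} (hx : x ≠ 0)
    (hy : y ≠ 0) : h93p_log S i (x * y) = h93p_log S i x + h93p_log S i y := by
  cases i with
  | none =>
    show Real.log ‖complexEmbedding (x * y)‖ = _
    rw [map_mul, norm_mul, Real.log_mul]
    · rfl
    · exact norm_ne_zero_iff.2 ((map_ne_zero_iff _ (RingHom.injective _)).2 hx)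
    · exact norm_ne_zero_iff.2 ((map_ne_zero_iff _ (RingHom.injective _)).2 hy)
  | some q =>
    haveI : Fact ((q.1 : Nat.Primes) : ℕ).Prime := ⟨q.1.2⟩
    show Real.log ‖padicEmbedding ((q.1 : Nat.Primes) : ℕ) (x * y)‖ = _
    rw [map_mul, norm_mul, Real.log_mul]
    · rfl
    · exact norm_ne_zero_iff.2 ((map_ne_zero_iff _ (RingHom.injective _)).2 hx)
    · exact norm_ne_zero_iff.2 ((map_ne_zero_iff _ (RingHom.injective _)).2 hy)

lemma h93p_log_one (S : Finset Nat.Primes) (i : Option ↥S) : h93p_log S i 1 = 0 := by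
  cases i with
  | none =>
    show Real.log ‖complexEmbedding 1‖ = 0
    rw [map_one, norm_one, Real.log_one]
  | some q =>
    haveI : Fact ((q.1 : Nat.Primes) : ℕ).Prime := ⟨q.1.2⟩
    show Real.log ‖padicEmbedding ((q.1 : Nat.Primes) : ℕ) 1‖ = 0
    rw [map_one, norm_one, Real.log_one]

/-- The local logarithms on `A`, as additive maps. -/
def h93p_ell (S : Finset Nat.Primes) (U₀ : Subgroup GQ) (i : Option ↥S) : h93p_A S U₀ →+ ℝ where
  toFun a := h93p_log S i (h93p_iota S U₀ a)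
  map_zero' := by
    rw [h93p_iota_zero]
    exact h93p_log_one S i
  map_add' a b := by
    rw [h93p_iota_add]
    exact h93p_log_mul S i (h93p_iota_ne_zero S U₀ a) (h93p_iota_ne_zero S U₀ b)

@[simp] lemma h93p_ell_apply (S : Finset Nat.Primes) (U₀ : Subgroup GQ) (i : Option ↥S)
    (a : h93p_A S U₀) : h93p_ell S U₀ i a = h93p_log S i (h93p_iota S U₀ a) := rfl

/-! ## The decomposition groups -/

/-- The images in `G = G_ℚ / U₀` of the local Galois groups (`some q`) resp. the group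
generated by the complex conjugation (`none`). -/
def h93p_D (S : Finset Nat.Primes) (U₀ : Subgroup GQ) [U₀.Normal] :
    Option ↥S → Subgroup (GQ ⧸ U₀)
  | some q => ((primeLocalToGlobal q.1).range).map (QuotientGroup.mk' U₀)
  | none => Subgroup.zpowers (QuotientGroup.mk' U₀ complexConjugation)

lemma h93p_mem_D_some (S : Finset Nat.Primes) (U₀ : Subgroup GQ) [U₀.Normal] (q : ↥S)
    (h : primeLocalGaloisGroup q.1) :
    QuotientGroup.mk' U₀ (primeLocalToGlobal q.1 h) ∈ h93p_D S U₀ (some q) :=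
  Subgroup.mem_map_of_mem _ ⟨h, rfl⟩

lemma h93p_mem_D_none (S : Finset Nat.Primes) (U₀ : Subgroup GQ) [U₀.Normal] :
    QuotientGroup.mk' U₀ complexConjugation ∈ h93p_D S U₀ none :=
  Subgroup.mem_zpowers _

end Fermat.Agent.S56G
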