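import Mathlib
import Fermat.Agent.S56G.H93PkgDefs

/-!
# S56, block EQ-ARITH of TATE-EC (sub-architect helper93): the arithmetic package, frozen leaves

Target: `H93EqPkg` (`S56G/EqArithIface.lean`).  Objects: `S56G/H93PkgDefs.lean`
(`A = h93p_A S U₀` the `S`-units of `K = fieldOf U₀`, `α = h93p_act S U₀`, `ι = h93p_iota S U₀`,
`ℓ_i = h93p_ell S U₀ i` the local logarithms, `D_i = h93p_D S U₀ i`).

Every declaration is a frozen interface `Prop`; nothing is assumed.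

* `H93PkgGen`     : `Cl_S(K)[p] = 0` for `S ⊇ T₀`: every `x ∈ Kˣ` with `p ∣ v(x)` outside `S` is
                    an `S`-unit times a `p`-th power (the field `gen` of `H96KumData`; the other
                    fields are proved in the assembly).
* `H93PkgFG`      : the `S`-units are finitely generated.
* `H93PkgTors`    : `A[p] = ⟨ζ_p⟩`, with the cyclotomic action.
* `H93PkgLogInv`  : `ℓ_i` is invariant under `D_i`.
* `H93PkgLogKer`  : Kronecker: `ℓ_i(g a) = 0` for all `i`, `g` implies `a` torsion.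
* `H93PkgLogDisc` : discreteness of the logarithmic image.
* `H93PkgLogProd` : product formula `∑_i ∑_{g ∈ G} ℓ_i(g a) = 0`.
* `H93PkgLogAlg`  : PURE ALGEBRA: from local logarithms `ℓ_i` invariant under `D_i` to the
                    `G`-set `X = ∐_i G / D_i` with `L`, `w`.
* `H93PkgAsm`     : the assembly of `H93EqPkg`.
-/

set_option autoImplicit false

open ExtCitation

noncomputable section

namespace Fermat.Agent.S56G

open Fermat.Agent.PT Fermat.Agent.PT.Glob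

local notation "Qb" => AlgebraicClosure ℚ

/-- **PKG-GEN** (`Cl_S(K)[p] = 0` for `S` large): there is a finite set of primes `T₀` such that
for all `S ⊇ T₀` every `x ∈ Kˣ` whose valuations outside `S` are divisible by `p` is the product
of an `S`-unit and a `p`-th power of `Kˣ`. -/
def H93PkgGen : Prop :=
  ∀ (p : ℕ) [Fact p.Prime], p ≠ 2 →
    ∀ (U₀ : Subgroup GQ) [U₀.Normal], U₀ ∈ levFin.sets → (∀ u ∈ U₀, cycloChar p u = 1) →
      ∃ T₀ : Finset Nat.Primes, ∀ S : Finset Nat.Primes, T₀ ⊆ S → pPrime p ∈ S →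
        U₀ ∈ (levQ S).sets →
        ∀ x ∈ fieldOf U₀, x ≠ 0 → DvdValOut p S (fieldOf U₀) x →
          ∃ a : h93p_A S U₀, ∃ y ∈ fieldOf U₀, y ≠ 0 ∧ x = h93p_iota S U₀ a * y ^ p

/-- **PKG-FG** (Dirichlet): the `S`-units of a number field are finitely generated. -/
def H93PkgFG : Prop :=
  ∀ (S : Finset Nat.Primes) (U₀ : Subgroup GQ) [U₀.Normal], U₀ ∈ levFin.sets →
    Module.Finite ℤ (h93p_A S U₀)

/-- **PKG-TORS**: `A[p]` is generated by `z = ζ_p ≠ 0`, on which `G` acts through the cyclotomic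
character. -/
def H93PkgTors : Prop :=
  ∀ (p : ℕ) [Fact p.Prime], p ≠ 2 →
    ∀ (U₀ : Subgroup GQ) [U₀.Normal], U₀ ∈ levFin.sets → (∀ u ∈ U₀, cycloChar p u = 1) →
      ∀ S : Finset Nat.Primes,
        ∃ z : h93p_A S U₀, z ≠ 0 ∧ p • z = 0 ∧ (∀ a : h93p_A S U₀, p • a = 0 → ∃ n : ℕ, a = n • z) ∧
          ∀ g : GQ, h93p_act S U₀ (QuotientGroup.mk' U₀ g) z =
            ((cycloChar p g : (ZMod p)ˣ) : ZMod p).val • z

/-- **PKG-LOG-INV**: the local logarithm `ℓ_i` is invariant under `D_i`. -/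
def H93PkgLogInv : Prop :=
  ∀ (S : Finset Nat.Primes) (U₀ : Subgroup GQ) [U₀.Normal] (i : Option ↥S),
    ∀ d ∈ h93p_D S U₀ i, ∀ a : h93p_A S U₀,
      h93p_ell S U₀ i (h93p_act S U₀ d a) = h93p_ell S U₀ i a

/-- **PKG-LOG-KER** (Kronecker): an `S`-unit all of whose conjugates have absolute value `1` at
all places of `S ∪ {∞}` is a root of unity. -/
def H93PkgLogKer : Prop :=
  ∀ (S : Finset Nat.Primes) (U₀ : Subgroup GQ) [U₀.Normal], U₀ ∈ levFin.sets →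
    ∀ a : h93p_A S U₀,
      (∀ (i : Option ↥S) (g : GQ ⧸ U₀), h93p_ell S U₀ i (h93p_act S U₀ g a) = 0) →
      ∃ n : ℕ, 0 < n ∧ n • a = 0

/-- **PKG-LOG-DISC**: the logarithmic image of the `S`-units is discrete. -/
def H93PkgLogDisc : Prop :=
  ∀ (S : Finset Nat.Primes) (U₀ : Subgroup GQ) [U₀.Normal], U₀ ∈ levFin.sets →
    ∃ ε : ℝ, 0 < ε ∧ ∀ a : h93p_A S U₀,
      (∃ (i : Option ↥S) (g : GQ ⧸ U₀), h93p_ell S U₀ i (h93p_act S U₀ g a) ≠ 0) →
      ∃ (i : Option ↥S) (g : GQ ⧸ U₀), ε ≤ |h93p_ell S U₀ i (h93p_act S U₀ g a)|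

/-- **PKG-LOG-PROD** (product formula): `∑_{i ∈ S ∪ {∞}} ∑_{g ∈ G} log ‖g a‖_i = 0` for every
`S`-unit `a` (`∏_g g a ∈ ℚˣ` is an `S`-unit of `ℚ`). -/
def H93PkgLogProd : Prop :=
  ∀ (S : Finset Nat.Primes) (U₀ : Subgroup GQ) [U₀.Normal], U₀ ∈ levFin.sets →
    ∀ [Fintype (GQ ⧸ U₀)] (a : h93p_A S U₀),
      ∑ i : Option ↥S, ∑ g : GQ ⧸ U₀, h93p_ell S U₀ i (h93p_act S U₀ g a) = 0

/-- **PKG-LOG-ALG** (pure algebra): `G` a finite group acting on `A`, `D_i ≤ G` subgroups and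
`ℓ_i : A → ℝ` additive, invariant under `D_i`, jointly detecting torsion, jointly discrete, with
`∑_i ∑_g ℓ_i(g a) = 0`.  Then the `G`-set `X = ∐_i G / D_i` with base points `pt i = D_i`,
`L(a)(i, g D_i) = ℓ_i(g⁻¹ a)` and weights `w(i, x) = #D_i` has the properties of the package. -/
def H93PkgLogAlg : Prop :=
  ∀ (G : Type) [Group G] [Fintype G] (A : Type) [AddCommGroup A] (α : Representation ℤ G A)
    (ι : Type) [Fintype ι] (D : ι → Subgroup G) (ℓ : ι → A →+ ℝ),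
    (∀ i, ∀ d ∈ D i, ∀ a, ℓ i (α d a) = ℓ i a) →
    (∀ a, (∀ i g, ℓ i (α g a) = 0) → ∃ n : ℕ, 0 < n ∧ n • a = 0) →
    (∃ ε : ℝ, 0 < ε ∧ ∀ a, (∃ i g, ℓ i (α g a) ≠ 0) → ∃ i g, ε ≤ |ℓ i (α g a)|) →
    (∀ a, ∑ i, ∑ g : G, ℓ i (α g a) = 0) →
    ∃ (X : Type) (_ : Fintype X) (σ : G →* Equiv.Perm X) (pt : ι → X) (L : A →+ (X → ℝ))
      (w : X → ℝ),
      (∀ x, ∃ i g, σ g (pt i) = x) ∧ (∀ i, ∀ d ∈ D i, σ d (pt i) = pt i) ∧
      (∀ g a x, L (α g a) (σ g x) = L a x) ∧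
      (∀ a, L a = 0 ↔ ∃ n : ℕ, 0 < n ∧ n • a = 0) ∧
      (∃ ε : ℝ, 0 < ε ∧ ∀ a, L a ≠ 0 → ∃ x, ε ≤ |L a x|) ∧
      (∀ x, 0 < w x) ∧ (∀ a, ∑ x, w x * L a x = 0)

/-- **PKG-ASM.**  Assembly of `H93EqPkg`. -/
def H93PkgAsm : Prop :=
  H93PkgGen → H93PkgFG → H93PkgTors → H93PkgLogInv → H93PkgLogKer → H93PkgLogDisc →
    H93PkgLogProd → H93PkgLogAlg → H93EqPkg

end Fermat.Agent.S56G
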