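import Mathlib
import Fermat.Agent.S56G.H93PkgIface
import Fermat.Agent.PT.Bridge.LocGrpE

/-!
# S56, block EQ-ARITH, leaf EQA-PKG-LOG-PROD (helper36, prefix `h36lp_`)

`h36lp_logProd : H93PkgLogProd` (frozen Prop of `S56G/H93PkgIface.lean`), unconditional: the
product formula `∑_{i ∈ S ∪ {∞}} ∑_{g ∈ G} log ‖g a‖_i = 0` for an `S`-unit `a` of
`K = fieldOf U₀`.

Proof: `y = ∏_{g ∈ G} g a` is fixed by `G_ℚ`, hence a rational number `r ≠ 0`; it is a unit at
every prime `q ∉ S` (`padicPlace q` is a valuation subring over `q`); the product formula on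
`ℚ` (`h36lp_rat`, from the prime factorisation `Nat.prod_pow_prime_padicValNat`).
-/

set_option autoImplicit false
set_option linter.style.haveILetI false
set_option linter.unusedSectionVars false

open ExtCitation

noncomputable section

namespace Fermat.Agent.S56G

open Fermat.Agent.PT Fermat.Agent.PT.Glob

local notation "Qb" => AlgebraicClosure ℚ

/-! ## The product formula on `ℚ` -/

/-- the product formula on `ℕ`, logarithmic form. -/
theorem h36lp_nat (n : ℕ) (hn : n ≠ 0) (T : Finset Nat.Primes)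
    (hT : ∀ p : Nat.Primes, (p : ℕ) ∣ n → p ∈ T) :
    ∑ p ∈ T, (padicValNat (p : ℕ) n : ℝ) * Real.log ((p : ℕ) : ℝ) = Real.log (n : ℝ) := by
  classical
  have h1 := Nat.prod_pow_prime_padicValNat n hn (n + 1) (Nat.lt_succ_self n)
  have h2 : Real.log (n : ℝ) =
      ∑ p ∈ (Finset.range (n + 1)).filter Nat.Prime,
        (padicValNat p n : ℝ) * Real.log (p : ℝ) := by
    conv_lhs => rw [← h1]
    rw [Nat.cast_prod, Real.log_prod]
    · refine Finset.sum_congr rfl fun p _ => ?_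
      rw [Nat.cast_pow, Real.log_pow]
    · intro p hp
      have hp' : p.Prime := (Finset.mem_filter.mp hp).2
      exact_mod_cast pow_ne_zero _ hp'.ne_zero
  rw [h2]
  refine Finset.sum_bij_ne_zero (fun p _ _ => (p : ℕ)) ?_ ?_ ?_ ?_
  · intro p _ hne
    have hv : padicValNat (p : ℕ) n ≠ 0 := by
      intro h0
      apply hne
      rw [h0]
      simp
    have hdvd : (p : ℕ) ∣ n := dvd_of_one_le_padicValNat (Nat.one_le_iff_ne_zero.mpr hv)
    refine Finset.mem_filter.mpr ⟨Finset.mem_range.mpr ?_, p.2⟩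
    exact Nat.lt_succ_of_le (Nat.le_of_dvd (Nat.pos_of_ne_zero hn) hdvd)
  · intro p _ _ p' _ _ h
    exact Subtype.ext h
  · intro b hb hne
    have hb' : b.Prime := (Finset.mem_filter.mp hb).2
    have hv : padicValNat b n ≠ 0 := by
      intro h0
      apply hne
      rw [h0]
      simp
    have hdvd : b ∣ n := dvd_of_one_le_padicValNat (Nat.one_le_iff_ne_zero.mpr hv)
    refine ⟨⟨b, hb'⟩, hT ⟨b, hb'⟩ hdvd, ?_, rfl⟩
    exact hne
  · intro p _ _
    rfl

/-- the product formula on `ℚ`, logarithmic form: `T` contains every prime at which `r` is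
not a unit. -/
theorem h36lp_rat (r : ℚ) (hr : r ≠ 0) (T : Finset Nat.Primes)
    (hT : ∀ p : Nat.Primes, p ∉ T → padicValRat (p : ℕ) r = 0) :
    ∑ p ∈ T, (padicValRat (p : ℕ) r : ℝ) * Real.log ((p : ℕ) : ℝ) = Real.log |(r : ℝ)| := by
  classical
  have hnum : r.num.natAbs ≠ 0 := Int.natAbs_ne_zero.mpr (Rat.num_ne_zero.mpr hr)
  have hden : r.den ≠ 0 := r.den_nz
  have hcop : r.num.natAbs.Coprime r.den := r.reduced
  have hval : ∀ p : Nat.Primes, padicValRat (p : ℕ) r =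
      (padicValNat (p : ℕ) r.num.natAbs : ℤ) - (padicValNat (p : ℕ) r.den : ℤ) := fun p => rfl
  have hTn : ∀ p : Nat.Primes, (p : ℕ) ∣ r.num.natAbs → p ∈ T := by
    intro p hp
    by_contra hpT
    haveI : Fact (p : ℕ).Prime := ⟨p.2⟩
    have h0 := hT p hpT
    rw [hval] at h0
    have h1 : 1 ≤ padicValNat (p : ℕ) r.num.natAbs :=
      one_le_padicValNat_of_dvd hnum hp
    have h2 : 1 ≤ padicValNat (p : ℕ) r.den := by omega
    have h3 : (p : ℕ) ∣ r.den := dvd_of_one_le_padicValNat h2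
    have h4 : (p : ℕ) ∣ 1 := by
      have := Nat.dvd_gcd hp h3
      rwa [hcop.gcd_eq_one] at this
    exact p.2.one_lt.ne' (Nat.dvd_one.mp h4)
  have hTd : ∀ p : Nat.Primes, (p : ℕ) ∣ r.den → p ∈ T := by
    intro p hp
    by_contra hpT
    haveI : Fact (p : ℕ).Prime := ⟨p.2⟩
    have h0 := hT p hpT
    rw [hval] at h0
    have h1 : 1 ≤ padicValNat (p : ℕ) r.den :=
      one_le_padicValNat_of_dvd hden hp
    have h2 : 1 ≤ padicValNat (p : ℕ) r.num.natAbs := by omega
    have h3 : (p : ℕ) ∣ r.num.natAbs := dvd_of_one_le_padicValNat h2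
    have h4 : (p : ℕ) ∣ 1 := by
      have := Nat.dvd_gcd h3 hp
      rwa [hcop.gcd_eq_one] at this
    exact p.2.one_lt.ne' (Nat.dvd_one.mp h4)
  have e1 := h36lp_nat r.num.natAbs hnum T hTn
  have e2 := h36lp_nat r.den hden T hTd
  have hlog : Real.log |(r : ℝ)| =
      Real.log ((r.num.natAbs : ℕ) : ℝ) - Real.log ((r.den : ℕ) : ℝ) := by
    have hr' : (r : ℝ) = (r.num : ℝ) / (r.den : ℝ) := by
      exact_mod_cast (Rat.num_div_den r).symm
    have h3 : ((r.num.natAbs : ℕ) : ℝ) = |(r.num : ℝ)| := by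
      rw [Nat.cast_natAbs, Int.cast_abs]
    have hn0 : |(r.num : ℝ)| ≠ 0 := abs_ne_zero.mpr (by exact_mod_cast Rat.num_ne_zero.mpr hr)
    have hd0 : |((r.den : ℕ) : ℝ)| ≠ 0 := abs_ne_zero.mpr (by exact_mod_cast hden)
    rw [hr', abs_div, h3, Real.log_div hn0 hd0, Real.log_abs ((r.den : ℕ) : ℝ)]
  rw [hlog, ← e1, ← e2, ← Finset.sum_sub_distrib]
  refine Finset.sum_congr rfl fun p _ => ?_
  rw [hval, Int.cast_sub, Int.cast_natCast, Int.cast_natCast]
  ring

/-- `log ‖r‖_q = - v_q(r) log q`. -/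
theorem h36lp_log_padicNorm (q : ℕ) [Fact q.Prime] (r : ℚ) (hr : r ≠ 0) :
    Real.log ((padicNorm q r : ℚ) : ℝ) = -((padicValRat q r : ℤ) : ℝ) * Real.log (q : ℝ) := by
  rw [padicNorm.eq_zpow_of_nonzero hr, Rat.cast_zpow, Real.log_zpow, Rat.cast_natCast,
    Int.cast_neg]

/-- a rational number of `q`-adic norm `1` has `q`-adic valuation `0`. -/
theorem h36lp_val_eq_zero (q : ℕ) [hq : Fact q.Prime] (r : ℚ) (hr : r ≠ 0)
    (h : ((padicNorm q r : ℚ) : ℝ) = 1) : padicValRat q r = 0 := by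
  have h1 := h36lp_log_padicNorm q r hr
  rw [h, Real.log_one] at h1
  have hq1 : (1 : ℝ) < q := by exact_mod_cast hq.out.one_lt
  have hlog : Real.log (q : ℝ) ≠ 0 := (Real.log_pos hq1).ne'
  have h2 : ((padicValRat q r : ℤ) : ℝ) = 0 := by
    have h3 : ((padicValRat q r : ℤ) : ℝ) * Real.log (q : ℝ) = 0 := by linarith
    rcases mul_eq_zero.mp h3 with h4 | h4
    · exact h4
    · exact absurd h4 hlog
  exact_mod_cast h2

/-! ## Norms of rational numbers -/

/-- the `q`-adic norm of a rational number through `padicEmbedding`. -/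
theorem h36lp_norm_padic (q : ℕ) [Fact q.Prime] (r : ℚ) :
    ‖padicEmbedding q (algebraMap ℚ Qb r)‖ = ((padicNorm q r : ℚ) : ℝ) := by
  rw [AlgHom.commutes]
  have h1 : algebraMap ℚ (PadicAlgCl q) r =
      algebraMap ℚ_[q] (PadicAlgCl q) (algebraMap ℚ ℚ_[q] r) := by
    rw [eq_ratCast, eq_ratCast, map_ratCast]
  rw [h1, PadicAlgCl.norm_extends, eq_ratCast, Padic.eq_padicNorm]

/-- the complex absolute value of a rational number through `complexEmbedding`. -/
theorem h36lp_norm_complex (r : ℚ) :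
    ‖complexEmbedding (algebraMap ℚ Qb r)‖ = |(r : ℝ)| := by
  rw [AlgHom.commutes, eq_ratCast]
  have h1 : ((r : ℚ) : ℂ) = (((r : ℚ) : ℝ) : ℂ) := by push_cast; rfl
  rw [h1, Complex.norm_real, Real.norm_eq_abs]

/-! ## The logarithms of a product -/

theorem h36lp_log_prod (S : Finset Nat.Primes) (i : Option ↥S) {ι : Type*} (s : Finset ι)
    (x : ι → Qb) (hx : ∀ g ∈ s, x g ≠ 0) :
    h93p_log S i (∏ g ∈ s, x g) = ∑ g ∈ s, h93p_log S i (x g) := by
  classical
  induction s using Finset.induction_on with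
  | empty => simp [h93p_log_one]
  | insert g s hg ih =>
    rw [Finset.prod_insert hg, Finset.sum_insert hg,
      h93p_log_mul S i (hx g (Finset.mem_insert_self g s))
        (Finset.prod_ne_zero_iff.mpr fun g' hg' => hx g' (Finset.mem_insert_of_mem hg')),
      ih fun g' hg' => hx g' (Finset.mem_insert_of_mem hg')]

/-! ## The product formula for the `S`-units -/

/-- **EQA-PKG-LOG-PROD.** -/
theorem h36lp_logProd : H93PkgLogProd := by
  intro S U₀ _ _ _ a
  classical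
  let x : GQ ⧸ U₀ → Qb := fun g => h93p_iota S U₀ (h93p_act S U₀ g a)
  have hx0 : ∀ g, x g ≠ 0 := fun g => h93p_iota_ne_zero S U₀ _
  let y : Qb := ∏ g, x g
  have hy0 : y ≠ 0 := Finset.prod_ne_zero_iff.mpr fun g _ => hx0 g
  -- `y` is fixed by the Galois group
  have hstep : ∀ (h : GQ) (g : GQ ⧸ U₀), h (x g) = x (QuotientGroup.mk' U₀ h * g) := by
    intro h g
    show h (h93p_iota S U₀ (h93p_act S U₀ g a)) =
      h93p_iota S U₀ (h93p_act S U₀ (QuotientGroup.mk' U₀ h * g) a)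
    rw [map_mul]
    rfl
  have hfix : ∀ h : GQ, h y = y := by
    intro h
    show h (∏ g, x g) = ∏ g, x g
    rw [map_prod]
    simp_rw [hstep h]
    exact Fintype.prod_equiv (Equiv.mulLeft (QuotientGroup.mk' U₀ h)) _ _ fun g => rfl
  haveI hAlg : Algebra.IsAlgebraic ℚ Qb := AlgebraicClosure.isAlgebraic ℚ
  haveI hCl : IsAlgClosure ℚ Qb := ⟨inferInstance, hAlg⟩
  haveI hGal : IsGalois ℚ Qb := IsAlgClosure.isGalois ℚ Qb
  have hbot : y ∈ (⊥ : IntermediateField ℚ Qb) :=
    (InfiniteGalois.mem_bot_iff_fixed y).mpr hfix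
  obtain ⟨r, hr⟩ := IntermediateField.mem_bot.mp hbot
  have hr0 : r ≠ 0 := by
    rintro rfl
    rw [map_zero] at hr
    exact hy0 hr.symm
  -- the inner sums
  have hsum : ∀ i : Option ↥S,
      ∑ g : GQ ⧸ U₀, h93p_ell S U₀ i (h93p_act S U₀ g a) = h93p_log S i y := by
    intro i
    exact (h36lp_log_prod S i Finset.univ x fun g _ => hx0 g).symm
  -- `r` is a unit outside `S`
  have hunit : ∀ p : Nat.Primes, p ∉ S → padicValRat (p : ℕ) r = 0 := by
    intro p hp
    haveI : Fact (p : ℕ).Prime := ⟨p.2⟩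
    have hV : (padicPlace (p : ℕ)).LiesOverPrime (p : ℕ) :=
      Fermat.Agent.PT.Bridge.h23b_padicPlace_liesOver (p : ℕ)
    have hmem : ∀ g, x g ∈ padicPlace (p : ℕ) ∧ (x g)⁻¹ ∈ padicPlace (p : ℕ) := fun g =>
      h93p_iota_val S U₀ _ p hp _ hV
    have hy1 : y ∈ padicPlace (p : ℕ) := prod_mem fun g _ => (hmem g).1
    have hy2 : y⁻¹ ∈ padicPlace (p : ℕ) := by
      show (∏ g, x g)⁻¹ ∈ padicPlace (p : ℕ)
      rw [← Finset.prod_inv_distrib]
      exact prod_mem fun g _ => (hmem g).2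
    rw [mem_padicPlace_iff] at hy1 hy2
    have h1 : ‖padicEmbedding (p : ℕ) y‖ ≤ 1 := by exact_mod_cast hy1
    have h2 : ‖padicEmbedding (p : ℕ) y⁻¹‖ ≤ 1 := by exact_mod_cast hy2
    rw [map_inv₀, norm_inv] at h2
    have hpos : 0 < ‖padicEmbedding (p : ℕ) y‖ :=
      norm_pos_iff.mpr ((map_ne_zero_iff _ (RingHom.injective _)).2 hy0)
    have h3 : 1 ≤ ‖padicEmbedding (p : ℕ) y‖ := by
      have := (inv_le_one₀ hpos).mp h2
      exact this
    have h4 : ‖padicEmbedding (p : ℕ) y‖ = 1 := le_antisymm h1 h3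
    rw [← hr, h36lp_norm_padic] at h4
    exact h36lp_val_eq_zero (p : ℕ) r hr0 h4
  have hpf := h36lp_rat r hr0 S hunit
  -- assembly
  rw [Fintype.sum_option]
  simp_rw [hsum]
  have hnone : h93p_log S none y = Real.log |(r : ℝ)| := by
    show Real.log ‖complexEmbedding y‖ = _
    rw [← hr, h36lp_norm_complex]
  have hsome : ∀ q : ↥S, h93p_log S (some q) y =
      -(((padicValRat ((q : Nat.Primes) : ℕ) r : ℤ) : ℝ) *
        Real.log ((((q : Nat.Primes) : ℕ) : ℕ) : ℝ)) := by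
    intro q
    haveI : Fact ((q : Nat.Primes) : ℕ).Prime := ⟨(q : Nat.Primes).2⟩
    show Real.log ‖padicEmbedding ((q : Nat.Primes) : ℕ) y‖ = _
    rw [← hr, h36lp_norm_padic, h36lp_log_padicNorm _ r hr0, neg_mul]
  simp_rw [hsome]
  rw [hnone, Finset.sum_neg_distrib,
    Finset.sum_coe_sort S (fun p : Nat.Primes =>
      ((padicValRat (p : ℕ) r : ℤ) : ℝ) * Real.log (((p : ℕ) : ℕ) : ℝ)), hpf]
  ring

end Fermat.Agent.S56G
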