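import Mathlib
import Fermat.Agent.S56G.H93PkgIface

/-!
# S56, block EQ-ARITH, row EQA-PKG-LOG-ALG (helper10): `H93PkgLogAlg`

Pure algebra: from local logarithms `ℓ_i` invariant under `D_i` to the `G`-set
`X = Σ i, G ⧸ D i` with `L(a)(i, g D_i) = ℓ_i(g⁻¹ a)` and the weights `w(i, x) = #D_i`.
-/

set_option autoImplicit false
set_option linter.style.haveILetI false
set_option linter.unusedSectionVars false

noncomputable section

namespace Fermat.Agent.S56G

section LogAlg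

variable {G : Type} [Group G] (D : Subgroup G)

/-- `g = (representative of g D) * d(g)`. -/
def h10p_d (g : G) : G := ((g : G ⧸ D).out)⁻¹ * g

lemma h10p_d_mem (g : G) : h10p_d D g ∈ D := by
  unfold h10p_d
  rw [← QuotientGroup.eq]
  exact QuotientGroup.out_eq' _

lemma h10p_out_mul_d (g : G) : (g : G ⧸ D).out * h10p_d D g = g := by
  unfold h10p_d
  rw [mul_inv_cancel_left]

/-- `G ≃ (G ⧸ D) × D`. -/
def h10p_equiv : G ≃ (G ⧸ D) × ↥D where
  toFun g := ((g : G ⧸ D), ⟨h10p_d D g, h10p_d_mem D g⟩)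
  invFun x := x.1.out * (x.2 : G)
  left_inv g := h10p_out_mul_d D g
  right_inv x := by
    obtain ⟨q, d⟩ := x
    have h1 : ((q.out * (d : G) : G) : G ⧸ D) = q := by
      rw [QuotientGroup.mk_mul_of_mem _ d.2]
      exact QuotientGroup.out_eq' q
    refine Prod.ext h1 (Subtype.ext ?_)
    change h10p_d D (q.out * (d : G)) = (d : G)
    unfold h10p_d
    rw [h1, inv_mul_cancel_left]

/-- `∑_{g ∈ G} f(g D) = #D ∑_{q ∈ G/D} f(q)`. -/
lemma h10p_sum_mk [Fintype G] [Fintype (G ⧸ D)] (f : G ⧸ D → ℝ) :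
    ∑ g : G, f (g : G ⧸ D) = ∑ q : G ⧸ D, (Nat.card ↥D : ℝ) * f q := by
  classical
  haveI : Fintype ↥D := Fintype.ofFinite _
  rw [Fintype.sum_equiv (h10p_equiv D) (fun g => f (g : G ⧸ D)) (fun x => f x.1) (fun g => rfl),
    Fintype.sum_prod_type]
  refine Finset.sum_congr rfl (fun q _ => ?_)
  change ∑ _y : ↥D, f q = _
  rw [Finset.sum_const, Finset.card_univ, nsmul_eq_mul, Nat.card_eq_fintype_card]

end LogAlg

/-- **EQA-PKG-LOG-ALG.** -/
theorem h10p_pkgLogAlg : H93PkgLogAlg := by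
  intro G _ _ A _ α ι _ D ℓ hinv hker hdisc hprod
  classical
  letI : ∀ i, Fintype (G ⧸ D i) := fun i => Fintype.ofFinite _
  -- the local value at a coset
  let Lf : A → (Σ i, G ⧸ D i) → ℝ := fun a x => ℓ x.1 (α ((x.2.out)⁻¹) a)
  have hL : ∀ (a : A) (i : ι) (g : G), Lf a ⟨i, (g : G ⧸ D i)⟩ = ℓ i (α g⁻¹ a) := by
    intro a i g
    have h1 : g⁻¹ = (h10p_d (D i) g)⁻¹ * ((g : G ⧸ D i).out)⁻¹ := by
      rw [← mul_inv_rev, h10p_out_mul_d]
    change ℓ i (α ((g : G ⧸ D i).out)⁻¹ a) = ℓ i (α g⁻¹ a)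
    rw [h1, map_mul, Module.End.mul_apply,
      hinv i _ ((D i).inv_mem (h10p_d_mem (D i) g))]
  let L : A →+ ((Σ i, G ⧸ D i) → ℝ) :=
    { toFun := Lf
      map_zero' := by
        funext x
        simp [Lf]
      map_add' := fun a b => by
        funext x
        simp [Lf] }
  have hLapp : ∀ a x, L a x = Lf a x := fun a x => rfl
  let σ : G →* Equiv.Perm (Σ i, G ⧸ D i) :=
    { toFun := fun g =>
        { toFun := fun x => ⟨x.1, g • x.2⟩
          invFun := fun x => ⟨x.1, g⁻¹ • x.2⟩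
          left_inv := fun x => by
            obtain ⟨i, q⟩ := x
            simp
          right_inv := fun x => by
            obtain ⟨i, q⟩ := x
            simp }
      map_one' := by
        ext x
        · rfl
        · simp
      map_mul' := fun g h => by
        ext x
        · rfl
        · simp [mul_smul] }
  have hσ : ∀ (g h : G) (i : ι), σ g ⟨i, (h : G ⧸ D i)⟩ = ⟨i, ((g * h : G) : G ⧸ D i)⟩ :=
    fun g h i => rfl
  have hx : ∀ x : (Σ i, G ⧸ D i), ∃ (i : ι) (g : G), x = ⟨i, QuotientGroup.mk g⟩ := by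
    rintro ⟨i, q⟩
    obtain ⟨g, rfl⟩ := QuotientGroup.mk_surjective q
    exact ⟨i, g, rfl⟩
  refine ⟨(Σ i, G ⧸ D i), inferInstance, σ, fun i => ⟨i, ((1 : G) : G ⧸ D i)⟩, L,
    fun x => (Nat.card ↥(D x.1) : ℝ), ?_, ?_, ?_, ?_, ?_, ?_, ?_⟩
  · -- covering
    intro x
    obtain ⟨i, g, rfl⟩ := hx x
    exact ⟨i, g, by rw [hσ, mul_one]⟩
  · -- base points
    intro i d hd
    rw [hσ, mul_one]
    have : ((d : G) : G ⧸ D i) = ((1 : G) : G ⧸ D i) := by
      rw [QuotientGroup.eq]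
      simpa using (D i).inv_mem hd
    rw [this]
  · -- equivariance
    intro g a x
    obtain ⟨i, h, rfl⟩ := hx x
    rw [hσ, hLapp, hLapp, hL, hL, ← Module.End.mul_apply, ← map_mul, mul_inv_rev,
      inv_mul_cancel_right]
  · -- kernel
    intro a
    constructor
    · intro ha
      refine hker a (fun i g => ?_)
      have h1 := congrFun ha ⟨i, ((g⁻¹ : G) : G ⧸ D i)⟩
      rw [hLapp, hL, inv_inv] at h1
      exact h1
    · rintro ⟨n, hn, hna⟩
      funext x
      obtain ⟨i, g, rfl⟩ := hx x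
      rw [hLapp, hL]
      have h1 : n • ℓ i (α g⁻¹ a) = 0 := by
        rw [← map_nsmul, ← map_nsmul, hna, map_zero, map_zero]
      rw [nsmul_eq_mul] at h1
      rcases mul_eq_zero.mp h1 with h | h
      · exact absurd (by exact_mod_cast h) hn.ne'
      · exact h
  · -- discreteness
    obtain ⟨ε, hε, hd⟩ := hdisc
    refine ⟨ε, hε, fun a ha => ?_⟩
    have h1 : ∃ i g, ℓ i (α g a) ≠ 0 := by
      by_contra hcon
      push Not at hcon
      apply ha
      funext x
      obtain ⟨i, g, rfl⟩ := hx x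
      rw [hLapp, hL]
      exact hcon i g⁻¹
    obtain ⟨i, g, hig⟩ := hd a h1
    refine ⟨⟨i, ((g⁻¹ : G) : G ⧸ D i)⟩, ?_⟩
    rw [hLapp, hL, inv_inv]
    exact hig
  · -- weights
    intro x
    change (0 : ℝ) < (Nat.card ↥(D x.1) : ℝ)
    have h0 : 0 < Nat.card ↥(D x.1) := Nat.card_pos
    exact_mod_cast h0
  · -- product formula
    intro a
    rw [Fintype.sum_sigma]
    rw [← hprod a]
    refine Finset.sum_congr rfl (fun i _ => ?_)
    have h1 := h10p_sum_mk (D i) (fun q => L a ⟨i, q⟩)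
    rw [← h1]
    refine Fintype.sum_equiv (Equiv.inv G) _ _ (fun g => ?_)
    rw [hLapp, hL]
    rfl

end Fermat.Agent.S56G
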