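import Mathlib
import Fermat.Agent.S56G.H93PkgIface
import Fermat.Agent.PT.Units.SUnit
import Fermat.Agent.PT.Bridge.NFDict
import Fermat.Agent.PT.Bridge.DQGood
import Fermat.Agent.PT.Glob.H50KZ1Sel

/-!
# S56, block EQ-ARITH, row EQA-PKG-FG (helper29): the `S`-units are finitely generated

`h29f_pkgFG : H93PkgFG` (exact frozen Prop of `S56G/H93PkgIface.lean`, unconditional):
for `U₀ ∈ levFin.sets` (so `K = fieldOf U₀` is a number field) the group `h93p_A S U₀` of
`S`-units of `K` (defined inside `ℚ̄ˣ` through the valuation subrings of `ℚ̄` over the primes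
`q ∉ S`) is a finitely generated `ℤ`-module.

Proof: the `S`-units in the sense of `h93p_SU` embed into Mathlib's `S`-units
`(primesAbove K S).unit K` (dictionary `h23b_mem_iff_valuation_le_one`,
`h23b_exists_valuationSubring_of_place` of helper23), which are finitely generated by the landed
Dirichlet `S`-unit theorem `SU_sunit_finite` (`PT/Units/SUnit.lean`); `primesAbove K S` is finite
(`h50k_primesAbove_finite`).
-/

set_option autoImplicit false
set_option linter.style.haveILetI false

open ExtCitation NumberField IsDedekindDomain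

noncomputable section

namespace Fermat.Agent.S56G

open Fermat.Agent.PT Fermat.Agent.PT.Glob Fermat.Agent.PT.Bridge Fermat.Agent.Bridge
  Fermat.Agent.PT.Units

local notation "Qb" => AlgebraicClosure ℚ

section Field

variable (S : Finset Nat.Primes) (L : IntermediateField ℚ Qb) [NumberField L]

/-- a nonzero element of `L` which is a unit of every valuation subring of `ℚ̄` over a prime
`q ∉ S` has valuation `1` at every place of `L` not above `S`. -/
theorem h29f_valuation_eq_one (a : L) (ha0 : a ≠ 0)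
    (ha : ∀ q : Nat.Primes, q ∉ S → ∀ V : ValuationSubring Qb, V.LiesOverPrime (q : ℕ) →
      (a : Qb) ∈ V ∧ ((a : Qb))⁻¹ ∈ V)
    (v : HeightOneSpectrum (𝓞 L)) (hv : v ∉ primesAbove L S) :
    v.valuation L a = 1 := by
  obtain ⟨q, A, hq, hA, hvA⟩ := h23b_exists_valuationSubring_of_place L v
  have hqS : (⟨q, hq⟩ : Nat.Primes) ∉ S := by
    intro hmem
    apply hv
    refine ⟨⟨q, hq⟩, hmem, ?_⟩
    rw [hvA, mem_primeUnder]
    have h2 : ((((q : ℕ) : 𝓞 L) : L) : Qb) = ((q : ℕ) : Qb) := by simp
    show ((((q : ℕ) : 𝓞 L) : L) : Qb) ∈ A.nonunits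
    rw [h2]
    exact hA
  obtain ⟨h1, h2⟩ := ha ⟨q, hq⟩ hqS A hA
  have h3 : v.valuation L a ≤ 1 := (h23b_mem_iff_valuation_le_one v hvA a).mp h1
  have h4 : v.valuation L a⁻¹ ≤ 1 := by
    apply (h23b_mem_iff_valuation_le_one v hvA a⁻¹).mp
    have h5 : ((a⁻¹ : L) : Qb) = ((a : Qb))⁻¹ := by simp
    rw [h5]
    exact h2
  have h7 : v.valuation L a ≠ 0 := (Valuation.ne_zero_iff _).mpr ha0
  rw [map_inv₀] at h4
  exact le_antisymm h3 ((inv_le_one₀ (zero_lt_iff.mpr h7)).mp h4)

/-- **finite generation** of a group of `S`-units of `L` inside `ℚ̄ˣ`. -/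
theorem h29f_finite_of_le (H : Subgroup Qbˣ)
    (hH : ∀ a ∈ H, (a : Qb) ∈ L ∧ ∀ q : Nat.Primes, q ∉ S →
      ∀ V : ValuationSubring Qb, V.LiesOverPrime (q : ℕ) →
        (a : Qb) ∈ V ∧ ((a⁻¹ : Qbˣ) : Qb) ∈ V) :
    Module.Finite ℤ (Additive ↥H) := by
  classical
  haveI hfin : Finite ↥(primesAbove L S) := (h50k_primesAbove_finite L S).to_subtype
  haveI hSU : Module.Finite ℤ (Additive ((primesAbove L S).unit L)) :=
    SU_sunit_finite L (primesAbove L S)
  -- the embedding
  have hmem : ∀ a : ↥H, ∀ v : HeightOneSpectrum (𝓞 L), v ∉ primesAbove L S →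
      v.valuation L (⟨((a : Qbˣ) : Qb), (hH a a.2).1⟩ : L) = 1 := by
    intro a v hv
    refine h29f_valuation_eq_one S L _ ?_ ?_ v hv
    · intro h
      have h1 : ((a : Qbˣ) : Qb) = 0 := congrArg (fun x : L => (x : Qb)) h
      exact (a : Qbˣ).ne_zero h1
    · intro q hq V hV
      obtain ⟨h1, h2⟩ := (hH a a.2).2 q hq V hV
      refine ⟨h1, ?_⟩
      rw [Units.val_inv_eq_inv_val] at h2
      exact h2
  let f : ↥H →* ↥((primesAbove L S).unit L) :=
    { toFun := fun a => ⟨Units.mk0 (⟨((a : Qbˣ) : Qb), (hH a a.2).1⟩ : L) (by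
          intro h
          have h1 : ((a : Qbˣ) : Qb) = 0 := congrArg (fun x : L => (x : Qb)) h
          exact (a : Qbˣ).ne_zero h1), fun v hv => hmem a v hv⟩
      map_one' := by
        apply Subtype.ext
        apply Units.ext
        apply Subtype.ext
        rfl
      map_mul' := by
        intro a b
        apply Subtype.ext
        apply Units.ext
        apply Subtype.ext
        rfl }
  have hinj : Function.Injective f := by
    intro a b hab
    have h1 := congrArg (fun x : ↥((primesAbove L S).unit L) => (((x : Lˣ) : L) : Qb)) hab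
    exact Subtype.ext (Units.ext h1)
  have hinj' : Function.Injective (MonoidHom.toAdditive f).toIntLinearMap := by
    intro a b hab
    exact Additive.toMul.injective (hinj (congrArg Additive.toMul hab))
  exact Module.Finite.of_injective (MonoidHom.toAdditive f).toIntLinearMap hinj'

end Field

/-- **PKG-FG** (exact frozen Prop, unconditional): the `S`-units of `K = fieldOf U₀` are
finitely generated. -/
theorem h29f_pkgFG : H93PkgFG := by
  intro S U₀ _ hU₀
  obtain ⟨F, hFfin, -, hF⟩ := hU₀
  haveI := h23b_isGalois_Qb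
  have hfield : fieldOf U₀ = F := by
    rw [hF]
    exact InfiniteGalois.fixedField_fixingSubgroup F
  haveI : FiniteDimensional ℚ F := hFfin
  haveI : NumberField F := h23b_numberField F
  refine h29f_finite_of_le S F (h93p_SU S U₀) ?_
  intro a ha
  obtain ⟨h1, h2⟩ := ha
  rw [hfield] at h1
  exact ⟨h1, h2⟩

end Fermat.Agent.S56G
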