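import Mathlib
import Fermat.Agent.S56G.H93PkgIface
import Fermat.Agent.PT.Bridge.Levels
import Fermat.Agent.PT.Bridge.DQGood

/-!
# S56, block EQ-ARITH, leaf PKG-TORS (helper34)

`h34p_pkgTors : H93PkgTors` : the `p`-torsion of the `S`-units of `K = fieldOf U₀` (with
`ζ_p ∈ K`, i.e. the cyclotomic character trivial on `U₀`) is generated by `z = ζ_p ≠ 0`, and the
Galois group acts on `z` through the cyclotomic character.

* `ζ_p ∈ K` : `cycloChar p u = 1` means `u ζ = ζ` (`h23b_cycloChar_eq_one_iff`);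
* `ζ_p, ζ_p⁻¹` lie in every valuation subring (`h34p_mem_of_pow_eq_one`);
* `a ^ p = 1` implies `a = ζ ^ n` (`IsPrimitiveRoot.eq_pow_of_pow_eq_one`);
* `g ζ = ζ ^ χ(g)` (`h23b_cycloChar_spec`).
-/

set_option autoImplicit false
set_option linter.style.haveILetI false

open ExtCitation

noncomputable section

namespace Fermat.Agent.S56G

open Fermat.Agent.PT Fermat.Agent.PT.Glob

local notation "Qb" => AlgebraicClosure ℚ

/-- A root of unity lies in every valuation subring. -/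
lemma h34p_mem_of_pow_eq_one {K : Type*} [Field K] (V : ValuationSubring K) {x : K} {n : ℕ}
    (hn : n ≠ 0) (hx : x ^ n = 1) : x ∈ V := by
  rcases V.mem_or_inv_mem x with h | h
  · exact h
  · have hx0 : x ≠ 0 := by
      rintro rfl
      rw [zero_pow hn] at hx
      exact zero_ne_one hx
    obtain ⟨m, rfl⟩ : ∃ m, n = m + 1 := Nat.exists_eq_succ_of_ne_zero hn
    have h1 : x = (x⁻¹) ^ m := by
      rw [inv_pow]
      rw [pow_succ] at hx
      exact (eq_inv_of_mul_eq_one_right hx)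
    rw [h1]
    exact pow_mem h m

/-- **PKG-TORS.** -/
theorem h34p_pkgTors : H93PkgTors := by
  intro p _ _ U₀ _ _ hchi S
  have hp : p.Prime := Fact.out
  obtain ⟨ζ, hζ⟩ := pt79_exists_primitiveRoot p
  have hζ0 : ζ ≠ 0 := hζ.ne_zero hp.ne_zero
  have hζL : ζ ∈ fieldOf U₀ := by
    rw [IntermediateField.mem_fixedField_iff]
    intro u hu
    exact (Fermat.Agent.PT.Bridge.h23b_cycloChar_eq_one_iff p hζ u).1 (hchi u hu)
  have hζV : ∀ q : Nat.Primes, q ∉ S → ∀ V : ValuationSubring Qb, V.LiesOverPrime (q : ℕ) →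
      ζ ∈ V ∧ ζ⁻¹ ∈ V := by
    intro q _ V _
    refine ⟨h34p_mem_of_pow_eq_one V hp.ne_zero hζ.pow_eq_one,
      h34p_mem_of_pow_eq_one V hp.ne_zero ?_⟩
    rw [inv_pow, hζ.pow_eq_one, inv_one]
  obtain ⟨z, hz⟩ := h93p_exists_iota S U₀ ζ hζ0 hζL hζV
  refine ⟨z, ?_, ?_, ?_, ?_⟩
  · intro h0
    rw [h0, h93p_iota_zero] at hz
    exact hζ.ne_one hp.one_lt hz.symm
  · apply h93p_iota_injective
    rw [h93p_iota_nsmul, hz, hζ.pow_eq_one, h93p_iota_zero]
  · intro a ha
    have h1 : h93p_iota S U₀ a ^ p = 1 := by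
      rw [← h93p_iota_nsmul, ha, h93p_iota_zero]
    obtain ⟨n, -, hn⟩ := hζ.eq_pow_of_pow_eq_one h1
    refine ⟨n, ?_⟩
    apply h93p_iota_injective
    rw [h93p_iota_nsmul, hz, hn]
  · intro g
    apply h93p_iota_injective
    rw [h93p_iota_act, h93p_iota_nsmul, hz]
    exact Fermat.Agent.PT.Bridge.h23b_cycloChar_spec p g ζ hζ.pow_eq_one

end Fermat.Agent.S56G
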