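import Mathlib

/-!
# S56, block EQ-ARITH, row EQA-R-ASM, part 1 (helper52): the torsion character

`A` a finitely generated abelian group, `T ≤ A` its torsion subgroup, `A[p]` generated by
`z ≠ 0`.  Then there is an additive `θ : T → 𝔽_p` with kernel `T ∩ p A = p T`, such that every
additive endomorphism `f` of `A` with `f z = e z` satisfies `θ (f t) = e θ(t)`
(`h52e_tors`).  (`θ(t) = n` where `(N / p) t = n z`, `N` the exponent of `T`; the kernel is
computed by counting.)
-/

set_option autoImplicit false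
set_option linter.style.haveILetI false

noncomputable section

namespace Fermat.Agent.S56G

/-- A torsion subgroup of a finitely generated abelian group is finite. -/
theorem h52e_finite_tors (A : Type) [AddCommGroup A] [Module.Finite ℤ A] (T : AddSubgroup A)
    (hT : ∀ a ∈ T, ∃ n : ℕ, 0 < n ∧ n • a = 0) : Finite ↥T := by
  let T' : Submodule ℤ A :=
    { carrier := T
      add_mem' := T.add_mem
      zero_mem' := T.zero_mem
      smul_mem' := fun c x hx => T.zsmul_mem hx c }
  haveI : Module.Finite ℤ ↥T' := inferInstance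
  have htors : Module.IsTorsion ℤ ↥T' := by
    intro x
    obtain ⟨n, hn, hx⟩ := hT x.1 x.2
    refine ⟨⟨(n : ℤ), mem_nonZeroDivisors_of_ne_zero (by exact_mod_cast hn.ne')⟩, ?_⟩
    apply Subtype.ext
    show (n : ℤ) • (x : A) = 0
    rw [natCast_zsmul]
    exact hx
  haveI : Finite ↥T' := Module.finite_of_fg_torsion _ htors
  exact Finite.of_injective (fun t : ↥T => (⟨t.1, t.2⟩ : ↥T'))
    (fun a b h => Subtype.ext (congrArg Subtype.val h))

/-- counting: in a finite abelian group `T` whose `p`-torsion has `p` elements, an element killed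
by `N'` is divisible by `p`, provided `p N'` kills `T` and `N'` does not. -/
theorem h52e_count (p : ℕ) [Fact p.Prime] (T : Type) [AddCommGroup T] [Finite T]
    (hcard : Nat.card ↥(nsmulAddMonoidHom (α := T) p).ker = p) (N' : ℕ)
    (hN : ∀ t : T, (p * N') • t = 0) (hN' : ∃ t : T, N' • t ≠ 0) (t : T) (ht : N' • t = 0) :
    ∃ b : T, t = p • b := by
  have hp := (Fact.out : p.Prime)
  set f : T →+ T := nsmulAddMonoidHom p with hf
  set g : T →+ T := nsmulAddMonoidHom N' with hg
  have h1 : Nat.card T = p * Nat.card ↥f.range := by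
    rw [← AddSubgroup.card_mul_index f.ker, hcard, AddSubgroup.index_ker]
  have h2 : f.range.index = p := by
    have h3 := AddSubgroup.card_mul_index f.range
    rw [h1, mul_comm p] at h3
    exact Nat.eq_of_mul_eq_mul_left Nat.card_pos h3
  have hle : f.range ≤ g.ker := by
    rintro _ ⟨s, rfl⟩
    rw [AddMonoidHom.mem_ker]
    show N' • (p • s) = 0
    rw [← mul_nsmul]
    exact hN s
  have h4 := AddSubgroup.relIndex_mul_index hle
  rw [h2] at h4
  have h5 : g.ker.index ≠ 1 := by
    intro h
    rw [AddSubgroup.index_eq_one] at h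
    obtain ⟨s, hs⟩ := hN'
    apply hs
    have : s ∈ g.ker := by rw [h]; trivial
    exact this
  have h6 : g.ker.index = p := by
    rcases (Nat.dvd_prime hp).mp ⟨_, h4.symm.trans (mul_comm _ _)⟩ with h | h
    · exact absurd h h5
    · exact h
  have h7 : f.range.relIndex g.ker = 1 := by
    rw [h6] at h4
    have : f.range.relIndex g.ker * p = 1 * p := by rw [h4, one_mul]
    exact Nat.eq_of_mul_eq_mul_right hp.pos this
  rw [AddSubgroup.relIndex_eq_one] at h7
  obtain ⟨b, hb⟩ := h7 (show t ∈ g.ker from ht)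
  exact ⟨b, hb.symm⟩

/-- **the torsion character**. -/
theorem h52e_tors (p : ℕ) [Fact p.Prime] (A : Type) [AddCommGroup A] [Module.Finite ℤ A]
    (T : AddSubgroup A) (hT : ∀ a, a ∈ T ↔ ∃ n : ℕ, 0 < n ∧ n • a = 0)
    (z : A) (hz : z ≠ 0) (hpz : p • z = 0) (hgen : ∀ a : A, p • a = 0 → ∃ n : ℕ, a = n • z) :
    ∃ θ : ↥T →+ ZMod p,
      (∀ t : ↥T, θ t = 0 → ∃ b : A, (t : A) = p • b) ∧
      (∀ (t : ↥T) (b : A), (t : A) = p • b → θ t = 0) ∧
      (∀ (f : A →+ A) (e : ℕ), f z = e • z → ∀ t t' : ↥T, (t' : A) = f t →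
        θ t' = (e : ZMod p) * θ t) := by
  have hp := (Fact.out : p.Prime)
  haveI : Finite ↥T := h52e_finite_tors A T fun a ha => (hT a).mp ha
  have hzT : z ∈ T := (hT z).mpr ⟨p, hp.pos, hpz⟩
  have hord : addOrderOf z = p := addOrderOf_eq_prime hpz hz
  have key : ∀ m n : ℕ, m • z = n • z → (m : ZMod p) = n := by
    intro m n h
    rw [nsmul_eq_nsmul_iff_modEq, hord] at h
    exact (ZMod.natCast_eq_natCast_iff _ _ _).mpr h
  have key0 : ∀ m : ℕ, m • z = 0 → (m : ZMod p) = 0 := by
    intro m h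
    have := key m 0 (by rw [h, zero_nsmul])
    simpa using this
  set N := AddMonoid.exponent ↥T with hNdef
  have hN0 : N ≠ 0 := AddMonoid.exponent_ne_zero_of_finite
  have hNkill : ∀ a ∈ T, N • a = 0 := by
    intro a ha
    have := AddMonoid.exponent_nsmul_eq_zero (⟨a, ha⟩ : ↥T)
    exact congrArg Subtype.val this
  have hpN : p ∣ N := by
    have h1 : addOrderOf (⟨z, hzT⟩ : ↥T) ∣ N := AddMonoid.addOrder_dvd_exponent _
    have h2 : addOrderOf (⟨z, hzT⟩ : ↥T) = p := by
      rw [← hord]
      exact (AddSubgroup.addOrderOf_coe (⟨z, hzT⟩ : ↥T)).symm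
    rwa [h2] at h1
  obtain ⟨N', hN'⟩ := hpN
  have hN'0 : N' ≠ 0 := by
    rintro rfl
    exact hN0 (by rw [hN', mul_zero])
  have hex : ∀ t : ↥T, ∃ n : ℕ, N' • (t : A) = n • z := by
    intro t
    apply hgen
    rw [← mul_nsmul', ← hN']
    exact hNkill _ t.2
  have hadd : ∀ t t' : ↥T, (((hex (t + t')).choose : ℕ) : ZMod p) =
      ((hex t).choose : ZMod p) + ((hex t').choose : ZMod p) := by
    intro t t'
    rw [← Nat.cast_add]
    apply key
    rw [← (hex (t + t')).choose_spec, add_nsmul, ← (hex t).choose_spec,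
      ← (hex t').choose_spec, AddSubgroup.coe_add, nsmul_add]
  refine ⟨AddMonoidHom.mk' (fun t => (((hex t).choose : ℕ) : ZMod p)) hadd, ?_, ?_, ?_⟩
  · -- kernel ⊆ p T
    intro t ht
    have ht' : (((hex t).choose : ℕ) : ZMod p) = 0 := ht
    rw [ZMod.natCast_eq_zero_iff] at ht'
    obtain ⟨m, hm⟩ := ht'
    have h1 : N' • (t : A) = 0 := by
      rw [(hex t).choose_spec, hm, mul_nsmul, hpz, nsmul_zero]
    have hcard : Nat.card ↥(nsmulAddMonoidHom (α := ↥T) p).ker = p := by
      have : (nsmulAddMonoidHom (α := ↥T) p).ker = AddSubgroup.zmultiples (⟨z, hzT⟩ : ↥T) := by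
        ext s
        rw [AddMonoidHom.mem_ker, AddSubgroup.mem_zmultiples_iff]
        constructor
        · intro hs
          have hs' : p • (s : A) = 0 := congrArg Subtype.val hs
          obtain ⟨n, hn⟩ := hgen _ hs'
          refine ⟨(n : ℤ), Subtype.ext ?_⟩
          rw [natCast_zsmul]
          exact hn.symm
        · rintro ⟨k, rfl⟩
          show p • (k • (⟨z, hzT⟩ : ↥T)) = 0
          apply Subtype.ext
          show p • (k • z) = 0
          rw [smul_comm, hpz, smul_zero]
      rw [this, Nat.card_zmultiples]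
      rw [← hord]
      exact (AddSubgroup.addOrderOf_coe (⟨z, hzT⟩ : ↥T)).symm
    have hN'T : ∃ s : ↥T, N' • s ≠ 0 := by
      by_contra hcon
      push Not at hcon
      have h2 : N ∣ N' := AddMonoid.exponent_dvd_of_forall_nsmul_eq_zero hcon
      have h3 : N ≤ N' := Nat.le_of_dvd (Nat.pos_of_ne_zero hN'0) h2
      have h4 : 2 * N' ≤ N := by
        rw [hN']
        exact Nat.mul_le_mul_right _ hp.two_le
      have : 0 < N' := Nat.pos_of_ne_zero hN'0
      omega
    obtain ⟨b, hb⟩ := h52e_count p ↥T hcard N'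
      (fun s => by rw [← hN']; exact AddMonoid.exponent_nsmul_eq_zero s) hN'T t
      (Subtype.ext h1)
    exact ⟨(b : A), congrArg Subtype.val hb⟩
  · -- T ∩ p A ⊆ kernel
    intro t b hb
    show (((hex t).choose : ℕ) : ZMod p) = 0
    have h2 := (hex t).choose_spec
    generalize (hex t).choose = n at h2 ⊢
    apply key0
    rw [← h2, hb, ← mul_nsmul, ← hN']
    apply hNkill
    obtain ⟨n, hn, hnt⟩ := (hT _).mp t.2
    refine (hT b).mpr ⟨n * p, Nat.mul_pos hn hp.pos, ?_⟩
    rw [mul_nsmul', ← hb]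
    exact hnt
  · -- equivariance
    intro f e hfe t t' htt'
    show (((hex t').choose : ℕ) : ZMod p) = (e : ZMod p) * (((hex t).choose : ℕ) : ZMod p)
    have h1 := (hex t').choose_spec
    have h2 := (hex t).choose_spec
    generalize (hex t').choose = n' at h1 ⊢
    generalize (hex t).choose = n at h2 ⊢
    rw [← Nat.cast_mul]
    apply key
    rw [← h1, htt', ← map_nsmul, h2, map_nsmul, hfe, mul_nsmul]

end Fermat.Agent.S56G
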