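import Fermat.Agent.S56G.H52EqRed
import Fermat.Agent.S56G.H52EqTors

/-!
# S56, block EQ-ARITH, row EQA-R-ASM (helper52): assembly of the lattice inequality

`h52e_eqLatAsm : H93EqLatAsm` (exact frozen `Prop` of `S56G/EqArithIface2.lean`):
`H93EqAdd → H93EqLattice → H93EqDescent → H93EqLatAlg`.

Proof.  Write `m(N) = dim Hom_C(Y, N)`.
1. `M ≅ Hom_C(Y, A / p A)` (`h52e_M`).
2. `N_B = A / p A × 𝔽_p` is the reduction of `B = A × ℤ`; `m(N_B) = m(A / p A) + m(𝔽_p)` (R-ADD).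
3. the descent `j : A × ℤ → ℤ^X` (R-DESC), `Λ = j(A × ℤ)`: `m(Λ / p) ≤ m(𝔽_p^X)` (R-LAT).
4. `j̄ : N_B → Λ / p` is surjective equivariant with kernel `K`: `m(N_B) = m(K) + m(Λ / p)`
   (R-ADD).
5. every element of `K` is the class of `(t, 0)`, `t` torsion; the torsion character
   `θ` (`h52e_tors`) gives an equivariant injection `K → 𝔽_p(χ)`, so `m(K) ≤ m(𝔽_p(χ))`.
-/

set_option autoImplicit false
set_option linter.style.haveILetI false
set_option linter.unusedSectionVars false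

noncomputable section

namespace Fermat.Agent.S56G

open Fermat.Agent.PT

variable {p : ℕ} [Fact p.Prime] {C : Type} [Group C]

section Prod

variable {A : Type} [AddCommGroup A] (α : Representation ℤ C A)

/-- The representation on `A × ℤ`. -/
def h52e_betaB : Representation ℤ C (A × ℤ) := α.prod (Representation.trivial ℤ C ℤ)

lemma h52e_betaB_apply (c : C) (a : A) (n : ℤ) : h52e_betaB α c (a, n) = (α c a, n) := rfl

variable (p) in
/-- The representation on `A / p A × 𝔽_p`. -/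
def h52e_nuB : Representation (ZMod p) C (ModN A p × ZMod p) :=
  (h52b_modRep p α).prod (Representation.trivial (ZMod p) C (ZMod p))

lemma h52e_nuB_apply (c : C) (v : ModN A p) (x : ZMod p) :
    h52e_nuB p α c (v, x) = (h52b_modRep p α c v, x) := rfl

variable (p A) in
/-- The reduction map `A × ℤ → A / p A × 𝔽_p`. -/
def h52e_piB : A × ℤ →+ ModN A p × ZMod p :=
  (ModN.mkQ p).prodMap (Int.castAddHom (ZMod p))

lemma h52e_piB_apply (a : A) (n : ℤ) :
    h52e_piB p A (a, n) = (ModN.mkQ p a, (n : ZMod p)) := rfl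

/-- `A × ℤ → A / p A × 𝔽_p` is a reduction datum. -/
theorem h52e_red_B : h52b_Red p (h52e_betaB α) (h52e_nuB p α) (h52e_piB p A) where
  surj := by
    rintro ⟨v, x⟩
    obtain ⟨a, rfl⟩ := (h52b_red_modN (p := p) α).surj v
    obtain ⟨n, rfl⟩ := ZMod.intCast_surjective x
    exact ⟨(a, n), rfl⟩
  equivariant c b := by
    obtain ⟨a, n⟩ := b
    rfl
  ker_eq b := by
    obtain ⟨a, n⟩ := b
    rw [h52e_piB_apply, Prod.mk_eq_zero, (h52b_red_modN (p := p) α).ker_eq,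
      ZMod.intCast_zmod_eq_zero_iff_dvd]
    constructor
    · rintro ⟨⟨a', rfl⟩, ⟨n', rfl⟩⟩
      exact ⟨(a', n'), by rw [Prod.smul_mk, smul_eq_mul]⟩
    · rintro ⟨⟨a', n'⟩, h⟩
      rw [Prod.smul_mk, Prod.mk.injEq, smul_eq_mul] at h
      exact ⟨⟨a', h.1⟩, ⟨n', h.2⟩⟩

end Prod

/-- The core inequality, given the descent `j`. -/
theorem h52e_main (hAdd : H93EqAdd) (hLat : H93EqLattice) [Finite C] (hpC : ¬ p ∣ Nat.card C)
    {A : Type} [AddCommGroup A] [Module.Finite ℤ A] (α : Representation ℤ C A)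
    {X : Type} [Fintype X] (σ : C →* Equiv.Perm X)
    (χ : C →* (ZMod p)ˣ) (z : A) (hz : z ≠ 0) (hpz : p • z = 0)
    (hgen : ∀ a : A, p • a = 0 → ∃ n : ℕ, a = n • z)
    (hχ : ∀ c, α c z = ((χ c : (ZMod p)ˣ) : ZMod p).val • z)
    {Y : Type} [AddCommGroup Y] [Module (ZMod p) Y] [FiniteDimensional (ZMod p) Y]
    (τ : Representation (ZMod p) C Y)
    (j : A × ℤ →+ (X → ℤ))
    (hjeq : ∀ c a n x, j (α c a, n) (σ c x) = j (a, n) x)
    (hjker : ∀ a n, j (a, n) = 0 ↔ (∃ k : ℕ, 0 < k ∧ k • a = 0) ∧ n = 0) :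
    Module.finrank (ZMod p) ↥(h93e_hom τ (h52b_modRep p α))
        + Module.finrank (ZMod p) ↥(h93e_hom τ (Representation.trivial (ZMod p) C (ZMod p)))
      ≤ Module.finrank (ZMod p) ↥(h93e_hom τ (chiRep χ))
        + Module.finrank (ZMod p) ↥(h93e_hom τ (h93e_perm (ZMod p) σ)) := by
  classical
  have hp := (Fact.out : p.Prime)
  have hRB := h52e_red_B (p := p) α
  -- step 2
  have h2 : Module.finrank (ZMod p) ↥(h93e_hom τ (h52e_nuB p α)) =
      Module.finrank (ZMod p) ↥(h93e_hom τ (h52b_modRep p α))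
        + Module.finrank (ZMod p)
            ↥(h93e_hom τ (Representation.trivial (ZMod p) C (ZMod p))) :=
    hAdd p C hpC Y τ (ModN A p) (ModN A p × ZMod p) (ZMod p) (h52b_modRep p α) (h52e_nuB p α)
      (Representation.trivial (ZMod p) C (ZMod p)) (LinearMap.inl _ _ _) (LinearMap.snd _ _ _)
      (fun c v => by
        show ((h52b_modRep p α c v, (0 : ZMod p)) : ModN A p × ZMod p) = h52e_nuB p α c (v, 0)
        rw [h52e_nuB_apply])
      (fun c v => by
        obtain ⟨v, x⟩ := v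
        rfl)
      LinearMap.inl_injective LinearMap.snd_surjective (LinearMap.range_inl _ _ _)
  -- the lattice
  let jl : (A × ℤ) →ₗ[ℤ] (X → ℤ) := j.toIntLinearMap
  let Λ : Submodule ℤ (X → ℤ) := LinearMap.range jl
  have hjperm : ∀ c b, j (h52e_betaB α c b) = h52e_permZ σ c (j b) := by
    rintro c ⟨a, n⟩
    funext x
    rw [h52e_betaB_apply, h52e_permZ_apply, ← hjeq c a n ((σ c)⁻¹ x)]
    simp
  have hΛ : ∀ c, ∀ v ∈ Λ, h52e_permZ σ c v ∈ Λ := by
    rintro c _ ⟨b, rfl⟩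
    exact ⟨h52e_betaB α c b, hjperm c b⟩
  let βΛ : Representation ℤ C ↥Λ := h52b_sub (h52e_permZ σ) Λ hΛ
  let j' : A × ℤ →+ ↥Λ := jl.rangeRestrict.toAddMonoidHom
  have hj'surj : Function.Surjective j' := jl.surjective_rangeRestrict
  have hj'val : ∀ b, ((j' b : ↥Λ) : X → ℤ) = j b := fun b => rfl
  have hRΛ := h52b_red_modN (p := p) βΛ
  -- step 3
  have h3 : Module.finrank (ZMod p) ↥(h93e_hom τ (h52b_modRep p βΛ)) ≤
      Module.finrank (ZMod p) ↥(h93e_hom τ (h93e_perm (ZMod p) σ)) :=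
    hLat p C hpC Y τ ↥Λ (X → ℤ) βΛ (h52e_permZ σ) Λ.subtype.toAddMonoidHom
      Subtype.val_injective (fun c b => rfl) (ModN ↥Λ p) (X → ZMod p) (h52b_modRep p βΛ)
      (h93e_perm (ZMod p) σ) (ModN.mkQ p) (h52e_cast p X) (h52e_red hRΛ) (h52e_red_perm σ)
  -- the reduction of `j`
  let jb : (ModN A p × ZMod p) →ₗ[ZMod p] ModN ↥Λ p :=
    h52b_desc hRB ((ModN.mkQ p).comp j')
  have hjb : ∀ b, jb (h52e_piB p A b) = ModN.mkQ p (j' b) := fun b =>
    h52b_desc_apply hRB _ b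
  have hjbsurj : Function.Surjective jb := by
    intro v
    obtain ⟨y, rfl⟩ := hRΛ.surj v
    obtain ⟨b, rfl⟩ := hj'surj y
    exact ⟨h52e_piB p A b, hjb b⟩
  have hjbeq : ∀ c v, jb (h52e_nuB p α c v) = h52b_modRep p βΛ c (jb v) := by
    intro c v
    obtain ⟨b, rfl⟩ := hRB.surj v
    rw [← hRB.equivariant, hjb, hjb, h52b_modRep_mk]
    congr 1
    exact Subtype.ext (hjperm c b)
  let K : Submodule (ZMod p) (ModN A p × ZMod p) := LinearMap.ker jb
  have hK : ∀ c, ∀ v ∈ K, h52e_nuB p α c v ∈ K := by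
    intro c v hv
    have hv' : jb v = 0 := hv
    show jb _ = 0
    rw [hjbeq, hv', map_zero]
  let νK : Representation (ZMod p) C ↥K := h52b_sub (h52e_nuB p α) K hK
  -- step 5
  have h5 : Module.finrank (ZMod p) ↥(h93e_hom τ (h52e_nuB p α)) =
      Module.finrank (ZMod p) ↥(h93e_hom τ νK)
        + Module.finrank (ZMod p) ↥(h93e_hom τ (h52b_modRep p βΛ)) :=
    hAdd p C hpC Y τ ↥K (ModN A p × ZMod p) (ModN ↥Λ p) νK (h52e_nuB p α) (h52b_modRep p βΛ)
      K.subtype jb (fun c v => rfl) hjbeq Subtype.val_injective hjbsurj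
      (Submodule.range_subtype K)
  -- step 6: the torsion
  let T : AddSubgroup A := AddCommGroup.torsion A
  have hT : ∀ a, a ∈ T ↔ ∃ n : ℕ, 0 < n ∧ n • a = 0 := fun a => by
    rw [AddCommGroup.mem_torsion, isOfFinAddOrder_iff_nsmul_eq_zero]
  obtain ⟨θ, hθ1, hθ2, hθ3⟩ := h52e_tors p A T hT z hz hpz hgen
  have hfK : ∀ t : ↥T, ((h52e_piB p A).comp ((AddMonoidHom.inl A ℤ).comp T.subtype)) t ∈ K := by
    intro t
    show jb (h52e_piB p A ((t : A), 0)) = 0
    rw [hjb]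
    have : j' ((t : A), 0) = 0 := Subtype.ext ((hjker t 0).mpr ⟨(hT _).mp t.2, rfl⟩)
    rw [this, map_zero]
  let f : ↥T →+ ↥K :=
    ((h52e_piB p A).comp ((AddMonoidHom.inl A ℤ).comp T.subtype)).codRestrict K hfK
  have hfval : ∀ t : ↥T, ((f t : ↥K) : ModN A p × ZMod p) = h52e_piB p A ((t : A), 0) :=
    fun t => rfl
  have hfsurj : Function.Surjective f := by
    rintro ⟨v, hv⟩
    obtain ⟨⟨a, n⟩, rfl⟩ := hRB.surj v
    have hv' : ModN.mkQ p (j' (a, n)) = 0 := by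
      rw [← hjb]
      exact hv
    obtain ⟨y, hy⟩ := (hRΛ.ker_eq _).mp hv'
    obtain ⟨⟨a', n'⟩, rfl⟩ := hj'surj y
    have h0 : j (a - (p : ℤ) • a', n - (p : ℤ) • n') = 0 := by
      have h1 := congrArg Subtype.val hy
      rw [hj'val] at h1
      have h2 : ((a - (p : ℤ) • a', n - (p : ℤ) • n') : A × ℤ) = (a, n) - (p : ℤ) • (a', n') := by
        rw [Prod.smul_mk, Prod.mk_sub_mk]
      rw [h2, map_sub, map_zsmul, h1]
      exact sub_self _
    obtain ⟨htor, hn⟩ := (hjker _ _).mp h0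
    refine ⟨⟨a - (p : ℤ) • a', (hT _).mpr htor⟩, Subtype.ext ?_⟩
    show h52e_piB p A (a - (p : ℤ) • a', 0) = h52e_piB p A (a, n)
    rw [← sub_eq_zero, ← map_sub, hRB.ker_eq]
    refine ⟨(-a', -n'), ?_⟩
    rw [Prod.mk_sub_mk, Prod.smul_mk, Prod.mk.injEq]
    constructor
    · rw [smul_neg]
      abel
    · rw [smul_neg, zero_sub, neg_inj]
      exact (sub_eq_zero.mp hn)
  have hker : f.ker ≤ θ.ker := by
    intro t ht
    rw [AddMonoidHom.mem_ker] at ht ⊢
    have ht' : h52e_piB p A ((t : A), 0) = 0 := congrArg Subtype.val ht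
    obtain ⟨⟨b, m⟩, hb⟩ := (hRB.ker_eq _).mp ht'
    apply hθ2 t b
    have h1 := congrArg Prod.fst hb
    rw [← natCast_zsmul]
    exact h1
  let ι0 : ↥K →+ ZMod p := f.liftOfSurjective hfsurj ⟨θ, hker⟩
  have hι0 : ∀ t, ι0 (f t) = θ t := fun t =>
    AddMonoidHom.liftOfRightInverse_comp_apply _ _ _ _ t
  let ι : ↥K →ₗ[ZMod p] ZMod p := ι0.toZModLinearMap p
  have hιinj : Function.Injective ι := by
    rw [injective_iff_map_eq_zero]
    intro v hv
    obtain ⟨t, rfl⟩ := hfsurj v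
    have h1 : θ t = 0 := by
      rw [← hι0]
      exact hv
    obtain ⟨b, hb⟩ := hθ1 t h1
    apply Subtype.ext
    show h52e_piB p A ((t : A), 0) = 0
    rw [hRB.ker_eq]
    refine ⟨(b, 0), ?_⟩
    rw [Prod.smul_mk, smul_zero, hb, natCast_zsmul]
  have hιeq : ∀ c v, ι (νK c v) = chiRep χ c (ι v) := by
    intro c v
    obtain ⟨t, rfl⟩ := hfsurj v
    have hαt : α c (t : A) ∈ T := by
      obtain ⟨n, hn, hnt⟩ := (hT _).mp t.2
      exact (hT _).mpr ⟨n, hn, by rw [← map_nsmul, hnt, map_zero]⟩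
    have h1 : νK c (f t) = f ⟨α c t, hαt⟩ := Subtype.ext rfl
    show ι0 (νK c (f t)) = chiRep χ c (ι0 (f t))
    rw [h1, hι0, hι0, chiRep_apply,
      hθ3 (α c).toAddMonoidHom _ (hχ c) t ⟨α c t, hαt⟩ rfl, ZMod.natCast_zmod_val]
  have h6 : Module.finrank (ZMod p) ↥(h93e_hom τ νK) ≤
      Module.finrank (ZMod p) ↥(h93e_hom τ (chiRep χ)) :=
    h61l_mono τ νK (chiRep χ) ι hιinj hιeq
  omega

/-- **EQA-R-ASM** (exact frozen `Prop` of `S56G/EqArithIface2.lean`). -/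
theorem h52e_eqLatAsm : H93EqLatAsm := by
  intro hAdd hLat hDesc p _ C _ _ hpC A _ _ α X _ _ σ L w hLeq hLker hLdisc hw hsum χ z hz hpz
    hgen hχ H _ _ κ hκ Y _ _ _ τ M hM
  obtain ⟨hfin, hrank⟩ := h52e_M α κ τ hκ M hM
  refine ⟨hfin, ?_⟩
  rw [hrank]
  obtain ⟨j, hjeq, hjker⟩ := hDesc C A α X σ L w hLeq hLker hLdisc hw hsum
  exact h52e_main hAdd hLat hpC α σ χ z hz hpz hgen hχ τ j hjeq
    (fun a n => (hjker a n).trans (and_congr (hLker a) Iff.rfl))

end Fermat.Agent.S56G
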