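import Mathlib
import Fermat.Agent.S56G.EqArithIface

/-!
# S56, block EQ-ARITH (sub-architect helper93): frozen interfaces, part 2 — the leaves of
`H93EqLatAlg` (pure algebra, Mathlib only)

`C` a finite group of order prime to `p`, `(Y, τ)` a finite dimensional representation of `C`
over `𝔽_p`, `m(N) = dim Hom_C(Y, N) = finrank (h93e_hom τ ν)`.

* `h93e_IsRed p β ν π` : `(N, ν)` is the reduction modulo `p` of the `ℤ[C]`-module `(B, β)`
  through `π : B → N` (surjective, equivariant, kernel `p B`).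
* `H93EqAdd`     (R-ADD)  : `m` is additive in short exact sequences (Maschke: average a linear
  lift).
* `H93EqLattice` (R-LAT)  : LATTICE LEMMA.  An injective equivariant map `L₁ → L₂` of finitely
  generated free `ℤ`-modules with `C`-action gives `m(L₁/p) ≤ m(L₂/p)`
  (saturation; chain `L₁ + pⁱ L₂`; for `p L ⊆ L' ⊆ L`: `[L/p] = [L'/pL] + [L/L'] = [L'/p]`).
* `H93EqDescent` (R-DESC) : an additive equivariant `L : A → ℝ^X` with kernel the torsion of `A`,
  discrete image inside a hyperplane `∑ w_x t_x = 0`, `w > 0`, gives an additive equivariant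
  `j : A × ℤ → ℤ^X` with kernel `tors(A) × 0` (a `ℤ`-basis of `A/tors` maps to `ℝ`-linearly
  independent vectors, independent of the constant function `1`; approximate by rational
  vectors, average over `C`, clear denominators).
* `H93EqLatAsm`  (R-ASM)  : `H93EqLatAlg` from the three leaves
  (`0 → tors/p → A/p → Λ/p → 0`, `tors/p ≅ 𝔽_p(χ)`, `Λ × ℤ ≅ j(A × ℤ) ⊆ ℤ^X`).
-/

set_option autoImplicit false

open ExtCitation

noncomputable section

namespace Fermat.Agent.S56G

open Fermat.Agent.PT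

/-- `(N, ν)` is the reduction modulo `p` of the `ℤ[C]`-module `(B, β)` through `π`. -/
structure h93e_IsRed (p : ℕ) [Fact p.Prime] {C : Type} [Group C]
    {B : Type} [AddCommGroup B] (β : Representation ℤ C B)
    {N : Type} [AddCommGroup N] [Module (ZMod p) N] (ν : Representation (ZMod p) C N)
    (π : B →+ N) : Prop where
  surj : Function.Surjective π
  ker : ∀ b, π b = 0 ↔ ∃ b', b = p • b'
  equiv : ∀ c b, π (β c b) = ν c (π b)

/-- **R-ADD.**  `m` is additive in short exact sequences of finite dimensional representations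
of a finite group of order prime to `p`. -/
def H93EqAdd : Prop :=
  ∀ (p : ℕ) [Fact p.Prime] (C : Type) [Group C] [Finite C], ¬ p ∣ Nat.card C →
    ∀ (Y : Type) [AddCommGroup Y] [Module (ZMod p) Y] [FiniteDimensional (ZMod p) Y]
      (τ : Representation (ZMod p) C Y)
      (N₁ N₂ N₃ : Type) [AddCommGroup N₁] [Module (ZMod p) N₁] [AddCommGroup N₂]
      [Module (ZMod p) N₂] [AddCommGroup N₃] [Module (ZMod p) N₃]
      [FiniteDimensional (ZMod p) N₂]
      (ν₁ : Representation (ZMod p) C N₁) (ν₂ : Representation (ZMod p) C N₂)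
      (ν₃ : Representation (ZMod p) C N₃) (φ : N₁ →ₗ[ZMod p] N₂) (ψ : N₂ →ₗ[ZMod p] N₃),
      (∀ c v, φ (ν₁ c v) = ν₂ c (φ v)) → (∀ c v, ψ (ν₂ c v) = ν₃ c (ψ v)) →
      Function.Injective φ → Function.Surjective ψ → LinearMap.range φ = LinearMap.ker ψ →
      Module.finrank (ZMod p) ↥(h93e_hom τ ν₂) =
        Module.finrank (ZMod p) ↥(h93e_hom τ ν₁) + Module.finrank (ZMod p) ↥(h93e_hom τ ν₃)

/-- **R-LAT (lattice lemma).**  An injective equivariant map of finitely generated free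
`ℤ`-modules with `C`-action: `m(L₁/p) ≤ m(L₂/p)`. -/
def H93EqLattice : Prop :=
  ∀ (p : ℕ) [Fact p.Prime] (C : Type) [Group C] [Finite C], ¬ p ∣ Nat.card C →
    ∀ (Y : Type) [AddCommGroup Y] [Module (ZMod p) Y] [FiniteDimensional (ZMod p) Y]
      (τ : Representation (ZMod p) C Y)
      (L₁ L₂ : Type) [AddCommGroup L₁] [AddCommGroup L₂] [Module.Finite ℤ L₁]
      [Module.Free ℤ L₁] [Module.Finite ℤ L₂] [Module.Free ℤ L₂]
      (β₁ : Representation ℤ C L₁) (β₂ : Representation ℤ C L₂) (j : L₁ →+ L₂),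
      Function.Injective j → (∀ c b, j (β₁ c b) = β₂ c (j b)) →
      ∀ (N₁ N₂ : Type) [AddCommGroup N₁] [Module (ZMod p) N₁] [AddCommGroup N₂]
        [Module (ZMod p) N₂] (ν₁ : Representation (ZMod p) C N₁)
        (ν₂ : Representation (ZMod p) C N₂) (π₁ : L₁ →+ N₁) (π₂ : L₂ →+ N₂),
        h93e_IsRed p β₁ ν₁ π₁ → h93e_IsRed p β₂ ν₂ π₂ →
        Module.finrank (ZMod p) ↥(h93e_hom τ ν₁) ≤ Module.finrank (ZMod p) ↥(h93e_hom τ ν₂)

/-- **R-DESC (descent from `ℝ` to `ℤ`).** -/
def H93EqDescent : Prop :=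
  ∀ (C : Type) [Group C] [Finite C]
    (A : Type) [AddCommGroup A] [Module.Finite ℤ A] (α : Representation ℤ C A)
    (X : Type) [Fintype X] [Nonempty X] (σ : C →* Equiv.Perm X)
    (L : A →+ (X → ℝ)) (w : X → ℝ),
    (∀ c a x, L (α c a) (σ c x) = L a x) →
    (∀ a, L a = 0 ↔ ∃ n : ℕ, 0 < n ∧ n • a = 0) →
    (∃ ε : ℝ, 0 < ε ∧ ∀ a, L a ≠ 0 → ∃ x, ε ≤ |L a x|) →
    (∀ x, 0 < w x) → (∀ a, ∑ x, w x * L a x = 0) →
    ∃ j : A × ℤ →+ (X → ℤ),
      (∀ c a n x, j (α c a, n) (σ c x) = j (a, n) x) ∧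
      (∀ a n, j (a, n) = 0 ↔ L a = 0 ∧ n = 0)

/-- **R-ASM.**  Assembly of the lattice inequality. -/
def H93EqLatAsm : Prop :=
  H93EqAdd → H93EqLattice → H93EqDescent → H93EqLatAlg

end Fermat.Agent.S56G
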