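import Mathlib
import Fermat.Agent.S56G.EqArithIface2

/-!
# S56, block EQ-ARITH, row EQA-R-DESC (helper55): descent from `ℝ` to `ℤ`

`h55ed_descent : H93EqDescent` (exact frozen Prop of `S56G/EqArithIface2.lean`).

`Λ = L(A) ⊆ ℝ^X` is a discrete subgroup, hence free with a `ℤ`-basis `v_i = L(a_i)` which is
`ℝ`-linearly independent (`Real.finrank_eq_int_finrank_of_discrete`); the constant function `1`
is not in the real span of `Λ` (weighted product formula).  For an integral matrix `z` put
`G_z(a)(x) = ∑_c ∑_k coord_k(α(c) a) z_k(σ(c) x)` (equivariant, integral, trivial on the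
torsion).  For `z = ⌊D v⌋` the vectors `G_z(a_i) / D` tend to `#C · v_i`, so for `D` large
`1, G_z(a_1), …, G_z(a_r)` are linearly independent (linear independence is an open condition)
and `j(a, n) = G_z(a) + n · 1` is the required map.
-/

set_option autoImplicit false

noncomputable section

namespace Fermat.Agent.S56G

open Module Filter Topology

/-- a `ℤ`-basis of a discrete subgroup of a finite dimensional real vector space is
`ℝ`-linearly independent. -/
theorem h55ed_linInd {E : Type*} [NormedAddCommGroup E] [NormedSpace ℝ E] [FiniteDimensional ℝ E]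
    (Λ : Submodule ℤ E) [DiscreteTopology Λ] {ι : Type*} [Fintype ι] (b : Basis ι ℤ Λ) :
    LinearIndependent ℝ (fun i => (b i : E)) := by
  rw [linearIndependent_iff_card_eq_finrank_span]
  have hspan : Submodule.span ℤ (Set.range fun i => (b i : E)) = Λ := by
    have h1 : (Set.range fun i => (b i : E)) = Λ.subtype '' Set.range b := by
      ext x
      simp
    rw [h1, ← Submodule.map_span, b.span_eq, Submodule.map_top, Submodule.range_subtype]
  have hd : DiscreteTopology (Submodule.span ℤ (Set.range fun i => (b i : E))) := by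
    rw [hspan]; infer_instance
  rw [Real.finrank_eq_int_finrank_of_discrete hd, Set.finrank, hspan]
  exact (Module.finrank_eq_card_basis b).symm

/-- the range of `L` is discrete. -/
theorem h55ed_discrete {A : Type*} [AddCommGroup A] {X : Type*} [Fintype X] (L : A →+ (X → ℝ))
    (hdisc : ∃ ε : ℝ, 0 < ε ∧ ∀ a, L a ≠ 0 → ∃ x, ε ≤ |L a x|) :
    DiscreteTopology (LinearMap.range L.toIntLinearMap) := by
  obtain ⟨ε, hε, h⟩ := hdisc
  refine discreteTopology_iff_isOpen_singleton_zero.mpr ⟨Metric.ball 0 ε, Metric.isOpen_ball, ?_⟩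
  ext ⟨y, a, rfl⟩
  have h3 : L.toIntLinearMap a = L a := rfl
  have hiff : ((⟨L.toIntLinearMap a, ⟨a, rfl⟩⟩ : LinearMap.range L.toIntLinearMap) = 0) ↔
      L a = 0 := by
    rw [← h3]
    exact Submodule.mk_eq_zero (LinearMap.range L.toIntLinearMap) _
  simp only [Set.mem_preimage, mem_ball_zero_iff, Set.mem_singleton_iff]
  rw [hiff]
  constructor
  · intro hlt
    by_contra hne
    obtain ⟨x, hx⟩ := h a hne
    have h1 : ‖L a x‖ ≤ ‖L a‖ := norm_le_pi_norm (L a) x
    rw [Real.norm_eq_abs] at h1
    have h2 : ‖L a‖ < ε := hlt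
    linarith
  · intro h0
    show ‖L a‖ < ε
    rw [h0, norm_zero]
    exact hε

/-- `⌊D t⌋ / D → t`. -/
theorem h55ed_floor_tendsto (t : ℝ) :
    Tendsto (fun D : ℕ => ((⌊(D : ℝ) * t⌋ : ℤ) : ℝ) / (D : ℝ)) atTop (𝓝 t) := by
  have hlow : Tendsto (fun D : ℕ => t - 1 / (D : ℝ)) atTop (𝓝 t) := by
    have := (tendsto_const_nhds (x := t) (f := (atTop : Filter ℕ))).sub
      tendsto_one_div_atTop_nhds_zero_nat
    simpa using this
  refine tendsto_of_tendsto_of_tendsto_of_le_of_le' hlow tendsto_const_nhds ?_ ?_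
  · filter_upwards [eventually_gt_atTop 0] with D hD
    have hD' : (0 : ℝ) < D := by exact_mod_cast hD
    rw [le_div_iff₀ hD', sub_mul, one_div, inv_mul_cancel₀ hD'.ne']
    have := Int.sub_one_lt_floor ((D : ℝ) * t)
    linarith
  · filter_upwards [eventually_gt_atTop 0] with D hD
    have hD' : (0 : ℝ) < D := by exact_mod_cast hD
    rw [div_le_iff₀ hD']
    have := Int.floor_le ((D : ℝ) * t)
    linarith

section Desc

variable {C : Type} [Group C] [Fintype C] {A : Type} [AddCommGroup A] (α : Representation ℤ C A)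
  {X : Type} [Fintype X] (σ : C →* Equiv.Perm X) {ι : Type} [Fintype ι] (co : A →+ (ι → ℤ))

/-- the averaged integral map attached to the integral matrix `z`. -/
def h55ed_G (z : ι → X → ℤ) : A →+ (X → ℤ) where
  toFun a x := ∑ c : C, ∑ k : ι, co (α c a) k * z k (σ c x)
  map_zero' := by
    funext x
    simp
  map_add' a a' := by
    funext x
    simp only [map_add, Pi.add_apply, add_mul, Finset.sum_add_distrib]

lemma h55ed_G_apply (z : ι → X → ℤ) (a : A) (x : X) :
    h55ed_G α σ co z a x = ∑ c : C, ∑ k : ι, co (α c a) k * z k (σ c x) := rfl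

/-- equivariance of the averaged map. -/
lemma h55ed_G_equiv (z : ι → X → ℤ) (d : C) (a : A) (x : X) :
    h55ed_G α σ co z (α d a) (σ d x) = h55ed_G α σ co z a x := by
  rw [h55ed_G_apply, h55ed_G_apply]
  refine Fintype.sum_equiv (Equiv.mulRight d) _ _ fun c => ?_
  simp only [Equiv.coe_mulRight, map_mul, Module.End.mul_apply, Equiv.Perm.mul_apply]

/-- the averaged map is trivial where all the coordinates of the translates vanish. -/
lemma h55ed_G_eq_zero (z : ι → X → ℤ) (a : A) (h : ∀ c : C, co (α c a) = 0) :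
    h55ed_G α σ co z a = 0 := by
  funext x
  rw [h55ed_G_apply]
  simp only [h, Pi.zero_apply, zero_mul, Finset.sum_const_zero]

/-- the limit of the averaged maps of the floor matrices. -/
lemma h55ed_G_tendsto (v : ι → X → ℝ) (a : A) (x : X) :
    Tendsto (fun D : ℕ =>
        ((h55ed_G α σ co (fun k y => ⌊(D : ℝ) * v k y⌋) a x : ℤ) : ℝ) / (D : ℝ)) atTop
      (𝓝 (∑ c : C, ∑ k : ι, (co (α c a) k : ℝ) * v k (σ c x))) := by
  have h1 : ∀ D : ℕ, ((h55ed_G α σ co (fun k y => ⌊(D : ℝ) * v k y⌋) a x : ℤ) : ℝ) / (D : ℝ) =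
      ∑ c : C, ∑ k : ι, (co (α c a) k : ℝ) * (((⌊(D : ℝ) * v k (σ c x)⌋ : ℤ) : ℝ) / (D : ℝ)) := by
    intro D
    rw [h55ed_G_apply]
    push_cast
    rw [Finset.sum_div]
    refine Finset.sum_congr rfl fun c _ => ?_
    rw [Finset.sum_div]
    refine Finset.sum_congr rfl fun k _ => ?_
    rw [mul_div_assoc]
  simp only [h1]
  refine tendsto_finsetSum _ fun c _ => ?_
  refine tendsto_finsetSum _ fun k _ => ?_
  exact (h55ed_floor_tendsto (v k (σ c x))).const_mul _

end Desc

/-- **EQA-R-DESC**: descent from `ℝ` to `ℤ`. -/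
theorem h55ed_descent : H93EqDescent := by
  classical
  intro C _ _ A _ _ α X _ _ σ L w hequiv _hker hdisc hw hsum
  letI : Fintype C := Fintype.ofFinite C
  -- the lattice `Λ = L(A)` and its basis
  haveI hdΛ : DiscreteTopology (LinearMap.range L.toIntLinearMap) := h55ed_discrete L hdisc
  haveI : Module.Finite ℤ (LinearMap.range L.toIntLinearMap) := inferInstance
  haveI : Module.Free ℤ (LinearMap.range L.toIntLinearMap) := inferInstance
  obtain ⟨ι, hι, ⟨b⟩⟩ : ∃ (ι : Type) (_ : Fintype ι),
      Nonempty (Basis ι ℤ (LinearMap.range L.toIntLinearMap)) :=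
    ⟨Module.Free.ChooseBasisIndex ℤ (LinearMap.range L.toIntLinearMap), inferInstance,
      ⟨Module.Free.chooseBasis ℤ (LinearMap.range L.toIntLinearMap)⟩⟩
  obtain ⟨v, hvdef⟩ : ∃ v : ι → X → ℝ, ∀ i, v i = (b i : X → ℝ) := ⟨_, fun _ => rfl⟩
  have hv : LinearIndependent ℝ v := by
    have := h55ed_linInd (LinearMap.range L.toIntLinearMap) b
    have h2 : v = fun i => (b i : X → ℝ) := funext hvdef
    rw [h2]
    exact this
  -- coordinates
  obtain ⟨co, hcodef⟩ : ∃ co : A →+ (ι → ℤ),
      ∀ a, co a = b.equivFun (L.toIntLinearMap.rangeRestrict a) :=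
    ⟨(b.equivFun.toLinearMap.comp L.toIntLinearMap.rangeRestrict).toAddMonoidHom, fun _ => rfl⟩
  have hco : ∀ a x, L a x = ∑ i, (co a i : ℝ) * v i x := by
    intro a x
    have h1 := b.sum_equivFun (L.toIntLinearMap.rangeRestrict a)
    have h2 := congrArg (fun u : LinearMap.range L.toIntLinearMap => (u : X → ℝ) x) h1
    simp only [Submodule.coe_sum, Submodule.coe_smul, Finset.sum_apply, Pi.smul_apply] at h2
    simp only [zsmul_eq_mul] at h2
    rw [show L a x = ((L.toIntLinearMap.rangeRestrict a : LinearMap.range L.toIntLinearMap) :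
      X → ℝ) x from rfl, ← h2]
    refine Finset.sum_congr rfl fun i _ => ?_
    rw [hcodef, hvdef]
  have hco0 : ∀ a, L a = 0 → co a = 0 := by
    intro a ha
    rw [hcodef]
    have : L.toIntLinearMap.rangeRestrict a = 0 := by
      apply Subtype.ext
      exact ha
    rw [this, map_zero]
  have hLco : ∀ a, co a = 0 → L a = 0 := by
    intro a ha
    funext x
    rw [hco a x]
    simp [ha]
  have hLα : ∀ a, L a = 0 → ∀ c, L (α c a) = 0 := by
    intro a ha c
    funext y
    have := hequiv c a ((σ c).symm y)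
    rw [Equiv.apply_symm_apply] at this
    rw [this, ha]
    rfl
  -- lifts of the basis
  have hai : ∀ i, ∃ a, L a = v i := by
    intro i
    obtain ⟨a, ha⟩ := LinearMap.mem_range.mp (b i).2
    exact ⟨a, by rw [hvdef]; exact ha⟩
  choose ai hai using hai
  -- expansion of the averaged maps
  have hexp : ∀ (z : ι → X → ℤ) (a : A),
      h55ed_G α σ co z a = ∑ i, co a i • h55ed_G α σ co z (ai i) := by
    intro z a
    have h0 : L (a - ∑ i, co a i • ai i) = 0 := by
      funext x
      rw [map_sub, map_sum, Pi.sub_apply, Finset.sum_apply, hco a x, Pi.zero_apply, sub_eq_zero]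
      refine Finset.sum_congr rfl fun i _ => ?_
      rw [map_zsmul, Pi.smul_apply, hai, zsmul_eq_mul]
    have h1 : h55ed_G α σ co z (a - ∑ i, co a i • ai i) = 0 :=
      h55ed_G_eq_zero α σ co z _ fun c => hco0 _ (hLα _ h0 c)
    rw [map_sub, sub_eq_zero] at h1
    rw [h1, map_sum]
    refine Finset.sum_congr rfl fun i _ => ?_
    rw [map_zsmul]
  -- the constant function is independent of the lattice
  have h1span : (1 : X → ℝ) ∉ Submodule.span ℝ (Set.range v) := by
    intro h1
    let φ : (X → ℝ) →ₗ[ℝ] ℝ := ∑ x, w x • LinearMap.proj x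
    have hφ : ∀ t : X → ℝ, φ t = ∑ x, w x * t x := by
      intro t
      simp [φ]
    have hle : Submodule.span ℝ (Set.range v) ≤ LinearMap.ker φ := by
      rw [Submodule.span_le]
      rintro _ ⟨i, rfl⟩
      rw [SetLike.mem_coe, LinearMap.mem_ker, hφ, ← hai i]
      exact hsum _
    have h2 := LinearMap.mem_ker.mp (hle h1)
    rw [hφ] at h2
    have h3 : 0 < ∑ x, w x * (1 : X → ℝ) x := by
      refine Finset.sum_pos (fun x _ => ?_) Finset.univ_nonempty
      simpa using hw x
    exact h3.ne' h2
  have hF0 : LinearIndependent ℝ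
      (fun o : Option ι => Option.casesOn' o (1 : X → ℝ) v) := hv.option h1span
  have hcard : ((Fintype.card C : ℕ) : ℝ) ≠ 0 := by
    exact_mod_cast Fintype.card_ne_zero
  have hF1 : LinearIndependent ℝ (fun o : Option ι =>
      Option.casesOn' o (1 : X → ℝ) (fun i => ((Fintype.card C : ℕ) : ℝ) • v i)) := by
    have := hF0.units_smul (fun o : Option ι => Option.casesOn' o (1 : ℝˣ)
      (fun _ => Units.mk0 _ hcard))
    convert this using 1
    funext o
    cases o <;> simp [Option.casesOn']
  -- the limit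
  have hlim : Tendsto (fun D : ℕ => (fun o : Option ι => Option.casesOn' o (1 : X → ℝ)
      (fun i x => ((h55ed_G α σ co (fun k y => ⌊(D : ℝ) * v k y⌋) (ai i) x : ℤ) : ℝ) /
        (D : ℝ)))) atTop
      (𝓝 (fun o : Option ι =>
        Option.casesOn' o (1 : X → ℝ) (fun i => ((Fintype.card C : ℕ) : ℝ) • v i))) := by
    rw [tendsto_pi_nhds]
    intro o
    cases o with
    | none => exact tendsto_const_nhds
    | some i =>
      show Tendsto (fun D : ℕ => (fun x =>
        ((h55ed_G α σ co (fun k y => ⌊(D : ℝ) * v k y⌋) (ai i) x : ℤ) : ℝ) / (D : ℝ))) atTop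
        (𝓝 (((Fintype.card C : ℕ) : ℝ) • v i))
      rw [tendsto_pi_nhds]
      intro x
      have h1 := h55ed_G_tendsto α σ co v (ai i) x
      have h2 : (∑ c : C, ∑ k : ι, (co (α c (ai i)) k : ℝ) * v k (σ c x)) =
          (((Fintype.card C : ℕ) : ℝ) • v i) x := by
        have h3 : ∀ c : C, (∑ k : ι, (co (α c (ai i)) k : ℝ) * v k (σ c x)) = v i x := by
          intro c
          rw [← hco, hequiv, hai]
        rw [Finset.sum_congr rfl fun c _ => h3 c, Finset.sum_const, Finset.card_univ,
          nsmul_eq_mul, Pi.smul_apply, smul_eq_mul]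
      rw [h2] at h1
      exact h1
  have hev := hlim.eventually (isOpen_setOfPred_linearIndependent.mem_nhds hF1)
  obtain ⟨D, hD, hD0⟩ := (hev.and (eventually_gt_atTop 0)).exists
  have hD' : ((D : ℕ) : ℝ) ≠ 0 := by exact_mod_cast hD0.ne'
  obtain ⟨z, hz⟩ : ∃ z : ι → X → ℤ, z = fun k y => ⌊(D : ℝ) * v k y⌋ := ⟨_, rfl⟩
  rw [← hz] at hD
  have hH : LinearIndependent ℝ (fun o : Option ι => Option.casesOn' o (1 : X → ℝ)
      (fun i x => ((h55ed_G α σ co z (ai i) x : ℤ) : ℝ))) := by
    have hD2 : LinearIndependent ℝ (fun o : Option ι => Option.casesOn' o (1 : X → ℝ)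
      (fun i x => ((h55ed_G α σ co z (ai i) x : ℤ) : ℝ) / (D : ℝ))) := hD
    have := hD2.units_smul (fun o : Option ι => Option.casesOn' o (1 : ℝˣ)
      (fun _ => Units.mk0 _ hD'))
    convert this using 1
    funext o
    cases o with
    | none => simp [Option.casesOn']
    | some i =>
      funext x
      simp only [Option.casesOn', Pi.smul_apply', Pi.smul_apply, Units.smul_mk0, smul_eq_mul]
      rw [mul_div_cancel₀ _ hD']
  -- the map
  refine ⟨(h55ed_G α σ co z).coprod (zmultiplesHom (X → ℤ) 1), ?_, ?_⟩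
  · intro c a n x
    simp only [AddMonoidHom.coprod_apply, Pi.add_apply, zmultiplesHom_apply, Pi.smul_apply,
      Pi.one_apply]
    rw [h55ed_G_equiv]
  · intro a n
    constructor
    · intro h0
      have hx : ∀ x, h55ed_G α σ co z a x + n = 0 := by
        intro x
        have := congrFun h0 x
        simpa [AddMonoidHom.coprod_apply] using this
      have hsum0 : ∑ o : Option ι, (Option.casesOn' o (n : ℝ) (fun i => (co a i : ℝ))) •
          (Option.casesOn' o (1 : X → ℝ)
            (fun i x => ((h55ed_G α σ co z (ai i) x : ℤ) : ℝ))) = 0 := by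
        funext x
        rw [Fintype.sum_option]
        simp only [Option.casesOn', Pi.add_apply, Pi.smul_apply, Pi.one_apply, smul_eq_mul,
          mul_one, Finset.sum_apply, Pi.zero_apply]
        have h1 := hx x
        rw [hexp z a] at h1
        simp only [Finset.sum_apply, Pi.smul_apply] at h1
        simp only [zsmul_eq_mul, Int.cast_id] at h1
        have h2 : ((∑ i, co a i * h55ed_G α σ co z (ai i) x + n : ℤ) : ℝ) = 0 := by
          rw [h1, Int.cast_zero]
        push_cast at h2
        linarith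
      have hall := Fintype.linearIndependent_iff.mp hH _ hsum0
      have hn : n = 0 := by
        have := hall none
        simpa [Option.casesOn'] using this
      have hc : co a = 0 := by
        funext i
        have := hall (some i)
        simpa [Option.casesOn'] using this
      exact ⟨hLco a hc, hn⟩
    · rintro ⟨ha, rfl⟩
      rw [AddMonoidHom.coprod_apply, map_zero, add_zero]
      exact h55ed_G_eq_zero α σ co z a fun c => hco0 _ (hLα a ha c)

end Fermat.Agent.S56G
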