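import Mathlib
import Fermat.Agent.S56G.H93PkgIface
import Fermat.Agent.PT.Bridge.NFDict
import Fermat.Agent.PT.Bridge.LocGrpE
import Fermat.Agent.PT.Bridge.DQGood

/-!
# S56, block EQ-ARITH, row EQA-PKG-LOG-DISC (helper55): discreteness of the logarithmic image

`h55ld_logDisc : H93PkgLogDisc` (exact frozen Prop of `S56G/H93PkgIface.lean`).

* Finite places: on `K = fieldOf U₀` the norm `‖padicEmbedding q x‖` takes its values in `c ^ ℤ`,
  `c = ‖padicEmbedding q ϖ‖ < 1` for a uniformizer `ϖ ∈ K` at the place under `padicPlace q`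
  (`h55ld_norm_eq_zpow`, number field dictionary `PT/Bridge/NFDict.lean`).
* If all the finite logarithms of an `S`-unit vanish, it is an algebraic integer
  (`h55ld_isIntegral`); its complex embeddings are the `complexEmbedding (g x)`
  (`h55ld_embedding`), and Northcott's finiteness (`NumberField.Embeddings.finite_of_norm_le`)
  gives a uniform lower bound for the nonzero archimedean logarithms.
-/

set_option autoImplicit false
set_option linter.style.haveILetI false

open ExtCitation NumberField IsDedekindDomain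
open scoped Pointwise

noncomputable section

namespace Fermat.Agent.S56G

open Fermat.Agent.PT Fermat.Agent.PT.Glob Fermat.Agent.PT.Bridge
open Fermat.Agent.Bridge (primeUnder mem_nonunits_iff_inv mem_smul_iff liesOverPrime_smul_iff)

local notation "Qb" => AlgebraicClosure ℚ

/-! ## The field -/

/-- `fieldOf U₀` is finite over `ℚ` for `U₀` of finite level. -/
theorem h55ld_finiteDimensional (U₀ : Subgroup GQ) (hU₀ : U₀ ∈ levFin.sets) :
    FiniteDimensional ℚ (fieldOf U₀) := by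
  haveI := h23b_isGalois_Qb
  obtain ⟨F, hF, -, rfl⟩ := hU₀
  have h : fieldOf F.fixingSubgroup = F := InfiniteGalois.fixedField_fixingSubgroup F
  rw [h]
  exact hF

/-- `G_ℚ / U₀` is finite. -/
theorem h55ld_finite_quot (U₀ : Subgroup GQ) [U₀.Normal] (hU₀ : U₀ ∈ levFin.sets) :
    Finite (GQ ⧸ U₀) := by
  haveI : U₀.FiniteIndex := (h23b_levFin_good U₀ hU₀).2
  exact Subgroup.finite_quotient_of_finiteIndex

/-! ## The `q`-adic norm on a number field is discrete -/

section Padic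

variable (q : ℕ) [Fact q.Prime]

/-- nonunits of `padicPlace q` have norm `< 1`. -/
theorem h55ld_norm_lt_one {x : Qb} (hx : x ∈ (padicPlace q).nonunits) :
    ‖padicEmbedding q x‖ < 1 := by
  rcases (mem_nonunits_iff_inv (padicPlace q) x).1 hx with h | h
  · rw [h, map_zero, norm_zero]
    exact one_pos
  · rw [mem_padicPlace_iff, map_inv₀, nnnorm_inv, not_le] at h
    have hx0 : ‖padicEmbedding q x‖₊ ≠ 0 := by
      intro h0
      rw [h0, inv_zero] at h
      exact absurd h (by simp)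
    have h1 : ‖padicEmbedding q x‖₊ < 1 := by
      by_contra hge
      rw [not_lt] at hge
      have : (‖padicEmbedding q x‖₊)⁻¹ ≤ 1 := inv_le_one_of_one_le₀ hge
      exact absurd h (not_lt.2 this)
    rw [← coe_nnnorm]
    exact_mod_cast h1

/-- units of `padicPlace q` have norm `1`. -/
theorem h55ld_norm_eq_one {x : Qb} (hx : x ∈ padicPlace q) (hx' : x ∉ (padicPlace q).nonunits) :
    ‖padicEmbedding q x‖ = 1 := by
  have h1 : ‖padicEmbedding q x‖₊ ≤ 1 := (mem_padicPlace_iff q).1 hx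
  have h2' : ¬ (x = 0 ∨ x⁻¹ ∉ padicPlace q) := fun h =>
    hx' ((mem_nonunits_iff_inv (padicPlace q) x).2 h)
  have h2 : x ≠ 0 ∧ x⁻¹ ∈ padicPlace q :=
    ⟨fun h => h2' (Or.inl h), by_contra fun h => h2' (Or.inr h)⟩
  have h3 : ‖padicEmbedding q x⁻¹‖₊ ≤ 1 := (mem_padicPlace_iff q).1 h2.2
  rw [map_inv₀, nnnorm_inv] at h3
  have hx0 : ‖padicEmbedding q x‖₊ ≠ 0 := by
    rw [nnnorm_ne_zero_iff]
    exact (map_ne_zero_iff _ (RingHom.injective _)).2 h2.1
  have h4 : 1 ≤ ‖padicEmbedding q x‖₊ := by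
    by_contra hlt
    rw [not_le] at hlt
    have : 1 < (‖padicEmbedding q x‖₊)⁻¹ := (one_lt_inv₀ (pos_iff_ne_zero.2 hx0)).2 hlt
    exact absurd h3 (not_le.2 this)
  have h5 : ‖padicEmbedding q x‖₊ = 1 := le_antisymm h1 h4
  rw [← coe_nnnorm, h5]
  rfl

/-- **Discreteness of the `q`-adic norm on a number field**: the values are the powers of one
number `c < 1`. -/
theorem h55ld_norm_eq_zpow (K : IntermediateField ℚ Qb) [NumberField K] :
    ∃ c : ℝ, 0 < c ∧ c < 1 ∧ ∀ x : K, x ≠ 0 → ∃ m : ℤ, ‖padicEmbedding q (x : Qb)‖ = c ^ m := by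
  have hq : q.Prime := Fact.out
  set v : HeightOneSpectrum (𝓞 K) :=
    h23b_placeUnder K (padicPlace q) hq (h23b_padicPlace_liesOver q) with hv
  have hvI : v.asIdeal = primeUnder (padicPlace q) K := rfl
  obtain ⟨ϖ, hϖ⟩ := v.valuation_exists_uniformizer K
  have hϖ0 : ϖ ≠ 0 := by
    intro h0
    rw [h0, map_zero] at hϖ
    exact WithZero.exp_ne_zero.symm hϖ
  have hϖlt : v.valuation K ϖ < 1 := by
    rw [hϖ, ← WithZero.exp_zero, WithZero.exp_lt_exp]
    norm_num
  have hϖnu : (ϖ : Qb) ∈ (padicPlace q).nonunits :=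
    (h23b_mem_nonunits_iff_valuation_lt_one v hvI ϖ).2 hϖlt
  have hϖQ : (ϖ : Qb) ≠ 0 := by
    intro h
    apply hϖ0
    exact_mod_cast h
  refine ⟨‖padicEmbedding q (ϖ : Qb)‖, ?_, h55ld_norm_lt_one q hϖnu, ?_⟩
  · rw [norm_pos_iff]
    exact (map_ne_zero_iff _ (RingHom.injective _)).2 hϖQ
  · intro x hx
    have hvx : v.valuation K x ≠ 0 := (Valuation.ne_zero_iff _).2 hx
    set k : ℤ := WithZero.log (v.valuation K x) with hk
    have hvk : v.valuation K x = WithZero.exp k := (WithZero.exp_log hvx).symm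
    -- the unit `u = x ϖ ^ k`
    set u : K := x * ϖ ^ k with hu
    have hvu : v.valuation K u = 1 := by
      rw [hu, map_mul, map_zpow₀, hϖ, hvk, ← WithZero.exp_zsmul, ← WithZero.exp_add]
      simp
    have hunit := (h23b_isUnit_iff_valuation_eq_one v hvI u).2 hvu
    have h1 := h55ld_norm_eq_one q hunit.1 hunit.2
    have h2 : ((u : K) : Qb) = (x : Qb) * (ϖ : Qb) ^ k := by
      rw [hu]
      push_cast
      rfl
    rw [h2, map_mul, map_zpow₀, norm_mul, norm_zpow] at h1
    refine ⟨-k, ?_⟩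
    have hc0 : ‖padicEmbedding q (ϖ : Qb)‖ ^ k ≠ 0 :=
      zpow_ne_zero _ (norm_ne_zero_iff.2 ((map_ne_zero_iff _ (RingHom.injective _)).2 hϖQ))
    rw [zpow_neg]
    exact eq_inv_of_mul_eq_one_left h1

end Padic

/-! ## Integrality and the complex embeddings -/

/-- an element of a number field lying in all the valuation subrings of `ℚ̄` over the prime
numbers is an algebraic integer. -/
theorem h55ld_isIntegral (K : IntermediateField ℚ Qb) [NumberField K] (x : K)
    (h : ∀ (q : ℕ) (V : ValuationSubring Qb), q.Prime → V.LiesOverPrime q → (x : Qb) ∈ V) :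
    IsIntegral ℤ x := by
  have h1 : ∀ v : HeightOneSpectrum (𝓞 K), v.valuation K x ≤ 1 := by
    intro v
    obtain ⟨q, V, hq, hV, hv⟩ := h23b_exists_valuationSubring_of_place K v
    exact (h23b_mem_iff_valuation_le_one v hv x).1 (h q V hq hV)
  obtain ⟨r, hr⟩ := HeightOneSpectrum.mem_integers_of_valuation_le_one K x h1
  rw [← hr]
  exact NumberField.RingOfIntegers.isIntegral_coe r

/-- the complex embeddings of a subfield of `ℚ̄` are induced by `complexEmbedding` and the
Galois group. -/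
theorem h55ld_embedding (K : IntermediateField ℚ Qb) [NumberField K] (φ : K →+* ℂ) (x : K) :
    ∃ g : GQ, φ x = complexEmbedding (g (x : Qb)) := by
  haveI : IsGalois ℚ Qb := h23b_isGalois_Qb
  have hxint : IsIntegral ℚ x := IsIntegral.of_finite ℚ x
  have hmin : minpoly ℚ (x : Qb) = minpoly ℚ x :=
    minpoly.algebraMap_eq (algebraMap K Qb).injective x
  have hroot : φ x ∈ (minpoly ℚ x).rootSet ℂ := by
    rw [← NumberField.Embeddings.range_eval_eq_rootSet_minpoly K ℂ x]
    exact ⟨φ, rfl⟩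
  have hsplit : ((minpoly ℚ x).map (algebraMap ℚ Qb)).Splits := IsAlgClosed.splits _
  rw [← hsplit.image_rootSet complexEmbedding] at hroot
  obtain ⟨y, hy, hyφ⟩ := hroot
  have hy0 : Polynomial.aeval y (minpoly ℚ x) = 0 := (Polynomial.mem_rootSet.1 hy).2
  have hmy : minpoly ℚ y = minpoly ℚ (x : Qb) := by
    rw [hmin]
    exact (minpoly.eq_of_irreducible_of_monic (minpoly.irreducible hxint) hy0
      (minpoly.monic hxint)).symm
  obtain ⟨g, hg⟩ := (Normal.minpoly_eq_iff_mem_orbit Qb).1 hmy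
  refine ⟨g, ?_⟩
  rw [← hyφ]
  congr 1
  exact hg.symm

/-- a finite family of positive numbers has a positive lower bound. -/
theorem h55ld_exists_pos_le {ι : Type*} [Finite ι] (f : ι → ℝ) (hf : ∀ i, 0 < f i) :
    ∃ ε : ℝ, 0 < ε ∧ ∀ i, ε ≤ f i := by
  rcases isEmpty_or_nonempty ι with h | h
  · exact ⟨1, one_pos, fun i => (h.false i).elim⟩
  · obtain ⟨i₀, hi₀⟩ := Finite.exists_min f
    exact ⟨f i₀, hf i₀, hi₀⟩

/-! ## The theorem -/

/-- **EQA-PKG-LOG-DISC**: discreteness of the logarithmic image of the `S`-units. -/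
theorem h55ld_logDisc : H93PkgLogDisc := by
  classical
  intro S U₀ _ hU₀
  haveI hfd := h55ld_finiteDimensional U₀ hU₀
  haveI : NumberField (fieldOf U₀) := h23b_numberField (fieldOf U₀)
  haveI := h55ld_finite_quot U₀ hU₀
  -- the finite places
  have hA : ∀ q : ↥S, ∃ ε : ℝ, 0 < ε ∧ ∀ a : h93p_A S U₀,
      h93p_ell S U₀ (some q) a ≠ 0 → ε ≤ |h93p_ell S U₀ (some q) a| := by
    intro q
    haveI : Fact ((q.1 : Nat.Primes) : ℕ).Prime := ⟨q.1.2⟩
    obtain ⟨c, hc0, hc1, hc⟩ := h55ld_norm_eq_zpow ((q.1 : Nat.Primes) : ℕ) (fieldOf U₀)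
    have hlog : Real.log c < 0 := Real.log_neg hc0 hc1
    refine ⟨-Real.log c, neg_pos.2 hlog, ?_⟩
    intro a ha
    have hx0 : (⟨h93p_iota S U₀ a, h93p_iota_mem S U₀ a⟩ : fieldOf U₀) ≠ 0 := by
      intro h
      exact h93p_iota_ne_zero S U₀ a (congrArg Subtype.val h)
    obtain ⟨m, hm⟩ := hc ⟨h93p_iota S U₀ a, h93p_iota_mem S U₀ a⟩ hx0
    have hval : h93p_ell S U₀ (some q) a = m * Real.log c := by
      show Real.log ‖padicEmbedding ((q.1 : Nat.Primes) : ℕ) (h93p_iota S U₀ a)‖ = _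
      rw [hm, Real.log_zpow]
    rw [hval] at ha ⊢
    have hm0 : m ≠ 0 := by
      rintro rfl
      simp at ha
    rw [abs_mul, abs_of_neg hlog]
    have h1 : (1 : ℝ) ≤ |(m : ℝ)| := by
      exact_mod_cast Int.one_le_abs hm0
    nlinarith [neg_pos.2 hlog]
  choose εq hεq0 hεq using hA
  obtain ⟨εA, hεA0, hεA⟩ := h55ld_exists_pos_le εq hεq0
  -- Northcott
  have hN := NumberField.Embeddings.finite_of_norm_le (fieldOf U₀) ℂ (Real.exp 1)
  have hBfin : {a : h93p_A S U₀ |
      (⟨h93p_iota S U₀ a, h93p_iota_mem S U₀ a⟩ : fieldOf U₀) ∈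
        {x : fieldOf U₀ | IsIntegral ℤ x ∧ ∀ φ : fieldOf U₀ →+* ℂ, ‖φ x‖ ≤ Real.exp 1}}.Finite := by
    refine Set.Finite.preimage ?_ hN
    intro a _ b _ hab
    exact h93p_iota_injective S U₀ (congrArg Subtype.val hab)
  haveI := hBfin.to_subtype
  obtain ⟨εB, hεB0, hεB⟩ := h55ld_exists_pos_le
    (fun t : {t : ↥{a : h93p_A S U₀ |
      (⟨h93p_iota S U₀ a, h93p_iota_mem S U₀ a⟩ : fieldOf U₀) ∈
        {x : fieldOf U₀ | IsIntegral ℤ x ∧ ∀ φ : fieldOf U₀ →+* ℂ, ‖φ x‖ ≤ Real.exp 1}} ×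
        (GQ ⧸ U₀) // h93p_ell S U₀ none (h93p_act S U₀ t.2 (t.1 : h93p_A S U₀)) ≠ 0} =>
      |h93p_ell S U₀ none (h93p_act S U₀ t.1.2 (t.1.1 : h93p_A S U₀))|)
    (fun t => abs_pos.2 t.2)
  refine ⟨min εA (min εB 1), lt_min hεA0 (lt_min hεB0 one_pos), ?_⟩
  intro a ha
  by_cases hfin : ∃ (q : ↥S) (g : GQ ⧸ U₀), h93p_ell S U₀ (some q) (h93p_act S U₀ g a) ≠ 0
  · obtain ⟨q, g, hqg⟩ := hfin
    exact ⟨some q, g, le_trans (min_le_left _ _) (le_trans (hεA q) (hεq q _ hqg))⟩
  · have hfin0 : ∀ (q : ↥S) (g : GQ ⧸ U₀), h93p_ell S U₀ (some q) (h93p_act S U₀ g a) = 0 := by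
      intro q g
      by_contra h
      exact hfin ⟨q, g, h⟩
    obtain ⟨g₀, hg₀⟩ : ∃ g : GQ ⧸ U₀, h93p_ell S U₀ none (h93p_act S U₀ g a) ≠ 0 := by
      obtain ⟨i, g, hig⟩ := ha
      cases i with
      | none => exact ⟨g, hig⟩
      | some q => exact absurd (hfin0 q g) hig
    by_cases hbig : ∃ g : GQ ⧸ U₀, 1 ≤ |h93p_ell S U₀ none (h93p_act S U₀ g a)|
    · obtain ⟨g, hg⟩ := hbig
      exact ⟨none, g, le_trans (min_le_right _ _) (le_trans (min_le_right _ _) hg)⟩
    · have hsmall : ∀ g : GQ ⧸ U₀, |h93p_ell S U₀ none (h93p_act S U₀ g a)| < 1 := by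
        intro g
        by_contra h
        exact hbig ⟨g, not_lt.1 h⟩
      -- `ι a` is integral
      have hint : IsIntegral ℤ (⟨h93p_iota S U₀ a, h93p_iota_mem S U₀ a⟩ : fieldOf U₀) := by
        apply h55ld_isIntegral
        intro q V hq hV
        show h93p_iota S U₀ a ∈ V
        by_cases hqS : (⟨q, hq⟩ : Nat.Primes) ∈ S
        · haveI : Fact q.Prime := ⟨hq⟩
          obtain ⟨g, hg⟩ := h23b_exists_smul_padicPlace q hV
          rw [← hg, mem_smul_iff, inv_inv, mem_padicPlace_iff]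
          have h1 := hfin0 ⟨⟨q, hq⟩, hqS⟩ (QuotientGroup.mk' U₀ g)
          have h2 : Real.log ‖padicEmbedding q (g (h93p_iota S U₀ a))‖ = 0 := h1
          have h3 : ‖padicEmbedding q (g (h93p_iota S U₀ a))‖ ≠ 0 := by
            rw [norm_ne_zero_iff]
            refine (map_ne_zero_iff _ (RingHom.injective _)).2 ?_
            exact (map_ne_zero_iff _ (AlgEquiv.injective g)).2 (h93p_iota_ne_zero S U₀ a)
          have h4 : ‖padicEmbedding q (g (h93p_iota S U₀ a))‖ = 1 := by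
            rcases Real.log_eq_zero.1 h2 with h | h | h
            · exact absurd h h3
            · exact h
            · have := norm_nonneg (padicEmbedding q (g (h93p_iota S U₀ a)))
              linarith
          have h5 : (‖padicEmbedding q (g (h93p_iota S U₀ a))‖₊ : ℝ) = 1 := by
            rw [coe_nnnorm]
            exact h4
          have h6 : ‖padicEmbedding q (g (h93p_iota S U₀ a))‖₊ = 1 := by
            exact_mod_cast h5
          exact h6.le
        · exact (h93p_iota_val S U₀ a ⟨q, hq⟩ hqS V hV).1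
      -- its conjugates are bounded
      have hbd : ∀ φ : fieldOf U₀ →+* ℂ,
          ‖φ (⟨h93p_iota S U₀ a, h93p_iota_mem S U₀ a⟩ : fieldOf U₀)‖ ≤ Real.exp 1 := by
        intro φ
        obtain ⟨g, hg⟩ := h55ld_embedding (fieldOf U₀) φ
          (⟨h93p_iota S U₀ a, h93p_iota_mem S U₀ a⟩ : fieldOf U₀)
        rw [hg]
        have h1 := hsmall (QuotientGroup.mk' U₀ g)
        have h2 : |Real.log ‖complexEmbedding (g (h93p_iota S U₀ a))‖| < 1 := h1
        have h3 : 0 < ‖complexEmbedding (g (h93p_iota S U₀ a))‖ := by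
          rw [norm_pos_iff]
          refine (map_ne_zero_iff _ (RingHom.injective _)).2 ?_
          exact (map_ne_zero_iff _ (AlgEquiv.injective g)).2 (h93p_iota_ne_zero S U₀ a)
        have h4 : Real.log ‖complexEmbedding (g (h93p_iota S U₀ a))‖ < 1 := (abs_lt.1 h2).2
        exact ((Real.log_lt_iff_lt_exp h3).1 h4).le
      have hmem : a ∈ {a : h93p_A S U₀ |
          (⟨h93p_iota S U₀ a, h93p_iota_mem S U₀ a⟩ : fieldOf U₀) ∈
            {x : fieldOf U₀ | IsIntegral ℤ x ∧ ∀ φ : fieldOf U₀ →+* ℂ, ‖φ x‖ ≤ Real.exp 1}} :=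
        ⟨hint, hbd⟩
      have := hεB ⟨(⟨a, hmem⟩, g₀), hg₀⟩
      exact ⟨none, g₀, le_trans (min_le_right _ _) (le_trans (min_le_left _ _) this)⟩

end Fermat.Agent.S56G
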