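import Fermat.Agent.S56G.EqArithIface2
import Fermat.Agent.S56G.BA.H52LatticeMain

/-!
# S56, block EQ-ARITH, row EQA-R-LAT (helper61): the lattice lemma for `m`

`h61l_lattice_of : H93EqAdd → H93EqLattice`: an injective equivariant map `j : L₁ → L₂` of
finitely generated free `ℤ`-modules with an action of a finite group `C` of order prime to `p`
gives `m(L₁/p) ≤ m(L₂/p)`, `m(N) = dim Hom_C(Y, N)`.

Proof.  `Λ' = {x ∈ L₂ | ∃ n > 0, n x ∈ j(L₁)}` (saturation, `h61l_sat`) is a `C`-stable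
finitely generated subgroup with `N Λ' ⊆ j(L₁)` for some `N ≠ 0` (`h61l_exists_mult`), so
`m(L₁/p) = m(Λ'/p)` by the landed lattice lemma `h52b_lattice` (helper52) applied to the additive
function `m` (`h61l_m_additive`, from `H93EqAdd`); `Λ'/p → L₂/p` is injective because `Λ'` is
saturated, and `m` is monotone under equivariant injections (`h61l_mono`).
-/

set_option autoImplicit false
set_option linter.style.haveILetI false
set_option linter.unusedSectionVars false

noncomputable section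

namespace Fermat.Agent.S56G

variable {p : ℕ} [Fact p.Prime] {C : Type} [Group C]

/-- the two vocabularies of reduction data agree. -/
theorem h61l_red {B N : Type} [AddCommGroup B] [AddCommGroup N] [Module (ZMod p) N]
    {β : Representation ℤ C B} {ν : Representation (ZMod p) C N} {π : B →+ N}
    (h : h93e_IsRed p β ν π) : h52b_Red p β ν π where
  surj := h.surj
  equivariant := h.equiv
  ker_eq b := by
    rw [h.ker b]
    constructor
    · rintro ⟨b', rfl⟩
      exact ⟨b', (natCast_zsmul b' p).symm⟩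
    · rintro ⟨y, rfl⟩
      exact ⟨y, natCast_zsmul y p⟩

/-- the reduction of a finitely generated group is finite dimensional. -/
theorem h61l_finite {B N : Type} [AddCommGroup B] [Module.Finite ℤ B] [AddCommGroup N]
    [Module (ZMod p) N] (π : B →+ N) (hsurj : Function.Surjective π) :
    FiniteDimensional (ZMod p) N := by
  haveI : Module.Finite ℤ N := Module.Finite.of_surjective π.toIntLinearMap hsurj
  exact Module.Finite.of_restrictScalars_finite ℤ (ZMod p) N

section M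

variable {Y : Type} [AddCommGroup Y] [Module (ZMod p) Y]

/-- the function `m(N) = dim Hom_C(Y, N)`. -/
def h61l_m (τ : Representation (ZMod p) C Y) :
    ∀ (V : Type) [AddCommGroup V] [Module (ZMod p) V], Representation (ZMod p) C V → ℤ :=
  fun _ _ _ ν => (Module.finrank (ZMod p) ↥(h93e_hom τ ν) : ℤ)

theorem h61l_m_additive (hAdd : H93EqAdd) [Finite C] (hC : ¬ p ∣ Nat.card C)
    [FiniteDimensional (ZMod p) Y] (τ : Representation (ZMod p) C Y) :
    h47g_IsAdditive (ZMod p) C (h61l_m τ) := by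
  intro V₁ V₂ V₃ _ _ _ _ _ _ _ ρ₁ ρ₂ ρ₃ φ ψ hφ hψ hinj hsurj hex
  show ((Module.finrank (ZMod p) ↥(h93e_hom τ ρ₂) : ℕ) : ℤ) =
    ((Module.finrank (ZMod p) ↥(h93e_hom τ ρ₁) : ℕ) : ℤ) +
      ((Module.finrank (ZMod p) ↥(h93e_hom τ ρ₃) : ℕ) : ℤ)
  rw [hAdd p C hC Y τ V₁ V₂ V₃ ρ₁ ρ₂ ρ₃ φ ψ hφ hψ hinj hsurj hex]
  push_cast
  rfl

/-- `m` is monotone under equivariant injections. -/
theorem h61l_mono [FiniteDimensional (ZMod p) Y] (τ : Representation (ZMod p) C Y)
    {V W : Type} [AddCommGroup V] [Module (ZMod p) V] [AddCommGroup W] [Module (ZMod p) W]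
    [FiniteDimensional (ZMod p) W] (ν : Representation (ZMod p) C V)
    (ν' : Representation (ZMod p) C W) (ι : V →ₗ[ZMod p] W) (hι : Function.Injective ι)
    (heq : ∀ c v, ι (ν c v) = ν' c (ι v)) :
    Module.finrank (ZMod p) ↥(h93e_hom τ ν) ≤ Module.finrank (ZMod p) ↥(h93e_hom τ ν') := by
  let F : ↥(h93e_hom τ ν) →ₗ[ZMod p] ↥(h93e_hom τ ν') :=
    { toFun := fun Φ => ⟨ι.comp Φ.1, fun g y => by
        show ι (Φ.1 (τ g y)) = ν' g (ι (Φ.1 y))
        rw [Φ.2 g y, heq]⟩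
      map_add' := fun a b => Subtype.ext (LinearMap.comp_add _ _ _)
      map_smul' := fun a b => Subtype.ext (LinearMap.comp_smul _ _ _) }
  have hF : Function.Injective F := by
    intro a b hab
    apply Subtype.ext
    apply LinearMap.ext
    intro y
    apply hι
    exact congrArg (fun Ψ : ↥(h93e_hom τ ν') => Ψ.1 y) hab
  exact LinearMap.finrank_le_finrank_of_injective hF

end M

section Sat

variable {L : Type} [AddCommGroup L]

/-- the saturation of a subgroup. -/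
def h61l_sat (S : Submodule ℤ L) : Submodule ℤ L where
  carrier := {x | ∃ n : ℕ, 0 < n ∧ (n : ℤ) • x ∈ S}
  add_mem' := by
    rintro x y ⟨n, hn, hx⟩ ⟨n', hn', hy⟩
    refine ⟨n * n', Nat.mul_pos hn hn', ?_⟩
    have h1 : ((n * n' : ℕ) : ℤ) • (x + y) = (n' : ℤ) • ((n : ℤ) • x) + (n : ℤ) • ((n' : ℤ) • y) := by
      rw [smul_add, smul_smul, smul_smul]
      push_cast
      rw [mul_comm (n' : ℤ) (n : ℤ)]
    rw [h1]
    exact S.add_mem (S.smul_mem _ hx) (S.smul_mem _ hy)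
  zero_mem' := ⟨1, one_pos, by rw [smul_zero]; exact S.zero_mem⟩
  smul_mem' := by
    rintro a x ⟨n, hn, hx⟩
    exact ⟨n, hn, by rw [smul_comm]; exact S.smul_mem a hx⟩

theorem h61l_mem_sat (S : Submodule ℤ L) (x : L) :
    x ∈ h61l_sat S ↔ ∃ n : ℕ, 0 < n ∧ (n : ℤ) • x ∈ S := Iff.rfl

theorem h61l_le_sat (S : Submodule ℤ L) : S ≤ h61l_sat S := fun x hx =>
  ⟨1, one_pos, by rw [Nat.cast_one, one_smul]; exact hx⟩

/-- a multiple of the saturation lies in the subgroup. -/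
theorem h61l_exists_mult [Module.Finite ℤ L] (S : Submodule ℤ L) :
    ∃ N : ℕ, N ≠ 0 ∧ ∀ x ∈ h61l_sat S, (N : ℤ) • x ∈ S := by
  classical
  obtain ⟨s, hs⟩ := (IsNoetherian.noetherian (h61l_sat S) : (h61l_sat S).FG)
  have hmem : ∀ x ∈ s, x ∈ h61l_sat S := fun x hx => by
    rw [← hs]
    exact Submodule.subset_span hx
  choose! n hn0 hn using fun x (hx : x ∈ s) => hmem x hx
  refine ⟨∏ x ∈ s, n x, Finset.prod_ne_zero_iff.mpr fun x hx => (hn0 x hx).ne', ?_⟩
  intro y hy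
  rw [← hs] at hy
  induction hy using Submodule.span_induction with
  | mem x hx =>
    have hx' : x ∈ s := hx
    have h1 : ((∏ z ∈ s, n z : ℕ) : ℤ) • x =
        ((∏ z ∈ s.erase x, n z : ℕ) : ℤ) • ((n x : ℤ) • x) := by
      rw [smul_smul, ← Finset.prod_erase_mul s n hx']
      push_cast
      rfl
    rw [h1]
    exact S.smul_mem _ (hn x hx')
  | zero => rw [smul_zero]; exact S.zero_mem
  | add a b _ _ ha hb => rw [smul_add]; exact S.add_mem ha hb
  | smul a b _ hb => rw [smul_comm]; exact S.smul_mem a hb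

end Sat

/-- **EQA-R-LAT**: the lattice lemma for `m`, from the additivity of `m`. -/
theorem h61l_lattice_of : H93EqAdd → H93EqLattice := by
  intro hAdd p _ C _ _ hC Y _ _ _ τ L₁ L₂ _ _ _ _ _ _ β₁ β₂ j hj hjeq N₁ N₂ _ _ _ _ ν₁ ν₂ π₁ π₂
    hred₁ hred₂
  classical
  haveI hfin₁ : FiniteDimensional (ZMod p) N₁ := h61l_finite π₁ hred₁.surj
  haveI hfin₂ : FiniteDimensional (ZMod p) N₂ := h61l_finite π₂ hred₂.surj
  have hp : p.Prime := Fact.out
  -- the saturation of `j(L₁)`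
  set S : Submodule ℤ L₂ := LinearMap.range j.toIntLinearMap with hS
  set Λ' : Submodule ℤ L₂ := h61l_sat S with hΛ'
  have hstab : ∀ c, ∀ v ∈ Λ', β₂ c v ∈ Λ' := by
    rintro c v ⟨n, hn, y, hy⟩
    refine ⟨n, hn, β₁ c y, ?_⟩
    show j (β₁ c y) = (n : ℤ) • β₂ c v
    rw [hjeq, ← map_zsmul (β₂ c)]
    congr 1
  let ρ' : Representation ℤ C ↥Λ' := h52b_sub β₂ Λ' hstab
  have h' : h52b_Red p ρ' (h52b_modRep p ρ') (ModN.mkQ p) := h52b_red_modN ρ'
  -- `L₁ → Λ'`
  let f : L₁ →+ ↥Λ' :=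
    { toFun := fun y => ⟨j y, h61l_le_sat S ⟨y, rfl⟩⟩
      map_zero' := Subtype.ext (map_zero j)
      map_add' := fun y y' => Subtype.ext (map_add j y y') }
  have hfinj : Function.Injective f := by
    intro y y' hyy
    exact hj (congrArg Subtype.val hyy)
  have hfeq : ∀ c y, f (β₁ c y) = ρ' c (f y) := by
    intro c y
    apply Subtype.ext
    exact hjeq c y
  obtain ⟨N, hN0, hN⟩ := h61l_exists_mult S
  have hN' : ∀ x : ↥Λ', ∃ y, f y = (N : ℤ) • x := by
    rintro ⟨x, hx⟩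
    obtain ⟨y, hy⟩ := hN x hx
    exact ⟨y, Subtype.ext hy⟩
  have htf₂ : ∀ z : L₂, (p : ℤ) • z = 0 → z = 0 := by
    intro z hz
    rcases smul_eq_zero.mp hz with h | h
    · exact absurd h (by exact_mod_cast hp.ne_zero)
    · exact h
  have htf : ∀ z : ↥Λ', (p : ℤ) • z = 0 → z = 0 := by
    intro z hz
    apply Subtype.ext
    exact htf₂ z (congrArg Subtype.val hz)
  -- `m(Λ'/p) = m(L₁/p)`
  have e1 : h61l_m τ (ModN ↥Λ' p) (h52b_modRep p ρ') = h61l_m τ N₁ ν₁ :=
    h52b_lattice (h61l_m τ) (h61l_m_additive hAdd hC τ) h' (h61l_red hred₁) htf f hfinj hfeq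
      N hN0 hN'
  have e1' : Module.finrank (ZMod p) ↥(h93e_hom τ ν₁) =
      Module.finrank (ZMod p) ↥(h93e_hom τ (h52b_modRep p ρ')) := by
    have h1 : ((Module.finrank (ZMod p) ↥(h93e_hom τ (h52b_modRep p ρ')) : ℕ) : ℤ) =
        ((Module.finrank (ZMod p) ↥(h93e_hom τ ν₁) : ℕ) : ℤ) := e1
    exact_mod_cast h1.symm
  -- `Λ'/p → L₂/p` is injective and equivariant
  let ι : ModN ↥Λ' p →ₗ[ZMod p] N₂ := h52b_desc h' (π₂.comp Λ'.subtype.toAddMonoidHom)
  have hι_apply : ∀ x : ↥Λ', ι (ModN.mkQ p x) = π₂ (x : L₂) := fun x =>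
    h52b_desc_apply h' (π₂.comp Λ'.subtype.toAddMonoidHom) x
  have hιinj : Function.Injective ι := by
    rw [injective_iff_map_eq_zero]
    intro v hv
    obtain ⟨x, rfl⟩ := h'.surj v
    rw [hι_apply] at hv
    obtain ⟨b', hb'⟩ := (hred₂.ker _).mp hv
    have hb'mem : b' ∈ Λ' := by
      obtain ⟨n, hn, hx⟩ := x.2
      refine ⟨n * p, Nat.mul_pos hn hp.pos, ?_⟩
      have h2 : ((n * p : ℕ) : ℤ) • b' = (n : ℤ) • (x : L₂) := by
        rw [hb', ← natCast_zsmul b' p, smul_smul]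
        push_cast
        rfl
      rw [h2]
      exact hx
    rw [h'.ker_eq]
    refine ⟨⟨b', hb'mem⟩, Subtype.ext ?_⟩
    show (x : L₂) = (p : ℤ) • b'
    rw [hb', natCast_zsmul]
  have hιeq : ∀ c v, ι (h52b_modRep p ρ' c v) = ν₂ c (ι v) := by
    intro c v
    obtain ⟨x, rfl⟩ := h'.surj v
    rw [h52b_modRep_mk, hι_apply, hι_apply]
    show π₂ (β₂ c (x : L₂)) = ν₂ c (π₂ (x : L₂))
    exact hred₂.equiv c x
  rw [e1']
  exact h61l_mono τ (h52b_modRep p ρ') ν₂ ι hιinj hιeq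

end Fermat.Agent.S56G
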