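import Mathlib
import Fermat.Agent.S56G.H93PkgIface
import Fermat.Agent.PT.Bridge.LocGrpE
import Fermat.Agent.Bridge.Dict

/-!
# S56, block EQ-ARITH, leaf EQA-PKG-LOG-KER (helper72): Kronecker

`h72k_pkgLogKer : H93PkgLogKer`: an `S`-unit `a` of `K = fieldOf U₀` all of whose conjugates have
absolute value `1` at all places of `S ∪ {∞}` is a root of unity.

* `h72k_isIntegral_of_forall_mem` : an element of `ℚ̄` lying in every valuation subring over a
  prime number is an algebraic integer (Mathlib: a subring integrally closed in a field is the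
  intersection of the valuation subrings containing it; `Bridge.existsPrime`).
* `h72k_mem_of_norm_le` : if all conjugates of `x` have `q`-adic norm `≤ 1` through
  `padicEmbedding q`, then `x` lies in every valuation subring over `q`
  (`h23b_exists_smul_padicPlace`).
* `h72k_embedding_eq` : every complex embedding of `ℚ(x)` is `complexEmbedding ∘ g` on `x`
  (`Normal.algHomEquivAut`).
* `h72k_kronecker` : Kronecker's theorem in `ℚ̄`
  (Mathlib `NumberField.Embeddings.pow_eq_one_of_norm_eq_one`).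
-/

set_option autoImplicit false
set_option linter.style.haveILetI false

open ExtCitation
open scoped Pointwise

noncomputable section

namespace Fermat.Agent.S56G

open Fermat.Agent.PT Fermat.Agent.PT.Glob

local notation "Qb" => AlgebraicClosure ℚ

/-- An element of `ℚ̄` which lies in every valuation subring over a prime number is an algebraic
integer. -/
theorem h72k_isIntegral_of_forall_mem {x : Qb}
    (h : ∀ q : ℕ, q.Prime → ∀ V : ValuationSubring Qb, V.LiesOverPrime q → x ∈ V) :
    IsIntegral ℤ x := by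
  by_contra hx
  have hxR : x ∉ (integralClosure ℤ Qb).toSubring := hx
  obtain ⟨V, -, hV⟩ := Subring.exists_le_valuationSubring_of_isIntegrallyClosedIn hxR
  by_cases hVtop : V = ⊤
  · exact hV (hVtop ▸ ValuationSubring.mem_top x)
  · obtain ⟨q, hq, hVq, -⟩ := Fermat.Agent.Bridge.existsPrime V hVtop
    exact hV (h q hq V hVq)

/-- If all conjugates of `x` have `q`-adic norm `≤ 1`, then `x` lies in every valuation subring
of `ℚ̄` over `q`. -/
theorem h72k_mem_of_norm_le (q : ℕ) [Fact q.Prime] {x : Qb}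
    (h : ∀ g : GQ, ‖padicEmbedding q (g x)‖ ≤ 1)
    (V : ValuationSubring Qb) (hV : V.LiesOverPrime q) : x ∈ V := by
  obtain ⟨g, rfl⟩ := Fermat.Agent.PT.Bridge.h23b_exists_smul_padicPlace q hV
  rw [Fermat.Agent.Bridge.mem_smul_iff, inv_inv, mem_padicPlace_iff]
  exact h g

/-- Every complex embedding of `ℚ(x)` maps `x` to `complexEmbedding (g x)` for some `g`. -/
theorem h72k_embedding_eq (x : Qb) (φ : ↥(IntermediateField.adjoin ℚ {x}) →+* ℂ) :
    ∃ g : GQ, φ (IntermediateField.AdjoinSimple.gen ℚ x) = complexEmbedding (g x) := by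
  haveI : Algebra.IsAlgebraic ℚ Qb := AlgebraicClosure.isAlgebraic ℚ
  haveI : IsAlgClosure ℚ Qb := ⟨inferInstance, inferInstance⟩
  haveI : Normal ℚ Qb := IsAlgClosure.normal ℚ Qb
  letI algK : Algebra ↥(IntermediateField.adjoin ℚ {x}) ℂ := φ.toAlgebra
  haveI : IsScalarTower ℚ ↥(IntermediateField.adjoin ℚ {x}) ℂ :=
    IsScalarTower.of_algebraMap_eq' (Subsingleton.elim _ _)
  haveI : Algebra.IsAlgebraic ↥(IntermediateField.adjoin ℚ {x}) Qb :=
    Algebra.IsAlgebraic.tower_top (K := ℚ) _
  let ψK : Qb →ₐ[↥(IntermediateField.adjoin ℚ {x})] ℂ := IsAlgClosed.lift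
  let ψ : Qb →ₐ[ℚ] ℂ := ψK.restrictScalars ℚ
  letI algQ : Algebra Qb ℂ := complexEmbedding.toRingHom.toAlgebra
  haveI : IsScalarTower ℚ Qb ℂ := IsScalarTower.of_algebraMap_eq' (Subsingleton.elim _ _)
  refine ⟨Normal.algHomEquivAut ℚ ℂ Qb ψ, ?_⟩
  have h1 : (Normal.algHomEquivAut ℚ ℂ Qb).symm (Normal.algHomEquivAut ℚ ℂ Qb ψ) = ψ :=
    (Normal.algHomEquivAut ℚ ℂ Qb).symm_apply_apply ψ
  have h2 : ψ x = complexEmbedding ((Normal.algHomEquivAut ℚ ℂ Qb ψ) x) := by
    conv_lhs => rw [← h1]
    rfl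
  rw [← h2]
  have h3 : ψK (algebraMap ↥(IntermediateField.adjoin ℚ {x}) Qb
      (IntermediateField.AdjoinSimple.gen ℚ x)) =
      algebraMap ↥(IntermediateField.adjoin ℚ {x}) ℂ (IntermediateField.AdjoinSimple.gen ℚ x) :=
    ψK.commutes _
  exact h3.symm

/-- **Kronecker's theorem in `ℚ̄`**: an algebraic integer all of whose conjugates have complex
absolute value `1` is a root of unity. -/
theorem h72k_kronecker {x : Qb} (hx : IsIntegral ℤ x)
    (h : ∀ g : GQ, ‖complexEmbedding (g x)‖ = 1) : ∃ n : ℕ, 0 < n ∧ x ^ n = 1 := by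
  haveI : Algebra.IsAlgebraic ℚ Qb := AlgebraicClosure.isAlgebraic ℚ
  have hxQ : IsIntegral ℚ x := (Algebra.IsAlgebraic.isAlgebraic x).isIntegral
  haveI : FiniteDimensional ℚ ↥(IntermediateField.adjoin ℚ {x}) :=
    IntermediateField.adjoin.finiteDimensional hxQ
  haveI : NumberField ↥(IntermediateField.adjoin ℚ {x}) := ⟨⟩
  have hgen : IsIntegral ℤ (IntermediateField.AdjoinSimple.gen ℚ x) := by
    have h1 : IsIntegral ℤ (algebraMap ↥(IntermediateField.adjoin ℚ {x}) Qb
        (IntermediateField.AdjoinSimple.gen ℚ x)) := hx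
    exact (isIntegral_algebraMap_iff
      (FaithfulSMul.algebraMap_injective ↥(IntermediateField.adjoin ℚ {x}) Qb)).1 h1
  obtain ⟨n, hn, hpow⟩ := NumberField.Embeddings.pow_eq_one_of_norm_eq_one
    (K := ↥(IntermediateField.adjoin ℚ {x})) ℂ hgen (fun φ => by
      obtain ⟨g, hg⟩ := h72k_embedding_eq x φ
      rw [hg]
      exact h g)
  refine ⟨n, hn, ?_⟩
  have := congrArg (algebraMap ↥(IntermediateField.adjoin ℚ {x}) Qb) hpow
  rw [map_pow, map_one] at this
  exact this

/-- `Real.log ‖y‖ = 0` forces `‖y‖ = 1` for `y ≠ 0`. -/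
theorem h72k_norm_eq_one_of_log {E : Type*} [NormedField E] {y : E} (hy : y ≠ 0)
    (h : Real.log ‖y‖ = 0) : ‖y‖ = 1 := by
  rcases Real.log_eq_zero.1 h with h0 | h1 | h2
  · exact absurd (norm_eq_zero.1 h0) hy
  · exact h1
  · exfalso
    have := norm_nonneg y
    rw [h2] at this
    linarith

/-- **EQA-PKG-LOG-KER** (Kronecker): an `S`-unit all of whose conjugates have absolute value `1`
at all places of `S ∪ {∞}` is a root of unity. -/
theorem h72k_pkgLogKer : H93PkgLogKer := by
  intro S U₀ _ _ a ha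
  -- all local logarithms of all conjugates vanish
  have hlog : ∀ (i : Option ↥S) (g : GQ), h93p_log S i (g (h93p_iota S U₀ a)) = 0 := by
    intro i g
    have := ha i (QuotientGroup.mk' U₀ g)
    rw [h93p_ell_apply, h93p_iota_act] at this
    exact this
  have hx0 : h93p_iota S U₀ a ≠ 0 := h93p_iota_ne_zero S U₀ a
  have hgx0 : ∀ g : GQ, g (h93p_iota S U₀ a) ≠ 0 := fun g =>
    (map_ne_zero_iff _ g.injective).2 hx0
  -- integrality
  have hint : IsIntegral ℤ (h93p_iota S U₀ a) := by
    apply h72k_isIntegral_of_forall_mem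
    intro q hq V hV
    by_cases hqS : (⟨q, hq⟩ : Nat.Primes) ∈ S
    · haveI : Fact q.Prime := ⟨hq⟩
      refine h72k_mem_of_norm_le q (fun g => le_of_eq ?_) V hV
      have h1 := hlog (some ⟨⟨q, hq⟩, hqS⟩) g
      have h2 : Real.log ‖padicEmbedding q (g (h93p_iota S U₀ a))‖ = 0 := h1
      exact h72k_norm_eq_one_of_log
        ((map_ne_zero_iff _ (RingHom.injective _)).2 (hgx0 g)) h2
    · exact (h93p_iota_val S U₀ a ⟨q, hq⟩ hqS V hV).1
  -- Kronecker
  obtain ⟨n, hn, hpow⟩ := h72k_kronecker hint (fun g => by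
    have h1 := hlog none g
    have h2 : Real.log ‖complexEmbedding (g (h93p_iota S U₀ a))‖ = 0 := h1
    exact h72k_norm_eq_one_of_log
      ((map_ne_zero_iff _ (RingHom.injective _)).2 (hgx0 g)) h2)
  refine ⟨n, hn, ?_⟩
  apply h93p_iota_injective
  rw [h93p_iota_nsmul, hpow, h93p_iota_zero]

end Fermat.Agent.S56G
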