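import Fermat.Agent.S56G.EqArithIface2

/-!
# S56, row EQA-R-ADD (helper83, prefix `h83e_`): `h83e_eqAdd : H93EqAdd`

`m(N) = dim Hom_C(Y, N)` is additive in short exact sequences `0 → N₁ → N₂ → N₃ → 0` of
representations over `𝔽_p` of a finite group `C` of order prime to `p`: composition with `ψ` is
onto `Hom_C(Y, N₃)` (average a linear lift: `h83e_avg`, `h83e_avg_mem`, `h83e_avg_comp`) with
kernel `Hom_C(Y, N₁)`; rank-nullity.
-/

set_option autoImplicit false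

open ExtCitation

noncomputable section

namespace Fermat.Agent.S56G

open Fermat.Agent.PT

section Maschke

variable {k : Type} [Field k] {C : Type} [Group C] [Fintype C]
  {Y N₂ N₃ : Type} [AddCommGroup Y] [Module k Y] [AddCommGroup N₂] [Module k N₂]
  [AddCommGroup N₃] [Module k N₃]

/-- the average of a linear map. -/
def h83e_avg (τ : Representation k C Y) (ν₂ : Representation k C N₂) (Φ₀ : Y →ₗ[k] N₂) :
    Y →ₗ[k] N₂ :=
  ((Fintype.card C : k)⁻¹) • ∑ c : C, (ν₂ c) ∘ₗ Φ₀ ∘ₗ (τ c⁻¹)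

theorem h83e_avg_apply (τ : Representation k C Y) (ν₂ : Representation k C N₂)
    (Φ₀ : Y →ₗ[k] N₂) (y : Y) :
    h83e_avg τ ν₂ Φ₀ y = ((Fintype.card C : k)⁻¹) • ∑ c : C, ν₂ c (Φ₀ (τ c⁻¹ y)) := by
  unfold h83e_avg
  rw [LinearMap.smul_apply, LinearMap.sum_apply]
  rfl

theorem h83e_avg_mem (τ : Representation k C Y) (ν₂ : Representation k C N₂)
    (Φ₀ : Y →ₗ[k] N₂) : h83e_avg τ ν₂ Φ₀ ∈ h93e_hom τ ν₂ := by
  intro g y
  rw [h83e_avg_apply, h83e_avg_apply, map_smul, map_sum]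
  congr 1
  refine Fintype.sum_equiv (Equiv.mulLeft g⁻¹) _ _ (fun c => ?_)
  have e1 : τ c⁻¹ (τ g y) = τ (g⁻¹ * c)⁻¹ y := by
    rw [mul_inv_rev, inv_inv, map_mul]
    rfl
  have e2 : ν₂ g (ν₂ (g⁻¹ * c) (Φ₀ (τ (g⁻¹ * c)⁻¹ y))) = ν₂ c (Φ₀ (τ (g⁻¹ * c)⁻¹ y)) := by
    have : ν₂ g * ν₂ (g⁻¹ * c) = ν₂ c := by rw [← map_mul, mul_inv_cancel_left]
    rw [← this]
    rfl
  rw [Equiv.coe_mulLeft, e2, e1]

theorem h83e_avg_comp (hC : (Fintype.card C : k) ≠ 0) (τ : Representation k C Y)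
    (ν₂ : Representation k C N₂) (ν₃ : Representation k C N₃) (ψ : N₂ →ₗ[k] N₃)
    (hψ : ∀ c v, ψ (ν₂ c v) = ν₃ c (ψ v)) (s : N₃ →ₗ[k] N₂) (hs : ∀ v, ψ (s v) = v)
    (Φ₃ : Y →ₗ[k] N₃) (hΦ : Φ₃ ∈ h93e_hom τ ν₃) :
    ψ ∘ₗ h83e_avg τ ν₂ (s ∘ₗ Φ₃) = Φ₃ := by
  ext y
  rw [LinearMap.comp_apply, h83e_avg_apply, map_smul, map_sum]
  have e : ∀ c : C, ψ (ν₂ c ((s ∘ₗ Φ₃) (τ c⁻¹ y))) = Φ₃ y := by
    intro c
    rw [hψ, LinearMap.comp_apply, hs, ← hΦ c]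
    have : τ c (τ c⁻¹ y) = (τ c * τ c⁻¹) y := rfl
    rw [this, ← map_mul, mul_inv_cancel, map_one]
    rfl
  rw [Finset.sum_congr rfl (fun c _ => e c), Finset.sum_const, Finset.card_univ,
    ← Nat.cast_smul_eq_nsmul k, smul_smul, inv_mul_cancel₀ hC, one_smul]

end Maschke

/-- **R-ADD.**  `m(N) = dim Hom_C(Y, N)` is additive in short exact sequences. -/
theorem h83e_eqAdd : H93EqAdd := by
  intro p _ C _ _ hpC Y _ _ _ τ N₁ N₂ N₃ _ _ _ _ _ _ _ ν₁ ν₂ ν₃ φ ψ hφ hψ hinj hsurj hex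
  classical
  have : Fintype C := Fintype.ofFinite C
  have hC : ((Fintype.card C : ℕ) : ZMod p) ≠ 0 := by
    rw [Ne, ZMod.natCast_eq_zero_iff]
    rwa [← Nat.card_eq_fintype_card]
  let Ψ : ↥(h93e_hom τ ν₂) →ₗ[ZMod p] ↥(h93e_hom τ ν₃) :=
    { toFun := fun Φ => ⟨ψ ∘ₗ Φ.1, fun g y => by
        rw [LinearMap.comp_apply, LinearMap.comp_apply, Φ.2 g y, hψ]⟩
      map_add' := fun Φ Φ' => by
        apply Subtype.ext
        exact LinearMap.comp_add _ _ _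
      map_smul' := fun a Φ => by
        apply Subtype.ext
        exact LinearMap.comp_smul _ _ _ }
  let ι : ↥(h93e_hom τ ν₁) →ₗ[ZMod p] ↥(h93e_hom τ ν₂) :=
    { toFun := fun Φ => ⟨φ ∘ₗ Φ.1, fun g y => by
        rw [LinearMap.comp_apply, LinearMap.comp_apply, Φ.2 g y, hφ]⟩
      map_add' := fun Φ Φ' => by
        apply Subtype.ext
        exact LinearMap.comp_add _ _ _
      map_smul' := fun a Φ => by
        apply Subtype.ext
        exact LinearMap.comp_smul _ _ _ }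
  have hΨ : ∀ (Φ : ↥(h93e_hom τ ν₂)) (y : Y), (Ψ Φ).1 y = ψ (Φ.1 y) := fun _ _ => rfl
  have hι : ∀ (Φ : ↥(h93e_hom τ ν₁)) (y : Y), (ι Φ).1 y = φ (Φ.1 y) := fun _ _ => rfl
  have hιinj : Function.Injective ι := by
    intro Φ Φ' h
    apply Subtype.ext
    ext y
    apply hinj
    rw [← hι, ← hι, h]
  have hΨsurj : Function.Surjective Ψ := by
    intro Φ₃
    obtain ⟨s, hs⟩ := LinearMap.exists_rightInverse_of_surjective ψ
      (LinearMap.range_eq_top.2 hsurj)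
    refine ⟨⟨h83e_avg τ ν₂ (s ∘ₗ Φ₃.1), h83e_avg_mem τ ν₂ _⟩, ?_⟩
    apply Subtype.ext
    exact h83e_avg_comp hC τ ν₂ ν₃ ψ hψ s (fun v => LinearMap.congr_fun hs v) Φ₃.1 Φ₃.2
  have hker : LinearMap.ker Ψ = LinearMap.range ι := by
    ext Φ
    constructor
    · intro hΦ
      rw [LinearMap.mem_ker] at hΦ
      have h0 : ∀ y, Φ.1 y ∈ LinearMap.range φ := by
        intro y
        rw [hex, LinearMap.mem_ker, ← hΨ, hΦ]
        rfl
      let e := LinearEquiv.ofInjective φ hinj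
      let Φ₁ : Y →ₗ[ZMod p] N₁ :=
        e.symm.toLinearMap ∘ₗ LinearMap.codRestrict (LinearMap.range φ) Φ.1 h0
      have hΦ₁ : ∀ y, φ (Φ₁ y) = Φ.1 y := by
        intro y
        have h1 : e (Φ₁ y) = LinearMap.codRestrict (LinearMap.range φ) Φ.1 h0 y := by
          show e (e.symm _) = _
          rw [LinearEquiv.apply_symm_apply]
        have h2 := congrArg Subtype.val h1
        exact h2
      refine ⟨⟨Φ₁, fun g y => hinj ?_⟩, ?_⟩
      · rw [hΦ₁, hφ, hΦ₁, Φ.2 g y]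
      · apply Subtype.ext
        ext y
        rw [hι]
        exact hΦ₁ y
    · rintro ⟨Φ₁, rfl⟩
      rw [LinearMap.mem_ker]
      apply Subtype.ext
      ext y
      rw [hΨ, hι]
      have : φ (Φ₁.1 y) ∈ LinearMap.ker ψ := by
        rw [← hex]
        exact ⟨_, rfl⟩
      exact this
  have h1 := LinearMap.finrank_range_add_finrank_ker Ψ
  rw [LinearMap.range_eq_top.2 hΨsurj, finrank_top, hker,
    LinearMap.finrank_range_of_inj hιinj] at h1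
  omega

end Fermat.Agent.S56G
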