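import Mathlib
import Fermat.Agent.S56G.EqArithIface

/-!
# S56, block EQ-ARITH, row EQA-F-B (helper55): Frobenius reciprocity

Conjunct (b) of `H93EqFrobAlg` (`S56G/EqArithIface.lean`) as a standalone theorem:
for `C ≤ G` finite of order prime to `p`, `W = Ind_C^G τ` and a character `χ` of `G`,

  `dim Hom_C(Y, 𝔽_p(χ)) ≤ dim (W^D)^G`,   `W^D = Hom(W, 𝔽_p(χ))`.

The injective linear map is `φ ↦ (f ↦ ∑_{x ∈ G} χ(x) φ(f(x)))`; injectivity is seen on the
functions `δ_y` supported on `C` (`δ_y(c) = τ(c)⁻¹ y`), where the value is `#C · φ(y)`.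
-/

set_option autoImplicit false

open ExtCitation

noncomputable section

namespace Fermat.Agent.S56G

open Fermat.Agent.PT

section FrobB

variable {k : Type} [Field k] {G : Type} [Group G] [Fintype G]
variable {Y : Type} [AddCommGroup Y] [Module k Y]

/-- the linear form `f ↦ ∑_x χ(x) φ(f(x))` on `Ind_C^G τ`. -/
def h55fb_form (C : Subgroup G) (τ : Representation k ↥C Y) (χ : G →* kˣ)
    (φ : Y →ₗ[k] k) : Module.Dual k ↥(h47g_indSpace C τ) where
  toFun f := ∑ x : G, (χ x : k) * φ ((f : G → Y) x)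
  map_add' f f' := by
    simp only [Submodule.coe_add, Pi.add_apply, map_add, mul_add, Finset.sum_add_distrib]
  map_smul' a f := by
    simp only [Submodule.coe_smul, Pi.smul_apply, map_smul, smul_eq_mul, RingHom.id_apply,
      Finset.mul_sum]
    refine Finset.sum_congr rfl fun x _ => ?_
    ring

@[simp] lemma h55fb_form_apply (C : Subgroup G) (τ : Representation k ↥C Y) (χ : G →* kˣ)
    (φ : Y →ₗ[k] k) (f : ↥(h47g_indSpace C τ)) :
    h55fb_form C τ χ φ f = ∑ x : G, (χ x : k) * φ ((f : G → Y) x) := rfl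

/-- the form is an invariant of the twisted dual. -/
lemma h55fb_form_mem (C : Subgroup G) (τ : Representation k ↥C Y) (χ : G →* kˣ)
    (φ : Y →ₗ[k] k) : h55fb_form C τ χ φ ∈ (dualTw χ (h47g_ind C τ)).invariants := by
  rw [Representation.mem_invariants]
  intro g
  apply LinearMap.ext
  intro f
  rw [dualTw_apply]
  simp only [LinearMap.smul_apply, LinearMap.comp_apply, h55fb_form_apply, h47g_ind_apply,
    inv_inv, smul_eq_mul]
  rw [Finset.mul_sum]
  refine Fintype.sum_equiv (Equiv.mulLeft g) _ _ fun x => ?_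
  simp only [Equiv.coe_mulLeft, map_mul, Units.val_mul]
  ring

/-- the linear map `φ ↦ form φ`. -/
def h55fb_map (C : Subgroup G) (τ : Representation k ↥C Y) (χ : G →* kˣ) :
    ↥(h93e_hom τ (chiRep (χ.comp C.subtype))) →ₗ[k]
      ↥(dualTw χ (h47g_ind C τ)).invariants where
  toFun φ := ⟨h55fb_form C τ χ (φ : Y →ₗ[k] k), h55fb_form_mem C τ χ _⟩
  map_add' φ φ' := by
    apply Subtype.ext
    apply LinearMap.ext
    intro f
    simp only [Submodule.coe_add, LinearMap.add_apply, h55fb_form_apply, mul_add,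
      Finset.sum_add_distrib]
  map_smul' a φ := by
    apply Subtype.ext
    apply LinearMap.ext
    intro f
    simp only [Submodule.coe_smul, LinearMap.smul_apply, h55fb_form_apply, smul_eq_mul,
      RingHom.id_apply, Finset.mul_sum]
    refine Finset.sum_congr rfl fun x _ => ?_
    ring

open Classical in
/-- the function `δ_y` of `Ind_C^G τ` supported on `C`. -/
def h55fb_delta (C : Subgroup G) (τ : Representation k ↥C Y) (y : Y) :
    ↥(h47g_indSpace C τ) :=
  ⟨fun x => if h : x ∈ C then τ (⟨x, h⟩ : ↥C)⁻¹ y else 0, by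
    intro g c
    by_cases hg : g ∈ C
    · have hgc : g * (c : G) ∈ C := C.mul_mem hg c.2
      simp only [dif_pos hg, dif_pos hgc]
      have : (⟨g * (c : G), hgc⟩ : ↥C)⁻¹ = c⁻¹ * (⟨g, hg⟩ : ↥C)⁻¹ := by
        rw [← mul_inv_rev]
        rfl
      rw [this, map_mul]
      rfl
    · have hgc : g * (c : G) ∉ C := fun h => hg (by
        have := C.mul_mem h (C.inv_mem c.2)
        simpa using this)
      simp only [dif_neg hg, dif_neg hgc, map_zero]⟩

open Classical in
lemma h55fb_delta_apply (C : Subgroup G) (τ : Representation k ↥C Y) (y : Y) (x : G) :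
    ((h55fb_delta C τ y : ↥(h47g_indSpace C τ)) : G → Y) x =
      if h : x ∈ C then τ (⟨x, h⟩ : ↥C)⁻¹ y else 0 := rfl

open Classical in
/-- the value of the form at `δ_y` is `#C · φ(y)`. -/
lemma h55fb_form_delta (C : Subgroup G) (τ : Representation k ↥C Y) (χ : G →* kˣ)
    (φ : Y →ₗ[k] k) (hφ : φ ∈ h93e_hom τ (chiRep (χ.comp C.subtype))) (y : Y) :
    h55fb_form C τ χ φ (h55fb_delta C τ y) = (Nat.card ↥C : k) * φ y := by
  rw [h55fb_form_apply]
  have hterm : ∀ x : G, (χ x : k) * φ ((h55fb_delta C τ y : G → Y) x) =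
      if x ∈ C then φ y else 0 := by
    intro x
    rw [h55fb_delta_apply]
    by_cases hx : x ∈ C
    · rw [dif_pos hx, if_pos hx]
      have h1 := (h93e_mem_hom τ (chiRep (χ.comp C.subtype)) φ).mp hφ (⟨x, hx⟩ : ↥C)⁻¹ y
      rw [h1, chiRep_apply]
      simp only [MonoidHom.comp_apply, map_inv, Subgroup.coe_subtype, Units.val_inv_eq_inv_val]
      rw [← mul_assoc, mul_inv_cancel₀ (Units.ne_zero _), one_mul]
    · rw [dif_neg hx, if_neg hx, map_zero, mul_zero]
  rw [Finset.sum_congr rfl fun x _ => hterm x]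
  rw [Finset.sum_ite, Finset.sum_const_zero, add_zero, Finset.sum_const, nsmul_eq_mul]
  congr 2
  rw [Nat.card_eq_fintype_card, Fintype.card_subtype]

lemma h55fb_map_injective (C : Subgroup G) (τ : Representation k ↥C Y) (χ : G →* kˣ)
    (hC : (Nat.card ↥C : k) ≠ 0) : Function.Injective (h55fb_map C τ χ) := by
  classical
  intro φ φ' hφ
  apply Subtype.ext
  apply LinearMap.ext
  intro y
  have h0 : h55fb_form C τ χ (φ : Y →ₗ[k] k) = h55fb_form C τ χ (φ' : Y →ₗ[k] k) :=
    congrArg Subtype.val hφ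
  have h1 := h55fb_form_delta C τ χ (φ : Y →ₗ[k] k) φ.2 y
  have h2 := h55fb_form_delta C τ χ (φ' : Y →ₗ[k] k) φ'.2 y
  rw [h0, h2] at h1
  exact (mul_left_cancel₀ hC h1).symm

end FrobB

/-- **EQA-F-B**: conjunct (b) of `H93EqFrobAlg` (Frobenius reciprocity). -/
theorem h55fb_frobB (p : ℕ) [Fact p.Prime] (G : Type) [Group G] [Finite G] (C : Subgroup G)
    (hpC : ¬ p ∣ Nat.card ↥C)
    (Y : Type) [AddCommGroup Y] [Module (ZMod p) Y] [FiniteDimensional (ZMod p) Y]
    (τ : Representation (ZMod p) ↥C Y) (χ : G →* (ZMod p)ˣ) :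
    Module.finrank (ZMod p) ↥(h93e_hom τ (chiRep (χ.comp C.subtype))) ≤
      Module.finrank (ZMod p) ↥(dualTw χ (h47g_ind C τ)).invariants := by
  classical
  letI : Fintype G := Fintype.ofFinite G
  have hC : (Nat.card ↥C : ZMod p) ≠ 0 := by
    intro h
    exact hpC ((ZMod.natCast_eq_zero_iff _ _).mp h)
  haveI : FiniteDimensional (ZMod p) (G → Y) := inferInstance
  haveI : FiniteDimensional (ZMod p) ↥(h47g_indSpace C τ) := inferInstance
  haveI : FiniteDimensional (ZMod p) (Module.Dual (ZMod p) ↥(h47g_indSpace C τ)) :=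
    inferInstance
  exact LinearMap.finrank_le_finrank_of_injective (h55fb_map_injective C τ χ hC)

end Fermat.Agent.S56G
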