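import Fermat.Agent.S56G.EqArithIface

/-!
# S56, block EQ-ARITH, row EQA-F-A (helper61): conjunct (a) of `H93EqFrobAlg`

`dim (Ind_C^G τ)^G ≤ dim Hom_C(Y, 𝔽_p)` for `C ≤ G` of order prime to `p`.

* `h61f_ev`, `h61f_ev_injective` : evaluation at `1` is an injective linear map
  `(Ind_C^G τ)^G → Y^C` (any field, any subgroup).
* `h61f_inv_le_hom` : `dim Y^Γ ≤ dim Hom_Γ(Y, k)` when `#Γ` is invertible in `k` (the averaging
  projector and its transpose have the same rank).
* `h61f_frobA` : **EQA-F-A**, with the binders of `H93EqFrobAlg`.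
-/

set_option autoImplicit false
set_option linter.style.haveILetI false

noncomputable section

namespace Fermat.Agent.S56G

section Main

variable {k : Type} [Field k] {G : Type} [Group G]
variable {Y : Type} [AddCommGroup Y] [Module k Y]

/-- an invariant function of the induced representation is constant. -/
theorem h61f_const (C : Subgroup G) (τ : Representation k ↥C Y)
    (f : ↥(h47g_indSpace C τ)) (hf : f ∈ (h47g_ind C τ).invariants) (x : G) :
    (f : G → Y) x = (f : G → Y) 1 := by
  have h1 := hf x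
  have h2 := congrArg (fun w : ↥(h47g_indSpace C τ) => (w : G → Y) x) h1
  simp only [h47g_ind_apply, inv_mul_cancel] at h2
  exact h2.symm

/-- the value at `1` of an invariant function of the induced representation is invariant. -/
theorem h61f_val_mem (C : Subgroup G) (τ : Representation k ↥C Y)
    (f : ↥(h47g_indSpace C τ)) (hf : f ∈ (h47g_ind C τ).invariants) :
    (f : G → Y) 1 ∈ τ.invariants := by
  intro c
  have h1 : (f : G → Y) (1 * ((c⁻¹ : ↥C) : G)) = τ (c⁻¹)⁻¹ ((f : G → Y) 1) := f.2 1 c⁻¹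
  rw [inv_inv, h61f_const C τ f hf] at h1
  exact h1.symm

/-- evaluation at `1`: `(Ind_C^G τ)^G → Y^C`. -/
def h61f_ev (C : Subgroup G) (τ : Representation k ↥C Y) :
    ↥(h47g_ind C τ).invariants →ₗ[k] ↥τ.invariants where
  toFun f := ⟨(f.1 : G → Y) 1, h61f_val_mem C τ f.1 f.2⟩
  map_add' _ _ := rfl
  map_smul' _ _ := rfl

theorem h61f_ev_injective (C : Subgroup G) (τ : Representation k ↥C Y) :
    Function.Injective (h61f_ev C τ) := by
  rw [injective_iff_map_eq_zero]
  intro f hf
  have h0 : (f.1 : G → Y) 1 = 0 := congrArg Subtype.val hf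
  apply Subtype.ext
  apply Subtype.ext
  funext x
  rw [h61f_const C τ f.1 f.2 x, h0]
  rfl

/-- the averaging operator. -/
def h61f_avg {Γ : Type} [Group Γ] [Fintype Γ] (τ : Representation k Γ Y) : Y →ₗ[k] Y :=
  ((Fintype.card Γ : k)⁻¹) • ∑ c : Γ, τ c

theorem h61f_avg_apply {Γ : Type} [Group Γ] [Fintype Γ] (τ : Representation k Γ Y) (y : Y) :
    h61f_avg τ y = ((Fintype.card Γ : k)⁻¹) • ∑ c : Γ, τ c y := by
  simp [h61f_avg, LinearMap.sum_apply]

theorem h61f_avg_comp {Γ : Type} [Group Γ] [Fintype Γ] (τ : Representation k Γ Y) (c : Γ)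
    (y : Y) : h61f_avg τ (τ c y) = h61f_avg τ y := by
  rw [h61f_avg_apply, h61f_avg_apply]
  congr 1
  have h := Fintype.sum_equiv (Equiv.mulRight c) (fun c' => τ c' (τ c y)) (fun c'' => τ c'' y)
    (fun c' => by
      show τ c' (τ c y) = τ (c' * c) y
      rw [map_mul]
      rfl)
  exact h

theorem h61f_avg_of_mem {Γ : Type} [Group Γ] [Fintype Γ] (τ : Representation k Γ Y)
    (hcard : (Fintype.card Γ : k) ≠ 0) (y : Y) (hy : y ∈ τ.invariants) :
    h61f_avg τ y = y := by
  rw [h61f_avg_apply]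
  have h1 : ∑ c : Γ, τ c y = (Fintype.card Γ : k) • y := by
    rw [Finset.sum_congr rfl (fun c _ => hy c), Finset.sum_const, Finset.card_univ,
      Nat.cast_smul_eq_nsmul]
  rw [h1, smul_smul, inv_mul_cancel₀ hcard, one_smul]

/-- `dim Y^Γ ≤ dim Hom_Γ(Y, k)` if `#Γ` is invertible in `k`. -/
theorem h61f_inv_le_hom {Γ : Type} [Group Γ] [Fintype Γ] [FiniteDimensional k Y]
    (τ : Representation k Γ Y) (hcard : (Fintype.card Γ : k) ≠ 0) :
    Module.finrank k ↥τ.invariants ≤
      Module.finrank k ↥(h93e_hom τ (Representation.trivial k Γ k)) := by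
  have h1 : τ.invariants ≤ LinearMap.range (h61f_avg τ) := by
    intro y hy
    exact ⟨y, h61f_avg_of_mem τ hcard y hy⟩
  have h2 : LinearMap.range (h61f_avg τ).dualMap ≤
      h93e_hom τ (Representation.trivial k Γ k) := by
    rintro Φ ⟨Ψ, rfl⟩
    intro c y
    show Ψ (h61f_avg τ (τ c y)) = (Representation.trivial k Γ k) c (Ψ (h61f_avg τ y))
    rw [h61f_avg_comp]
    rfl
  calc Module.finrank k ↥τ.invariants
      ≤ Module.finrank k ↥(LinearMap.range (h61f_avg τ)) := Submodule.finrank_mono h1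
    _ = Module.finrank k ↥(LinearMap.range (h61f_avg τ).dualMap) :=
        (LinearMap.finrank_range_dualMap_eq_finrank_range _).symm
    _ ≤ _ := Submodule.finrank_mono h2

end Main


/-- **EQA-F-A**: conjunct (a) of `H93EqFrobAlg`. -/
theorem h61f_frobA (p : ℕ) [Fact p.Prime] (G : Type) [Group G] [Finite G] (C : Subgroup G)
    (hC : ¬ p ∣ Nat.card ↥C)
    (Y : Type) [AddCommGroup Y] [Module (ZMod p) Y] [FiniteDimensional (ZMod p) Y]
    (τ : Representation (ZMod p) ↥C Y) :
    Module.finrank (ZMod p) ↥(h47g_ind C τ).invariants ≤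
      Module.finrank (ZMod p)
        ↥(h93e_hom τ (Representation.trivial (ZMod p) ↥C (ZMod p))) := by
  classical
  letI : Fintype ↥C := Fintype.ofFinite ↥C
  have hcard : ((Fintype.card ↥C : ℕ) : ZMod p) ≠ 0 := by
    intro h
    apply hC
    rw [Nat.card_eq_fintype_card]
    exact (ZMod.natCast_eq_zero_iff _ _).mp h
  exact le_trans
    (LinearMap.finrank_le_finrank_of_injective (h61f_ev_injective C τ))
    (h61f_inv_le_hom τ hcard)

end Fermat.Agent.S56G
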