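import Mathlib
import Fermat.Agent.S56G.EqArithIface

/-!
# S56, block EQ-ARITH, row EQA-F-C (helper88, prefix `h88f_`)

Conjunct (c) of `H93EqFrobAlg` ("Mackey without double cosets"), over any field `k` in which
`#C` is invertible:

`dim Hom_C(Y, k^X) ≤ ∑ i, dim (Ind_C^G τ)^{D i}`

for a finite `G`-set `X` covered by the orbits of points `pt i` fixed by the subgroups `D i`.

Proof: the pairing
`⟨Φ, f⟩_i = ∑_{x ∈ G/D_i} Φ(f(x̃⁻¹))(x̃ · pt i)` (`x̃` a representative of `x`)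
gives a linear map `Hom_C(Y, k^X) → ∏ i, ((Ind τ)^{D i})^*`, which is injective: on the test
function `f(h) = ∑_{c ∈ C, (h c)⁻¹ ∈ g D_i} τ(c) y` of `(Ind τ)^{D i}` the pairing is
`#C · Φ(y)(g · pt i)`.
-/

set_option autoImplicit false

open ExtCitation

noncomputable section

namespace Fermat.Agent.S56G

open Fermat.Agent.PT

section FrobC

variable {k : Type} [Field k] {G : Type} [Group G]
  {Y : Type} [AddCommGroup Y] [Module k Y]

/-- the test function `h ↦ ∑_{c ∈ C, (h c)⁻¹ ∈ g D} τ(c) y`. -/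
def h88f_test (C : Subgroup G) [Fintype ↥C] (τ : Representation k ↥C Y) (D : Subgroup G)
    [DecidablePred (· ∈ D)] (g : G) (y : Y) : G → Y :=
  fun h => ∑ c : ↥C, if g⁻¹ * (h * (c : G))⁻¹ ∈ D then τ c y else 0

theorem h88f_test_mem (C : Subgroup G) [Fintype ↥C] (τ : Representation k ↥C Y)
    (D : Subgroup G) [DecidablePred (· ∈ D)] (g : G) (y : Y) :
    h88f_test C τ D g y ∈ h47g_indSpace C τ := by
  intro h c'
  unfold h88f_test
  rw [map_sum]
  refine Fintype.sum_equiv (Equiv.mulLeft c') _ _ fun c => ?_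
  have e1 : h * (((Equiv.mulLeft c') c : ↥C) : G) = h * (c' : G) * (c : G) := by
    simp [mul_assoc]
  rw [e1]
  by_cases hc : g⁻¹ * (h * (c' : G) * (c : G))⁻¹ ∈ D
  · rw [if_pos hc, if_pos hc]
    simp only [Equiv.coe_mulLeft]
    rw [← Module.End.mul_apply, ← map_mul, inv_mul_cancel_left]
  · rw [if_neg hc, if_neg hc, map_zero]

theorem h88f_test_inv (C : Subgroup G) [Fintype ↥C] (τ : Representation k ↥C Y)
    (D : Subgroup G) [DecidablePred (· ∈ D)] (g : G) (y : Y) :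
    (⟨h88f_test C τ D g y, h88f_test_mem C τ D g y⟩ : ↥(h47g_indSpace C τ)) ∈
      (resRep (h47g_ind C τ) D.subtype).invariants := by
  intro d
  apply Subtype.ext
  funext h
  simp only [resRep_apply, h47g_ind_apply, Subgroup.coe_subtype]
  unfold h88f_test
  refine Finset.sum_congr rfl fun c _ => ?_
  have e1 : g⁻¹ * ((d : G)⁻¹ * h * (c : G))⁻¹ = g⁻¹ * (h * (c : G))⁻¹ * (d : G) := by
    simp [mul_assoc]
  exact if_congr (by rw [e1, D.mul_mem_cancel_right d.2]) rfl rfl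

/-- the pairing `⟨Φ, f⟩ = ∑_{x ∈ G/D} Φ(f(x̃⁻¹))(x̃ · P)`. -/
def h88f_pair (C : Subgroup G) (τ : Representation k ↥C Y) {X : Type}
    (σ : G →* Equiv.Perm X) (D : Subgroup G) [Fintype (G ⧸ D)] (P : X) :
    ↥(h93e_hom τ (h93e_perm k (σ.comp C.subtype))) →ₗ[k]
      Module.Dual k ↥(resRep (h47g_ind C τ) D.subtype).invariants :=
  ∑ x : G ⧸ D, LinearMap.mk₂ k
    (fun (Φ : ↥(h93e_hom τ (h93e_perm k (σ.comp C.subtype))))
      (f : ↥(resRep (h47g_ind C τ) D.subtype).invariants) =>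
      (Φ : Y →ₗ[k] X → k) (((f : ↥(h47g_indSpace C τ)) : G → Y) (x.out)⁻¹) (σ x.out P))
    (fun Φ₁ Φ₂ f => by simp)
    (fun a Φ f => by simp)
    (fun Φ f₁ f₂ => by simp)
    (fun a Φ f => by simp)

theorem h88f_pair_apply (C : Subgroup G) (τ : Representation k ↥C Y) {X : Type}
    (σ : G →* Equiv.Perm X) (D : Subgroup G) [Fintype (G ⧸ D)] (P : X)
    (Φ : ↥(h93e_hom τ (h93e_perm k (σ.comp C.subtype))))
    (f : ↥(resRep (h47g_ind C τ) D.subtype).invariants) :
    h88f_pair C τ σ D P Φ f =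
      ∑ x : G ⧸ D,
        (Φ : Y →ₗ[k] X → k) (((f : ↥(h47g_indSpace C τ)) : G → Y) (x.out)⁻¹) (σ x.out P) := by
  simp [h88f_pair, LinearMap.sum_apply]

theorem h88f_pair_test (C : Subgroup G) [Fintype ↥C] (τ : Representation k ↥C Y) {X : Type}
    (σ : G →* Equiv.Perm X) (D : Subgroup G) [DecidablePred (· ∈ D)] [Fintype (G ⧸ D)]
    (P : X) (hfix : ∀ d ∈ D, σ d P = P)
    (Φ : ↥(h93e_hom τ (h93e_perm k (σ.comp C.subtype)))) (g : G) (y : Y) :
    h88f_pair C τ σ D P Φ ⟨⟨h88f_test C τ D g y, h88f_test_mem C τ D g y⟩,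
        h88f_test_inv C τ D g y⟩ =
      (Fintype.card ↥C : k) * (Φ : Y →ₗ[k] X → k) y (σ g P) := by
  classical
  rw [h88f_pair_apply]
  simp only [h88f_test]
  have hterm : ∀ (x : G ⧸ D) (c : ↥C),
      (Φ : Y →ₗ[k] X → k) (if g⁻¹ * ((x.out)⁻¹ * (c : G))⁻¹ ∈ D then τ c y else 0)
        (σ x.out P) =
      if (QuotientGroup.mk ((c : G) * g) : G ⧸ D) = x then
        (Φ : Y →ₗ[k] X → k) y (σ g P) else 0 := by
    intro x c
    have hiff : g⁻¹ * ((x.out)⁻¹ * (c : G))⁻¹ ∈ D ↔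
        (QuotientGroup.mk ((c : G) * g) : G ⧸ D) = x := by
      have e1 : g⁻¹ * ((x.out)⁻¹ * (c : G))⁻¹ = ((c : G) * g)⁻¹ * x.out := by
        simp [mul_assoc]
      rw [e1, ← QuotientGroup.eq, QuotientGroup.out_eq']
    by_cases hc : g⁻¹ * ((x.out)⁻¹ * (c : G))⁻¹ ∈ D
    · rw [if_pos hc, if_pos (hiff.mp hc)]
      have h1 := (h93e_mem_hom τ (h93e_perm k (σ.comp C.subtype)) (Φ : Y →ₗ[k] X → k)).mp
        Φ.2 c y
      rw [h1, h93e_perm_apply]
      have e2 : x.out = (c : G) * (g * (g⁻¹ * ((x.out)⁻¹ * (c : G))⁻¹)) := by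
        simp
      have e3 : σ x.out P = σ (c : G) (σ g P) := by
        conv_lhs => rw [e2]
        rw [map_mul, map_mul, Equiv.Perm.mul_apply, Equiv.Perm.mul_apply, hfix _ hc]
      rw [e3]
      simp
    · rw [if_neg hc, if_neg (fun h => hc (hiff.mpr h)), map_zero]
      rfl
  calc ∑ x : G ⧸ D, (Φ : Y →ₗ[k] X → k)
          (∑ c : ↥C, if g⁻¹ * ((x.out)⁻¹ * (c : G))⁻¹ ∈ D then τ c y else 0) (σ x.out P)
      = ∑ x : G ⧸ D, ∑ c : ↥C, (if (QuotientGroup.mk ((c : G) * g) : G ⧸ D) = x then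
          (Φ : Y →ₗ[k] X → k) y (σ g P) else 0) := by
        refine Finset.sum_congr rfl fun x _ => ?_
        rw [map_sum, Finset.sum_apply]
        exact Finset.sum_congr rfl fun c _ => hterm x c
    _ = ∑ c : ↥C, ∑ x : G ⧸ D, (if (QuotientGroup.mk ((c : G) * g) : G ⧸ D) = x then
          (Φ : Y →ₗ[k] X → k) y (σ g P) else 0) := Finset.sum_comm
    _ = ∑ _c : ↥C, (Φ : Y →ₗ[k] X → k) y (σ g P) := by
        refine Finset.sum_congr rfl fun c _ => ?_
        rw [Finset.sum_ite_eq]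
        simp
    _ = (Fintype.card ↥C : k) * (Φ : Y →ₗ[k] X → k) y (σ g P) := by
        rw [Finset.sum_const, Finset.card_univ, nsmul_eq_mul]

/-- **EQA-F-C** over any field in which `#C` is invertible. -/
theorem h88f_frobC_core [Finite G] (C : Subgroup G) (hC : ((Nat.card ↥C : ℕ) : k) ≠ 0)
    [FiniteDimensional k Y] (τ : Representation k ↥C Y) {X : Type}
    (σ : G →* Equiv.Perm X) {ι : Type} [Fintype ι] (pt : ι → X) (D : ι → Subgroup G)
    (hcov : ∀ x, ∃ i g, σ g (pt i) = x) (hfix : ∀ i, ∀ d ∈ D i, σ d (pt i) = pt i) :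
    Module.finrank k ↥(h93e_hom τ (h93e_perm k (σ.comp C.subtype))) ≤
      ∑ i, Module.finrank k ↥(resRep (h47g_ind C τ) (D i).subtype).invariants := by
  classical
  let _ : Fintype G := Fintype.ofFinite G
  let _ : Fintype ↥C := Fintype.ofFinite _
  let _ : ∀ i, Fintype (G ⧸ D i) := fun i => Fintype.ofFinite _
  let Ψ : ↥(h93e_hom τ (h93e_perm k (σ.comp C.subtype))) →ₗ[k]
      (∀ i, Module.Dual k ↥(resRep (h47g_ind C τ) (D i).subtype).invariants) :=
    LinearMap.pi fun i => h88f_pair C τ σ (D i) (pt i)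
  have hzero : ∀ Φ : ↥(h93e_hom τ (h93e_perm k (σ.comp C.subtype))),
      (∀ i, h88f_pair C τ σ (D i) (pt i) Φ = 0) → Φ = 0 := by
    intro Φ hΦ
    apply Subtype.ext
    apply LinearMap.ext
    intro y
    funext x
    obtain ⟨i, g, rfl⟩ := hcov x
    have h1 : h88f_pair C τ σ (D i) (pt i) Φ
        ⟨⟨h88f_test C τ (D i) g y, h88f_test_mem C τ (D i) g y⟩,
          h88f_test_inv C τ (D i) g y⟩ = 0 := by
      rw [hΦ i]
      rfl
    rw [h88f_pair_test C τ σ (D i) (pt i) (hfix i) Φ g y] at h1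
    have hcard : (Fintype.card ↥C : k) ≠ 0 := by
      rw [← Nat.card_eq_fintype_card]
      exact hC
    simpa using (mul_eq_zero.mp h1).resolve_left hcard
  have hinj : Function.Injective Ψ := by
    intro Φ₁ Φ₂ h
    have h0 : Φ₁ - Φ₂ = 0 := by
      apply hzero
      intro i
      have h2 : h88f_pair C τ σ (D i) (pt i) Φ₁ = h88f_pair C τ σ (D i) (pt i) Φ₂ :=
        congrFun h i
      have h3 := LinearMap.map_sub (h88f_pair C τ σ (D i) (pt i)) Φ₁ Φ₂
      rw [h3, h2, sub_self]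
    exact sub_eq_zero.mp h0
  calc Module.finrank k ↥(h93e_hom τ (h93e_perm k (σ.comp C.subtype)))
      ≤ Module.finrank k
          (∀ i, Module.Dual k ↥(resRep (h47g_ind C τ) (D i).subtype).invariants) :=
        LinearMap.finrank_le_finrank_of_injective hinj
    _ = ∑ i, Module.finrank k
          (Module.Dual k ↥(resRep (h47g_ind C τ) (D i).subtype).invariants) :=
        Module.finrank_pi_fintype k
    _ = ∑ i, Module.finrank k ↥(resRep (h47g_ind C τ) (D i).subtype).invariants := by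
        refine Finset.sum_congr rfl fun i _ => ?_
        exact Subspace.dual_finrank_eq (K := k)
          (V := ↥(resRep (h47g_ind C τ) (D i).subtype).invariants)

end FrobC

/-- **EQA-F-C**: conjunct (c) of `H93EqFrobAlg`, with its binders. -/
theorem h88f_frobC (p : ℕ) [Fact p.Prime] (G : Type) [Group G] [Finite G] (C : Subgroup G)
    (hC : ¬ p ∣ Nat.card ↥C)
    (Y : Type) [AddCommGroup Y] [Module (ZMod p) Y] [FiniteDimensional (ZMod p) Y]
    (τ : Representation (ZMod p) ↥C Y)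
    (X : Type) [Fintype X] (σ : G →* Equiv.Perm X) (ι : Type) [Fintype ι] (pt : ι → X)
    (D : ι → Subgroup G)
    (hcov : ∀ x, ∃ i g, σ g (pt i) = x) (hfix : ∀ i, ∀ d ∈ D i, σ d (pt i) = pt i) :
    Module.finrank (ZMod p) ↥(h93e_hom τ (h93e_perm (ZMod p) (σ.comp C.subtype))) ≤
      ∑ i, Module.finrank (ZMod p)
        ↥(resRep (h47g_ind C τ) (D i).subtype).invariants :=
  h88f_frobC_core C (fun h => hC ((ZMod.natCast_eq_zero_iff _ _).mp h)) τ σ pt D hcov hfix

end Fermat.Agent.S56G
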