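import Mathlib
import Fermat.Agent.S56G.H61FrobA
import Fermat.Agent.S56G.H55FrobB
import Fermat.Agent.S56G.H88FrobC

/-!
# S56, block EQ-ARITH, row EQA-F (helper88): `H93EqFrobAlg`

The three conjuncts: (a) `h61f_frobA` (helper61), (b) `h55fb_frobB` (helper55),
(c) `h88f_frobC` (helper88).
-/

set_option autoImplicit false

open ExtCitation

noncomputable section

namespace Fermat.Agent.S56G

open Fermat.Agent.PT

/-- **EQA-F**: the frozen interface `H93EqFrobAlg` (Frobenius reciprocity / Mackey). -/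
theorem h88f_eqFrobAlg : H93EqFrobAlg := by
  intro p _ G _ _ C hC Y _ _ _ τ
  refine ⟨h61f_frobA p G C hC Y τ, fun χ => h55fb_frobB p G C hC Y τ χ, ?_⟩
  intro X _ σ ι _ pt D hcov hfix
  exact h88f_frobC p G C hC Y τ X σ ι pt D hcov hfix

end Fermat.Agent.S56G
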