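import Mathlib
import Fermat.Agent.S56G.EqArithIface
import Fermat.Agent.PT.Bridge.DQGood

/-!
# S56, block EQ-ARITH of TATE-EC (helper93): the assembly `H93EqArithAsm`

`h93e_eqArith_of : H93EqLatAlg → H93EqFrobAlg → H93EqPkg → H47EqArith`.
-/

set_option autoImplicit false
set_option linter.style.haveILetI false

open ExtCitation

noncomputable section

namespace Fermat.Agent.S56G

open Fermat.Agent.PT

/-- a power of a permutation fixes the points fixed by the permutation. -/
lemma h93e_zpow_fix {X : Type} (π : Equiv.Perm X) (x : X) (h : π x = x) (k : ℤ) :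
    (π ^ k) x = x := Equiv.Perm.zpow_apply_eq_self_of_apply_eq_self h k

section Inv

variable {p : ℕ} [Fact p.Prime] (U₀ : Subgroup GQ) [U₀.Normal]
variable {Y : Type} [AddCommGroup Y] [Module (ZMod p) Y]
variable (C : Subgroup (GQ ⧸ U₀)) (τ : Representation (ZMod p) ↥C Y)

/-- `W^{G_ℚ} ⊆ (Ind τ)^G`. -/
lemma h93e_inv_le : (h47g_W p U₀ C τ).invariants ≤ (h47g_ind C τ).invariants := by
  intro f hf g
  obtain ⟨g', rfl⟩ := QuotientGroup.mk'_surjective U₀ g
  exact hf g'

/-- `((Ind τ)^D)^G ⊆ (W^D)^{G_ℚ}`. -/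
lemma h93e_dual_le (hχ : ∀ u ∈ U₀, cycloChar p u = 1) :
    (dualTw (QuotientGroup.lift U₀ (cycloChar p) hχ) (h47g_ind C τ)).invariants ≤
      (dualTw (cycloChar p) (h47g_W p U₀ C τ)).invariants := by
  intro f hf g
  have h := hf (QuotientGroup.mk' U₀ g)
  rw [dualTw_apply] at h ⊢
  exact h

/-- the local invariants. -/
lemma h93e_loc_le (q : Nat.Primes) :
    (resRep (h47g_ind C τ)
      (((primeLocalToGlobal q).range).map (QuotientGroup.mk' U₀)).subtype).invariants ≤
      (resRep (h47g_W p U₀ C τ) (primeLocalToGlobal q)).invariants := by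
  intro f hf h
  exact hf ⟨QuotientGroup.mk' U₀ (primeLocalToGlobal q h), Subgroup.mem_map_of_mem _ ⟨h, rfl⟩⟩

/-- the archimedean invariants. -/
lemma h93e_inf_le :
    (resRep (h47g_ind C τ)
      (Subgroup.zpowers (QuotientGroup.mk' U₀ complexConjugation)).subtype).invariants ≤
      h47g_cFix (h47g_W p U₀ C τ) := by
  intro f hf
  have h := hf ⟨QuotientGroup.mk' U₀ complexConjugation, Subgroup.mem_zpowers _⟩
  show f ∈ LinearMap.ker ((h47g_W p U₀ C τ) complexConjugation - 1)
  rw [LinearMap.mem_ker, LinearMap.sub_apply, sub_eq_zero]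
  exact h

end Inv

/-- **EQA-ASM.** -/
theorem h93e_eqArith_of : H93EqArithAsm := by
  intro hLat hFrob hPkg p _ hp2 U₀ _ hU₀ hχ
  obtain ⟨T₀, hT₀⟩ := hPkg p hp2 U₀ hU₀ hχ
  refine ⟨T₀, fun S hTS hpS hUS C _ hpC Y _ _ _ τ => ?_⟩
  classical
  obtain ⟨A, iA, iAf, α, X, iX, σ, pt, L, w, z, κ, hcov, hfixq, hfixc, hLeq, hLker, hLdisc, hw, hprod,
    hz0, hpz, hzgen, hzact, hκker, hκim, hκeq⟩ := hT₀ S hTS hpS hUS
  have : U₀.FiniteIndex := (Fermat.Agent.PT.Bridge.h23b_levFin_good U₀ hU₀).2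
  have : Finite (GQ ⧸ U₀) := Subgroup.finite_quotient_of_finiteIndex
  let χb : GQ ⧸ U₀ →* (ZMod p)ˣ :=
    QuotientGroup.lift U₀ (cycloChar p) (fun u hu => hχ u hu)
  haveI : Nonempty X := ⟨pt none⟩
  -- the lattice inequality
  have h1 := hLat p ↥C hpC A (α.comp C.subtype) X (σ.comp C.subtype) L w
    (fun c a x => hLeq c.1 a x) hLker hLdisc hw hprod (χb.comp C.subtype) z hz0 hpz hzgen
    (by
      intro c
      obtain ⟨g, hg⟩ := QuotientGroup.mk'_surjective U₀ c.1
      have h := hzact g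
      rw [hg] at h
      have h2 : (χb.comp C.subtype) c = cycloChar p g := by
        show χb c.1 = _
        rw [← hg]
        rfl
      rw [h2]
      exact h)
    (↥U₀ → ZMod p) κ hκker Y τ (h47g_HomC p S U₀ C τ)
    (by
      intro Φ
      constructor
      · rintro ⟨hΦ1, hΦ2⟩
        refine ⟨fun y => ?_, fun c y a hya => ?_⟩
        · obtain ⟨a, ha⟩ := (hκim (Φ y)).1 (hΦ1 y)
          exact ⟨a, ha.symm⟩
        · obtain ⟨g, hg⟩ := QuotientGroup.mk'_surjective U₀ c.1
          have hgC : QuotientGroup.mk' U₀ g ∈ C := by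
            rw [hg]
            exact c.2
          have hc : c = ⟨QuotientGroup.mk' U₀ g, hgC⟩ := Subtype.ext hg.symm
          funext u
          rw [hc, hΦ2 g hgC y u, hya]
          exact (hκeq g a u).symm
      · rintro ⟨hΦ1, hΦ2⟩
        refine ⟨fun y => ?_, fun g hg y u => ?_⟩
        · obtain ⟨a, ha⟩ := hΦ1 y
          exact (hκim (Φ y)).2 ⟨a, ha.symm⟩
        · obtain ⟨a, ha⟩ := hΦ1 y
          rw [hΦ2 ⟨QuotientGroup.mk' U₀ g, hg⟩ y a ha, ha]
          exact hκeq g a u)
  obtain ⟨hfin, hineq⟩ := h1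
  refine ⟨hfin, ?_⟩
  -- Frobenius reciprocity
  obtain ⟨hFa, hFb, hFc⟩ := hFrob p (GQ ⧸ U₀) C hpC Y τ
  have hb := hFb χb
  let D : Option ↥S → Subgroup (GQ ⧸ U₀) := fun i =>
    match i with
    | some q => ((primeLocalToGlobal q.1).range).map (QuotientGroup.mk' U₀)
    | none => Subgroup.zpowers (QuotientGroup.mk' U₀ complexConjugation)
  have hc := hFc X σ (Option ↥S) pt D hcov (by
    intro i d hd
    cases i with
    | some q =>
      obtain ⟨g, ⟨h, rfl⟩, rfl⟩ := hd
      exact hfixq q h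
    | none =>
      obtain ⟨k, rfl⟩ := Subgroup.mem_zpowers_iff.1 hd
      rw [map_zpow]
      exact h93e_zpow_fix _ _ hfixc k)
  rw [Fintype.sum_option] at hc
  -- finite dimensionality of the ambient spaces
  haveI : Module.Finite (ZMod p) ((GQ ⧸ U₀) → Y) := inferInstance
  haveI : Module.Finite (ZMod p) ↥(h47g_indSpace C τ) := inferInstance
  have e1 : Module.finrank (ZMod p) (h47g_W p U₀ C τ).invariants ≤
      Module.finrank (ZMod p) (h47g_ind C τ).invariants :=
    Submodule.finrank_mono (h93e_inv_le U₀ C τ)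
  have e2 : Module.finrank (ZMod p) (dualTw χb (h47g_ind C τ)).invariants ≤
      Module.finrank (ZMod p) (dualTw (cycloChar p) (h47g_W p U₀ C τ)).invariants :=
    Submodule.finrank_mono (h93e_dual_le U₀ C τ (fun u hu => hχ u hu))
  have e3 : ∀ q : ↥S, Module.finrank (ZMod p) (resRep (h47g_ind C τ) (D (some q)).subtype).invariants ≤
      Module.finrank (ZMod p) ((DQ p S).repAt (h47g_W p U₀ C τ) q).invariants := fun q =>
    Submodule.finrank_mono (h93e_loc_le U₀ C τ q.1)
  have e4 : Module.finrank (ZMod p) (resRep (h47g_ind C τ) (D none).subtype).invariants ≤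
      Module.finrank (ZMod p) (h47g_cFix (h47g_W p U₀ C τ)) :=
    Submodule.finrank_mono (h93e_inf_le U₀ C τ)
  have e5 : ∑ q : ↥S, Module.finrank (ZMod p)
        (resRep (h47g_ind C τ) (D (some q)).subtype).invariants ≤
      ∑ v : (DQ p S).P, Module.finrank (ZMod p)
        ((DQ p S).repAt (h47g_W p U₀ C τ) v).invariants := by
    refine le_of_le_of_eq (Finset.sum_le_sum fun q _ => e3 q) ?_
    rfl
  omega

end Fermat.Agent.S56G
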