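import Mathlib
import Fermat.Agent.S56G.H93PkgIface
import Fermat.Agent.PT.Bridge.DQGood

/-!
# S56, block EQ-ARITH of TATE-EC (helper93): the assembly of the arithmetic package

`h93p_pkg_of : H93PkgAsm`, i.e.
`H93PkgGen → H93PkgFG → H93PkgTors → H93PkgLogInv → H93PkgLogKer → H93PkgLogDisc →
  H93PkgLogProd → H93PkgLogAlg → H93EqPkg`.

The Kummer clauses come from helper96's `h96q_kummerPkg`; the fields of `H96KumData` other than
`gen` are proved here (`h93p_kumData`).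
-/

set_option autoImplicit false
set_option linter.style.haveILetI false

open ExtCitation

noncomputable section

namespace Fermat.Agent.S56G

open Fermat.Agent.PT Fermat.Agent.PT.Glob

local notation "Qb" => AlgebraicClosure ℚ

/-- valuation subrings are closed under roots. -/
lemma h93p_mem_of_pow_mem (V : ValuationSubring Qb) {y : Qb} {n : ℕ} (hn : 0 < n)
    (h : y ^ n ∈ V) : y ∈ V := by
  rcases V.mem_or_inv_mem y with h1 | h1
  · exact h1
  · have h2 : y = y ^ n * (y⁻¹) ^ (n - 1) := by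
      by_cases hy : y = 0
      · subst hy
        rw [zero_pow hn.ne', zero_mul]
      · obtain ⟨m, rfl⟩ : ∃ m, n = m + 1 := ⟨n - 1, by omega⟩
        rw [Nat.add_sub_cancel, pow_succ, inv_pow, mul_assoc, mul_comm y, ← mul_assoc,
          mul_inv_cancel₀ (pow_ne_zero m hy), one_mul]
    rw [h2]
    exact mul_mem h (pow_mem h1 _)

/-- The realisation datum of the concrete `S`-units, given the class group clause. -/
theorem h93p_kumData (p : ℕ) [Fact p.Prime] (S : Finset Nat.Primes) (U₀ : Subgroup GQ)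
    [U₀.Normal]
    (hgen : ∀ x ∈ fieldOf U₀, x ≠ 0 → DvdValOut p S (fieldOf U₀) x →
      ∃ a : h93p_A S U₀, ∃ y ∈ fieldOf U₀, y ≠ 0 ∧ x = h93p_iota S U₀ a * y ^ p) :
    H96KumData p S U₀ (h93p_A S U₀) (h93p_act S U₀) (h93p_iota S U₀) where
  ne_zero := h93p_iota_ne_zero S U₀
  mem := h93p_iota_mem S U₀
  add := h93p_iota_add S U₀
  equiv := h93p_iota_act S U₀
  val := by
    intro a q hq V hV
    obtain ⟨h1, h2⟩ := h93p_iota_val S U₀ a q hq V hV
    exact ⟨1, one_mem _, one_ne_zero, h93p_iota S U₀ a, h1, h2, by rw [one_pow, one_mul]⟩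
  gen := hgen
  sat := by
    intro a y hy hay
    have hp : 0 < p := (Fact.out : p.Prime).pos
    have hy0 : y ≠ 0 := by
      rintro rfl
      rw [zero_pow hp.ne'] at hay
      exact h93p_iota_ne_zero S U₀ a hay
    obtain ⟨b, hb⟩ := h93p_exists_iota S U₀ y hy0 hy (by
      intro q hq V hV
      obtain ⟨h1, h2⟩ := h93p_iota_val S U₀ a q hq V hV
      refine ⟨h93p_mem_of_pow_mem V hp ?_, h93p_mem_of_pow_mem V hp ?_⟩
      · rw [← hay]
        exact h1
      · rw [inv_pow, ← hay]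
        exact h2)
    refine ⟨b, h93p_iota_injective S U₀ ?_⟩
    rw [h93p_iota_nsmul, hb, hay]

/-- **PKG-ASM.** -/
theorem h93p_pkg_of : H93PkgAsm := by
  intro hGen hFG hTors hInv hKer hDisc hProd hAlg p _ hp2 U₀ _ hU₀ hχ
  obtain ⟨T₀, hT₀⟩ := hGen p hp2 U₀ hU₀ hχ
  refine ⟨T₀, fun S hTS hpS hUS => ?_⟩
  classical
  have : U₀.FiniteIndex := (Fermat.Agent.PT.Bridge.h23b_levFin_good U₀ hU₀).2
  have : Finite (GQ ⧸ U₀) := Subgroup.finite_quotient_of_finiteIndex
  letI : Fintype (GQ ⧸ U₀) := Fintype.ofFinite _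
  obtain ⟨X, iX, σ, pt, L, w, hcov, hfix, hLeq, hLker, hLdisc, hw, hprod⟩ :=
    hAlg (GQ ⧸ U₀) (h93p_A S U₀) (h93p_act S U₀) (Option ↥S) (h93p_D S U₀) (h93p_ell S U₀)
      (fun i d hd a => hInv S U₀ i d hd a) (hKer S U₀ hU₀) (hDisc S U₀ hU₀)
      (fun a => hProd S U₀ hU₀ a)
  obtain ⟨z, hz0, hpz, hzgen, hzact⟩ := hTors p hp2 U₀ hU₀ hχ S
  obtain ⟨κ, hκker, hκim, hκeq⟩ := h96q_kummerPkg p hp2 S hpS U₀ hUS hχ (h93p_A S U₀)
    (h93p_act S U₀) (h93p_iota S U₀) (h93p_kumData p S U₀ (hT₀ S hTS hpS hUS))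
  exact ⟨h93p_A S U₀, inferInstance, hFG S U₀ hU₀, h93p_act S U₀, X, iX, σ, pt, L, w, z, κ,
    hcov, fun q h => hfix (some q) _ (h93p_mem_D_some S U₀ q h),
    hfix none _ (h93p_mem_D_none S U₀), hLeq, hLker, hLdisc, hw, hprod, hz0, hpz, hzgen, hzact,
    hκker, hκim, hκeq⟩

end Fermat.Agent.S56G
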