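import Mathlib
import Fermat.Agent.S56G.H93PkgIface

/-!
# S56, EQ-ARITH, leaf PKG-LOG-INV (helper93): the local logarithms are invariant under the
decomposition groups

`h93p_logInv : H93PkgLogInv`.
-/

set_option autoImplicit false
set_option linter.style.haveILetI false

open ExtCitation

noncomputable section

namespace Fermat.Agent.S56G

open Fermat.Agent.PT Fermat.Agent.PT.Glob

local notation "Qb" => AlgebraicClosure ℚ

/-- the `q`-adic norm is invariant under the local Galois group. -/
lemma h93p_logQ_local (q : Nat.Primes) (h : primeLocalGaloisGroup q) (x : Qb) :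
    h93p_logQ q (primeLocalToGlobal q h x) = h93p_logQ q x := by
  haveI : Fact (q : ℕ).Prime := ⟨q.2⟩
  show Real.log ‖padicEmbedding (q : ℕ) (localGaloisToGlobal (q : ℕ) h x)‖ =
    Real.log ‖padicEmbedding (q : ℕ) x‖
  rw [padicEmbedding_localGaloisToGlobal]
  have h1 := nnnorm_padicAlgCl_algEquiv (q : ℕ) h (padicEmbedding (q : ℕ) x)
  have h2 := congrArg (fun t : NNReal => (t : ℝ)) h1
  simp only [coe_nnnorm] at h2
  rw [h2]

/-- the archimedean norm is invariant under the complex conjugation. -/
lemma h93p_logInf_conj (x : Qb) : h93p_logInf (complexConjugation x) = h93p_logInf x := by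
  show Real.log ‖complexEmbedding (complexConjugation x)‖ = Real.log ‖complexEmbedding x‖
  rw [complexEmbedding_complexConjugation]
  congr 1
  exact RCLike.norm_conj _

/-- the archimedean norm is invariant under the powers of the complex conjugation. -/
lemma h93p_logInf_zpow (k : ℤ) (x : Qb) :
    h93p_logInf ((complexConjugation ^ k) x) = h93p_logInf x := by
  have hmem : complexConjugation ^ k ∈ Subgroup.zpowers complexConjugation :=
    Subgroup.zpow_mem_zpowers _ k
  have hle : Subgroup.zpowers complexConjugation ≤
      ({ carrier := {g : GQ | ∀ y : Qb, h93p_logInf (g y) = h93p_logInf y}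
         mul_mem' := by
          intro g h hg hh y
          rw [AlgEquiv.mul_apply, hg, hh]
         one_mem' := fun y => rfl
         inv_mem' := by
          intro g hg y
          have h1 := hg (g⁻¹ y)
          have h2 : g (g⁻¹ y) = y := by
            rw [← AlgEquiv.mul_apply, mul_inv_cancel]
            rfl
          rw [h2] at h1
          exact h1.symm } : Subgroup GQ) := by
    rw [Subgroup.zpowers_le]
    exact h93p_logInf_conj
  exact hle hmem x

/-- **PKG-LOG-INV.** -/
theorem h93p_logInv : H93PkgLogInv := by
  intro S U₀ _ i d hd a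
  cases i with
  | some q =>
    obtain ⟨g, ⟨h, rfl⟩, rfl⟩ := hd
    show h93p_log S (some q) (h93p_iota S U₀ (h93p_act S U₀
      (QuotientGroup.mk' U₀ (primeLocalToGlobal q.1 h)) a)) = _
    rw [h93p_iota_act]
    exact h93p_logQ_local q.1 h _
  | none =>
    obtain ⟨k, rfl⟩ := Subgroup.mem_zpowers_iff.1 hd
    have h1 : (QuotientGroup.mk' U₀ complexConjugation) ^ k =
        QuotientGroup.mk' U₀ (complexConjugation ^ k) := (map_zpow _ _ _).symm
    rw [h1]
    show h93p_log S none (h93p_iota S U₀ (h93p_act S U₀
      (QuotientGroup.mk' U₀ (complexConjugation ^ k)) a)) = _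
    rw [h93p_iota_act]
    exact h93p_logInf_zpow k _

end Fermat.Agent.S56G
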