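import Mathlib
import Fermat.Agent.S56G.H93EqAsm
import Fermat.Agent.S56G.H93PkgAsm
import Fermat.Agent.S56G.H93PkgLogInv
import Fermat.Agent.S56G.H10PkgLogAlg
import Fermat.Agent.S56G.H29PkgFG
import Fermat.Agent.S56G.H34PkgTors
import Fermat.Agent.S56G.H52EqLatAsm
import Fermat.Agent.S56G.H55EqDesc
import Fermat.Agent.S56G.H55PkgLogDisc
import Fermat.Agent.S56G.H61EqLat
import Fermat.Agent.S56G.H72PkgLogKer
import Fermat.Agent.S56G.H83EqAdd
import Fermat.Agent.S56G.H88FrobAsm
import Fermat.Agent.S56G.H96PkgGen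

/-!
# S56, block EQ-ARITH of TATE-EC (helper93): `H47EqArith` from the product formula

All leaves of EQ-ARITH except the product formula `H93PkgLogProd` are plugged in.

* `h93e_latAlg   : H93EqLatAlg`   (helper52, helper83, helper61, helper55);
* `h93e_pkg_of_prod : H93PkgLogProd → H93EqPkg`
  (helper96, helper29, helper34, helper72, helper55, helper10, helper93);
* `h93e_eqArith_of_prod : H93PkgLogProd → H47EqArith`.
-/

set_option autoImplicit false

noncomputable section

namespace Fermat.Agent.S56G

/-- The lattice inequality (pure algebra). -/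
theorem h93e_latAlg : H93EqLatAlg :=
  h52e_eqLatAsm h83e_eqAdd (h61l_lattice_of h83e_eqAdd) h55ed_descent

/-- The arithmetic package, from the product formula. -/
theorem h93e_pkg_of_prod (hProd : H93PkgLogProd) : H93EqPkg :=
  h93p_pkg_of h96pg_pkgGen h29f_pkgFG h34p_pkgTors h93p_logInv h72k_pkgLogKer h55ld_logDisc
    hProd h10p_pkgLogAlg

/-- **EQ-ARITH from the product formula.** -/
theorem h93e_eqArith_of_prod (hProd : H93PkgLogProd) : H47EqArith :=
  h93e_eqArith_of h93e_latAlg h88f_eqFrobAlg (h93e_pkg_of_prod hProd)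

end Fermat.Agent.S56G
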