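import Mathlib
import Fermat.Agent.S56G.H93EqArithOfProd
import Fermat.Agent.S56G.H36PkgLogProd

/-!
# S56, block EQ-ARITH of TATE-EC (helper93): `H47EqArith`, unconditional

`h93e_eqArith : H47EqArith` (`S56G/EqIface.lean`): for `K/ℚ` finite normal containing `μ_p`
there is a finite set of primes `T₀` such that for all `S ⊇ T₀ ∪ {p}` outside which `K` is
unramified and all cyclic `C ≤ Gal(K/ℚ)` of order prime to `p`:
`dim Hom_C(Y, Z¹(U₀, 𝔽_p)) + h⁰(W) ≤ h⁰(W^D) + ∑_{v ∈ S} h⁰(G_v, W) + dim W^{c = 1}`,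
`W = Ind_C^G τ`.

Leaves: `h93e_latAlg` (helper52, helper83, helper61, helper55), `h88f_eqFrobAlg` (helper88,
helper61, helper55), `h96pg_pkgGen` + `h96q_kummerPkg` (helper96), `h29f_pkgFG` (helper29),
`h34p_pkgTors` (helper34), `h72k_pkgLogKer` (helper72), `h55ld_logDisc` (helper55),
`h36lp_logProd` (helper36; twin `h14p_pkgLogProd` of helper14), `h10p_pkgLogAlg` (helper10),
interfaces and assemblies helper93.
-/

set_option autoImplicit false

noncomputable section

namespace Fermat.Agent.S56G

/-- The arithmetic package, unconditional. -/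
theorem h93e_eqPkg : H93EqPkg := h93e_pkg_of_prod h36lp_logProd

/-- **EQ-ARITH**, unconditional. -/
theorem h93e_eqArith : H47EqArith := h93e_eqArith_of_prod h36lp_logProd

end Fermat.Agent.S56G
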