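import Mathlib

/-!
# S56, TW-CHEB group theory (helper48, prefix `h48g_`): frozen interfaces

Target: the vanishing `H^1(G, ad0 ⊗ det) = 0` for a finite irreducible subgroup `G ≤ GL₂(k)`
(`k` a finite field of odd characteristic `p`) all of whose elements have an eigenvector over
`k` and whose determinants contain a non-square of `𝔽_p`.  This is DDT Lemma 2.48 in cocycle
form; the proof (team finding #1094) is classification-free: restriction to the normaliser of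
a Sylow `p`-subgroup, an explicit cocycle computation, and a fixed-point count on `ℙ¹(k)`.

Everything in this file is a definition or an interface `Prop`; nothing is assumed.
-/

set_option autoImplicit false

open Matrix

noncomputable section

namespace Fermat.Agent.S56G

/-- The twisted adjoint action `g · X = det g • (g X g⁻¹)` on `2 × 2` matrices. -/
def h48g_act {k : Type} [Field k] (g : GL (Fin 2) k) (X : Matrix (Fin 2) (Fin 2) k) :
    Matrix (Fin 2) (Fin 2) k :=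
  (g : Matrix (Fin 2) (Fin 2) k).det •
    ((g : Matrix (Fin 2) (Fin 2) k) * X * ((g⁻¹ : GL (Fin 2) k) : Matrix (Fin 2) (Fin 2) k))

/-- **TARGET.**  Every trace-zero cocycle for the twisted adjoint action is a coboundary. -/
def H48GVanish : Prop :=
  ∀ (k : Type) [Field k] [Finite k] (p : ℕ) [Fact p.Prime] [CharP k p], p ≠ 2 →
  ∀ (G : Subgroup (GL (Fin 2) k)),
    (∀ g ∈ G, ∃ v : Fin 2 → k, v ≠ 0 ∧ ∃ c : k, (g : Matrix (Fin 2) (Fin 2) k) *ᵥ v = c • v) →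
    (∀ v : Fin 2 → k, v ≠ 0 → ∃ g ∈ G, ∀ c : k, (g : Matrix (Fin 2) (Fin 2) k) *ᵥ v ≠ c • v) →
    (∃ g ∈ G, ∃ d : ℤ, (∀ x : ℤ, ¬ (p : ℤ) ∣ x ^ 2 - d) ∧
      (g : Matrix (Fin 2) (Fin 2) k).det = (d : k)) →
    ∀ f : G → Matrix (Fin 2) (Fin 2) k,
      (∀ g, (f g).trace = 0) →
      (∀ g h : G, f (g * h) = f g + h48g_act (g : GL (Fin 2) k) (f h)) →
      ∃ X : Matrix (Fin 2) (Fin 2) k, X.trace = 0 ∧
        ∀ g : G, f g = h48g_act (g : GL (Fin 2) k) X - X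

/-- **LEAF A (averaging).**  A cocycle whose restriction to a subgroup of index invertible in
`k` is a coboundary is a coboundary.  (`H = ⊥`: Maschke.) -/
def H48GAvg : Prop :=
  ∀ (k : Type) [Field k] (G : Type) [Group G] [Finite G]
    (M : Type) [AddCommGroup M] [Module k M]
    (act : G →* (M →ₗ[k] M)) (H : Subgroup G), ((H.index : ℕ) : k) ≠ 0 →
    ∀ f : G → M, (∀ g h, f (g * h) = f g + act g (f h)) →
      (∃ X : M, ∀ h ∈ H, f h = act h X - X) → ∃ Y : M, ∀ g, f g = act g Y - Y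

/-- **LEAF E1 (fixed-point count).**  `G` finite acting on a finite set `X`, `Z` a normal
subgroup acting trivially, every `g ∉ Z` has exactly one or two fixed points, the elements
with exactly one fixed point have it in the orbit `Ω` of `x₀`, `#Z = z`, `#G_{x₀} = z q h`,
the stabiliser of `x₀` has `z (q - 1)` elements with one fixed point, `q ≥ 2`, `#Ω ≥ 2`.
Then outside `Ω` there is exactly one orbit with stabilisers `≠ Z`, of order `z s`, and
`s (n q - 2 n + 2) = n q h`, `n = #Ω`. -/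
def H48GCount : Prop :=
  ∀ (G : Type) [Group G] [Finite G] (X : Type) [Finite X] [MulAction G X]
    (Z : Subgroup G) [Z.Normal] (x₀ : X) (z q h : ℕ),
    (∀ g ∈ Z, ∀ x : X, g • x = x) →
    (∀ g : G, g ∉ Z →
      Nat.card {x : X // g • x = x} = 1 ∨ Nat.card {x : X // g • x = x} = 2) →
    (∀ g : G, g ∉ Z → Nat.card {x : X // g • x = x} = 1 →
      ∀ x : X, g • x = x → x ∈ MulAction.orbit G x₀) →
    Nat.card Z = z →
    Nat.card (MulAction.stabilizer G x₀) = z * q * h →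
    Nat.card {g : G // g ∈ MulAction.stabilizer G x₀ ∧ g ∉ Z ∧
      Nat.card {x : X // g • x = x} = 1} + z = z * q →
    2 ≤ q →
    2 ≤ Nat.card (MulAction.orbit G x₀) →
    ∃ s : ℕ, 2 ≤ s ∧
      s * (Nat.card (MulAction.orbit G x₀) * q + 2) =
        Nat.card (MulAction.orbit G x₀) * q * h + 2 * Nat.card (MulAction.orbit G x₀) * s ∧
      (∃ y : X, y ∉ MulAction.orbit G x₀ ∧ Nat.card (MulAction.stabilizer G y) = z * s) ∧
      ∀ y : X, y ∉ MulAction.orbit G x₀ → (∃ g : G, g ∉ Z ∧ g • y = y) →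
        Nat.card (MulAction.stabilizer G y) = z * s

/-- **LEAF E2 (arithmetic).**  `n = 1 + m q`, `q ≥ 4`, `s (n q - 2 n + 2) = n q h`, `h ∣ q - 1`:
then `h ∤ s`, and if `h ≥ 2`, `h ∣ n - 2` then `m = 1`. -/
def H48GArith : Prop :=
  ∀ n q h s m : ℕ, n = 1 + m * q → 4 ≤ q → 1 ≤ m → 2 ≤ s → 1 ≤ h → h ∣ q - 1 →
    s * (n * q + 2) = n * q * h + 2 * n * s →
    (¬ h ∣ s) ∧ (2 ≤ h → h ∣ n - 2 → m = 1)

/-- **LEAF C (cocycle computation on the Borel subgroup).**  `V` an additive subgroup of `k`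
(the unipotent radical `u(x)`, `x ∈ V`), `𝒯` the set of pairs `(t₁, t₂)` of diagonal elements;
`a, b, c` the `E, H, F`-coordinates of a `𝒯`-equivariant cocycle on `u(V)`.  If (hA) every
additive `a''` on `V` with `a''((t₁/t₂) x) = t₁² a''(x)` vanishes and (hC) `p = 3` or some
`t ∈ 𝒯` has `t₁ ≠ t₂³`, then the cocycle is the coboundary of the `𝒯`-invariant element `μ F`. -/
def H48GCocycle : Prop :=
  ∀ (k : Type) [Field k] (p : ℕ) [Fact p.Prime] [CharP k p], p ≠ 2 →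
  ∀ (V : AddSubgroup k) (𝒯 : Set (k × k)),
    (∀ t ∈ 𝒯, t.1 ≠ 0 ∧ t.2 ≠ 0) →
    (∀ t ∈ 𝒯, ∀ x ∈ V, t.1 / t.2 * x ∈ V) →
    (∀ a : k → k, (∀ x ∈ V, ∀ y ∈ V, a (x + y) = a x + a y) →
      (∀ t ∈ 𝒯, ∀ x ∈ V, a (t.1 / t.2 * x) = t.1 ^ 2 * a x) → ∀ x ∈ V, a x = 0) →
    (p = 3 ∨ ∃ t ∈ 𝒯, t.1 ≠ t.2 ^ 3) →
    ∀ a b c : k → k,
      (∀ x ∈ V, ∀ y ∈ V, c (x + y) = c x + c y) →
      (∀ x ∈ V, ∀ y ∈ V, b (x + y) = b x + b y + x * c y) →
      (∀ x ∈ V, ∀ y ∈ V, a (x + y) = a x + a y - 2 * x * b y - x ^ 2 * c y) →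
      (∀ t ∈ 𝒯, ∀ x ∈ V, a (t.1 / t.2 * x) = t.1 ^ 2 * a x) →
      (∀ t ∈ 𝒯, ∀ x ∈ V, b (t.1 / t.2 * x) = t.1 * t.2 * b x) →
      (∀ t ∈ 𝒯, ∀ x ∈ V, c (t.1 / t.2 * x) = t.2 ^ 2 * c x) →
      ∃ μ : k, (μ = 0 ∨ ∀ t ∈ 𝒯, t.2 ^ 2 = 1) ∧
        ∀ x ∈ V, c x = 0 ∧ b x = μ * x ∧ a x = - μ * x ^ 2

/-- **LEAF D (Frattini).**  If `G` contains a nontrivial upper unipotent element, every
determinant of `G` is the determinant of an upper triangular element of `G`. -/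
def H48GFrattini : Prop :=
  ∀ (k : Type) [Field k] [Finite k] (p : ℕ) [Fact p.Prime] [CharP k p]
    (G : Subgroup (GL (Fin 2) k)),
    (∃ g ∈ G, (g : Matrix (Fin 2) (Fin 2) k) 1 0 = 0 ∧ (g : Matrix (Fin 2) (Fin 2) k) 0 0 = 1 ∧
      (g : Matrix (Fin 2) (Fin 2) k) 1 1 = 1 ∧ (g : Matrix (Fin 2) (Fin 2) k) 0 1 ≠ 0) →
    ∀ g ∈ G, ∃ b ∈ G, (b : Matrix (Fin 2) (Fin 2) k) 1 0 = 0 ∧
      (b : Matrix (Fin 2) (Fin 2) k).det = (g : Matrix (Fin 2) (Fin 2) k).det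

end Fermat.Agent.S56G
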