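import Mathlib
import Fermat.Agent.S56G.H48Iface

/-!
# S56, TW-CHEB group theory, LEAF D (Frattini) (helper1, prefix `h1f_`)

`h1f_frattini : H48GFrattini`: if a subgroup `G ≤ GL₂(k)` (`k` a finite field of
characteristic `p`) contains a nontrivial upper unipotent element `u`, then every determinant
of `G` is the determinant of an upper triangular element of `G`.

Proof: `N = G ∩ SL₂(k)` is normal in `G` and contains `u`; let `P` be a Sylow `p`-subgroup of
`N` containing `u`.  A `p`-group acting linearly on `k²` has a nonzero fixed vector `v`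
(fixed-point congruence); since `u v = v`, `v` is a multiple of `e₁`.  By Frattini's argument
`G = N_G(P) N`; an element `n` of `N_G(P)` sends `v` to a vector fixed by `u`, hence is upper
triangular.
-/

set_option autoImplicit false

open Matrix

noncomputable section

namespace Fermat.Agent.S56G

/-- a vector fixed by a nontrivial upper unipotent matrix has second coordinate zero. -/
theorem h1f_fixed_snd {k : Type} [Field k] (u : Matrix (Fin 2) (Fin 2) k)
    (h00 : u 0 0 = 1) (h01 : u 0 1 ≠ 0) (v : Fin 2 → k) (hv : u *ᵥ v = v) : v 1 = 0 := by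
  have h := congrFun hv 0
  simp only [Matrix.mulVec, dotProduct, Fin.sum_univ_two, h00, one_mul] at h
  have h2 : u 0 1 * v 1 = 0 := by linear_combination h
  rcases mul_eq_zero.mp h2 with h3 | h3
  · exact absurd h3 h01
  · exact h3

/-- the natural action of a subgroup of `GL₂(k)` on `k²`. -/
@[instance_reducible]
def h1f_act {k : Type} [Field k] (Q : Subgroup (GL (Fin 2) k)) : MulAction Q (Fin 2 → k) where
  smul g v := ((g : GL (Fin 2) k) : Matrix (Fin 2) (Fin 2) k) *ᵥ v
  one_smul v := by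
    change ((1 : GL (Fin 2) k) : Matrix (Fin 2) (Fin 2) k) *ᵥ v = v
    simp
  mul_smul g h v := by
    change (((g : GL (Fin 2) k) * (h : GL (Fin 2) k) : GL (Fin 2) k) :
      Matrix (Fin 2) (Fin 2) k) *ᵥ v = ((g : GL (Fin 2) k) : Matrix (Fin 2) (Fin 2) k) *ᵥ
        (((h : GL (Fin 2) k) : Matrix (Fin 2) (Fin 2) k) *ᵥ v)
    rw [Units.val_mul, Matrix.mulVec_mulVec]

/-- a `p`-subgroup of `GL₂(k)`, `k` finite of characteristic `p`, fixes a nonzero vector. -/
theorem h1f_exists_fixed {k : Type} [Field k] [Finite k] (p : ℕ) [Fact p.Prime] [CharP k p]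
    (Q : Subgroup (GL (Fin 2) k)) (hQ : IsPGroup p Q) :
    ∃ v : Fin 2 → k, v ≠ 0 ∧ ∀ g ∈ Q, (g : Matrix (Fin 2) (Fin 2) k) *ᵥ v = v := by
  classical
  let _ := h1f_act Q
  have : Fintype k := Fintype.ofFinite k
  have hcard : p ∣ Nat.card (Fin 2 → k) := by
    obtain ⟨n, hn, hnk⟩ := FiniteField.card k p
    rw [Nat.card_eq_fintype_card, Fintype.card_fun, hnk, Fintype.card_fin]
    exact dvd_pow (dvd_pow_self p n.ne_zero) two_ne_zero
  have h0 : (0 : Fin 2 → k) ∈ MulAction.fixedPoints Q (Fin 2 → k) := by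
    intro g
    change ((g : GL (Fin 2) k) : Matrix (Fin 2) (Fin 2) k) *ᵥ (0 : Fin 2 → k) = 0
    simp
  obtain ⟨b, hb, hb0⟩ := hQ.exists_fixed_point_of_prime_dvd_card_of_fixed_point
    (Fin 2 → k) hcard h0
  refine ⟨b, fun h => hb0 h.symm, fun g hg => ?_⟩
  exact hb ⟨g, hg⟩

/-- powers of an upper unipotent matrix. -/
theorem h1f_unip_pow {k : Type} [Field k] (u : Matrix (Fin 2) (Fin 2) k)
    (h10 : u 1 0 = 0) (h00 : u 0 0 = 1) (h11 : u 1 1 = 1) (n : ℕ) :
    u ^ n = !![1, (n : k) * u 0 1; 0, 1] := by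
  have hu : u = !![1, u 0 1; 0, 1] := by
    ext i j
    fin_cases i <;> fin_cases j <;> simp [h10, h00, h11]
  induction n with
  | zero =>
    ext i j
    fin_cases i <;> fin_cases j <;> simp
  | succ n ih =>
    rw [pow_succ, ih]
    conv_lhs => rw [hu]
    ext i j
    fin_cases i <;> fin_cases j <;> simp [Matrix.mul_apply, Fin.sum_univ_two] <;> ring

/-- Frattini's argument in the form used below: `d : G → A` a homomorphism, `u` in its kernel
with `u ^ p = 1`; then every `g` has the same image as an element `n` conjugating `u` into a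
`p`-subgroup containing `u`. -/
theorem h1f_frattini_abs {G : Type} [Group G] [Finite G] (p : ℕ) [Fact p.Prime]
    {A : Type} [Group A] (d : G →* A) (u : G) (hu : d u = 1) (hup : u ^ p = 1) (g : G) :
    ∃ (n : G) (Q : Subgroup G), d n = d g ∧ IsPGroup p Q ∧ u ∈ Q ∧ n⁻¹ * u * n ∈ Q := by
  classical
  have huN : u ∈ d.ker := MonoidHom.mem_ker.mpr hu
  obtain ⟨u', hu'⟩ : ∃ u' : d.ker, (u' : G) = u := ⟨⟨u, huN⟩, rfl⟩
  have hu'p : u' ^ p = 1 := by
    apply Subtype.ext
    rw [Subgroup.coe_pow, hu', hup, Subgroup.coe_one]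
  have hQ₀ : IsPGroup p (Subgroup.zpowers u') := by
    rintro ⟨x, hx⟩
    obtain ⟨i, rfl⟩ := Subgroup.mem_zpowers_iff.mp hx
    refine ⟨1, ?_⟩
    apply Subtype.ext
    rw [pow_one]
    change (u' ^ i) ^ p = 1
    rw [← zpow_natCast, ← _root_.zpow_mul, mul_comm, _root_.zpow_mul, zpow_natCast, hu'p,
      _root_.one_zpow]
  obtain ⟨P, hP⟩ := hQ₀.exists_le_sylow
  have hu'P : u' ∈ (P : Subgroup d.ker) := hP (Subgroup.mem_zpowers u')
  have hfr := Sylow.normalizer_sup_eq_top P
  have hgtop : g ∈ Subgroup.normalizer ((P : Subgroup d.ker).map d.ker.subtype : Set G) ⊔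
      d.ker := by
    rw [hfr]
    exact Subgroup.mem_top _
  obtain ⟨n, hn, h, hh, hnh⟩ := Subgroup.mem_sup_of_normal_right.mp hgtop
  have huQ : u ∈ (P : Subgroup d.ker).map d.ker.subtype := ⟨u', hu'P, hu'⟩
  refine ⟨n, (P : Subgroup d.ker).map d.ker.subtype, ?_, P.2.map _, huQ, ?_⟩
  · rw [← hnh, map_mul, MonoidHom.mem_ker.mp hh, mul_one]
  · exact (Subgroup.mem_normalizer_iff''.mp hn _).mp huQ

/-- **LEAF D (Frattini).** -/
theorem h1f_frattini : H48GFrattini := by
  intro k _ _ p _ _ G hu g hg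
  obtain ⟨u, huG, h10, h00, h11, h01⟩ := hu
  classical
  have hdetu : Matrix.GeneralLinearGroup.det u = 1 := by
    apply Units.ext
    rw [Matrix.GeneralLinearGroup.val_det_apply, Matrix.det_fin_two, h10, h00, h11]
    simp
  -- `u ^ p = 1`
  have hup : u ^ p = 1 := by
    apply Units.ext
    rw [Units.val_pow_eq_pow_val, h1f_unip_pow _ h10 h00 h11, CharP.cast_eq_zero, zero_mul]
    ext i j
    fin_cases i <;> fin_cases j <;> simp
  have hupG : (⟨u, huG⟩ : G) ^ p = 1 := by
    apply Subtype.ext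
    rw [Subgroup.coe_pow, Subgroup.coe_one]
    exact hup
  obtain ⟨n, Q₁, hdn, hQ₁, huQ₁, hnQ₁⟩ := h1f_frattini_abs p
    ((Matrix.GeneralLinearGroup.det).comp G.subtype) (⟨u, huG⟩ : G) hdetu hupG ⟨g, hg⟩
  have hdn' : Matrix.GeneralLinearGroup.det (n : GL (Fin 2) k) =
      Matrix.GeneralLinearGroup.det g := hdn
  -- the image of `Q₁` in `GL₂(k)` fixes a nonzero vector
  obtain ⟨v, hv0, hv⟩ := h1f_exists_fixed p (Q₁.map G.subtype) (hQ₁.map G.subtype)
  have huQ : u ∈ Q₁.map G.subtype := ⟨_, huQ₁, rfl⟩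
  have hv1 : v 1 = 0 := h1f_fixed_snd _ h00 h01 v (hv u huQ)
  have hv00 : v 0 ≠ 0 := by
    intro h
    apply hv0
    ext i
    fin_cases i
    · exact h
    · exact hv1
  obtain ⟨n₀, hn₀⟩ : ∃ n₀ : GL (Fin 2) k, n₀ = (n : GL (Fin 2) k) := ⟨_, rfl⟩
  have h2 : n₀⁻¹ * u * n₀ ∈ Q₁.map G.subtype := by
    refine ⟨_, hnQ₁, ?_⟩
    rw [hn₀]
    rfl
  refine ⟨(n : GL (Fin 2) k), n.2, ?_, ?_⟩
  · -- `n` is upper triangular
    have h3 := hv _ h2
    have h6 : n₀ * (n₀⁻¹ * u * n₀) = u * n₀ := by group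
    have h5 : ((n₀ * (n₀⁻¹ * u * n₀) : GL (Fin 2) k) : Matrix (Fin 2) (Fin 2) k) *ᵥ v =
        (n₀ : Matrix (Fin 2) (Fin 2) k) *ᵥ v := by
      rw [Units.val_mul, ← Matrix.mulVec_mulVec, h3]
    rw [h6, Units.val_mul, ← Matrix.mulVec_mulVec] at h5
    have h7 := h1f_fixed_snd _ h00 h01 _ h5
    simp only [Matrix.mulVec, dotProduct, Fin.sum_univ_two, hv1, mul_zero, add_zero] at h7
    rw [← hn₀]
    rcases mul_eq_zero.mp h7 with h8 | h8
    · exact h8
    · exact absurd h8 hv00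
  · -- determinant
    rw [← Matrix.GeneralLinearGroup.val_det_apply, ← Matrix.GeneralLinearGroup.val_det_apply,
      hdn']

end Fermat.Agent.S56G
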