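import Fermat.Agent.S56G.H48Iface2

/-!
# S56, TW-CHEB group theory, leaves MOD and HU (helper1, prefix `h1m_`)

* `h1m_mod : H48GMod` : if `G ≤ GL₂(k)` contains a nontrivial `u(x₀)`, the orbit `Ω` of `∞`
  has `#Ω ≡ 1 mod p` and the index of the upper triangular subgroup is invertible in `k`.
* `h1m_hu : H48GHU` : a non-scalar element of `G` with exactly one fixed point `x` on
  `ℙ¹(k)` has `x ∈ Ω`.

Both are the fixed-point congruence for a cyclic group of order `p` acting on `Ω`.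
-/

set_option autoImplicit false

open Matrix Matrix.GeneralLinearGroup OnePoint

noncomputable section

namespace Fermat.Agent.S56G

/-- the cyclic group generated by an element of exponent `p` is a `p`-group. -/
theorem h1m_isPGroup_zpowers {G : Type*} [Group G] (p : ℕ) (h : G) (hp : h ^ p = 1) :
    IsPGroup p (Subgroup.zpowers h) := by
  rintro ⟨x, hx⟩
  obtain ⟨i, rfl⟩ := Subgroup.mem_zpowers_iff.mp hx
  refine ⟨1, ?_⟩
  apply Subtype.ext
  rw [pow_one]
  change (h ^ i) ^ p = 1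
  rw [← zpow_natCast, ← _root_.zpow_mul, mul_comm, _root_.zpow_mul, zpow_natCast, hp,
    _root_.one_zpow]

section

variable {k : Type} [Field k] [DecidableEq k]

/-- the stabiliser of `∞` is the upper triangular subgroup. -/
theorem h1m_stabilizer_infty (G : Subgroup (GL (Fin 2) k)) :
    MulAction.stabilizer G (∞ : OnePoint k) = h48g_B G := by
  ext g
  rw [MulAction.mem_stabilizer_iff]
  change (g : GL (Fin 2) k) • (∞ : OnePoint k) = ∞ ↔ (g : GL (Fin 2) k) 1 0 = 0
  exact OnePoint.smul_infty_eq_self_iff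

/-- fixed points of `u(y)`, `y ≠ 0`: only `∞`. -/
theorem h1m_fix_u (y : k) (hy : y ≠ 0) (x : OnePoint k) :
    (upperRightHom y : GL (Fin 2) k) • x = x ↔ x = ∞ :=
  h48g_fix_parab (upperRightHom y) rfl rfl hy x

omit [DecidableEq k] in
/-- `u(y) ^ p = 1` in characteristic `p`. -/
theorem h1m_u_pow (p : ℕ) [CharP k p] (y : k) :
    (upperRightHom y : GL (Fin 2) k) ^ p = 1 := by
  rw [← AddChar.map_nsmul_eq_pow, nsmul_eq_mul, CharP.cast_eq_zero, zero_mul,
    AddChar.map_zero_eq_one]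

/-- **key step**: if `h ∈ G` has `h ^ p = 1` and a unique fixed point `x` on `ℙ¹(k)`, then a
`G`-orbit `Ω` has `#Ω ≡ 1` or `0` modulo `p` according to whether `x ∈ Ω` or not. -/
theorem h1m_card_orbit [Finite k] (p : ℕ) [Fact p.Prime] (G : Subgroup (GL (Fin 2) k))
    (h : GL (Fin 2) k) (hG : h ∈ G) (hp : h ^ p = 1) (x : OnePoint k)
    (hx : ∀ y : OnePoint k, h • y = y ↔ y = x) (ω₀ : OnePoint k) :
    (x ∈ MulAction.orbit G ω₀ → Nat.card (MulAction.orbit G ω₀) % p = 1) ∧
    (x ∉ MulAction.orbit G ω₀ → Nat.card (MulAction.orbit G ω₀) % p = 0) := by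
  classical
  have : Finite (OnePoint k) := inferInstanceAs (Finite (Option k))
  have hpG : (⟨h, hG⟩ : G) ^ p = 1 := by
    apply Subtype.ext
    rw [Subgroup.coe_pow, Subgroup.coe_one]
    exact hp
  have hQ : IsPGroup p (Subgroup.zpowers (⟨h, hG⟩ : G)) := h1m_isPGroup_zpowers p _ hpG
  have hcong := hQ.card_modEq_card_fixedPoints (MulAction.orbit G ω₀)
  have hfixmem : ∀ ω : MulAction.orbit G ω₀,
      ω ∈ MulAction.fixedPoints (Subgroup.zpowers (⟨h, hG⟩ : G)) (MulAction.orbit G ω₀) ↔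
        (ω : OnePoint k) = x := by
    intro ω
    constructor
    · intro hω
      have h1 := hω ⟨⟨h, hG⟩, Subgroup.mem_zpowers _⟩
      have h2 : h • (ω : OnePoint k) = ω := congrArg Subtype.val h1
      exact (hx _).mp h2
    · intro hω g
      obtain ⟨g, hg⟩ := g
      have hle : Subgroup.zpowers (⟨h, hG⟩ : G) ≤ MulAction.stabilizer G (ω : OnePoint k) := by
        rw [Subgroup.zpowers_le, MulAction.mem_stabilizer_iff]
        change h • (ω : OnePoint k) = ω
        exact (hx _).mpr hω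
      have h3 := MulAction.mem_stabilizer_iff.mp (hle hg)
      apply Subtype.ext
      exact h3
  constructor
  · intro hxΩ
    have hcard : Nat.card (MulAction.fixedPoints (Subgroup.zpowers (⟨h, hG⟩ : G))
        (MulAction.orbit G ω₀)) = 1 := by
      have hset : MulAction.fixedPoints (Subgroup.zpowers (⟨h, hG⟩ : G))
          (MulAction.orbit G ω₀) = {⟨x, hxΩ⟩} := by
        ext ω
        rw [hfixmem, Set.mem_singleton_iff, Subtype.ext_iff]
      rw [hset, Nat.card_coe_set_eq, Set.ncard_singleton]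
    rw [hcard] at hcong
    have h1 : 1 % p = 1 := Nat.mod_eq_of_lt (Fact.out (p := p.Prime)).one_lt
    rw [← h1]
    exact hcong
  · intro hxΩ
    have hcard : Nat.card (MulAction.fixedPoints (Subgroup.zpowers (⟨h, hG⟩ : G))
        (MulAction.orbit G ω₀)) = 0 := by
      have hset : MulAction.fixedPoints (Subgroup.zpowers (⟨h, hG⟩ : G))
          (MulAction.orbit G ω₀) = ∅ := by
        ext ω
        rw [hfixmem]
        simp only [Set.mem_empty_iff_false, iff_false]
        intro hω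
        exact hxΩ (hω ▸ ω.2)
      rw [hset, Nat.card_coe_set_eq, Set.ncard_empty]
    rw [hcard] at hcong
    exact hcong

/-- **MOD.** -/
theorem h1m_mod : H48GMod := by
  intro k _ _ _ p _ _ G hN1
  obtain ⟨x₀, hx₀, hu⟩ := hN1
  classical
  have h1 : Nat.card (MulAction.orbit G (∞ : OnePoint k)) % p = 1 :=
    (h1m_card_orbit p G (upperRightHom x₀) hu (h1m_u_pow p x₀) ∞ (h1m_fix_u x₀ hx₀) ∞).1
      (MulAction.mem_orbit_self _)
  refine ⟨h1, ?_⟩
  have h2 : (h48g_B G).index = Nat.card (MulAction.orbit G (∞ : OnePoint k)) := by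
    rw [← h1m_stabilizer_infty, MulAction.index_stabilizer, Nat.card_coe_set_eq]
  rw [h2]
  intro h0
  have h3 : (p : ℕ) ∣ Nat.card (MulAction.orbit G (∞ : OnePoint k)) :=
    (CharP.cast_eq_zero_iff k p _).mp h0
  have h4 := Nat.mod_eq_zero_of_dvd h3
  omega

omit [DecidableEq k] in
/-- powers of an upper triangular matrix with equal diagonal entries. -/
theorem h1m_pow_entries (g : GL (Fin 2) k) (h10 : g 1 0 = 0) (h00 : g 0 0 = g 1 1) (n : ℕ) :
    (g ^ (n + 1)) 1 0 = 0 ∧ (g ^ (n + 1)) 0 0 = g 0 0 ^ (n + 1) ∧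
      (g ^ (n + 1)) 1 1 = g 0 0 ^ (n + 1) ∧
      (g ^ (n + 1)) 0 1 = ((n + 1 : ℕ) : k) * g 0 0 ^ n * g 0 1 := by
  induction n with
  | zero => simp [h10, h00]
  | succ n ih =>
    obtain ⟨i10, i00, i11, i01⟩ := ih
    rw [pow_succ]
    refine ⟨?_, ?_, ?_, ?_⟩
    · rw [h48g_mul_10, i10, h10]; ring
    · rw [h48g_mul_00, i00, h10]; ring
    · rw [h48g_mul_11, i10, i11, ← h00]; ring
    · rw [h48g_mul_01, i00, i01, ← h00]
      push_cast
      ring

/-- **HU.** -/
theorem h1m_hu : H48GHU := by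
  intro k _ _ _ p _ _ G hN1 g hg hcard x hx
  classical
  have hmod := (h1m_mod k p G hN1).1
  obtain ⟨g, hgG⟩ := g
  have hns : ¬ h48g_IsScal g := fun h => hg h
  have hx' : g • x = x := hx
  have hcard' : Nat.card {x : OnePoint k // g • x = x} = 1 := hcard
  obtain ⟨c, hc⟩ := h48g_exists_smul_eq_infty x
  obtain ⟨h10, h00, h01⟩ := h48g_parab_of_card_one g hns x hx' hcard' c hc
  -- the power `n = #k - 1`
  have : Fintype k := Fintype.ofFinite k
  have hq2 : 2 ≤ Fintype.card k := by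
    have := Fintype.one_lt_card (α := k)
    omega
  obtain ⟨n, hn⟩ : ∃ n : ℕ, Fintype.card k = n + 2 := ⟨Fintype.card k - 2, by omega⟩
  obtain ⟨g', hg'⟩ : ∃ g' : GL (Fin 2) k, g' = c * g * c⁻¹ := ⟨_, rfl⟩
  rw [← hg'] at h10 h00 h01
  have ha : g' 0 0 ≠ 0 := (h48g_upper_diag_ne g' h10).1
  obtain ⟨e10, e00, e11, e01⟩ := h1m_pow_entries g' h10 h00 n
  have hone : g' 0 0 ^ (n + 1) = 1 := by
    have := FiniteField.pow_card_sub_one_eq_one (g' 0 0) ha
    rwa [hn, show n + 2 - 1 = n + 1 by omega] at this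
  have hcast : ((n + 1 : ℕ) : k) = -1 := by
    have h1 : ((Fintype.card k : ℕ) : k) = 0 := Nat.cast_card_eq_zero k
    rw [hn] at h1
    have h2 : ((n + 2 : ℕ) : k) = ((n + 1 : ℕ) : k) + 1 := by push_cast; ring
    rw [h2] at h1
    linear_combination h1
  -- `g' ^ (n + 1) = u(y)`, `y ≠ 0`
  have hy : -(g' 0 0 ^ n * g' 0 1) ≠ 0 :=
    neg_ne_zero.mpr (mul_ne_zero (pow_ne_zero _ ha) h01)
  have hpow : g' ^ (n + 1) = upperRightHom (-(g' 0 0 ^ n * g' 0 1)) := by
    apply h48g_ext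
    · rw [e00, hone]; rfl
    · rw [e01, hcast]
      change _ = -(g' 0 0 ^ n * g' 0 1)
      ring
    · rw [e10]; rfl
    · rw [e11, hone]; rfl
  -- the element `h = g ^ (n + 1)` of `G`
  have hconj : g ^ (n + 1) = c⁻¹ * upperRightHom (-(g' 0 0 ^ n * g' 0 1)) * c := by
    rw [← hpow, hg', conj_pow]
    group
  have hhG : g ^ (n + 1) ∈ G := G.pow_mem hgG _
  have hhp : (g ^ (n + 1)) ^ p = 1 := by
    rw [hconj]
    have : (c⁻¹ * upperRightHom (-(g' 0 0 ^ n * g' 0 1)) * c) ^ p =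
        c⁻¹ * (upperRightHom (-(g' 0 0 ^ n * g' 0 1))) ^ p * c := by
      have h := conj_pow (a := c⁻¹) (b := upperRightHom (-(g' 0 0 ^ n * g' 0 1))) (i := p)
      rw [inv_inv] at h
      exact h
    rw [this, h1m_u_pow p, mul_one, inv_mul_cancel]
  have hhfix : ∀ y : OnePoint k, (g ^ (n + 1)) • y = y ↔ y = x := by
    intro y
    rw [hconj]
    have h1 : (c⁻¹ * upperRightHom (-(g' 0 0 ^ n * g' 0 1)) * c) • y = y ↔
        (upperRightHom (-(g' 0 0 ^ n * g' 0 1)) : GL (Fin 2) k) • (c • y) = c • y := by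
      rw [mul_smul, mul_smul, inv_smul_eq_iff]
    rw [h1, h1m_fix_u _ hy, ← hc]
    exact (MulAction.injective c).eq_iff
  by_contra hxΩ
  have h0 := (h1m_card_orbit p G (g ^ (n + 1)) hhG hhp x hhfix ∞).2 hxΩ
  omega

end

end Fermat.Agent.S56G
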