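import Fermat.Agent.S56G.H48Iface2
import Fermat.Agent.S56G.H1Frat
import Fermat.Agent.S56G.H1Mod

/-!
# S56, TW-CHEB group theory, leaf NORMALIZE (helper1, prefix `h1n_`)

`h1n_normalize : H48GNormalize`: if `p ∣ #G`, a conjugate of `G ≤ GL₂(k)` contains a nontrivial
`u(x₀)` (`N1`) and is closed under taking diagonal parts of upper triangular elements (`N2`).

* `N1`: an element `h` of order `p` (Cauchy) fixes a point of `ℙ¹(k)`; conjugating the point to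
  `∞`, `h` becomes upper triangular with diagonal entries of order dividing `p`, hence `u(x₀)`.
* `N2`: the ratios `g₀₀ / g₁₁` of the upper triangular elements form a finite, hence cyclic,
  subgroup of `kˣ`; let `b₀` have a generating ratio.  If the ratio of `b₀` is not `1`,
  conjugate `b₀` to a diagonal matrix by some `u(z)`.  For `g` upper triangular with ratio
  `ratio(b₀) ^ i`, the matrix `h = g b₀ ^ (-i)` has equal diagonal entries, `h ^ #k` is the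
  scalar matrix `h₀₀`, and `h ^ #k * b₀ ^ i` is the diagonal part of `g`.
-/

set_option autoImplicit false
set_option linter.unusedSimpArgs false

open Matrix Matrix.GeneralLinearGroup OnePoint

noncomputable section

namespace Fermat.Agent.S56G

variable {k : Type} [Field k]

/-- powers of an upper triangular matrix. -/
theorem h1n_pow_upper (g : GL (Fin 2) k) (h10 : g 1 0 = 0) (n : ℕ) :
    (g ^ n) 1 0 = 0 ∧ (g ^ n) 0 0 = g 0 0 ^ n ∧ (g ^ n) 1 1 = g 1 1 ^ n := by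
  induction n with
  | zero => simp
  | succ n ih =>
    obtain ⟨i10, i00, i11⟩ := ih
    rw [pow_succ]
    refine ⟨?_, ?_, ?_⟩
    · rw [h48g_mul_10, i10, h10]; ring
    · rw [h48g_mul_00, i00, h10]; ring
    · rw [h48g_mul_11, i10, i11]; ring

/-- powers of a diagonal matrix are diagonal. -/
theorem h1n_pow_diag (g : GL (Fin 2) k) (h01 : g 0 1 = 0) (n : ℕ) :
    (g ^ n) 0 1 = 0 := by
  induction n with
  | zero => simp
  | succ n ih => rw [pow_succ, h48g_mul_01, ih, h01]; ring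

/-- conjugation of an upper triangular matrix by `u(z)`. -/
theorem h1n_conj_u (z : k) (g : GL (Fin 2) k) (h10 : g 1 0 = 0) :
    (upperRightHom z * g * (upperRightHom z)⁻¹) 1 0 = 0 ∧
    (upperRightHom z * g * (upperRightHom z)⁻¹) 0 0 = g 0 0 ∧
    (upperRightHom z * g * (upperRightHom z)⁻¹) 1 1 = g 1 1 ∧
    (upperRightHom z * g * (upperRightHom z)⁻¹) 0 1 = g 0 1 + z * g 1 1 - g 0 0 * z := by
  rw [← AddChar.map_neg_eq_inv]
  refine ⟨?_, ?_, ?_, ?_⟩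
  · simp only [h48g_mul_00, h48g_mul_01, h48g_mul_10, h48g_mul_11, h48g_u_00, h48g_u_01,
      h48g_u_10, h48g_u_11, h10]
    ring
  · simp only [h48g_mul_00, h48g_mul_01, h48g_mul_10, h48g_mul_11, h48g_u_00, h48g_u_01,
      h48g_u_10, h48g_u_11, h10]
    ring
  · simp only [h48g_mul_00, h48g_mul_01, h48g_mul_10, h48g_mul_11, h48g_u_00, h48g_u_01,
      h48g_u_10, h48g_u_11, h10]
    ring
  · simp only [h48g_mul_00, h48g_mul_01, h48g_mul_10, h48g_mul_11, h48g_u_00, h48g_u_01,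
      h48g_u_10, h48g_u_11, h10]
    ring

/-- conjugating twice. -/
theorem h1n_conj_conj (c d : GL (Fin 2) k) (G : Subgroup (GL (Fin 2) k)) :
    h48g_conj c (h48g_conj d G) = h48g_conj (c * d) G := by
  ext g
  rw [h48g_mem_conj, h48g_mem_conj, h48g_mem_conj]
  have : d⁻¹ * (c⁻¹ * g * c) * d = (c * d)⁻¹ * g * (c * d) := by group
  rw [this]

/-- an upper triangular element of `u(z) G u(z)⁻¹` comes from an upper triangular element of `G`
with the same diagonal entries. -/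
theorem h1n_conj_u_mem (z : k) (G : Subgroup (GL (Fin 2) k)) (g : GL (Fin 2) k)
    (hg : g ∈ h48g_conj (upperRightHom z) G) (h10 : g 1 0 = 0) :
    ∃ g₁ ∈ G, g₁ 1 0 = 0 ∧ g₁ 0 0 = g 0 0 ∧ g₁ 1 1 = g 1 1 := by
  rw [h48g_mem_conj] at hg
  have h := h1n_conj_u (-z) g h10
  have e : upperRightHom (-z) * g * (upperRightHom (-z))⁻¹ =
      (upperRightHom z)⁻¹ * g * upperRightHom z := by
    rw [AddChar.map_neg_eq_inv, inv_inv]
  rw [e] at h
  exact ⟨_, hg, h.1, h.2.1, h.2.2.1⟩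

/-- `u(x)` stays in `u(z) G u(z)⁻¹`. -/
theorem h1n_N1_conj_u (z : k) (G : Subgroup (GL (Fin 2) k)) (h : h48g_N1 G) :
    h48g_N1 (h48g_conj (upperRightHom z) G) := by
  obtain ⟨x, hx, hu⟩ := h
  refine ⟨x, hx, ?_⟩
  rw [h48g_mem_conj]
  have : (upperRightHom z)⁻¹ * upperRightHom x * upperRightHom z = upperRightHom x := by
    rw [← AddChar.map_neg_eq_inv, ← AddChar.map_add_eq_mul, ← AddChar.map_add_eq_mul]
    congr 1
    ring
  rw [this]
  exact hu

/-- in characteristic `p`, `a ^ p = 1` implies `a = 1`. -/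
theorem h1n_eq_one_of_pow (p : ℕ) [Fact p.Prime] [CharP k p] (a : k) (ha : a ^ p = 1) :
    a = 1 := by
  have h : (a - 1) ^ p = 0 := by
    rw [sub_pow_char, ha, one_pow, sub_self]
  have := pow_eq_zero_iff (Fact.out (p := p.Prime)).ne_zero |>.mp h
  linear_combination this

/-- **N1.** -/
theorem h1n_exists_N1 [Finite k] (p : ℕ) [Fact p.Prime] [CharP k p]
    (G : Subgroup (GL (Fin 2) k)) (hdvd : p ∣ Nat.card G) :
    ∃ c : GL (Fin 2) k, h48g_N1 (h48g_conj c G) := by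
  classical
  obtain ⟨⟨h, hG⟩, hh⟩ := exists_prime_orderOf_dvd_card' p hdvd
  have hord : orderOf h = p := by
    rw [← hh]
    exact (Subgroup.orderOf_mk h hG).symm
  have hp : h ^ p = 1 := by
    rw [← hord]
    exact pow_orderOf_eq_one h
  have hne : h ≠ 1 := by
    intro h1
    rw [h1, orderOf_one] at hord
    exact (Fact.out (p := p.Prime)).one_lt.ne hord
  -- a fixed vector, hence a fixed point on `ℙ¹(k)`
  obtain ⟨v, hv0, hv⟩ := h1f_exists_fixed p (Subgroup.zpowers h) (h1m_isPGroup_zpowers p h hp)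
  have hv1 : (h : Matrix (Fin 2) (Fin 2) k) *ᵥ v = (1 : k) • v := by
    rw [one_smul]
    exact hv h (Subgroup.mem_zpowers h)
  obtain ⟨x, hx⟩ := h48g_exists_fix_of_eigen h v hv0 1 hv1
  obtain ⟨c, hc⟩ := h48g_exists_smul_eq_infty x
  obtain ⟨h', hh'⟩ : ∃ h' : GL (Fin 2) k, h' = c * h * c⁻¹ := ⟨_, rfl⟩
  have hfix : h' • (∞ : OnePoint k) = ∞ := by
    rw [hh', ← hc, mul_smul, mul_smul, inv_smul_smul, hx]
  have h10 : h' 1 0 = 0 := OnePoint.smul_infty_eq_self_iff.mp hfix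
  have hp' : h' ^ p = 1 := by
    rw [hh', conj_pow, hp, mul_one, mul_inv_cancel]
  obtain ⟨_, e00, e11⟩ := h1n_pow_upper h' h10 p
  rw [hp'] at e00 e11
  have h00 : h' 0 0 = 1 := h1n_eq_one_of_pow p _ (by rw [← e00]; rfl)
  have h11 : h' 1 1 = 1 := h1n_eq_one_of_pow p _ (by rw [← e11]; rfl)
  have hu : h' = upperRightHom (h' 0 1) := by
    apply h48g_ext
    · rw [h00]; rfl
    · rfl
    · rw [h10]; rfl
    · rw [h11]; rfl
  have h01 : h' 0 1 ≠ 0 := by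
    intro h0
    rw [h0, AddChar.map_zero_eq_one] at hu
    apply hne
    have : h = c⁻¹ * h' * c := by rw [hh']; group
    rw [this, hu]
    group
  refine ⟨c, h' 0 1, h01, ?_⟩
  rw [← hu, h48g_mem_conj, hh']
  have : c⁻¹ * (c * h * c⁻¹) * c = h := by group
  rw [this]
  exact hG

/-- **N2 from a diagonal generator.** -/
theorem h1n_N2_of_gen [Finite k] (G : Subgroup (GL (Fin 2) k)) (b₀ : GL (Fin 2) k)
    (hb₀ : b₀ ∈ G) (b10 : b₀ 1 0 = 0) (b01 : b₀ 0 1 = 0)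
    (hgen : ∀ g ∈ G, g 1 0 = 0 → ∃ i : ℕ, g 0 0 * b₀ 1 1 ^ i = g 1 1 * b₀ 0 0 ^ i) :
    h48g_N2 G := by
  classical
  intro g hg h10
  obtain ⟨i, hi⟩ := hgen g hg h10
  obtain ⟨ha, hb⟩ := h48g_upper_diag_ne b₀ b10
  -- `B = b₀ ^ i`
  obtain ⟨B, hB⟩ : ∃ B : GL (Fin 2) k, B = b₀ ^ i := ⟨_, rfl⟩
  obtain ⟨B10, B00, B11⟩ := h1n_pow_upper b₀ b10 i
  have B01 := h1n_pow_diag b₀ b01 i
  rw [← hB] at B10 B00 B11 B01
  have hBG : B ∈ G := hB ▸ G.pow_mem hb₀ i
  have hai : b₀ 0 0 ^ i ≠ 0 := pow_ne_zero _ ha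
  have hbi : b₀ 1 1 ^ i ≠ 0 := pow_ne_zero _ hb
  -- `h = g B⁻¹`
  obtain ⟨I00, I01, I10, I11⟩ := h48g_inv_entries B
  rw [B10, B00, B11, B01] at I00 I01 I10 I11
  obtain ⟨h, hh⟩ : ∃ h : GL (Fin 2) k, h = g * B⁻¹ := ⟨_, rfl⟩
  have hhG : h ∈ G := hh ▸ G.mul_mem hg (G.inv_mem hBG)
  have H10 : h 1 0 = 0 := by
    rw [hh, h48g_mul_10, h10, I10]; simp
  have H00 : h 0 0 = g 0 0 / b₀ 0 0 ^ i := by
    rw [hh, h48g_mul_00, I00, I10]
    field_simp
    ring
  have H11 : h 1 1 = g 1 1 / b₀ 1 1 ^ i := by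
    rw [hh, h48g_mul_11, h10, I11]
    field_simp
    ring
  have Heq : h 0 0 = h 1 1 := by
    rw [H00, H11, div_eq_div_iff hai hbi]
    exact hi
  -- `z = h ^ #k` is the scalar `h 0 0`
  have : Fintype k := Fintype.ofFinite k
  obtain ⟨n, hn⟩ : ∃ n : ℕ, Fintype.card k = n + 1 :=
    ⟨Fintype.card k - 1, by have := Fintype.card_pos (α := k); omega⟩
  obtain ⟨Z10, Z00, Z11, Z01⟩ := h1m_pow_entries h H10 Heq n
  have hcast : ((n + 1 : ℕ) : k) = 0 := by
    rw [← hn]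
    exact Nat.cast_card_eq_zero k
  have hpow : h 0 0 ^ (n + 1) = h 0 0 := by
    rw [← hn]
    exact FiniteField.pow_card (h 0 0)
  rw [hpow] at Z00 Z11
  rw [hcast, zero_mul, zero_mul] at Z01
  have hzG : h ^ (n + 1) ∈ G := G.pow_mem hhG _
  refine ⟨h ^ (n + 1) * B, G.mul_mem hzG hBG, ?_, ?_, ?_, ?_⟩
  · rw [h48g_mul_10, Z10, Z11, B10]; ring
  · rw [h48g_mul_01, Z00, Z01, B01]; ring
  · rw [h48g_mul_00, Z00, Z01, B00, B10, H00]
    field_simp
    ring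
  · rw [h48g_mul_11, Z10, Z11, B11, Heq, H11]
    field_simp
    ring

/-- the ratios `g₀₀ / g₁₁` of the upper triangular elements of `G`. -/
def h1n_ratio (G : Subgroup (GL (Fin 2) k)) : Subgroup kˣ where
  carrier := {a | ∃ g ∈ G, g 1 0 = 0 ∧ g 0 0 = (a : k) * g 1 1}
  one_mem' := ⟨1, G.one_mem, by simp, by simp⟩
  mul_mem' := by
    rintro a b ⟨g, hg, g10, g00⟩ ⟨h, hh, h10, h00⟩
    refine ⟨g * h, G.mul_mem hg hh, ?_, ?_⟩
    · rw [h48g_mul_10, g10, h10]; ring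
    · rw [h48g_mul_00, h48g_mul_11, g10, h10, g00, h00, Units.val_mul]; ring
  inv_mem' := by
    rintro a ⟨g, hg, g10, g00⟩
    obtain ⟨I00, _, I10, I11⟩ := h48g_inv_entries g
    obtain ⟨_, hb⟩ := h48g_upper_diag_ne g g10
    refine ⟨g⁻¹, G.inv_mem hg, ?_, ?_⟩
    · rw [I10, g10]; simp
    · rw [I00, I11, g00, Units.val_inv_eq_inv_val]
      have ha : (a : k) ≠ 0 := a.ne_zero
      field_simp

/-- **a generator of the ratios.** -/
theorem h1n_exists_gen [Finite k] (G : Subgroup (GL (Fin 2) k)) :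
    ∃ b₀ ∈ G, b₀ 1 0 = 0 ∧
      ∀ g ∈ G, g 1 0 = 0 → ∃ i : ℕ, g 0 0 * b₀ 1 1 ^ i = g 1 1 * b₀ 0 0 ^ i := by
  classical
  obtain ⟨⟨γ, b₀, hb₀, b10, b00⟩, hγ⟩ := IsCyclic.exists_generator (α := h1n_ratio G)
  refine ⟨b₀, hb₀, b10, fun g hg g10 => ?_⟩
  obtain ⟨_, hg11⟩ := h48g_upper_diag_ne g g10
  have hmem : Units.mk0 (g 0 0 / g 1 1) (div_ne_zero (h48g_upper_diag_ne g g10).1 hg11) ∈
      h1n_ratio G := by
    refine ⟨g, hg, g10, ?_⟩
    rw [Units.val_mk0]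
    field_simp
  have h1 := hγ ⟨_, hmem⟩
  rw [← mem_powers_iff_mem_zpowers] at h1
  obtain ⟨i, hi⟩ := h1
  refine ⟨i, ?_⟩
  have h2 := congrArg (fun x : h1n_ratio G => ((x : kˣ) : k)) hi
  simp only [SubmonoidClass.coe_pow, Units.val_pow_eq_pow_val, Units.val_mk0] at h2
  rw [b00, mul_pow, h2]
  field_simp

/-- **N2 after conjugation by some `u(z)`.** -/
theorem h1n_exists_N2 [Finite k] (G : Subgroup (GL (Fin 2) k)) :
    ∃ z : k, h48g_N2 (h48g_conj (upperRightHom z) G) := by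
  classical
  obtain ⟨b₀, hb₀, b10, hgen⟩ := h1n_exists_gen G
  obtain ⟨ha, hb⟩ := h48g_upper_diag_ne b₀ b10
  by_cases hab : b₀ 0 0 = b₀ 1 1
  · -- all ratios are `1`
    refine ⟨0, h1n_N2_of_gen _ 1 (Subgroup.one_mem _) (by simp) (by simp) ?_⟩
    intro g hg g10
    obtain ⟨g₁, hg₁, g₁10, g₁00, g₁11⟩ := h1n_conj_u_mem 0 G g hg g10
    obtain ⟨i, hi⟩ := hgen g₁ hg₁ g₁10
    refine ⟨0, ?_⟩
    rw [pow_zero, pow_zero, mul_one, mul_one, ← g₁00, ← g₁11]
    rw [hab] at hi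
    exact mul_right_cancel₀ (pow_ne_zero i hb) hi
  · -- conjugate `b₀` to a diagonal matrix
    have hd : b₀ 0 0 - b₀ 1 1 ≠ 0 := sub_ne_zero.mpr hab
    obtain ⟨z, hz⟩ : ∃ z : k, z = b₀ 0 1 / (b₀ 0 0 - b₀ 1 1) := ⟨_, rfl⟩
    obtain ⟨c10, c00, c11, c01⟩ := h1n_conj_u z b₀ b10
    have hmem : upperRightHom z * b₀ * (upperRightHom z)⁻¹ ∈ h48g_conj (upperRightHom z) G := by
      rw [h48g_mem_conj]
      have : (upperRightHom z)⁻¹ * (upperRightHom z * b₀ * (upperRightHom z)⁻¹) *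
          upperRightHom z = b₀ := by group
      rw [this]
      exact hb₀
    refine ⟨z, h1n_N2_of_gen _ _ hmem c10 ?_ ?_⟩
    · rw [c01, hz]
      field_simp
      ring
    · intro g hg g10
      obtain ⟨g₁, hg₁, g₁10, g₁00, g₁11⟩ := h1n_conj_u_mem z G g hg g10
      obtain ⟨i, hi⟩ := hgen g₁ hg₁ g₁10
      refine ⟨i, ?_⟩
      rw [c00, c11, ← g₁00, ← g₁11]
      exact hi

/-- **NORMALIZE.** -/
theorem h1n_normalize : H48GNormalize := by
  intro k _ _ p _ _ G hdvd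
  obtain ⟨c₁, hN1⟩ := h1n_exists_N1 p G hdvd
  obtain ⟨z, hN2⟩ := h1n_exists_N2 (h48g_conj c₁ G)
  refine ⟨upperRightHom z * c₁, ?_, ?_⟩
  · rw [← h1n_conj_conj]
    exact h1n_N1_conj_u z _ hN1
  · rw [← h1n_conj_conj]
    exact hN2

end Fermat.Agent.S56G
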