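import Fermat.Agent.S56G.H48Iface

/-!
# S56, TW-CHEB group theory, leaf CHEB-G-COUNT (helper10): the fixed-point double count

`h10k_count : H48GCount` (exact frozen Prop of `S56G/H48Iface.lean`).
-/

set_option autoImplicit false
set_option linter.style.haveILetI false
set_option linter.unusedSectionVars false

open scoped Classical
open MulAction

noncomputable section

namespace Fermat.Agent.S56G

section Basic

/-- `Nat.card` of a subtype of a fintype, as the cardinality of a filter. -/
theorem h10k_card_subtype {α : Type} [Fintype α] (p : α → Prop) :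
    Nat.card {a : α // p a} = (Finset.univ.filter p).card := by
  rw [Nat.card_eq_fintype_card, Fintype.card_subtype]

variable {G : Type} [Group G] [Fintype G] {X : Type} [Fintype X] [MulAction G X]

/-- the number of fixed points of `g`. -/
def h10k_fix (g : G) : ℕ := (Finset.univ.filter (fun x : X => g • x = x)).card

/-- the order of the stabiliser of `x`. -/
def h10k_stab (x : X) : ℕ := (Finset.univ.filter (fun g : G => g • x = x)).card

/-- the cardinality of the orbit of `x`. -/
def h10k_orb (x : X) : ℕ := (Finset.univ.filter (fun y : X => y ∈ orbit G x)).card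

theorem h10k_fix_eq (g : G) : h10k_fix (X := X) g = Nat.card {x : X // g • x = x} :=
  (h10k_card_subtype _).symm

theorem h10k_stab_eq (x : X) : h10k_stab (G := G) x = Nat.card (stabilizer G x) := by
  have h : Nat.card (stabilizer G x) = Nat.card {g : G // g ∈ stabilizer G x} := rfl
  rw [h, h10k_card_subtype, h10k_stab]
  congr 1

theorem h10k_orb_eq (x : X) : h10k_orb (G := G) x = Nat.card (orbit G x) := by
  have h : Nat.card (orbit G x) = Nat.card {y : X // y ∈ orbit G x} := rfl
  rw [h, h10k_card_subtype, h10k_orb]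

/-- orbit-stabiliser. -/
theorem h10k_orb_mul_stab (x : X) :
    h10k_orb (G := G) x * h10k_stab (G := G) x = Fintype.card G := by
  rw [h10k_orb_eq, h10k_stab_eq, Nat.card_eq_fintype_card, Nat.card_eq_fintype_card]
  exact MulAction.card_orbit_mul_card_stabilizer_eq_card_group G x

theorem h10k_orb_pos (x : X) : 0 < h10k_orb (G := G) x := by
  rw [h10k_orb, Finset.card_pos]
  exact ⟨x, Finset.mem_filter.mpr ⟨Finset.mem_univ _, mem_orbit_self x⟩⟩

/-- points of the same orbit have stabilisers of the same order. -/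
theorem h10k_stab_congr {x y : X} (h : y ∈ orbit G x) :
    h10k_stab (G := G) y = h10k_stab (G := G) x := by
  have h1 := h10k_orb_mul_stab (G := G) x
  have h2 := h10k_orb_mul_stab (G := G) y
  have h3 : h10k_orb (G := G) y = h10k_orb (G := G) x := by
    rw [h10k_orb, h10k_orb, orbit_eq_iff.mpr h]
  rw [h3, ← h1] at h2
  exact Nat.eq_of_mul_eq_mul_left (h10k_orb_pos x) h2

/-- double counting of the pairs `(g, x)`, `P g`, `g x = x`. -/
theorem h10k_double (P : G → Prop) [DecidablePred P]
    [∀ x : X, DecidablePred (fun g : G => P g ∧ g • x = x)] :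
    ∑ g ∈ Finset.univ.filter P, h10k_fix (X := X) g =
      ∑ x : X, (Finset.univ.filter (fun g : G => P g ∧ g • x = x)).card := by
  simp only [h10k_fix, Finset.card_filter]
  rw [Finset.sum_filter, Finset.sum_comm]
  refine Finset.sum_congr rfl fun g _ => ?_
  by_cases h : P g
  · simp [h]
  · simp [h]

/-- conjugate elements have the same number of fixed points. -/
theorem h10k_fix_conj (a g : G) : h10k_fix (X := X) (a * g * a⁻¹) = h10k_fix (X := X) g := by
  unfold h10k_fix
  refine Finset.card_bij' (fun x _ => a⁻¹ • x) (fun x _ => a • x) ?_ ?_ ?_ ?_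
  · intro x hx
    rw [Finset.mem_filter] at hx ⊢
    refine ⟨Finset.mem_univ _, ?_⟩
    have h := hx.2
    rw [mul_smul, mul_smul] at h
    have h2 := congrArg (fun y => a⁻¹ • y) h
    simpa using h2
  · intro x hx
    rw [Finset.mem_filter] at hx ⊢
    refine ⟨Finset.mem_univ _, ?_⟩
    rw [mul_smul, mul_smul, inv_smul_smul, hx.2]
  · intro x _
    exact smul_inv_smul a x
  · intro x _
    exact inv_smul_smul a x

/-- splitting the stabiliser along a subgroup acting trivially. -/
theorem h10k_stab_split (Z : Subgroup G) (hZ : ∀ g ∈ Z, ∀ x : X, g • x = x) (x : X) :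
    (Finset.univ.filter (fun g : G => g ∉ Z ∧ g • x = x)).card +
      (Finset.univ.filter (fun g : G => g ∈ Z)).card = h10k_stab (G := G) x := by
  unfold h10k_stab
  rw [← Finset.card_filter_add_card_filter_not (s := Finset.univ.filter (fun g : G => g • x = x))
    (fun g : G => g ∈ Z), add_comm]
  congr 1
  · congr 1
    ext g
    simp only [Finset.mem_filter, Finset.mem_univ, true_and]
    exact ⟨fun h => ⟨hZ g h x, h⟩, fun h => h.2⟩
  · congr 1
    ext g
    simp only [Finset.mem_filter, Finset.mem_univ, true_and]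
    exact ⟨fun h => ⟨h.2, h.1⟩, fun h => ⟨h.2, h.1⟩⟩

/-- `#Z` divides the order of every stabiliser. -/
theorem h10k_dvd_stab (Z : Subgroup G) (hZ : ∀ g ∈ Z, ∀ x : X, g • x = x) (x : X) :
    (Finset.univ.filter (fun g : G => g ∈ Z)).card ∣ h10k_stab (G := G) x := by
  have h1 : (Finset.univ.filter (fun g : G => g ∈ Z)).card = Nat.card Z := by
    have h : Nat.card Z = Nat.card {g : G // g ∈ Z} := rfl
    rw [h, h10k_card_subtype]
  rw [h1, h10k_stab_eq]
  exact Subgroup.card_dvd_of_le (fun g hg => mem_stabilizer_iff.mpr (hZ g hg x))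

/-- the conjugation bijection between the "parabolic" elements of two stabilisers. -/
theorem h10k_uni_conj (Z : Subgroup G) [Z.Normal] (a : G) (x : X) :
    (Finset.univ.filter (fun g : G =>
      (g ∉ Z ∧ h10k_fix (X := X) g = 1) ∧ g • (a • x) = a • x)).card =
    (Finset.univ.filter (fun g : G =>
      (g ∉ Z ∧ h10k_fix (X := X) g = 1) ∧ g • x = x)).card := by
  refine Finset.card_bij' (fun g _ => a⁻¹ * g * a) (fun g _ => a * g * a⁻¹) ?_ ?_ ?_ ?_
  · intro g hg
    rw [Finset.mem_filter] at hg ⊢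
    obtain ⟨-, ⟨hgZ, hg1⟩, hgx⟩ := hg
    refine ⟨Finset.mem_univ _, ⟨fun hc => hgZ ?_, ?_⟩, ?_⟩
    · have := ‹Z.Normal›.conj_mem _ hc a
      simpa [mul_assoc] using this
    · have := h10k_fix_conj (X := X) a⁻¹ g
      rw [inv_inv] at this
      rw [this, hg1]
    · rw [mul_smul, mul_smul, hgx, inv_smul_smul]
  · intro g hg
    rw [Finset.mem_filter] at hg ⊢
    obtain ⟨-, ⟨hgZ, hg1⟩, hgx⟩ := hg
    refine ⟨Finset.mem_univ _, ⟨fun hc => hgZ ?_, ?_⟩, ?_⟩
    · have := ‹Z.Normal›.conj_mem _ hc a⁻¹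
      simpa [mul_assoc] using this
    · rw [h10k_fix_conj, hg1]
    · rw [mul_smul, mul_smul, inv_smul_smul, hgx]
  · intro g _
    group
  · intro g _
    group

end Basic

section Core

variable {G : Type} [Group G] [Fintype G] {X : Type} [Fintype X] [MulAction G X]

/-- the number of non-central elements fixing `x`. -/
def h10k_S (Z : Subgroup G) (x : X) : ℕ :=
  (Finset.univ.filter (fun g : G => g ∉ Z ∧ g • x = x)).card

/-- the number of non-central elements with exactly one fixed point fixing `x`. -/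
def h10k_U (Z : Subgroup G) (x : X) : ℕ :=
  (Finset.univ.filter (fun g : G => (g ∉ Z ∧ h10k_fix (X := X) g = 1) ∧ g • x = x)).card

/-- the sum of a function which is constant on an orbit. -/
theorem h10k_sum_orbit (f : X → ℕ) (y : X) (hf : ∀ x ∈ orbit G y, f x = f y) :
    ∑ x ∈ Finset.univ.filter (fun x : X => x ∈ orbit G y), f x = h10k_orb (G := G) y * f y := by
  rw [Finset.sum_congr rfl (fun x hx => hf x (Finset.mem_filter.mp hx).2), Finset.sum_const,
    smul_eq_mul]
  rfl

/-- **the global count**: `T + n z q + 2 z = n z q h + 2 n z` where `T` is the number of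
pairs `(g, x)`, `g ∉ Z`, `x ∉ Ω`, `g x = x`. -/
theorem h10k_global (Z : Subgroup G) [Z.Normal] (x₀ : X) (z q h : ℕ)
    (hZ : ∀ g ∈ Z, ∀ x : X, g • x = x)
    (h12 : ∀ g : G, g ∉ Z → h10k_fix (X := X) g = 1 ∨ h10k_fix (X := X) g = 2)
    (h1Ω : ∀ g : G, g ∉ Z → h10k_fix (X := X) g = 1 →
      ∀ x : X, g • x = x → x ∈ orbit G x₀)
    (hz : (Finset.univ.filter (fun g : G => g ∈ Z)).card = z)
    (hst : h10k_stab (G := G) x₀ = z * q * h)
    (hU : h10k_U Z x₀ + z = z * q) :
    (∑ x ∈ Finset.univ.filter (fun x : X => ¬ x ∈ orbit G x₀), h10k_S Z x) +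
        h10k_orb (G := G) x₀ * z * q + 2 * z =
      h10k_orb (G := G) x₀ * z * q * h + 2 * (h10k_orb (G := G) x₀ * z) := by
  set n := h10k_orb (G := G) x₀ with hn
  set T := ∑ x ∈ Finset.univ.filter (fun x : X => ¬ x ∈ orbit G x₀), h10k_S Z x with hT
  -- (F1) double count over the non-central elements
  have F1 : ∑ g ∈ Finset.univ.filter (fun g : G => g ∉ Z), h10k_fix (X := X) g =
      ∑ x : X, h10k_S Z x := h10k_double (X := X) (fun g : G => g ∉ Z)
  -- (F2) double count over the parabolic elements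
  have F2 : ∑ g ∈ Finset.univ.filter (fun g : G => g ∉ Z ∧ h10k_fix (X := X) g = 1),
      h10k_fix (X := X) g = ∑ x : X, h10k_U Z x :=
    h10k_double (X := X) (fun g : G => g ∉ Z ∧ h10k_fix (X := X) g = 1)
  have F2' : ∑ g ∈ Finset.univ.filter (fun g : G => g ∉ Z ∧ h10k_fix (X := X) g = 1),
      h10k_fix (X := X) g =
      (Finset.univ.filter (fun g : G => g ∉ Z ∧ h10k_fix (X := X) g = 1)).card := by
    rw [Finset.card_eq_sum_ones]
    exact Finset.sum_congr rfl fun g hg => (Finset.mem_filter.mp hg).2.2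
  -- (F3) every non-central element has one or two fixed points
  have F3 : ∑ g ∈ Finset.univ.filter (fun g : G => g ∉ Z), h10k_fix (X := X) g +
      (Finset.univ.filter (fun g : G => g ∉ Z ∧ h10k_fix (X := X) g = 1)).card =
      2 * (Finset.univ.filter (fun g : G => g ∉ Z)).card := by
    have e : (Finset.univ.filter (fun g : G => g ∉ Z ∧ h10k_fix (X := X) g = 1)).card =
        ∑ g ∈ Finset.univ.filter (fun g : G => g ∉ Z),
          if h10k_fix (X := X) g = 1 then 1 else 0 := by
      rw [← Finset.card_filter, Finset.filter_filter]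
    rw [e, ← Finset.sum_add_distrib, mul_comm, ← smul_eq_mul, ← Finset.sum_const]
    refine Finset.sum_congr rfl fun g hg => ?_
    rcases h12 g (Finset.mem_filter.mp hg).2 with h1 | h2
    · rw [h1]
      simp
    · rw [h2]
      simp
  -- (F4) the complement of `Z`
  have F4 : (Finset.univ.filter (fun g : G => g ∉ Z)).card + z = Fintype.card G := by
    rw [← hz, add_comm, ← Finset.card_univ]
    exact Finset.card_filter_add_card_filter_not (s := (Finset.univ : Finset G))
      (fun g : G => g ∈ Z)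
  -- (F5), (F7) stabilisers
  have F5 : ∀ x : X, h10k_S Z x + z = h10k_stab (G := G) x := fun x => by
    rw [← hz]
    exact h10k_stab_split Z hZ x
  have F7 : ∀ x ∈ orbit G x₀, h10k_S Z x + z = z * q * h := fun x hx => by
    rw [F5, h10k_stab_congr hx, hst]
  have F6 : n * (z * q * h) = Fintype.card G := by
    rw [← hst]
    exact h10k_orb_mul_stab x₀
  -- (F8), (F9) the parabolic elements
  have F8 : ∀ x : X, ¬ x ∈ orbit G x₀ → h10k_U Z x = 0 := fun x hx => by
    unfold h10k_U
    rw [Finset.card_eq_zero, Finset.filter_eq_empty_iff]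
    rintro g - ⟨⟨hgZ, hg1⟩, hgx⟩
    exact hx (h1Ω g hgZ hg1 x hgx)
  have F9 : ∀ x ∈ orbit G x₀, h10k_U Z x = h10k_U Z x₀ := fun x hx => by
    obtain ⟨a, rfl⟩ := hx
    exact h10k_uni_conj Z a x₀
  -- splitting the sums along the orbit
  have sU : ∑ x : X, h10k_U Z x = n * h10k_U Z x₀ := by
    rw [← Finset.sum_filter_add_sum_filter_not Finset.univ (fun x : X => x ∈ orbit G x₀),
      Finset.sum_eq_zero (s := Finset.univ.filter (fun x : X => ¬ x ∈ orbit G x₀))
        (fun x hx => F8 x (Finset.mem_filter.mp hx).2), add_zero]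
    exact h10k_sum_orbit (h10k_U Z) x₀ F9
  have sS : ∑ x : X, h10k_S Z x + n * z = n * (z * q * h) + T := by
    rw [← Finset.sum_filter_add_sum_filter_not Finset.univ (fun x : X => x ∈ orbit G x₀)]
    have e : ∑ x ∈ Finset.univ.filter (fun x : X => x ∈ orbit G x₀), h10k_S Z x =
        n * h10k_S Z x₀ := by
      refine h10k_sum_orbit (h10k_S Z) x₀ fun x hx => ?_
      have h1 := F7 x hx
      have h2 := F7 x₀ (mem_orbit_self x₀)
      omega
    rw [e]
    have h2 := F7 x₀ (mem_orbit_self x₀)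
    rw [← h2]
    ring
  -- assembling
  have hUcard : (Finset.univ.filter (fun g : G => g ∉ Z ∧ h10k_fix (X := X) g = 1)).card =
      n * h10k_U Z x₀ := by rw [← F2', F2, sU]
  have e1 : n * h10k_U Z x₀ + n * z = n * (z * q) := by rw [← hU]; ring
  rw [F1, hUcard] at F3
  have e2 : 2 * ((Finset.univ.filter (fun g : G => g ∉ Z)).card + z) =
      2 * (n * (z * q * h)) := by rw [F4, F6]
  have a1 : n * z * q = n * (z * q) := by ring
  have a2 : n * z * q * h = n * (z * q * h) := by ring
  rw [a2, a1]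
  omega

/-- **the count, Fintype form.** -/
theorem h10k_core (Z : Subgroup G) [Z.Normal] (x₀ : X) (z q h : ℕ)
    (hZ : ∀ g ∈ Z, ∀ x : X, g • x = x)
    (h12 : ∀ g : G, g ∉ Z → h10k_fix (X := X) g = 1 ∨ h10k_fix (X := X) g = 2)
    (h1Ω : ∀ g : G, g ∉ Z → h10k_fix (X := X) g = 1 →
      ∀ x : X, g • x = x → x ∈ orbit G x₀)
    (hz : (Finset.univ.filter (fun g : G => g ∈ Z)).card = z)
    (hst : h10k_stab (G := G) x₀ = z * q * h)
    (hU : h10k_U Z x₀ + z = z * q) (hq : 2 ≤ q) (hn2 : 2 ≤ h10k_orb (G := G) x₀) :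
    ∃ s : ℕ, 2 ≤ s ∧
      s * (h10k_orb (G := G) x₀ * q + 2) =
        h10k_orb (G := G) x₀ * q * h + 2 * h10k_orb (G := G) x₀ * s ∧
      (∃ y : X, y ∉ orbit G x₀ ∧ h10k_stab (G := G) y = z * s) ∧
      ∀ y : X, y ∉ orbit G x₀ → (∃ g : G, g ∉ Z ∧ g • y = y) →
        h10k_stab (G := G) y = z * s := by
  have E5 := h10k_global Z x₀ z q h hZ h12 h1Ω hz hst hU
  set n := h10k_orb (G := G) x₀ with hn
  set T := ∑ x ∈ Finset.univ.filter (fun x : X => ¬ x ∈ orbit G x₀), h10k_S Z x with hT
  have hz1 : 1 ≤ z := by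
    rw [← hz]
    exact Finset.card_pos.mpr ⟨1, Finset.mem_filter.mpr ⟨Finset.mem_univ _, Z.one_mem⟩⟩
  have hh1 : 1 ≤ h := by
    have h1 : 0 < h10k_stab (G := G) x₀ :=
      Finset.card_pos.mpr ⟨1, Finset.mem_filter.mpr ⟨Finset.mem_univ _, one_smul G x₀⟩⟩
    rw [hst] at h1
    rcases Nat.eq_zero_or_pos h with h0 | h0
    · rw [h0, mul_zero] at h1
      exact absurd h1 (lt_irrefl 0)
    · exact h0
  have F5 : ∀ x : X, h10k_S Z x + z = h10k_stab (G := G) x := fun x => by
    rw [← hz]
    exact h10k_stab_split Z hZ x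
  have hN : n * (z * q * h) = Fintype.card G := by
    rw [← hst]
    exact h10k_orb_mul_stab x₀
  -- facts on an orbit outside `Ω`
  have horb : ∀ y : X, ¬ y ∈ orbit G x₀ → 0 < h10k_S Z y →
      (∀ x ∈ orbit G y, ¬ x ∈ orbit G x₀) ∧ (∀ x ∈ orbit G y, h10k_S Z x = h10k_S Z y) ∧
      h10k_orb (G := G) y * (h10k_S Z y + z) = n * (z * q * h) ∧ z ≤ h10k_S Z y := by
    intro y hy hSy
    refine ⟨fun x hx hx0 => hy ?_, fun x hx => ?_, ?_, ?_⟩
    · rw [← orbit_eq_iff.mpr hx0, orbit_eq_iff.mpr hx]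
      exact mem_orbit_self y
    · have h1 := F5 x
      have h2 := F5 y
      rw [h10k_stab_congr hx] at h1
      omega
    · rw [F5, hN]
      exact h10k_orb_mul_stab y
    · have hd := h10k_dvd_stab Z hZ y
      rw [hz, ← F5] at hd
      obtain ⟨c, hc⟩ := hd
      rcases Nat.lt_or_ge c 2 with hc2 | hc2
      · interval_cases c
        · omega
        · omega
      · nlinarith
  have hnzq : 2 * (n * z) ≤ n * z * q := by
    rw [mul_comm 2]
    exact Nat.mul_le_mul_left _ hq
  have hnzqh : n * z * q ≤ n * z * q * h := Nat.le_mul_of_pos_right _ hh1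
  have hnz : 2 * z ≤ n * z := Nat.mul_le_mul_right _ hn2
  have a2 : n * z * q * h = n * (z * q * h) := by ring
  -- the sum over an orbit
  have hsumO : ∀ y : X, ¬ y ∈ orbit G x₀ → 0 < h10k_S Z y →
      ∑ x ∈ Finset.univ.filter (fun x : X => x ∈ orbit G y), h10k_S Z x =
        h10k_orb (G := G) y * h10k_S Z y := fun y hy hSy =>
    h10k_sum_orbit (h10k_S Z) y (horb y hy hSy).2.1
  -- uniqueness of the bad orbit
  have huniq : ∀ y y' : X, ¬ y ∈ orbit G x₀ → 0 < h10k_S Z y → ¬ y' ∈ orbit G x₀ →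
      0 < h10k_S Z y' → y' ∈ orbit G y := by
    intro y y' hy hSy hy' hSy'
    by_contra hne
    obtain ⟨ho1, -, ho3, ho4⟩ := horb y hy hSy
    obtain ⟨ho1', -, ho3', ho4'⟩ := horb y' hy' hSy'
    have hdisj : Disjoint (Finset.univ.filter (fun x : X => x ∈ orbit G y))
        (Finset.univ.filter (fun x : X => x ∈ orbit G y')) := by
      rw [Finset.disjoint_left]
      intro x hx hx'
      have h1 := (Finset.mem_filter.mp hx).2
      have h2 := (Finset.mem_filter.mp hx').2
      apply hne
      rw [← orbit_eq_iff.mpr h1, orbit_eq_iff.mpr h2]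
      exact mem_orbit_self y'
    have hsub : (Finset.univ.filter (fun x : X => x ∈ orbit G y)) ∪
        (Finset.univ.filter (fun x : X => x ∈ orbit G y')) ⊆
        Finset.univ.filter (fun x : X => ¬ x ∈ orbit G x₀) := by
      intro x hx
      rcases Finset.mem_union.mp hx with h1 | h1
      · exact Finset.mem_filter.mpr ⟨Finset.mem_univ _, ho1 x (Finset.mem_filter.mp h1).2⟩
      · exact Finset.mem_filter.mpr ⟨Finset.mem_univ _, ho1' x (Finset.mem_filter.mp h1).2⟩
    have hle := Finset.sum_le_sum_of_subset (f := h10k_S Z) hsub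
    rw [Finset.sum_union hdisj, hsumO y hy hSy, hsumO y' hy' hSy', ← hT] at hle
    have b1 : h10k_orb (G := G) y * z ≤ h10k_orb (G := G) y * h10k_S Z y :=
      Nat.mul_le_mul_left _ ho4
    have b2 : h10k_orb (G := G) y' * z ≤ h10k_orb (G := G) y' * h10k_S Z y' :=
      Nat.mul_le_mul_left _ ho4'
    rw [mul_add] at ho3 ho3'
    rw [a2] at E5 hnzqh
    omega
  -- existence of a bad point
  have hex : ∃ y : X, ¬ y ∈ orbit G x₀ ∧ 0 < h10k_S Z y := by
    by_contra hno
    have hT0 : T = 0 := by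
      rw [hT]
      refine Finset.sum_eq_zero fun x hx => ?_
      by_contra hx0
      exact hno ⟨x, (Finset.mem_filter.mp hx).2, Nat.pos_of_ne_zero hx0⟩
    rw [hT0] at E5
    omega
  obtain ⟨y, hy, hSy⟩ := hex
  obtain ⟨ho1, ho2, ho3, ho4⟩ := horb y hy hSy
  -- `T` is the sum over the orbit of `y`
  have hTy : T = h10k_orb (G := G) y * h10k_S Z y := by
    rw [← hsumO y hy hSy, hT]
    symm
    refine Finset.sum_subset (fun x hx => Finset.mem_filter.mpr
      ⟨Finset.mem_univ _, ho1 x (Finset.mem_filter.mp hx).2⟩) fun x hx hxO => ?_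
    by_contra hx0
    exact hxO (Finset.mem_filter.mpr ⟨Finset.mem_univ _,
      huniq y x hy hSy (Finset.mem_filter.mp hx).2 (Nat.pos_of_ne_zero hx0)⟩)
  -- the order of the stabiliser
  obtain ⟨s, hs⟩ : z ∣ h10k_S Z y + z := by
    have hd := h10k_dvd_stab Z hZ y
    rwa [hz, ← F5] at hd
  have hs2 : 2 ≤ s := by
    rcases Nat.lt_or_ge s 2 with hc | hc
    · interval_cases s
      · omega
      · omega
    · exact hc
  set oc := h10k_orb (G := G) y with hoc
  -- `oc + 2 n = n q + 2`
  have e1 : z * (oc + 2 * n) = z * (n * q + 2) := by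
    have c1 : oc * h10k_S Z y + oc * z = n * (z * q * h) := by rw [← mul_add]; exact ho3
    rw [hTy, a2] at E5
    have c2 : z * (oc + 2 * n) = oc * z + 2 * (n * z) := by ring
    have c3 : z * (n * q + 2) = n * z * q + 2 * z := by ring
    rw [c2, c3]
    omega
  have e2 : oc + 2 * n = n * q + 2 := Nat.eq_of_mul_eq_mul_left hz1 e1
  -- `s oc = n q h`
  have e3 : z * (s * oc) = z * (n * q * h) := by
    have c1 : oc * (z * s) = n * (z * q * h) := by rw [← hs]; exact ho3
    have c2 : z * (s * oc) = oc * (z * s) := by ring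
    have c3 : z * (n * q * h) = n * (z * q * h) := by ring
    rw [c2, c3, c1]
  have e4 : s * oc = n * q * h := Nat.eq_of_mul_eq_mul_left hz1 e3
  have hsty : h10k_stab (G := G) y = z * s := by rw [← F5, hs]
  refine ⟨s, hs2, ?_, ⟨y, hy, hsty⟩, fun y' hy' hbad => ?_⟩
  · rw [← e2, mul_add, e4]
    ring
  · obtain ⟨g, hgZ, hgy⟩ := hbad
    have hSy' : 0 < h10k_S Z y' :=
      Finset.card_pos.mpr ⟨g, Finset.mem_filter.mpr ⟨Finset.mem_univ _, hgZ, hgy⟩⟩
    rw [h10k_stab_congr (huniq y y' hy hSy hy' hSy'), hsty]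

end Core

section Final

/-- **CHEB-G-COUNT**: the fixed-point double count. -/
theorem h10k_count : H48GCount := by
  intro G _ _ X _ _ Z _ x₀ z q h hZ h12 h1Ω hz hst hU hq hn
  haveI : Fintype G := Fintype.ofFinite G
  haveI : Fintype X := Fintype.ofFinite X
  simp only [← h10k_fix_eq] at h12 h1Ω hU
  rw [← h10k_stab_eq] at hst
  rw [← h10k_orb_eq] at hn ⊢
  have hz' : (Finset.univ.filter (fun g : G => g ∈ Z)).card = z := by
    rw [← hz]
    have h : Nat.card Z = Nat.card {g : G // g ∈ Z} := rfl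
    rw [h, h10k_card_subtype]
  have hU' : h10k_U Z x₀ + z = z * q := by
    rw [← hU, h10k_card_subtype]
    congr 2
    unfold h10k_U
    congr 1
    ext g
    simp only [Finset.mem_filter, Finset.mem_univ, true_and, mem_stabilizer_iff]
    tauto
  obtain ⟨s, hs2, hs, ⟨y, hy, hys⟩, hall⟩ := h10k_core Z x₀ z q h hZ h12 h1Ω hz' hst hU' hq hn
  refine ⟨s, hs2, hs, ⟨y, hy, ?_⟩, fun y' hy' hbad => ?_⟩
  · rw [← h10k_stab_eq, hys]
  · rw [← h10k_stab_eq]
    exact hall y' hy' hbad

end Final

end Fermat.Agent.S56G
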