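import Fermat.Agent.S56G.H48Iface2

/-!
# S56, TW-CHEB group theory: CARD (helper39)

For a subgroup `G ≤ GL₂(k)` in normal form `N2` (the diagonal part of every upper triangular
element of `G` lies in `G`):

* `#B = #V · #T_d`, via the bijection `V × T_d → B`, `(x, t) ↦ u(x) t`;
* the number of non-scalar elements of `B` with equal diagonal entries is `#Z (#V - 1)`, via the
  bijection `Z × V → {g ∈ B : g₀₀ = g₁₁}`, `(z, x) ↦ u(x) z`.

Main result: `h39c_card : H48GCard`.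
-/

set_option autoImplicit false

open Matrix Matrix.GeneralLinearGroup

noncomputable section

namespace Fermat.Agent.S56G

variable {k : Type} [Field k]

/-- Entries of `u(x) * t`. -/
theorem h39c_ut_entries (x : k) (t : GL (Fin 2) k) :
    (upperRightHom x * t) 0 0 = t 0 0 + x * t 1 0 ∧
    (upperRightHom x * t) 0 1 = t 0 1 + x * t 1 1 ∧
    (upperRightHom x * t) 1 0 = t 1 0 ∧
    (upperRightHom x * t) 1 1 = t 1 1 := by
  refine ⟨?_, ?_, ?_, ?_⟩
  · rw [h48g_mul_00]; simp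
  · rw [h48g_mul_01]; simp
  · rw [h48g_mul_10]; simp
  · rw [h48g_mul_11]; simp

/-- `u(x) * t` determines `x` and `t` when `t` is diagonal. -/
theorem h39c_ut_inj {x y : k} {s t : GL (Fin 2) k} (hs : s 1 0 = 0 ∧ s 0 1 = 0)
    (ht : t 1 0 = 0 ∧ t 0 1 = 0) (h : upperRightHom x * s = upperRightHom y * t) :
    x = y ∧ s = t := by
  obtain ⟨a00, a01, a10, a11⟩ := h39c_ut_entries x s
  obtain ⟨b00, b01, b10, b11⟩ := h39c_ut_entries y t
  rw [h] at a00 a01 a10 a11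
  rw [b00, hs.1, ht.1, mul_zero, mul_zero, add_zero, add_zero] at a00
  rw [b01, hs.2, ht.2, zero_add, zero_add] at a01
  rw [b11] at a11
  have hne : s 1 1 ≠ 0 := (h48g_upper_diag_ne s hs.1).2
  have hst : s = t := h48g_ext a00.symm (by rw [hs.2, ht.2]) (by rw [hs.1, ht.1]) a11.symm
  refine ⟨?_, hst⟩
  rw [a11] at a01
  exact (mul_right_cancel₀ hne a01).symm

/-- Under `N2`, an upper triangular element of `G` is `u(x) * t` with `u(x), t ∈ G`, `t`
diagonal with the same diagonal entries. -/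
theorem h39c_decomp {G : Subgroup (GL (Fin 2) k)} (hN : h48g_N2 G) {g : GL (Fin 2) k}
    (hg : g ∈ G) (h10 : g 1 0 = 0) :
    ∃ x : k, upperRightHom x ∈ G ∧ ∃ t ∈ G, t 1 0 = 0 ∧ t 0 1 = 0 ∧ t 0 0 = g 0 0 ∧
      t 1 1 = g 1 1 ∧ g = upperRightHom x * t := by
  obtain ⟨t, htG, t10, t01, t00, t11⟩ := hN g hg h10
  have hne : g 1 1 ≠ 0 := (h48g_upper_diag_ne g h10).2
  obtain ⟨e00, e01, e10, e11⟩ := h39c_ut_entries (g 0 1 / g 1 1) t
  have hgt : g = upperRightHom (g 0 1 / g 1 1) * t := by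
    apply h48g_ext
    · rw [e00, t10, mul_zero, add_zero, t00]
    · rw [e01, t01, zero_add, t11, div_mul_cancel₀ _ hne]
    · rw [e10, t10, h10]
    · rw [e11, t11]
  refine ⟨g 0 1 / g 1 1, ?_, t, htG, t10, t01, t00, t11, hgt⟩
  have : upperRightHom (g 0 1 / g 1 1) = g * t⁻¹ := by
    rw [eq_mul_inv_iff_mul_eq]; exact hgt.symm
  rw [this]
  exact G.mul_mem hg (G.inv_mem htG)

/-- The map `V × T_d → B`, `(x, t) ↦ u(x) t`. -/
def h39c_phi (G : Subgroup (GL (Fin 2) k)) : h48g_V G × h48g_Td G → h48g_B G := fun p =>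
  ⟨⟨upperRightHom (p.1 : k) * ((p.2 : G) : GL (Fin 2) k), G.mul_mem p.1.2 (p.2 : G).2⟩, by
    show (upperRightHom (p.1 : k) * ((p.2 : G) : GL (Fin 2) k)) 1 0 = 0
    rw [(h39c_ut_entries _ _).2.2.1]
    exact p.2.2.1⟩

theorem h39c_phi_coe (G : Subgroup (GL (Fin 2) k)) (p : h48g_V G × h48g_Td G) :
    (((h39c_phi G p : h48g_B G) : G) : GL (Fin 2) k) =
      upperRightHom (p.1 : k) * ((p.2 : G) : GL (Fin 2) k) := rfl

theorem h39c_phi_injective (G : Subgroup (GL (Fin 2) k)) : Function.Injective (h39c_phi G) := by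
  rintro ⟨x, s⟩ ⟨y, t⟩ h
  have h' : upperRightHom (x : k) * ((s : G) : GL (Fin 2) k) =
      upperRightHom (y : k) * ((t : G) : GL (Fin 2) k) := by
    have := congrArg (fun b : h48g_B G => ((b : G) : GL (Fin 2) k)) h
    simpa only [h39c_phi_coe] using this
  obtain ⟨hxy, hst⟩ := h39c_ut_inj s.2 t.2 h'
  have h1 : x = y := Subtype.ext hxy
  have h2 : s = t := Subtype.ext (Subtype.ext hst)
  rw [h1, h2]

theorem h39c_phi_surjective {G : Subgroup (GL (Fin 2) k)} (hN : h48g_N2 G) :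
    Function.Surjective (h39c_phi G) := by
  rintro ⟨⟨g, hg⟩, h10⟩
  obtain ⟨x, hx, t, htG, t10, t01, -, -, hgt⟩ := h39c_decomp hN hg h10
  refine ⟨(⟨x, hx⟩, ⟨⟨t, htG⟩, t10, t01⟩), ?_⟩
  apply Subtype.ext
  apply Subtype.ext
  rw [h39c_phi_coe]
  exact hgt.symm

/-- `#B = #V · #T_d`. -/
theorem h39c_card_B {G : Subgroup (GL (Fin 2) k)} (hN : h48g_N2 G) :
    Nat.card (h48g_B G) = Nat.card (h48g_V G) * Nat.card (h48g_Td G) := by
  rw [← Nat.card_prod]
  exact (Nat.card_congr (Equiv.ofBijective (h39c_phi G)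
    ⟨h39c_phi_injective G, h39c_phi_surjective hN⟩)).symm

/-- The set of elements of `B` with equal diagonal entries. -/
def h39c_S (G : Subgroup (GL (Fin 2) k)) : Set G :=
  {g | g ∈ h48g_B G ∧ (g : GL (Fin 2) k) 0 0 = (g : GL (Fin 2) k) 1 1}

/-- The set of non-scalar elements of `B` with equal diagonal entries. -/
def h39c_P (G : Subgroup (GL (Fin 2) k)) : Set G :=
  {g | g ∈ h48g_B G ∧ g ∉ h48g_Zs G ∧ (g : GL (Fin 2) k) 0 0 = (g : GL (Fin 2) k) 1 1}

/-- The map `Z × V → G`, `(z, x) ↦ u(x) z`. -/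
def h39c_psi (G : Subgroup (GL (Fin 2) k)) : h48g_Zs G × h48g_V G → G := fun p =>
  ⟨upperRightHom (p.2 : k) * ((p.1 : G) : GL (Fin 2) k), G.mul_mem p.2.2 (p.1 : G).2⟩

theorem h39c_psi_coe (G : Subgroup (GL (Fin 2) k)) (p : h48g_Zs G × h48g_V G) :
    ((h39c_psi G p : G) : GL (Fin 2) k) =
      upperRightHom (p.2 : k) * ((p.1 : G) : GL (Fin 2) k) := rfl

theorem h39c_psi_injective (G : Subgroup (GL (Fin 2) k)) : Function.Injective (h39c_psi G) := by
  rintro ⟨s, x⟩ ⟨t, y⟩ h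
  have h' : upperRightHom (x : k) * ((s : G) : GL (Fin 2) k) =
      upperRightHom (y : k) * ((t : G) : GL (Fin 2) k) := by
    have := congrArg (fun b : G => (b : GL (Fin 2) k)) h
    simpa only [h39c_psi_coe] using this
  obtain ⟨hxy, hst⟩ := h39c_ut_inj ⟨s.2.1, s.2.2.1⟩ ⟨t.2.1, t.2.2.1⟩ h'
  have h1 : x = y := Subtype.ext hxy
  have h2 : s = t := Subtype.ext (Subtype.ext hst)
  rw [h1, h2]

theorem h39c_psi_range {G : Subgroup (GL (Fin 2) k)} (hN : h48g_N2 G) :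
    Set.range (h39c_psi G) = h39c_S G := by
  ext g
  constructor
  · rintro ⟨⟨z, x⟩, rfl⟩
    obtain ⟨e00, e01, e10, e11⟩ := h39c_ut_entries (x : k) ((z : G) : GL (Fin 2) k)
    refine ⟨?_, ?_⟩
    · show ((h39c_psi G (z, x) : G) : GL (Fin 2) k) 1 0 = 0
      rw [h39c_psi_coe, e10]; exact z.2.1
    · show ((h39c_psi G (z, x) : G) : GL (Fin 2) k) 0 0 =
        ((h39c_psi G (z, x) : G) : GL (Fin 2) k) 1 1
      rw [h39c_psi_coe, e00, e11, z.2.1, mul_zero, add_zero]; exact z.2.2.2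
  · rintro ⟨h10, hd⟩
    obtain ⟨g, hg⟩ := g
    change g 1 0 = 0 at h10
    change g 0 0 = g 1 1 at hd
    obtain ⟨x, hx, t, htG, t10, t01, t00, t11, hgt⟩ := h39c_decomp hN hg h10
    refine ⟨(⟨⟨t, htG⟩, t10, t01, by rw [t00, t11]; exact hd⟩, ⟨x, hx⟩), ?_⟩
    apply Subtype.ext
    rw [h39c_psi_coe]
    exact hgt.symm

theorem h39c_S_eq (G : Subgroup (GL (Fin 2) k)) :
    h39c_S G = h39c_P G ∪ (h48g_Zs G : Set G) := by
  ext g
  constructor
  · rintro ⟨hB, hd⟩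
    by_cases hz : g ∈ h48g_Zs G
    · exact Or.inr hz
    · exact Or.inl ⟨hB, hz, hd⟩
  · rintro (⟨hB, -, hd⟩ | hz)
    · exact ⟨hB, hd⟩
    · exact ⟨hz.1, hz.2.2⟩

theorem h39c_disjoint (G : Subgroup (GL (Fin 2) k)) :
    Disjoint (h39c_P G) (h48g_Zs G : Set G) := by
  rw [Set.disjoint_left]
  rintro g ⟨-, hz, -⟩ hz'
  exact hz hz'

/-- `#{g ∈ B : g ∉ Z, g₀₀ = g₁₁} + #Z = #Z · #V`. -/
theorem h39c_card_P [Finite k] {G : Subgroup (GL (Fin 2) k)} (hN : h48g_N2 G) :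
    Nat.card (h39c_P G) + Nat.card (h48g_Zs G) = Nat.card (h48g_Zs G) * Nat.card (h48g_V G) := by
  have h1 : Nat.card (h39c_S G) = Nat.card (h48g_Zs G) * Nat.card (h48g_V G) := by
    rw [← Nat.card_prod, ← h39c_psi_range hN]
    exact Nat.card_range_of_injective (h39c_psi_injective G)
  have h2 : (h39c_S G).ncard = (h39c_P G).ncard + ((h48g_Zs G : Set G)).ncard := by
    rw [h39c_S_eq]
    exact Set.ncard_union_eq (h39c_disjoint G) (Set.toFinite _) (Set.toFinite _)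
  have e1 : Nat.card (h39c_S G) = (h39c_S G).ncard := Nat.card_coe_set_eq _
  have e2 : Nat.card (h39c_P G) = (h39c_P G).ncard := Nat.card_coe_set_eq _
  have e3 : Nat.card (h48g_Zs G) = ((h48g_Zs G : Set G)).ncard :=
    Nat.card_coe_set_eq (h48g_Zs G : Set G)
  rw [← h1, e1, e2, e3, h2]

/-- **CARD**. -/
theorem h39c_card : H48GCard := by
  intro k _ _ G hN
  exact ⟨h39c_card_B hN, h39c_card_P hN⟩

end Fermat.Agent.S56G
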