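import Fermat.Agent.S56G.H48Main

/-!
# S56, TW-CHEB group theory (helper48): the divisibilities `H48GDiv` from free actions
-/

set_option autoImplicit false

open Matrix Matrix.GeneralLinearGroup OnePoint

noncomputable section

namespace Fermat.Agent.S56G

/-- If all stabilisers have cardinality `d`, then `#H ∣ d * #Y`. -/
theorem h48g_card_dvd_of_stab {H : Type} [Group H] [Finite H] {Y : Type} [Finite Y]
    [MulAction H Y] (d : ℕ) (hd : ∀ y : Y, Nat.card (MulAction.stabilizer H y) = d) :
    Nat.card H ∣ d * Nat.card Y := by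
  classical
  have : Fintype (MulAction.orbitRel.Quotient H Y) := Fintype.ofFinite _
  rw [Nat.card_congr (MulAction.selfEquivSigmaOrbitsQuotientStabilizer H Y), Nat.card_sigma,
    Finset.mul_sum]
  apply Finset.dvd_sum
  intro ω _
  have h := Subgroup.card_eq_card_quotient_mul_card_subgroup
    (MulAction.stabilizer H (Quotient.out ω))
  rw [hd] at h
  rw [h, mul_comm]

/-- The same for a stable finite subset. -/
theorem h48g_card_dvd_of_stab_set {H : Type} [Group H] [Finite H] {X : Type} [MulAction H X]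
    (Y : Set X) (hYfin : Y.Finite) (hY : ∀ h : H, ∀ y ∈ Y, h • y ∈ Y) (d : ℕ)
    (hd : ∀ y ∈ Y, Nat.card (MulAction.stabilizer H y) = d) :
    Nat.card H ∣ d * Y.ncard := by
  let S : SubMulAction H X := ⟨Y, fun h y hy => hY h y hy⟩
  have : Finite ↥S := hYfin.to_subtype
  have h := h48g_card_dvd_of_stab (H := H) (Y := ↥S) d (fun y => by
    rw [SubMulAction.stabilizer_of_subMul]
    exact hd y.1 y.2)
  have hc : Nat.card ↥S = Y.ncard := Nat.card_coe_set_eq Y
  rwa [hc] at h

variable {k : Type} [Field k]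

/-- The unipotent elements `u(x)` of `G`, as a subgroup of `G`. -/
def h48g_Pu (G : Subgroup (GL (Fin 2) k)) : Subgroup G where
  carrier := {g | (g : GL (Fin 2) k) 1 0 = 0 ∧ (g : GL (Fin 2) k) 0 0 = 1 ∧
    (g : GL (Fin 2) k) 1 1 = 1}
  one_mem' := by simp
  mul_mem' := fun {a b} ha hb => by
    simp only [Set.mem_setOf_eq] at ha hb ⊢
    rw [Subgroup.coe_mul, h48g_mul_10, h48g_mul_00, h48g_mul_11, ha.1, ha.2.1, ha.2.2, hb.1,
      hb.2.1, hb.2.2]
    simp
  inv_mem' := fun {a} ha => by
    simp only [Set.mem_setOf_eq] at ha ⊢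
    rw [Subgroup.coe_inv, (h48g_inv_entries _).2.2.1, (h48g_inv_entries _).1,
      (h48g_inv_entries _).2.2.2, ha.1, ha.2.1, ha.2.2]
    simp

theorem h48g_eq_u_of_mem_Pu {G : Subgroup (GL (Fin 2) k)} {g : G} (hg : g ∈ h48g_Pu G) :
    (g : GL (Fin 2) k) = upperRightHom ((g : GL (Fin 2) k) 0 1) := by
  apply h48g_ext
  · simp [hg.2.1]
  · simp
  · simp [hg.1]
  · simp [hg.2.2]

theorem h48g_card_Pu (G : Subgroup (GL (Fin 2) k)) :
    Nat.card (h48g_Pu G) = Nat.card (h48g_V G) := by
  refine Nat.card_congr ⟨fun g => ⟨(g.1 : GL (Fin 2) k) 0 1, ?_⟩,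
    fun x => ⟨⟨upperRightHom x.1, x.2⟩, ?_⟩, ?_, ?_⟩
  · show upperRightHom ((g.1 : GL (Fin 2) k) 0 1) ∈ G
    rw [← h48g_eq_u_of_mem_Pu g.2]
    exact g.1.2
  · exact ⟨rfl, rfl, rfl⟩
  · intro g
    apply Subtype.ext
    apply Subtype.ext
    exact (h48g_eq_u_of_mem_Pu g.2).symm
  · intro x
    rfl

variable [DecidableEq k]

theorem h48g_smul_coe_of_Pu {G : Subgroup (GL (Fin 2) k)} {g : G} (hg : g ∈ h48g_Pu G)
    (c : k) : g • (c : OnePoint k) = ((c + (g : GL (Fin 2) k) 0 1 : k) : OnePoint k) := by
  rw [h48g_smul_def', h48g_smul_coe_of_upper _ hg.1, hg.2.1, hg.2.2]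
  simp

theorem h48g_smul_coe_of_Td {G : Subgroup (GL (Fin 2) k)} {g : G} (hg : g ∈ h48g_Td G)
    (c : k) : g • (c : OnePoint k) =
      (((g : GL (Fin 2) k) 0 0 / (g : GL (Fin 2) k) 1 1 * c : k) : OnePoint k) := by
  rw [h48g_smul_def', h48g_smul_coe_of_upper _ hg.1, hg.2]
  congr 1
  ring

theorem h48g_smul_infty_of_upper {G : Subgroup (GL (Fin 2) k)} {g : G}
    (hg : (g : GL (Fin 2) k) 1 0 = 0) : g • (∞ : OnePoint k) = ∞ := by
  rw [h48g_smul_def']
  exact OnePoint.smul_infty_eq_self_iff.mpr hg

/-- stabilisers in `T_d` of finite nonzero points have the cardinality of `Z_s`. -/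
theorem h48g_card_stab_Td (G : Subgroup (GL (Fin 2) k)) [Finite G] (c : k) (hc : c ≠ 0) :
    Nat.card (MulAction.stabilizer (h48g_Td G) ((c : k) : OnePoint k)) =
      Nat.card (h48g_Zs G) := by
  refine Nat.card_congr ⟨fun g => ⟨g.1.1, ?_⟩, fun z => ⟨⟨z.1, h48g_Zs_le_Td G z.2⟩, ?_⟩, ?_, ?_⟩
  · have hg := g.2
    rw [MulAction.mem_stabilizer_iff] at hg
    have hT : g.1.1 ∈ h48g_Td G := g.1.2
    have h1 : g.1 • ((c : k) : OnePoint k) = g.1.1 • ((c : k) : OnePoint k) := rfl
    rw [h1, h48g_smul_coe_of_Td hT, OnePoint.coe_eq_coe] at hg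
    have h11 : (g.1.1 : GL (Fin 2) k) 1 1 ≠ 0 := (h48g_upper_diag_ne _ hT.1).2
    refine ⟨hT.1, hT.2, ?_⟩
    have : ((g.1.1 : GL (Fin 2) k) 0 0 / (g.1.1 : GL (Fin 2) k) 1 1 - 1) * c = 0 := by
      linear_combination hg
    rcases mul_eq_zero.mp this with h | h
    · field_simp at h
      linear_combination h
    · exact absurd h hc
  · rw [MulAction.mem_stabilizer_iff]
    have hz := z.2
    show (z.1 : G) • ((c : k) : OnePoint k) = _
    rw [h48g_smul_def']
    exact h48g_isScal_smul hz _
  · intro g; rfl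
  · intro z; rfl

theorem h48g_div : H48GDiv := by
  intro k _ _ _ G
  have hfinGL : Finite (GL (Fin 2) k) := by
    apply Finite.of_injective (fun g : GL (Fin 2) k => (g : Matrix (Fin 2) (Fin 2) k))
    exact Units.val_injective
  have hfinX : Finite (OnePoint k) := inferInstanceAs (Finite (Option k))
  have hzpos : 0 < Nat.card (h48g_Zs G) := Nat.card_pos
  refine ⟨?_, ?_, ?_⟩
  · -- `P` acts freely on `Ω - {∞}`
    have h := h48g_card_dvd_of_stab_set (H := h48g_Pu G) (X := OnePoint k)
      ((MulAction.orbit G (∞ : OnePoint k)) \ {∞}) (Set.toFinite _)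
      (by
        rintro g y ⟨hy, hyi⟩
        refine ⟨?_, ?_⟩
        · obtain ⟨a, rfl⟩ := hy
          exact ⟨g.1 * a, by show (g.1 * a) • (∞ : OnePoint k) = g.1 • (a • (∞ : OnePoint k)); rw [mul_smul]⟩
        · intro h
          apply hyi
          simp only [Set.mem_singleton_iff] at h ⊢
          have h2 : g.1 • y = ∞ := h
          have h3 : g.1 • (∞ : OnePoint k) = ∞ := h48g_smul_infty_of_upper g.2.1
          rw [← h3] at h2
          exact MulAction.injective g.1 h2) 1
      (by
        rintro y ⟨-, hyi⟩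
        rw [Nat.card_eq_one_iff_unique]
        refine ⟨⟨?_⟩, ⟨1⟩⟩
        intro a b
        have key : ∀ g : MulAction.stabilizer (h48g_Pu G) y, g = 1 := by
          intro g
          cases y with
          | infty => exact absurd rfl hyi
          | coe c =>
            have hg := g.2
            rw [MulAction.mem_stabilizer_iff] at hg
            have h1 : g.1 • ((c : k) : OnePoint k) = g.1.1 • ((c : k) : OnePoint k) := rfl
            rw [h1, h48g_smul_coe_of_Pu g.1.2, OnePoint.coe_eq_coe] at hg
            have h01 : (g.1.1 : GL (Fin 2) k) 0 1 = 0 := by linear_combination hg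
            apply Subtype.ext
            apply Subtype.ext
            apply Subtype.ext
            show (g.1.1 : GL (Fin 2) k) = 1
            rw [h48g_eq_u_of_mem_Pu g.1.2, h01]
            exact AddChar.map_zero_eq_one _
        rw [key a, key b])
    rw [one_mul, h48g_card_Pu] at h
    have hc : ((MulAction.orbit G (∞ : OnePoint k)) \ {∞}).ncard =
        Nat.card (MulAction.orbit G (∞ : OnePoint k)) - 1 := by
      rw [Set.ncard_sdiff_singleton_of_mem (MulAction.mem_orbit_self _), Nat.card_coe_set_eq]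
    rwa [hc] at h
  · -- `T_d` acts on `V - {0}` with stabilisers `Z_s`
    have h := h48g_card_dvd_of_stab_set (H := h48g_Td G) (X := OnePoint k)
      ((fun x : k => (x : OnePoint k)) '' ((h48g_V G : Set k) \ {0})) (Set.toFinite _)
      (by
        rintro g y ⟨x, ⟨hx, hx0⟩, rfl⟩
        have h1 : g • ((x : k) : OnePoint k) = g.1 • ((x : k) : OnePoint k) := rfl
        rw [h1, h48g_smul_coe_of_Td g.2]
        have hne := h48g_upper_diag_ne _ g.2.1
        refine ⟨_, ⟨?_, ?_⟩, rfl⟩
        · have hT : ((g.1 : GL (Fin 2) k) 0 0, (g.1 : GL (Fin 2) k) 1 1) ∈ h48g_T G :=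
            ⟨g.1, g.1.2, g.2.1, g.2.2, rfl, rfl⟩
          exact h48g_T_smul_V hT hx
        · simp only [Set.mem_singleton_iff] at hx0 ⊢
          exact mul_ne_zero (div_ne_zero hne.1 hne.2) hx0) (Nat.card (h48g_Zs G))
      (by
        rintro y ⟨x, ⟨-, hx0⟩, rfl⟩
        exact h48g_card_stab_Td G x hx0)
    have hc : ((fun x : k => (x : OnePoint k)) '' ((h48g_V G : Set k) \ {0})).ncard =
        Nat.card (h48g_V G) - 1 := by
      rw [Set.ncard_image_of_injective _ OnePoint.coe_injective,
        Set.ncard_sdiff_singleton_of_mem (h48g_V G).zero_mem]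
      rfl
    rwa [hc] at h
  · intro h0
    have h := h48g_card_dvd_of_stab_set (H := h48g_Td G) (X := OnePoint k)
      ((MulAction.orbit G (∞ : OnePoint k)) \ {∞, ((0 : k) : OnePoint k)}) (Set.toFinite _)
      (by
        rintro g y ⟨hy, hyn⟩
        refine ⟨?_, ?_⟩
        · obtain ⟨a, rfl⟩ := hy
          exact ⟨g.1 * a, by show (g.1 * a) • (∞ : OnePoint k) = g.1 • (a • (∞ : OnePoint k)); rw [mul_smul]⟩
        · intro h
          apply hyn
          simp only [Set.mem_insert_iff, Set.mem_singleton_iff] at h ⊢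
          rcases h with h | h
          · left
            have h2 : g.1 • y = ∞ := h
            have h3 : g.1 • (∞ : OnePoint k) = ∞ := h48g_smul_infty_of_upper g.2.1
            rw [← h3] at h2
            exact MulAction.injective g.1 h2
          · right
            have h2 : g.1 • y = ((0 : k) : OnePoint k) := h
            have h3 : g.1 • ((0 : k) : OnePoint k) = ((0 : k) : OnePoint k) := by
              rw [h48g_smul_coe_of_Td g.2]; simp
            rw [← h3] at h2
            exact MulAction.injective g.1 h2) (Nat.card (h48g_Zs G))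
      (by
        rintro y ⟨-, hyn⟩
        simp only [Set.mem_insert_iff, Set.mem_singleton_iff, not_or] at hyn
        cases y with
        | infty => exact absurd rfl hyn.1
        | coe c =>
          apply h48g_card_stab_Td G c
          intro hc
          exact hyn.2 (by rw [hc]))
    have hc : ((MulAction.orbit G (∞ : OnePoint k)) \ {∞, ((0 : k) : OnePoint k)}).ncard =
        Nat.card (MulAction.orbit G (∞ : OnePoint k)) - 2 := by
      rw [Set.ncard_sdiff (by
        intro y hy
        simp only [Set.mem_insert_iff, Set.mem_singleton_iff] at hy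
        rcases hy with rfl | rfl
        · exact MulAction.mem_orbit_self _
        · exact h0) (Set.toFinite _), Set.ncard_pair (OnePoint.infty_ne_coe _), Nat.card_coe_set_eq]
    rwa [hc] at h

end Fermat.Agent.S56G
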