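import Fermat.Agent.S56G.H48Iface2

/-!
# S56, TW-CHEB group theory, leaf TWO (helper4, prefix `h4t2_`): `h4t2_two : H48GTwo`

If the orbit `Ω` of `∞` under `G ≤ GL₂(k)` is `{∞} ∪ V` (`V` = the `x` with `u(x) ∈ G`) and
contains `0`, then `G` contains `l(1/x)` for every `x ∈ V - 0` (the conjugate of `P = u(V)` by an
element `w₀` with `w₀ ∞ = 0` is a group `l(V')` with `#V' ≥ #V`, and `l(y) ∞ = 1/y ∈ Ω`), hence the
Weyl elements `u(x) l(-1/x) u(x)` and the diagonal elements `diag(x/y, y/x)`.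
-/

set_option autoImplicit false

open Matrix Matrix.GeneralLinearGroup OnePoint

namespace Fermat.Agent.S56G

section

variable {k : Type} [Field k]

/-- Conjugating `u(x)` by an element `w` with `w ∞ = 0` gives a lower unipotent element. -/
theorem h4t2_conj_u (w : GL (Fin 2) k) (h00 : w 0 0 = 0) (x : k) :
    w * upperRightHom x * w⁻¹ = h48g_l (w 1 0 / w 0 1 * x) := by
  have hd := h48g_det_ne w
  rw [h00, zero_mul, zero_sub, neg_ne_zero] at hd
  have hb : w 0 1 ≠ 0 := left_ne_zero_of_mul hd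
  rw [mul_inv_eq_iff_eq_mul]
  apply h48g_ext
  · simp [h48g_mul_00, h00]
  · simp [h48g_mul_01, h00]
  · simp [h48g_mul_10, h00]
  · simp [h48g_mul_11]; field_simp

/-- `l(y)⁻¹ = l(-y)`. -/
theorem h4t2_l_inv (y : k) : (h48g_l y)⁻¹ = h48g_l (-y) := by
  rw [inv_eq_iff_mul_eq_one]
  apply h48g_ext
  · simp [h48g_mul_00]
  · simp [h48g_mul_01]
  · simp [h48g_mul_10]
  · simp [h48g_mul_11]

variable [DecidableEq k]

theorem h4t2_l_smul_infty (y : k) (hy : y ≠ 0) :
    h48g_l y • (∞ : OnePoint k) = ((y⁻¹ : k) : OnePoint k) := by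
  rw [smul_infty_eq_ite]
  simp [hy]

theorem h4t2_u_smul_zero (x : k) :
    (upperRightHom x : GL (Fin 2) k) • ((0 : k) : OnePoint k) = ((x : k) : OnePoint k) := by
  rw [smul_some_eq_ite]
  simp

end

/-- **LEAF TWO**: the exact frozen `Prop` `H48GTwo`. -/
theorem h4t2_two : H48GTwo := by
  intro k _ _ _ G h0 hcard
  classical
  have : Finite (OnePoint k) := inferInstanceAs (Finite (Option k))
  -- Step 1: `Ω = {∞} ∪ V`
  have hfin : (MulAction.orbit G (∞ : OnePoint k)).Finite := Set.toFinite _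
  have hΩ : ∀ z : k, (z : OnePoint k) ∈ MulAction.orbit G (∞ : OnePoint k) → z ∈ h48g_V G := by
    set S : Set (OnePoint k) := insert ∞ ((fun x : k => (x : OnePoint k)) '' (h48g_V G : Set k))
      with hS
    have hsub : S ⊆ MulAction.orbit G (∞ : OnePoint k) := by
      intro z hz
      rcases hz with hz | ⟨x, hx, rfl⟩
      · rw [hz]
        exact MulAction.mem_orbit_self _
      · have h1 := MulAction.mem_orbit_of_mem_orbit (⟨upperRightHom x, hx⟩ : G) h0
        have h2 : (⟨upperRightHom x, hx⟩ : G) • ((0 : k) : OnePoint k) = ((x : k) : OnePoint k) :=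
          h4t2_u_smul_zero x
        rw [h2] at h1
        exact h1
    have hSc : S.ncard = Nat.card (h48g_V G) + 1 := by
      rw [hS, Set.ncard_insert_of_notMem, Set.ncard_image_of_injective _ OnePoint.coe_injective]
      · congr 1
      · rintro ⟨x, -, hx⟩
        exact OnePoint.coe_ne_infty x hx
    have hEq : S = MulAction.orbit G (∞ : OnePoint k) := by
      apply Set.eq_of_subset_of_ncard_le hsub _ hfin
      rw [hSc, ← hcard]
      exact le_of_eq (Nat.card_coe_set_eq _).symm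
    intro z hz
    rw [← hEq] at hz
    rcases hz with hz | ⟨x, hx, hxz⟩
    · exact absurd hz (OnePoint.coe_ne_infty z)
    · rw [← OnePoint.coe_injective hxz]
      exact hx
  -- Step 2: an element `w` of `G` with `w ∞ = 0`
  obtain ⟨w, hw⟩ := h0
  have hw' : (w : GL (Fin 2) k) • (∞ : OnePoint k) = ((0 : k) : OnePoint k) := hw
  rw [smul_infty_eq_ite] at hw'
  have hw10 : (w : GL (Fin 2) k) 1 0 ≠ 0 := by
    intro h
    rw [if_pos h] at hw'
    exact OnePoint.infty_ne_coe _ hw'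
  rw [if_neg hw10] at hw'
  have hw00 : (w : GL (Fin 2) k) 0 0 = 0 := by
    have h1 := OnePoint.coe_injective hw'
    rcases div_eq_zero_iff.1 h1 with h | h
    · exact h
    · exact absurd h hw10
  have hwd := h48g_det_ne (w : GL (Fin 2) k)
  rw [hw00, zero_mul, zero_sub, neg_ne_zero] at hwd
  have hw01 : (w : GL (Fin 2) k) 0 1 ≠ 0 := left_ne_zero_of_mul hwd
  set c : k := (w : GL (Fin 2) k) 1 0 / (w : GL (Fin 2) k) 0 1 with hc
  have hc0 : c ≠ 0 := div_ne_zero hw10 hw01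
  -- Step 3: the sets `A = {y ≠ 0 | l(y) ∈ G}` and `B = V - 0`
  set A : Set k := {y | y ≠ 0 ∧ h48g_l y ∈ G} with hA
  set B : Set k := {x | x ≠ 0 ∧ x ∈ h48g_V G} with hB
  have hAB : (fun y : k => y⁻¹) '' A ⊆ B := by
    rintro _ ⟨y, ⟨hy0, hy⟩, rfl⟩
    refine ⟨inv_ne_zero hy0, ?_⟩
    apply hΩ
    rw [← h4t2_l_smul_infty y hy0]
    exact ⟨⟨h48g_l y, hy⟩, rfl⟩
  have hBA : (fun x : k => c * x) '' B ⊆ A := by
    rintro _ ⟨x, ⟨hx0, hx⟩, rfl⟩
    refine ⟨mul_ne_zero hc0 hx0, ?_⟩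
    show h48g_l (c * x) ∈ G
    rw [hc, ← h4t2_conj_u (w : GL (Fin 2) k) hw00 x]
    exact G.mul_mem (G.mul_mem w.2 hx) (G.inv_mem w.2)
  have hcardA : (A.ncard) ≤ ((fun y : k => y⁻¹) '' A).ncard := by
    rw [Set.ncard_image_of_injective _ inv_injective]
  have hcardB : B.ncard ≤ A.ncard := by
    calc B.ncard = ((fun x : k => c * x) '' B).ncard := by
          rw [Set.ncard_image_of_injective _ (mul_right_injective₀ hc0)]
      _ ≤ A.ncard := Set.ncard_le_ncard hBA (Set.toFinite _)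
  have hEq2 : (fun y : k => y⁻¹) '' A = B :=
    Set.eq_of_subset_of_ncard_le hAB (hcardB.trans hcardA) (Set.toFinite _)
  -- Step 4: `l(-1/x) ∈ G` and the Weyl elements
  have hl : ∀ x ∈ h48g_V G, x ≠ 0 → h48g_l (-x⁻¹) ∈ G := by
    intro x hx hx0
    have h1 : x ∈ B := ⟨hx0, hx⟩
    rw [← hEq2] at h1
    obtain ⟨y, ⟨-, hy⟩, hyx⟩ := h1
    have h2 : y = x⁻¹ := by
      rw [← hyx]
      simp
    rw [← h4t2_l_inv, ← h2]
    exact G.inv_mem hy
  have hweyl : ∀ x ∈ h48g_V G, x ≠ 0 →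
      upperRightHom x * h48g_l (-x⁻¹) * upperRightHom x ∈ G := by
    intro x hx hx0
    exact G.mul_mem (G.mul_mem hx (hl x hx hx0)) hx
  intro x hx y hy hx0 hy0
  have h1 := h48g_weyl x y hx0 hy0
  have h2 : h48g_dg (x / y) (y / x) (div_ne_zero hx0 hy0) (div_ne_zero hy0 hx0) =
      (upperRightHom x * h48g_l (-x⁻¹) * upperRightHom x) *
        (upperRightHom y * h48g_l (-y⁻¹) * upperRightHom y)⁻¹ := by
    rw [h1, mul_inv_cancel_right]
  refine ⟨h48g_dg (x / y) (y / x) (div_ne_zero hx0 hy0) (div_ne_zero hy0 hx0), ?_, ?_, ?_, ?_, ?_⟩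
  · rw [h2]
    exact G.mul_mem (hweyl x hx hx0) (G.inv_mem (hweyl y hy hy0))
  · simp
  · simp
  · simp
  · simp

end Fermat.Agent.S56G
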