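import Fermat.Agent.S56G.H48Iface

/-!
# S56, TW-CHEB group theory, leaf CHEB-G-ARITH (helper55): `H48GArith`

Pure arithmetic: `n = 1 + m q`, `q ≥ 4`, `s (n q - 2 n + 2) = n q h`, `h ∣ q - 1`.  Since
`n q - 2 n + 2 = q (n - 2 m)`, the relation is `s (n - 2 m) = n h` with `E = n - 2 m > 0`
coprime to `m`.
-/

set_option autoImplicit false

namespace Fermat.Agent.S56G

/-- the relation in `ℤ`: `s (n - 2 m) = n h`. -/
theorem h55a_key (n q h s m : ℤ) (hn : n = 1 + m * q) (hq : 4 ≤ q)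
    (heq : s * (n * q + 2) = n * q * h + 2 * n * s) : s * (n - 2 * m) = n * h := by
  have hq0 : q ≠ 0 := by omega
  have h1 : q * (s * (n - 2 * m)) = q * (n * h) := by
    subst hn
    linear_combination heq
  exact mul_left_cancel₀ hq0 h1

/-- **CHEB-G-ARITH.** -/
theorem h55a_arith : H48GArith := by
  intro n q h s m hn hq hm hs hh hhq heq
  have hnZ : (n : ℤ) = 1 + (m : ℤ) * (q : ℤ) := by exact_mod_cast hn
  have hqZ : (4 : ℤ) ≤ (q : ℤ) := by exact_mod_cast hq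
  have hmZ : (1 : ℤ) ≤ (m : ℤ) := by exact_mod_cast hm
  have hsZ : (2 : ℤ) ≤ (s : ℤ) := by exact_mod_cast hs
  have hhZ : (1 : ℤ) ≤ (h : ℤ) := by exact_mod_cast hh
  have heqZ : (s : ℤ) * ((n : ℤ) * q + 2) = (n : ℤ) * q * h + 2 * (n : ℤ) * s := by
    exact_mod_cast heq
  have key := h55a_key n q h s m hnZ hqZ heqZ
  -- `E = n - 2 m = 1 + m (q - 2) > 0`
  have hE : (n : ℤ) - 2 * m = 1 + (m : ℤ) * ((q : ℤ) - 2) := by rw [hnZ]; ring
  have hmq : 2 * (m : ℤ) ≤ (m : ℤ) * ((q : ℤ) - 2) := by nlinarith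
  have hEpos : (0 : ℤ) < (n : ℤ) - 2 * m := by rw [hE]; linarith
  have hnpos : (0 : ℤ) < (n : ℤ) := by linarith
  constructor
  · rintro ⟨s', rfl⟩
    have hs'Z : ((h * s' : ℕ) : ℤ) = (h : ℤ) * (s' : ℤ) := by push_cast; ring
    rw [hs'Z] at key
    have hh0 : (h : ℤ) ≠ 0 := by linarith
    have key2 : (s' : ℤ) * ((n : ℤ) - 2 * m) = n := by
      have h1 : (h : ℤ) * ((s' : ℤ) * ((n : ℤ) - 2 * m)) = (h : ℤ) * n := by
        linear_combination key
      exact mul_left_cancel₀ hh0 h1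
    have hs'0 : (0 : ℤ) ≤ (s' : ℤ) := Int.natCast_nonneg s'
    rcases lt_trichotomy (s' : ℤ) 1 with h0 | h1 | h2
    · have : (s' : ℤ) = 0 := by omega
      rw [this, zero_mul] at key2
      linarith
    · rw [h1, one_mul] at key2
      linarith
    · have h3 : 2 * ((n : ℤ) - 2 * m) ≤ (s' : ℤ) * ((n : ℤ) - 2 * m) := by
        apply mul_le_mul_of_nonneg_right _ hEpos.le
        omega
      rw [key2] at h3
      linarith
  · intro hh2 hdn
    by_contra hm1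
    have hm2 : (2 : ℤ) ≤ (m : ℤ) := by
      have : 2 ≤ m := by omega
      exact_mod_cast this
    -- `h ∣ m - 1`
    have hn2 : 2 ≤ n := by
      have : (2 : ℤ) ≤ (n : ℤ) := by nlinarith
      exact_mod_cast this
    have hq1 : 1 ≤ q := by omega
    have hdnZ : (h : ℤ) ∣ (n : ℤ) - 2 := by
      have := Int.natCast_dvd_natCast.mpr hdn
      rwa [Nat.cast_sub hn2] at this
    have hdqZ : (h : ℤ) ∣ (q : ℤ) - 1 := by
      have := Int.natCast_dvd_natCast.mpr hhq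
      rwa [Nat.cast_sub hq1] at this
    have hdm : (h : ℤ) ∣ (m : ℤ) - 1 := by
      have h1 : (m : ℤ) - 1 = ((n : ℤ) - 2) - (m : ℤ) * ((q : ℤ) - 1) := by rw [hnZ]; ring
      rw [h1]
      exact dvd_sub hdnZ (Dvd.dvd.mul_left hdqZ _)
    have hle : (h : ℤ) ≤ (m : ℤ) - 1 := Int.le_of_dvd (by linarith) hdm
    -- `E ∣ 2 h`
    have hdE : (n : ℤ) - 2 * m ∣ (m : ℤ) * (2 * h) := by
      refine ⟨(s : ℤ) - h, ?_⟩
      linear_combination -key
    have hcop : IsCoprime ((n : ℤ) - 2 * m) (m : ℤ) :=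
      ⟨1, -((q : ℤ) - 2), by rw [hE]; ring⟩
    have hdE2 : (n : ℤ) - 2 * m ∣ 2 * (h : ℤ) := hcop.dvd_of_dvd_mul_left hdE
    have hle2 : (n : ℤ) - 2 * m ≤ 2 * (h : ℤ) := Int.le_of_dvd (by linarith) hdE2
    rw [hE] at hle2
    linarith

end Fermat.Agent.S56G
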