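import Fermat.Agent.S56G.H48Ratio
import Fermat.Agent.S56G.H48Div
import Fermat.Agent.S56G.H10Count
import Fermat.Agent.S56G.H55Arith
import Fermat.Agent.S56G.H1Mod
import Fermat.Agent.S56G.H39Card
import Fermat.Agent.S56G.H4Two

/-!
# CHEB-G-RATIO, unconditional (helper48)

`h48g_ratio : H48GRatio` — the hard counting step of DDT Lemma 2.48: in a subgroup
`G ≤ GL₂(k)` with a split normalised Borel part and a non-scalar unipotent element,
every diagonal `t ∈ G` has ratio `t₀₀ / t₁₁` in the prime field.
-/

namespace Fermat.Agent.S56G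

theorem h48g_ratio : H48GRatio :=
  h48g_ratio_of h10k_count h55a_arith h1m_mod h1m_hu h39c_card h48g_div h4t2_two

end Fermat.Agent.S56G
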