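import Fermat.Agent.S56G.H48Iface2

/-!
# CHEB-G-TRANS (helper48): conjugation invariance

`h48g_transport : H48GTransport` (the conclusion `H¹ = 0` is invariant under conjugation) and
`h48g_hypConj : H48GHypConj` (so are the hypotheses: eigenvectors over `k`, irreducibility, the
determinants).
-/

set_option autoImplicit false

open Matrix

noncomputable section

namespace Fermat.Agent.S56G

variable {k : Type} [Field k]

theorem h48g_conj_mem {c : GL (Fin 2) k} {G : Subgroup (GL (Fin 2) k)} {g : GL (Fin 2) k}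
    (hg : g ∈ G) : c * g * c⁻¹ ∈ h48g_conj c G := by
  rw [h48g_mem_conj]
  have e : c⁻¹ * (c * g * c⁻¹) * c = g := by group
  rw [e]
  exact hg

theorem h48g_coe_inv_mulVec (c : GL (Fin 2) k) (v : Fin 2 → k) :
    ((c⁻¹ : GL (Fin 2) k) : Matrix (Fin 2) (Fin 2) k) *ᵥ
      ((c : Matrix (Fin 2) (Fin 2) k) *ᵥ v) = v := by
  rw [Matrix.mulVec_mulVec, ← Matrix.GeneralLinearGroup.coe_mul, inv_mul_cancel]
  simp

theorem h48g_coe_mulVec_inv (c : GL (Fin 2) k) (v : Fin 2 → k) :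
    (c : Matrix (Fin 2) (Fin 2) k) *ᵥ
      (((c⁻¹ : GL (Fin 2) k) : Matrix (Fin 2) (Fin 2) k) *ᵥ v) = v := by
  rw [Matrix.mulVec_mulVec, ← Matrix.GeneralLinearGroup.coe_mul, mul_inv_cancel]
  simp

theorem h48g_mulVec_ne_zero (c : GL (Fin 2) k) {v : Fin 2 → k} (hv : v ≠ 0) :
    (c : Matrix (Fin 2) (Fin 2) k) *ᵥ v ≠ 0 := by
  intro h0
  apply hv
  rw [← h48g_coe_inv_mulVec c v, h0, Matrix.mulVec_zero]

theorem h48g_transport : H48GTransport := by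
  intro k _ G c hC f htr hcoc
  have hφmul : ∀ a b : ↥(h48g_conj c G),
      (⟨c⁻¹ * ((a * b : ↥(h48g_conj c G)) : GL (Fin 2) k) * c,
          h48g_mem_conj.mp (a * b).2⟩ : G) =
        ⟨c⁻¹ * (a : GL (Fin 2) k) * c, h48g_mem_conj.mp a.2⟩ *
          ⟨c⁻¹ * (b : GL (Fin 2) k) * c, h48g_mem_conj.mp b.2⟩ := by
    intro a b
    apply Subtype.ext
    show c⁻¹ * ((a : GL (Fin 2) k) * (b : GL (Fin 2) k)) * c =
      (c⁻¹ * (a : GL (Fin 2) k) * c) * (c⁻¹ * (b : GL (Fin 2) k) * c)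
    group
  have htr' : ∀ g' : ↥(h48g_conj c G),
      (h48g_act c (f ⟨c⁻¹ * (g' : GL (Fin 2) k) * c, h48g_mem_conj.mp g'.2⟩)).trace = 0 := by
    intro g'
    rw [h48g_act_trace, htr, mul_zero]
  have hcoc' : ∀ a b : ↥(h48g_conj c G),
      h48g_act c (f ⟨c⁻¹ * ((a * b : ↥(h48g_conj c G)) : GL (Fin 2) k) * c,
          h48g_mem_conj.mp (a * b).2⟩) =
        h48g_act c (f ⟨c⁻¹ * (a : GL (Fin 2) k) * c, h48g_mem_conj.mp a.2⟩) +
        h48g_act (a : GL (Fin 2) k)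
          (h48g_act c (f ⟨c⁻¹ * (b : GL (Fin 2) k) * c, h48g_mem_conj.mp b.2⟩)) := by
    intro a b
    rw [hφmul, hcoc, h48g_act_add, ← h48g_act_mul, ← h48g_act_mul]
    congr 2
    show c * (c⁻¹ * (a : GL (Fin 2) k) * c) = (a : GL (Fin 2) k) * c
    group
  obtain ⟨X', hX'tr, hX'⟩ := hC
    (fun g' => h48g_act c (f ⟨c⁻¹ * (g' : GL (Fin 2) k) * c, h48g_mem_conj.mp g'.2⟩))
    htr' hcoc'
  refine ⟨h48g_act c⁻¹ X', ?_, ?_⟩
  · rw [h48g_act_trace, hX'tr, mul_zero]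
  · intro g
    have hg' : c * (g : GL (Fin 2) k) * c⁻¹ ∈ h48g_conj c G := h48g_conj_mem g.2
    have h := hX' ⟨c * g * c⁻¹, hg'⟩
    have hφ : f ⟨c⁻¹ * (c * (g : GL (Fin 2) k) * c⁻¹) * c, h48g_mem_conj.mp hg'⟩ = f g := by
      apply congrArg f
      apply Subtype.ext
      show c⁻¹ * (c * (g : GL (Fin 2) k) * c⁻¹) * c = g
      group
    have h' : h48g_act c (f g) = h48g_act (c * (g : GL (Fin 2) k) * c⁻¹) X' - X' := by
      rw [← hφ]
      exact h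
    have h2 := congrArg (h48g_act c⁻¹) h'
    rw [← h48g_act_mul, inv_mul_cancel, h48g_act_one, h48g_act_sub, ← h48g_act_mul] at h2
    rw [h2, ← h48g_act_mul]
    congr 2
    group

theorem h48g_hypConj : H48GHypConj := by
  intro k _ p G c
  refine ⟨?_, ?_, ?_⟩
  · intro hS g hg
    obtain ⟨v, hv, l, hl⟩ := hS _ (h48g_mem_conj.mp hg)
    refine ⟨(c : Matrix (Fin 2) (Fin 2) k) *ᵥ v, h48g_mulVec_ne_zero c hv, l, ?_⟩
    have e : (g : Matrix (Fin 2) (Fin 2) k) *ᵥ ((c : Matrix (Fin 2) (Fin 2) k) *ᵥ v) =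
        (c : Matrix (Fin 2) (Fin 2) k) *ᵥ
          (((c⁻¹ * g * c : GL (Fin 2) k) : Matrix (Fin 2) (Fin 2) k) *ᵥ v) := by
      rw [Matrix.mulVec_mulVec, Matrix.mulVec_mulVec, ← Matrix.GeneralLinearGroup.coe_mul,
        ← Matrix.GeneralLinearGroup.coe_mul]
      congr 2
      group
    rw [e, hl, Matrix.mulVec_smul]
  · intro hI v hv
    obtain ⟨h, hh, hne⟩ := hI _ (h48g_mulVec_ne_zero c⁻¹ hv)
    refine ⟨c * h * c⁻¹, h48g_conj_mem hh, fun l hl => hne l ?_⟩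
    have e : (h : Matrix (Fin 2) (Fin 2) k) *ᵥ
          (((c⁻¹ : GL (Fin 2) k) : Matrix (Fin 2) (Fin 2) k) *ᵥ v) =
        ((c⁻¹ : GL (Fin 2) k) : Matrix (Fin 2) (Fin 2) k) *ᵥ
          (((c * h * c⁻¹ : GL (Fin 2) k) : Matrix (Fin 2) (Fin 2) k) *ᵥ v) := by
      rw [Matrix.mulVec_mulVec, Matrix.mulVec_mulVec, ← Matrix.GeneralLinearGroup.coe_mul,
        ← Matrix.GeneralLinearGroup.coe_mul]
      congr 2
      group
    rw [e, hl, Matrix.mulVec_smul]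
  · rintro ⟨g, hg, d, hd, hdet⟩
    refine ⟨c * g * c⁻¹, h48g_conj_mem hg, d, hd, ?_⟩
    rw [← hdet, Matrix.GeneralLinearGroup.coe_mul, Matrix.GeneralLinearGroup.coe_mul,
      Matrix.det_mul, Matrix.det_mul, mul_right_comm, ← Matrix.det_mul,
      ← Matrix.GeneralLinearGroup.coe_mul, mul_inv_cancel]
    simp

end Fermat.Agent.S56G
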