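import Fermat.Agent.S56G.H48Iface

/-!
# S56, TW-CHEB group theory (helper4, prefix `h4y_`): the hypotheses (hA), (hC) of `H48GCocycle`

In the vocabulary `(V, 𝒯)` of the leaf `H48GCocycle` (`V` an additive subgroup of `k`, `𝒯` a set
of pairs `(t₁, t₂)` of diagonal entries), steps (4) and (6) of the blueprint (finding #1094):

* `h4y_triv_hA`, `h4y_triv_hC` (**trivial case**): if every `t₁ / t₂` lies in the prime field
  and some `t ∈ 𝒯` has `t₁ t₂ = d` a non-square modulo `p`, then (hA) and (hC) hold.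
* `h4y_weyl_hA`, `h4y_weyl_hC` (**Weyl case**): if `(x / x', x' / x) ∈ 𝒯` for all non-zero
  `x, x' ∈ V` and some `t ∈ 𝒯` has `t₁ t₂ = d` a non-square modulo `p`, then (hA) and (hC) hold.
-/

set_option autoImplicit false

namespace Fermat.Agent.S56G

section Basic

variable {k : Type} [Field k] {p : ℕ} [Fact p.Prime] [CharP k p]

omit [Fact p.Prime] in
/-- A non-square modulo `p` is not `1` in `k`. -/
lemma h4y_one_sub_ne_zero (d : ℤ) (hd : ∀ x : ℤ, ¬ (p : ℤ) ∣ x ^ 2 - d) :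
    (1 : k) - (d : k) ≠ 0 := by
  intro h
  have h1 : ((1 - d : ℤ) : k) = 0 := by push_cast; exact h
  rw [CharP.intCast_eq_zero_iff k p] at h1
  exact hd 1 (by simpa using h1)

omit [Fact p.Prime] in
/-- A non-square modulo `p` is not the square of an integer in `k`. -/
lemma h4y_ne_sq (d n : ℤ) (hd : ∀ x : ℤ, ¬ (p : ℤ) ∣ x ^ 2 - d) : (d : k) ≠ (n : k) ^ 2 := by
  intro h
  have h1 : ((n ^ 2 - d : ℤ) : k) = 0 := by push_cast; rw [h]; ring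
  rw [CharP.intCast_eq_zero_iff k p] at h1
  exact hd n h1

omit [Fact p.Prime] [CharP k p] in
lemma h4y_map_zero (V : AddSubgroup k) (a : k → k)
    (ha : ∀ x ∈ V, ∀ y ∈ V, a (x + y) = a x + a y) : a 0 = 0 := by
  have h := ha 0 V.zero_mem 0 V.zero_mem
  rw [add_zero] at h
  have h2 : a 0 + a 0 = a 0 + 0 := by rw [add_zero]; exact h.symm
  exact add_left_cancel h2

omit [Fact p.Prime] [CharP k p] in
lemma h4y_map_neg (V : AddSubgroup k) (a : k → k)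
    (ha : ∀ x ∈ V, ∀ y ∈ V, a (x + y) = a x + a y) (x : k) (hx : x ∈ V) : a (-x) = - a x := by
  have h := ha x hx (-x) (V.neg_mem hx)
  rw [add_neg_cancel, h4y_map_zero V a ha] at h
  exact eq_neg_of_add_eq_zero_right h.symm

/-- The multipliers of an additive map on `V`: the `c` with `c V ⊆ V` and `a (c y) = c a(y)`. -/
def h4y_mult (V : AddSubgroup k) (a : k → k)
    (ha : ∀ x ∈ V, ∀ y ∈ V, a (x + y) = a x + a y) : Subring k where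
  carrier := {c | ∀ y ∈ V, c * y ∈ V ∧ a (c * y) = c * a y}
  mul_mem' := by
    intro c c' hc hc' y hy
    obtain ⟨h1, h2⟩ := hc' y hy
    obtain ⟨h3, h4⟩ := hc (c' * y) h1
    rw [mul_assoc]
    exact ⟨h3, by rw [h4, h2, mul_assoc]⟩
  one_mem' := by
    intro y hy
    rw [one_mul, one_mul]
    exact ⟨hy, rfl⟩
  add_mem' := by
    intro c c' hc hc' y hy
    obtain ⟨h1, h2⟩ := hc y hy
    obtain ⟨h3, h4⟩ := hc' y hy
    rw [add_mul]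
    exact ⟨V.add_mem h1 h3, by rw [ha _ h1 _ h3, h2, h4, add_mul]⟩
  zero_mem' := by
    intro y _
    rw [zero_mul, zero_mul]
    exact ⟨V.zero_mem, h4y_map_zero V a ha⟩
  neg_mem' := by
    intro c hc y hy
    obtain ⟨h1, h2⟩ := hc y hy
    rw [neg_mul]
    exact ⟨V.neg_mem h1, by rw [h4y_map_neg V a ha _ h1, h2, neg_mul]⟩

omit [Fact p.Prime] [CharP k p] in
lemma h4y_mem_mult (V : AddSubgroup k) (a : k → k)
    (ha : ∀ x ∈ V, ∀ y ∈ V, a (x + y) = a x + a y) (c : k) :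
    c ∈ h4y_mult V a ha ↔ ∀ y ∈ V, c * y ∈ V ∧ a (c * y) = c * a y := Iff.rfl

/-- `2` is invertible in the multiplier ring (odd characteristic). -/
lemma h4y_half_mem (hp2 : p ≠ 2) (V : AddSubgroup k) (a : k → k)
    (ha : ∀ x ∈ V, ∀ y ∈ V, a (x + y) = a x + a y) (c : k)
    (hc : 2 * c ∈ h4y_mult V a ha) : c ∈ h4y_mult V a ha := by
  have hodd : p % 2 = 1 := by
    rcases (Fact.out : p.Prime).eq_two_or_odd with h | h
    · exact absurd h hp2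
    · exact h
  have h2 : ((p / 2 + 1 : ℕ) : k) * 2 = 1 := by
    have h3 : (p / 2 + 1) * 2 = p + 1 := by omega
    have h4 : (((p / 2 + 1) * 2 : ℕ) : k) = ((p + 1 : ℕ) : k) := by rw [h3]
    push_cast at h4
    rw [CharP.cast_eq_zero k p, zero_add] at h4
    push_cast
    exact h4
  have h5 : c = ((p / 2 + 1 : ℕ) : k) * (2 * c) := by
    rw [← mul_assoc, h2, one_mul]
  rw [h5]
  exact (h4y_mult V a ha).mul_mem (natCast_mem _ _) hc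

end Basic

section Main

variable {k : Type} [Field k] {p : ℕ} [Fact p.Prime] [CharP k p]

omit [Fact p.Prime] in
/-- **Trivial case, (hA).**  If some `t ∈ 𝒯` with `t₁ / t₂` in the prime field has
`t₁ t₂ = d` a non-square modulo `p`, every additive equivariant `a` on `V` vanishes. -/
theorem h4y_triv_hA (V : AddSubgroup k) (𝒯 : Set (k × k))
    (h0 : ∀ t ∈ 𝒯, t.1 ≠ 0 ∧ t.2 ≠ 0)
    (hd : ∃ t ∈ 𝒯, (∃ n : ℤ, t.1 / t.2 = (n : k)) ∧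
      ∃ d : ℤ, (∀ x : ℤ, ¬ (p : ℤ) ∣ x ^ 2 - d) ∧ t.1 * t.2 = (d : k)) :
    ∀ a : k → k, (∀ x ∈ V, ∀ y ∈ V, a (x + y) = a x + a y) →
      (∀ t ∈ 𝒯, ∀ x ∈ V, a (t.1 / t.2 * x) = t.1 ^ 2 * a x) → ∀ x ∈ V, a x = 0 := by
  intro a ha heq x hx
  obtain ⟨t, ht, ⟨n, hn⟩, d, hd, htd⟩ := hd
  obtain ⟨ht1, ht2⟩ := h0 t ht
  have h1 := heq t ht x hx
  have hmem : ((n : ℤ) : k) ∈ h4y_mult V a ha := intCast_mem _ n
  have h2 := ((h4y_mem_mult V a ha _).1 hmem x hx).2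
  rw [hn, h2] at h1
  have h3 : t.1 ^ 2 = (d : k) * (n : k) := by
    rw [← htd, ← hn]
    field_simp
  rw [h3] at h1
  have hn0 : (n : k) ≠ 0 := by
    rw [← hn]
    exact div_ne_zero ht1 ht2
  have h4 : (n : k) * ((1 - (d : k)) * a x) = 0 := by
    have : (n : k) * ((1 - (d : k)) * a x) = (n : k) * a x - (d : k) * (n : k) * a x := by ring
    rw [this, ← h1, sub_self]
  rcases mul_eq_zero.1 h4 with h | h
  · exact absurd h hn0
  · rcases mul_eq_zero.1 h with h | h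
    · exact absurd h (h4y_one_sub_ne_zero d hd)
    · exact h

omit [Fact p.Prime] in
/-- **Trivial case, (hC).**  If some `t ∈ 𝒯` with `t₁ / t₂` in the prime field has
`t₁ t₂ = d` a non-square modulo `p`, then `t₁ ≠ t₂ ^ 3`. -/
theorem h4y_triv_hC (𝒯 : Set (k × k))
    (h0 : ∀ t ∈ 𝒯, t.1 ≠ 0 ∧ t.2 ≠ 0)
    (hd : ∃ t ∈ 𝒯, (∃ n : ℤ, t.1 / t.2 = (n : k)) ∧
      ∃ d : ℤ, (∀ x : ℤ, ¬ (p : ℤ) ∣ x ^ 2 - d) ∧ t.1 * t.2 = (d : k)) :
    ∃ t ∈ 𝒯, t.1 ≠ t.2 ^ 3 := by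
  obtain ⟨t, ht, ⟨n, hn⟩, d, hd, htd⟩ := hd
  obtain ⟨ht1, ht2⟩ := h0 t ht
  refine ⟨t, ht, fun h => ?_⟩
  apply h4y_ne_sq (k := k) d n hd
  rw [← htd, ← hn, h]
  field_simp

/-- In the Weyl case every quotient `t₁ / t₂`, `t ∈ 𝒯`, is a multiplier of every additive
equivariant map on `V` (if `V ≠ 0`). -/
theorem h4y_weyl_mult (hp2 : p ≠ 2) (V : AddSubgroup k) (𝒯 : Set (k × k))
    (h0 : ∀ t ∈ 𝒯, t.1 ≠ 0 ∧ t.2 ≠ 0)
    (hstab : ∀ t ∈ 𝒯, ∀ x ∈ V, t.1 / t.2 * x ∈ V)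
    (hW : ∀ x ∈ V, ∀ x' ∈ V, x ≠ 0 → x' ≠ 0 → (x / x', x' / x) ∈ 𝒯)
    (a : k → k) (ha : ∀ x ∈ V, ∀ y ∈ V, a (x + y) = a x + a y)
    (heq : ∀ t ∈ 𝒯, ∀ x ∈ V, a (t.1 / t.2 * x) = t.1 ^ 2 * a x)
    (x₀ : k) (hx₀ : x₀ ∈ V) (hx₀0 : x₀ ≠ 0) :
    ∀ t ∈ 𝒯, t.1 / t.2 ∈ h4y_mult V a ha := by
  -- squares of ratios are multipliers
  have hsq : ∀ x ∈ V, ∀ x' ∈ V, x ≠ 0 → x' ≠ 0 → (x / x') ^ 2 ∈ h4y_mult V a ha := by
    intro x hx x' hx' hx0 hx'0 y hy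
    have ht := hW x hx x' hx' hx0 hx'0
    have h1 := hstab _ ht y hy
    have h2 := heq _ ht y hy
    have h3 : (x / x') / (x' / x) = (x / x') ^ 2 := by
      field_simp
    simp only at h1 h2
    rw [h3] at h1 h2
    exact ⟨h1, h2⟩
  -- ratios are multipliers
  have hratio : ∀ x ∈ V, ∀ x' ∈ V, x ≠ 0 → x' ≠ 0 → x / x' ∈ h4y_mult V a ha := by
    intro x hx x' hx' hx0 hx'0
    by_cases hs : x + x' = 0
    · have h1 : x / x' = -1 := by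
        rw [div_eq_iff hx'0]
        rw [neg_one_mul]
        exact eq_neg_of_add_eq_zero_left hs
      rw [h1]
      exact (h4y_mult V a ha).neg_mem (h4y_mult V a ha).one_mem
    · apply h4y_half_mem hp2
      have h1 := hsq (x + x') (V.add_mem hx hx') x' hx' hs hx'0
      have h2 := hsq x hx x' hx' hx0 hx'0
      have h3 : 2 * (x / x') = ((x + x') / x') ^ 2 - 1 - (x / x') ^ 2 := by
        field_simp
        ring
      rw [h3]
      exact (h4y_mult V a ha).sub_mem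
        ((h4y_mult V a ha).sub_mem h1 (h4y_mult V a ha).one_mem) h2
  intro t ht
  obtain ⟨ht1, ht2⟩ := h0 t ht
  have h1 := hstab t ht x₀ hx₀
  have h2 : t.1 / t.2 * x₀ ≠ 0 := mul_ne_zero (div_ne_zero ht1 ht2) hx₀0
  have h3 := hratio _ h1 x₀ hx₀ h2 hx₀0
  rwa [mul_div_assoc, div_self hx₀0, mul_one] at h3

/-- **Weyl case, (hA).** -/
theorem h4y_weyl_hA (hp2 : p ≠ 2) (V : AddSubgroup k) (𝒯 : Set (k × k))
    (h0 : ∀ t ∈ 𝒯, t.1 ≠ 0 ∧ t.2 ≠ 0)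
    (hstab : ∀ t ∈ 𝒯, ∀ x ∈ V, t.1 / t.2 * x ∈ V)
    (hW : ∀ x ∈ V, ∀ x' ∈ V, x ≠ 0 → x' ≠ 0 → (x / x', x' / x) ∈ 𝒯)
    (hd : ∃ t ∈ 𝒯, ∃ d : ℤ, (∀ x : ℤ, ¬ (p : ℤ) ∣ x ^ 2 - d) ∧ t.1 * t.2 = (d : k)) :
    ∀ a : k → k, (∀ x ∈ V, ∀ y ∈ V, a (x + y) = a x + a y) →
      (∀ t ∈ 𝒯, ∀ x ∈ V, a (t.1 / t.2 * x) = t.1 ^ 2 * a x) → ∀ x ∈ V, a x = 0 := by
  intro a ha heq x hx
  by_cases hx0 : x = 0
  · rw [hx0]
    exact h4y_map_zero V a ha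
  obtain ⟨t, ht, d, hd, htd⟩ := hd
  obtain ⟨ht1, ht2⟩ := h0 t ht
  have hm := h4y_weyl_mult hp2 V 𝒯 h0 hstab hW a ha heq x hx hx0 t ht
  have h1 := heq t ht x hx
  rw [((h4y_mem_mult V a ha _).1 hm x hx).2] at h1
  have h3 : t.1 ^ 2 = (d : k) * (t.1 / t.2) := by
    rw [← htd]
    field_simp
  rw [h3] at h1
  have hn0 : t.1 / t.2 ≠ 0 := div_ne_zero ht1 ht2
  have h4 : t.1 / t.2 * ((1 - (d : k)) * a x) = 0 := by
    have : t.1 / t.2 * ((1 - (d : k)) * a x) =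
        t.1 / t.2 * a x - (d : k) * (t.1 / t.2) * a x := by ring
    rw [this, ← h1, sub_self]
  rcases mul_eq_zero.1 h4 with h | h
  · exact absurd h hn0
  · rcases mul_eq_zero.1 h with h | h
    · exact absurd h (h4y_one_sub_ne_zero d hd)
    · exact h

/-- **Weyl case, (hC).** -/
theorem h4y_weyl_hC (hp2 : p ≠ 2) (V : AddSubgroup k) (𝒯 : Set (k × k))
    (h0 : ∀ t ∈ 𝒯, t.1 ≠ 0 ∧ t.2 ≠ 0)
    (hstab : ∀ t ∈ 𝒯, ∀ x ∈ V, t.1 / t.2 * x ∈ V)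
    (hV : ∃ x ∈ V, x ≠ 0)
    (hW : ∀ x ∈ V, ∀ x' ∈ V, x ≠ 0 → x' ≠ 0 → (x / x', x' / x) ∈ 𝒯)
    (hd : ∃ t ∈ 𝒯, ∃ d : ℤ, (∀ x : ℤ, ¬ (p : ℤ) ∣ x ^ 2 - d) ∧ t.1 * t.2 = (d : k)) :
    p = 3 ∨ ∃ t ∈ 𝒯, t.1 ≠ t.2 ^ 3 := by
  by_contra hcon
  rw [not_or] at hcon
  obtain ⟨hp3, hall⟩ := hcon
  have hall' : ∀ t ∈ 𝒯, t.1 = t.2 ^ 3 := by
    intro t ht
    by_contra h
    exact hall ⟨t, ht, h⟩
  obtain ⟨x₀, hx₀, hx₀0⟩ := hV
  -- ratios are fourth roots of unity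
  have h4 : ∀ x ∈ V, ∀ x' ∈ V, x ≠ 0 → x' ≠ 0 → (x / x') ^ 4 = 1 := by
    intro x hx x' hx' hx0 hx'0
    have h := hall' _ (hW x hx x' hx' hx0 hx'0)
    simp only at h
    have h1 : (x / x') ^ 4 = x / x' * (x / x') ^ 3 := by ring
    rw [h1]
    nth_rewrite 1 [h]
    field_simp
  have h2ne : (2 : k) ≠ 0 := by
    intro h
    have h1 : ((2 : ℕ) : k) = 0 := by exact_mod_cast h
    rw [CharP.cast_eq_zero_iff k p] at h1
    exact hp2 ((Nat.prime_dvd_prime_iff_eq (Fact.out : p.Prime) Nat.prime_two).1 h1)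
  -- the ratio 2
  have h15 : ((15 : ℕ) : k) = 0 := by
    have hx2 : x₀ + x₀ ≠ 0 := by
      rw [← two_mul]
      exact mul_ne_zero h2ne hx₀0
    have h := h4 (x₀ + x₀) (V.add_mem hx₀ hx₀) x₀ hx₀ hx2 hx₀0
    have h1 : (x₀ + x₀) / x₀ = 2 := by
      field_simp
      ring
    rw [h1] at h
    push_cast
    linear_combination h
  rw [CharP.cast_eq_zero_iff k p] at h15
  have hp5 : p = 5 := by
    have h1 : p ∣ 3 * 5 := h15
    rcases (Nat.Prime.dvd_mul (Fact.out : p.Prime)).1 h1 with h | h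
    · exact absurd ((Nat.prime_dvd_prime_iff_eq (Fact.out : p.Prime) Nat.prime_three).1 h) hp3
    · exact (Nat.prime_dvd_prime_iff_eq (Fact.out : p.Prime) Nat.prime_five).1 h
  have h5 : (5 : k) = 0 := by
    have : ((5 : ℕ) : k) = 0 := by
      rw [CharP.cast_eq_zero_iff k p, hp5]
    exact_mod_cast this
  obtain ⟨t, ht, d, hd, htd⟩ := hd
  obtain ⟨ht1, ht2⟩ := h0 t ht
  have hα : (t.1 / t.2) ^ 4 = 1 := by
    have h1 := hstab t ht x₀ hx₀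
    have h2 : t.1 / t.2 * x₀ ≠ 0 := mul_ne_zero (div_ne_zero ht1 ht2) hx₀0
    have h3 := h4 _ h1 x₀ hx₀ h2 hx₀0
    rwa [mul_div_assoc, div_self hx₀0, mul_one] at h3
  have hfac : (t.1 / t.2 - 1) * (t.1 / t.2 - 2) * (t.1 / t.2 - 3) * (t.1 / t.2 - 4) = 0 := by
    have : (t.1 / t.2 - 1) * (t.1 / t.2 - 2) * (t.1 / t.2 - 3) * (t.1 / t.2 - 4) =
        (t.1 / t.2) ^ 4 - 1 + 5 * (- 2 * (t.1 / t.2) ^ 3 + 7 * (t.1 / t.2) ^ 2
          - 10 * (t.1 / t.2) + 5) := by ring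
    rw [this, hα, h5]
    ring
  have hn : ∃ n : ℤ, t.1 / t.2 = (n : k) := by
    rcases mul_eq_zero.1 hfac with h | h
    · rcases mul_eq_zero.1 h with h | h
      · rcases mul_eq_zero.1 h with h | h
        · exact ⟨1, by rw [sub_eq_zero.1 h]; norm_num⟩
        · exact ⟨2, by rw [sub_eq_zero.1 h]; norm_num⟩
      · exact ⟨3, by rw [sub_eq_zero.1 h]; norm_num⟩
    · exact ⟨4, by rw [sub_eq_zero.1 h]; norm_num⟩
  obtain ⟨t', ht', hne⟩ := h4y_triv_hC (p := p) 𝒯 h0 ⟨t, ht, hn, d, hd, htd⟩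
  exact hne (hall' t' ht')

end Main

end Fermat.Agent.S56G
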