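import Fermat.Agent.S56G.H48Iface2
import Fermat.Agent.S56G.H4Weyl

/-!
# S56, TW-CHEB group theory, leaf FINAL (helper4): `h4y_final : H48GFinal`

The two hypotheses (hA), (hC) of `H48GCocycle` from the ratio property: case split on
"every `t₁ / t₂` lies in the prime field" (`h4y_triv_hA`, `h4y_triv_hC`) or not
(`h4y_weyl_hA`, `h4y_weyl_hC`).
-/

set_option autoImplicit false

namespace Fermat.Agent.S56G

/-- **LEAF FINAL**: the exact frozen `Prop` `H48GFinal`. -/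
theorem h4y_final : H48GFinal := by
  intro k _ p _ _ hp2 V 𝒯 h0 hstab hV hd hratio
  by_cases hcase : ∃ t ∈ 𝒯, ∀ j : ℤ, t.1 / t.2 ≠ (j : k)
  · have hW := hratio hcase
    exact ⟨h4y_weyl_hA hp2 V 𝒯 h0 hstab hW hd, h4y_weyl_hC hp2 V 𝒯 h0 hstab hV hW hd⟩
  · have hall : ∀ t ∈ 𝒯, ∃ j : ℤ, t.1 / t.2 = (j : k) := by
      intro t ht
      by_contra h
      exact hcase ⟨t, ht, fun j hj => h ⟨j, hj⟩⟩
    obtain ⟨t, ht, d, hdns, htd⟩ := hd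
    have hd' : ∃ t ∈ 𝒯, (∃ n : ℤ, t.1 / t.2 = (n : k)) ∧
        ∃ d : ℤ, (∀ x : ℤ, ¬ (p : ℤ) ∣ x ^ 2 - d) ∧ t.1 * t.2 = (d : k) :=
      ⟨t, ht, hall t ht, d, hdns, htd⟩
    exact ⟨h4y_triv_hA (p := p) V 𝒯 h0 hd', Or.inr (h4y_triv_hC (p := p) 𝒯 h0 hd')⟩

end Fermat.Agent.S56G
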