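import Fermat.Agent.S56G.H48Iface

/-!
# S56, TW-CHEB group theory, leaf A (helper4, prefix `h4v_`): averaging

A `1`-cocycle of a finite group `G` whose restriction to a subgroup `H` of index invertible in
`k` is a coboundary is a coboundary.
-/

set_option autoImplicit false

namespace Fermat.Agent.S56G

/-- A cocycle vanishing on a subgroup `H` of index invertible in `k` is a coboundary. -/
theorem h4v_avg_of_vanish {k : Type} [Field k] {G : Type} [Group G] [Finite G]
    {M : Type} [AddCommGroup M] [Module k M]
    (act : G →* (M →ₗ[k] M)) (H : Subgroup G) (hidx : ((H.index : ℕ) : k) ≠ 0)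
    (f : G → M) (hf : ∀ g h, f (g * h) = f g + act g (f h))
    (hH : ∀ h ∈ H, f h = 0) : ∃ Y : M, ∀ g, f g = act g Y - Y := by
  classical
  have hconst : ∀ g h, h ∈ H → f (g * h) = f g := by
    intro g h hh
    rw [hf, hH h hh, map_zero, add_zero]
  let F : G ⧸ H → M := fun c => Quotient.liftOn' c f (by
    intro a b hab
    rw [QuotientGroup.leftRel_apply] at hab
    have := hconst a (a⁻¹ * b) hab
    rw [mul_inv_cancel_left] at this
    exact this.symm)
  have hF : ∀ g : G, F (g : G ⧸ H) = f g := fun g => rfl
  letI : Fintype (G ⧸ H) := Fintype.ofFinite _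
  set S : M := ∑ c : G ⧸ H, F c with hS
  have hcard : (Fintype.card (G ⧸ H) : k) ≠ 0 := by
    have : Fintype.card (G ⧸ H) = H.index := by
      rw [Subgroup.index, Nat.card_eq_fintype_card]
    rw [this]
    exact hidx
  have key : ∀ g : G, S = (Fintype.card (G ⧸ H) : k) • f g + act g S := by
    intro g
    have h1 : ∑ c : G ⧸ H, F (g • c) = S :=
      Fintype.sum_equiv (MulAction.toPerm g) _ _ (fun c => rfl)
    have h2 : ∀ c : G ⧸ H, F (g • c) = f g + act g (F c) := by
      intro c
      induction c using QuotientGroup.induction_on with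
      | H a =>
        show F ((g * a : G) : G ⧸ H) = _
        rw [hF, hF, hf]
    calc S = ∑ c : G ⧸ H, F (g • c) := h1.symm
      _ = (Fintype.card (G ⧸ H) : k) • f g + act g S := by
        simp only [h2, Finset.sum_add_distrib, Finset.sum_const, Finset.card_univ, ← map_sum]
        rw [Nat.cast_smul_eq_nsmul]
  refine ⟨-((Fintype.card (G ⧸ H) : k)⁻¹ • S), fun g => ?_⟩
  have h3 : (Fintype.card (G ⧸ H) : k) • f g = S - act g S := by
    rw [eq_sub_iff_add_eq]
    exact (key g).symm
  have h4 : f g = (Fintype.card (G ⧸ H) : k)⁻¹ • (S - act g S) := by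
    rw [← h3, smul_smul, inv_mul_cancel₀ hcard, one_smul]
  rw [h4, map_neg, map_smul, smul_sub]
  abel

/-- **LEAF A (averaging)** of the TW-CHEB group theory: the exact frozen `Prop`. -/
theorem h4v_avg : H48GAvg := by
  intro k _ G _ _ M _ _ act H hidx f hf hX
  obtain ⟨X, hX⟩ := hX
  have hf' : ∀ g h, (fun g => f g - (act g X - X)) (g * h) =
      (fun g => f g - (act g X - X)) g + act g ((fun g => f g - (act g X - X)) h) := by
    intro g h
    simp only [hf g h, map_mul, Module.End.mul_apply, map_sub]
    abel
  have hH' : ∀ h ∈ H, (fun g => f g - (act g X - X)) h = 0 := by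
    intro h hh
    simp only [hX h hh, sub_self]
  obtain ⟨Y, hY⟩ := h4v_avg_of_vanish act H hidx _ hf' hH'
  refine ⟨X + Y, fun g => ?_⟩
  have h1 : f g - (act g X - X) = act g Y - Y := hY g
  rw [map_add]
  rw [sub_eq_iff_eq_add] at h1
  rw [h1]
  abel

end Fermat.Agent.S56G
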