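import Fermat.Agent.S56G.H48Iface2
import Fermat.Agent.S56G.H4Avg

/-!
# S56, TW-CHEB group theory, leaf SMALL (helper4, prefix `h4s_`)

* `h4s_trace_correct`: a coboundary `g ↦ g · Y - Y` with trace-zero values is the coboundary of
  the trace-zero matrix `Y - (tr Y / 2) • 1` (odd characteristic).
* `h4s_concl_of_coboundary`: the same, as an implication to `h48g_Concl`-shape.
* `h4s_small : H48GSmall`: if `p ∤ #G` every trace-zero cocycle is the coboundary of a trace-zero
  matrix (Maschke via `h4v_avg` with `H = ⊥`, then trace correction).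
-/

set_option autoImplicit false

open Matrix

namespace Fermat.Agent.S56G

/-- The twisted adjoint action on the identity matrix. -/
theorem h4s_act_one_mat {k : Type} [Field k] (g : GL (Fin 2) k) :
    h48g_act g (1 : Matrix (Fin 2) (Fin 2) k) =
      (g : Matrix (Fin 2) (Fin 2) k).det • (1 : Matrix (Fin 2) (Fin 2) k) := by
  unfold h48g_act
  rw [Matrix.mul_one, ← Units.val_mul, mul_inv_cancel, Units.val_one]

/-- **Trace correction.**  A coboundary with trace-zero values is the coboundary of a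
trace-zero matrix. -/
theorem h4s_trace_correct {k : Type} [Field k] (h2 : (2 : k) ≠ 0) {G : Type}
    (ι : G → GL (Fin 2) k)
    (f : G → Matrix (Fin 2) (Fin 2) k) (hf0 : ∀ g, (f g).trace = 0)
    (Y : Matrix (Fin 2) (Fin 2) k) (hY : ∀ g : G, f g = h48g_act (ι g) Y - Y) :
    ∃ X : Matrix (Fin 2) (Fin 2) k, X.trace = 0 ∧ ∀ g : G, f g = h48g_act (ι g) X - X := by
  refine ⟨Y - (Y.trace / 2) • (1 : Matrix (Fin 2) (Fin 2) k), ?_, ?_⟩
  · rw [Matrix.trace_sub, Matrix.trace_smul, Matrix.trace_one, Fintype.card_fin, smul_eq_mul]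
    push_cast
    field_simp
    ring
  · intro g
    have h3 : ((ι g : Matrix (Fin 2) (Fin 2) k).det - 1) * Y.trace = 0 := by
      have h := hf0 g
      rw [hY g, Matrix.trace_sub, h48g_act_trace] at h
      rw [sub_mul, one_mul]
      exact h
    rw [h48g_act_sub, h48g_act_smul, h4s_act_one_mat, hY g]
    have h4 : (Y.trace / 2) • ((ι g : Matrix (Fin 2) (Fin 2) k).det •
        (1 : Matrix (Fin 2) (Fin 2) k)) = (Y.trace / 2) • (1 : Matrix (Fin 2) (Fin 2) k) := by
      rw [smul_smul]
      congr 1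
      have : Y.trace / 2 * (ι g : Matrix (Fin 2) (Fin 2) k).det - Y.trace / 2 =
          ((ι g : Matrix (Fin 2) (Fin 2) k).det - 1) * Y.trace / 2 := by ring
      have h5 := this
      rw [h3, zero_div] at h5
      exact sub_eq_zero.1 h5
    rw [h4]
    abel

/-- **LEAF SMALL**: the exact frozen `Prop` `H48GSmall`. -/
theorem h4s_small : H48GSmall := by
  intro k _ _ p _ _ hp2 G hpG f hf0 hf
  have h2 : (2 : k) ≠ 0 := by
    intro h
    have h1 : ((2 : ℕ) : k) = 0 := by exact_mod_cast h
    rw [CharP.cast_eq_zero_iff k p] at h1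
    exact hp2 ((Nat.prime_dvd_prime_iff_eq (Fact.out : p.Prime) Nat.prime_two).1 h1)
  have hidx : ((((⊥ : Subgroup G).index : ℕ)) : k) ≠ 0 := by
    rw [Subgroup.index_bot]
    intro h
    rw [CharP.cast_eq_zero_iff k p] at h
    exact hpG h
  have hf1 : f 1 = 0 := by
    have h := hf 1 1
    rw [mul_one, Subgroup.coe_one, h48g_act_one] at h
    have h' : f 1 + f 1 = f 1 + 0 := by rw [add_zero]; exact h.symm
    exact add_left_cancel h'
  obtain ⟨Y, hY⟩ := h4v_avg k G (Matrix (Fin 2) (Fin 2) k) (h48g_rep.comp G.subtype)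
    (⊥ : Subgroup G) hidx f (fun g h => hf g h)
    ⟨0, fun h hh => by
      rw [Subgroup.mem_bot] at hh
      rw [hh, hf1, map_zero, sub_zero]⟩
  exact h4s_trace_correct h2 (fun g : G => (g : GL (Fin 2) k)) f hf0 Y (fun g => hY g)

end Fermat.Agent.S56G
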