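import Fermat.Agent.S56G.H48Iface

/-!
# S56, TW-CHEB group theory, LEAF C (helper76, prefix `h76c_`): the cocycle computation

`h76c_cocycle : H48GCocycle` (exact frozen `Prop` of `S56G/H48Iface.lean`).

`a, b, c` are the `E, H, F`-coordinates of a torus-equivariant cocycle on the unipotent radical
`u(V)`:

1. the symmetry of `b (x + y)` gives `x c(y) = y c(x)`, so `c = λ x` on `V`;
2. `λ = 0`: for `p = 3` from `0 = a (3 x) = λ x³`, otherwise from the torus element with
   `t₁ ≠ t₂³`;
3. then `b` is additive, the symmetry of `a (x + y)` gives `x b(y) = y b(x)`, so `b = μ x`,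
   and the equivariance of `b` gives `μ = 0` or `t₂² = 1` for all `t`;
4. `a'' = a + μ x²` is additive and equivariant, hence `0` by the hypothesis `hA`.

Mathlib only.
-/

set_option autoImplicit false

namespace Fermat.Agent.S56G

/-- step 1: a function with `x c(y) = y c(x)` on `V` is linear on `V`. -/
theorem h76c_linear_of_symm {k : Type} [Field k] (V : AddSubgroup k) (c : k → k)
    (hsym : ∀ x ∈ V, ∀ y ∈ V, x * c y = y * c x) (hc0 : c 0 = 0) :
    ∃ lam : k, ∀ x ∈ V, c x = lam * x := by
  by_cases hV : ∃ x₀ ∈ V, x₀ ≠ 0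
  · obtain ⟨x₀, hx₀, hne⟩ := hV
    refine ⟨c x₀ / x₀, fun y hy => ?_⟩
    have h := hsym x₀ hx₀ y hy
    field_simp
    linear_combination h
  · refine ⟨0, fun x hx => ?_⟩
    have hx0 : x = 0 := by
      by_contra hne
      exact hV ⟨x, hx, hne⟩
    rw [hx0, hc0, mul_zero]

/-- **LEAF C**: the cocycle computation on the Borel subgroup. -/
theorem h76c_cocycle : H48GCocycle := by
  intro k _ p _ _ hp2 V 𝒯 hT hTV hA hC a b c hc hb ha hae hbe hce
  have h2 : (2 : k) ≠ 0 := by
    intro h
    have h' : ((2 : ℕ) : k) = 0 := by exact_mod_cast h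
    rw [CharP.cast_eq_zero_iff k p] at h'
    have hp : p.Prime := Fact.out
    rcases (Nat.dvd_prime Nat.prime_two).mp h' with h1 | h1
    · exact hp.one_lt.ne' h1
    · exact hp2 h1
  have h0V : (0 : k) ∈ V := V.zero_mem
  -- values at `0`
  have hc0 : c 0 = 0 := by
    have h := hc 0 h0V 0 h0V
    rw [add_zero] at h
    linear_combination -h
  have hb0 : b 0 = 0 := by
    have h := hb 0 h0V 0 h0V
    rw [add_zero] at h
    linear_combination -h
  have ha0 : a 0 = 0 := by
    have h := ha 0 h0V 0 h0V
    rw [add_zero] at h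
    linear_combination -h
  -- step 1
  have hcsym : ∀ x ∈ V, ∀ y ∈ V, x * c y = y * c x := by
    intro x hx y hy
    have h1 := hb x hx y hy
    have h2' := hb y hy x hx
    rw [add_comm y x] at h2'
    linear_combination h2' - h1
  obtain ⟨lam, hlam⟩ := h76c_linear_of_symm V c hcsym hc0
  -- step 2
  have hc_zero : ∀ x ∈ V, c x = 0 := by
    intro x hx
    by_cases hx0 : x = 0
    · rw [hx0, hc0]
    have hlam0 : lam = 0 := by
      rcases hC with hp3 | ⟨t, ht, hne⟩
      · -- `p = 3`
        have h3 : (3 : k) = 0 := by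
          have h' : ((3 : ℕ) : k) = 0 := by
            rw [CharP.cast_eq_zero_iff k p, hp3]
          exact_mod_cast h'
        have hxx : x + x ∈ V := V.add_mem hx hx
        have e1 := ha x hx x hx
        have e2 := ha (x + x) hxx x hx
        have e3 : x + x + x = 0 := by linear_combination x * h3
        rw [e3, ha0, e1, hlam x hx] at e2
        have e4 : lam * x ^ 3 = 0 := by
          linear_combination -e2 - (a x - 2 * x * b x - 2 * lam * x ^ 3) * h3
        rcases mul_eq_zero.mp e4 with h | h
        · exact h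
        · exact absurd (pow_eq_zero_iff (by norm_num) |>.mp h) hx0
      · -- some `t` with `t₁ ≠ t₂³`
        obtain ⟨ht1, ht2⟩ := hT t ht
        have e1 := hce t ht x hx
        rw [hlam x hx, hlam _ (hTV t ht x hx)] at e1
        have e2 : lam * (x * (t.1 - t.2 ^ 3)) = 0 := by
          have e3 : lam * (t.1 / t.2 * x) * t.2 = t.2 ^ 2 * (lam * x) * t.2 := by rw [e1]
          have e4 : lam * (t.1 / t.2 * x) * t.2 = lam * (t.1 * x) := by
            field_simp
          rw [e4] at e3
          linear_combination e3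
        rcases mul_eq_zero.mp e2 with h | h
        · exact h
        · rcases mul_eq_zero.mp h with h | h
          · exact absurd h hx0
          · exact absurd (sub_eq_zero.mp h) hne
    rw [hlam x hx, hlam0, zero_mul]
  -- step 3
  have hbadd : ∀ x ∈ V, ∀ y ∈ V, b (x + y) = b x + b y := by
    intro x hx y hy
    rw [hb x hx y hy, hc_zero y hy, mul_zero, add_zero]
  have hbsym : ∀ x ∈ V, ∀ y ∈ V, x * b y = y * b x := by
    intro x hx y hy
    have h1 := ha x hx y hy
    have h2' := ha y hy x hx
    rw [add_comm y x] at h2'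
    rw [hc_zero y hy] at h1
    rw [hc_zero x hx] at h2'
    have h3 : 2 * (x * b y - y * b x) = 0 := by linear_combination h1 - h2'
    rcases mul_eq_zero.mp h3 with h | h
    · exact absurd h h2
    · exact sub_eq_zero.mp h
  obtain ⟨mu, hmu⟩ := h76c_linear_of_symm V b hbsym hb0
  -- if `V = 0` take `μ = 0`
  by_cases hV : ∃ x₀ ∈ V, x₀ ≠ 0
  · obtain ⟨x₀, hx₀, hne⟩ := hV
    have hmuT : mu = 0 ∨ ∀ t ∈ 𝒯, t.2 ^ 2 = 1 := by
      by_cases hmu0 : mu = 0
      · exact Or.inl hmu0
      · refine Or.inr fun t ht => ?_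
        obtain ⟨ht1, ht2⟩ := hT t ht
        have e1 := hbe t ht x₀ hx₀
        rw [hmu x₀ hx₀, hmu _ (hTV t ht x₀ hx₀)] at e1
        have e3 : mu * (t.1 / t.2 * x₀) * t.2 = t.1 * t.2 * (mu * x₀) * t.2 := by rw [e1]
        have e4 : mu * (t.1 / t.2 * x₀) * t.2 = mu * (t.1 * x₀) := by
          field_simp
        rw [e4] at e3
        have e5 : mu * t.1 * x₀ * (t.2 ^ 2 - 1) = 0 := by linear_combination -e3
        rcases mul_eq_zero.mp e5 with h | h
        · rcases mul_eq_zero.mp h with h | h
          · rcases mul_eq_zero.mp h with h | h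
            · exact absurd h hmu0
            · exact absurd h ht1
          · exact absurd h hne
        · exact sub_eq_zero.mp h
    refine ⟨mu, hmuT, fun x hx => ⟨hc_zero x hx, hmu x hx, ?_⟩⟩
    -- step 4
    have hA' := hA (fun x => a x + mu * x ^ 2) ?_ ?_ x hx
    · have hA'' : a x + mu * x ^ 2 = 0 := hA'
      linear_combination hA''
    · intro x hx y hy
      show a (x + y) + mu * (x + y) ^ 2 = (a x + mu * x ^ 2) + (a y + mu * y ^ 2)
      rw [ha x hx y hy, hc_zero y hy, hmu y hy]
      ring
    · intro t ht x hx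
      obtain ⟨ht1, ht2⟩ := hT t ht
      show a (t.1 / t.2 * x) + mu * (t.1 / t.2 * x) ^ 2 = t.1 ^ 2 * (a x + mu * x ^ 2)
      rw [hae t ht x hx]
      rcases hmuT with h | h
      · rw [h]
        ring
      · have h' := h t ht
        have e : (t.1 / t.2 * x) ^ 2 = t.1 ^ 2 * x ^ 2 := by
          field_simp
          rw [h']
          ring
        rw [e]
        ring
  · have hall : ∀ x ∈ V, x = 0 := by
      intro x hx
      by_contra hne
      exact hV ⟨x, hx, hne⟩
    refine ⟨0, Or.inl rfl, fun x hx => ?_⟩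
    rw [hall x hx, hc0, hb0, ha0]
    simp

end Fermat.Agent.S56G
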