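import Fermat.Agent.S56G.H48Iface2
import Fermat.Agent.S56G.H4Avg
import Fermat.Agent.S56G.H76Coc

/-!
# S56, TW-CHEB group theory, leaf ASM (helper89, prefix `h89a_`)

In normal form (`h48g_N2`), with the index of the Borel subgroup invertible in `k` and the two
hypotheses of `H48GCocycle` for `(V, T)`, every trace-zero cocycle of `G` for the twisted adjoint
action is the coboundary of a trace-zero matrix.

Steps: average over the diagonal torus `T_d` (order prime to `p`), normalise the cocycle to vanish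
on `T_d`, read off the three coordinate functions on `u(V)`, apply the landed cocycle computation
`h76c_cocycle`, extend to `B = u(V) T_d`, average over `G / B`, and correct the trace.
-/

set_option autoImplicit false

open Matrix Matrix.GeneralLinearGroup

noncomputable section

namespace Fermat.Agent.S56G

variable {k : Type} [Field k]

/-- `g · 1 = det g • 1`. -/
theorem h89a_act_one_mat (g : GL (Fin 2) k) :
    h48g_act g (1 : Matrix (Fin 2) (Fin 2) k) =
      (g : Matrix (Fin 2) (Fin 2) k).det • (1 : Matrix (Fin 2) (Fin 2) k) := by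
  unfold h48g_act
  rw [Matrix.mul_one, ← Matrix.GeneralLinearGroup.coe_mul, mul_inv_cancel]
  rfl

/-- **Trace correction.**  If a family of trace-zero matrices is a coboundary, it is the
coboundary of a trace-zero matrix. -/
theorem h89a_trace_fix (h2 : (2 : k) ≠ 0) {ι : Type} (gl : ι → GL (Fin 2) k)
    (f : ι → Matrix (Fin 2) (Fin 2) k) (htr : ∀ i, (f i).trace = 0)
    (Y : Matrix (Fin 2) (Fin 2) k) (hY : ∀ i, f i = h48g_act (gl i) Y - Y) :
    ∃ X : Matrix (Fin 2) (Fin 2) k, X.trace = 0 ∧ ∀ i, f i = h48g_act (gl i) X - X := by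
  refine ⟨Y - (Y.trace / 2) • (1 : Matrix (Fin 2) (Fin 2) k), ?_, fun i => ?_⟩
  · rw [Matrix.trace_sub, Matrix.trace_smul, Matrix.trace_one, Fintype.card_fin, smul_eq_mul]
    push_cast
    field_simp
    ring
  · have h1 : ((gl i : Matrix (Fin 2) (Fin 2) k).det - 1) * Y.trace = 0 := by
      have := htr i
      rw [hY i, Matrix.trace_sub, h48g_act_trace] at this
      linear_combination this
    have h3 : (Y.trace / 2) • ((gl i : Matrix (Fin 2) (Fin 2) k).det •
        (1 : Matrix (Fin 2) (Fin 2) k)) = (Y.trace / 2) • (1 : Matrix (Fin 2) (Fin 2) k) := by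
      rw [smul_smul]
      congr 1
      field_simp
      linear_combination h1
    rw [h48g_act_sub, h48g_act_smul, h89a_act_one_mat, h3, hY i]
    abel

/-- Powers of a diagonal element. -/
theorem h89a_diag_pow (g : GL (Fin 2) k) (h10 : g 1 0 = 0) (h01 : g 0 1 = 0) (n : ℕ) :
    (g ^ n) 1 0 = 0 ∧ (g ^ n) 0 1 = 0 ∧ (g ^ n) 0 0 = g 0 0 ^ n ∧ (g ^ n) 1 1 = g 1 1 ^ n := by
  induction n with
  | zero => simp
  | succ n ih =>
    obtain ⟨i10, i01, i00, i11⟩ := ih
    rw [pow_succ]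
    refine ⟨?_, ?_, ?_, ?_⟩
    · rw [h48g_mul_10, i10, h10]; simp
    · rw [h48g_mul_01, i01, h01]; simp
    · rw [h48g_mul_00, i00, i01, pow_succ]; simp
    · rw [h48g_mul_11, i11, i10, pow_succ]; simp

/-- In characteristic `p`, `x ^ p = 1` forces `x = 1`. -/
theorem h89a_eq_one_of_pow_char (p : ℕ) [Fact p.Prime] [CharP k p] {x : k} (hx : x ^ p = 1) :
    x = 1 := by
  have h : (x - 1) ^ p = 0 := by
    rw [sub_pow_char, hx, one_pow, sub_self]
  exact sub_eq_zero.mp (pow_eq_zero_iff (Fact.out : p.Prime).ne_zero |>.mp h)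

/-- The diagonal torus of `G` has order prime to `p`. -/
theorem h89a_card_Td_ne_zero [Finite k] (p : ℕ) [Fact p.Prime] [CharP k p]
    (G : Subgroup (GL (Fin 2) k)) : ((Nat.card (h48g_Td G) : ℕ) : k) ≠ 0 := by
  intro h0
  have hdvd : p ∣ Nat.card (h48g_Td G) := (CharP.cast_eq_zero_iff k p _).mp h0
  obtain ⟨t, ht⟩ := exists_prime_orderOf_dvd_card' p hdvd
  have htp : t ^ p = 1 := by rw [← ht]; exact pow_orderOf_eq_one t
  have hne : t ≠ 1 := by
    intro h1
    rw [h1, orderOf_one] at ht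
    exact (Fact.out : p.Prime).one_lt.ne ht
  apply hne
  have hmem : ((t : G) : GL (Fin 2) k) 1 0 = 0 ∧ ((t : G) : GL (Fin 2) k) 0 1 = 0 := t.2
  have hpow : (((t : G) : GL (Fin 2) k)) ^ p = 1 := by
    have := congrArg (fun s : h48g_Td G => ((s : G) : GL (Fin 2) k)) htp
    simpa using this
  obtain ⟨-, -, p00, p11⟩ := h89a_diag_pow _ hmem.1 hmem.2 p
  rw [hpow] at p00 p11
  have e00 : ((t : G) : GL (Fin 2) k) 0 0 = 1 :=
    h89a_eq_one_of_pow_char p (by rw [← p00]; simp)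
  have e11 : ((t : G) : GL (Fin 2) k) 1 1 = 1 :=
    h89a_eq_one_of_pow_char p (by rw [← p11]; simp)
  apply Subtype.ext
  apply Subtype.ext
  apply h48g_ext
  · simpa using e00
  · simpa using hmem.2
  · simpa using hmem.1
  · simpa using e11

theorem h89a_T_ne {G : Subgroup (GL (Fin 2) k)} {t : k × k} (ht : t ∈ h48g_T G) :
    t.1 ≠ 0 ∧ t.2 ≠ 0 := by
  obtain ⟨g, -, h10, -, h00, h11⟩ := ht
  have := h48g_upper_diag_ne g h10
  rw [h00, h11] at this
  exact this

/-- A diagonal element is `h48g_dg` of its entries. -/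
theorem h89a_eq_dg (g : GL (Fin 2) k) (h10 : g 1 0 = 0) (h01 : g 0 1 = 0) :
    g = h48g_dg (g 0 0) (g 1 1) (h48g_upper_diag_ne g h10).1 (h48g_upper_diag_ne g h10).2 :=
  h48g_ext (by simp) (by simp [h01]) (by simp [h10]) (by simp)

/-- Conjugation of `u(x)` by a diagonal element. -/
theorem h89a_conj_u (g : GL (Fin 2) k) (h10 : g 1 0 = 0) (h01 : g 0 1 = 0) (x : k) :
    g * upperRightHom x * g⁻¹ = upperRightHom (g 0 0 / g 1 1 * x) := by
  have h := h48g_dg_conj_u (g 0 0) (g 1 1) (h48g_upper_diag_ne g h10).1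
    (h48g_upper_diag_ne g h10).2 x
  rw [← h89a_eq_dg g h10 h01] at h
  exact h

theorem h89a_T_conj {G : Subgroup (GL (Fin 2) k)} {t : k × k} (ht : t ∈ h48g_T G) {x : k}
    (hx : x ∈ h48g_V G) : t.1 / t.2 * x ∈ h48g_V G := by
  obtain ⟨g, hg, h10, h01, h00, h11⟩ := ht
  show upperRightHom (t.1 / t.2 * x) ∈ G
  rw [← h00, ← h11, ← h89a_conj_u g h10 h01 x]
  exact G.mul_mem (G.mul_mem hg hx) (G.inv_mem hg)

/-- A cocycle vanishes at `1`. -/
theorem h89a_coc_one {G : Subgroup (GL (Fin 2) k)} (f : G → Matrix (Fin 2) (Fin 2) k)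
    (hcoc : ∀ g h : G, f (g * h) = f g + h48g_act (g : GL (Fin 2) k) (f h)) : f 1 = 0 := by
  have h := hcoc 1 1
  rw [mul_one, Subgroup.coe_one, h48g_act_one] at h
  exact left_eq_add.mp h

/-- Subtracting a coboundary from a cocycle gives a cocycle. -/
theorem h89a_sub_cob {G : Subgroup (GL (Fin 2) k)} (f : G → Matrix (Fin 2) (Fin 2) k)
    (hcoc : ∀ g h : G, f (g * h) = f g + h48g_act (g : GL (Fin 2) k) (f h))
    (X : Matrix (Fin 2) (Fin 2) k) (g h : G) :
    f (g * h) - (h48g_act ((g * h : G) : GL (Fin 2) k) X - X) =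
      (f g - (h48g_act (g : GL (Fin 2) k) X - X)) +
        h48g_act (g : GL (Fin 2) k) (f h - (h48g_act (h : GL (Fin 2) k) X - X)) := by
  rw [hcoc, Subgroup.coe_mul, h48g_act_mul, h48g_act_sub, h48g_act_sub]
  abel

/-- Entries of the action of `u(x)` on a trace-zero matrix. -/
theorem h89a_act_u (x : k) (X : Matrix (Fin 2) (Fin 2) k) (hX : X.trace = 0) :
    h48g_act (upperRightHom x) X =
      !![X 0 0 + x * X 1 0, X 0 1 - 2 * x * X 0 0 - x ^ 2 * X 1 0;
         X 1 0, -(X 0 0 + x * X 1 0)] := by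
  have h11 : X 1 1 = - X 0 0 := by
    rw [Matrix.trace_fin_two] at hX
    linear_combination hX
  rw [h48g_act_entries]
  simp only [h48g_u_00, h48g_u_01, h48g_u_10, h48g_u_11, h11]
  ext i j
  fin_cases i <;> fin_cases j <;> simp <;> ring

/-- Entries of the action of a diagonal element. -/
theorem h89a_act_diag (g : GL (Fin 2) k) (h10 : g 1 0 = 0) (h01 : g 0 1 = 0)
    (X : Matrix (Fin 2) (Fin 2) k) :
    h48g_act g X =
      !![g 0 0 * g 1 1 * X 0 0, g 0 0 ^ 2 * X 0 1;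
         g 1 1 ^ 2 * X 1 0, g 0 0 * g 1 1 * X 1 1] := by
  rw [h48g_act_entries]
  simp only [h10, h01]
  ext i j
  fin_cases i <;> fin_cases j <;> simp <;> ring

/-- **ASM.** -/
theorem h89a_asm : H48GAsm := by
  intro k _ _ p _ _ hp2 G hN2 hidx hA hC f htr hcoc
  classical
  have h2 : (2 : k) ≠ 0 := by
    intro h
    have h' : ((2 : ℕ) : k) = 0 := by exact_mod_cast h
    have hd := (CharP.cast_eq_zero_iff k p 2).mp h'
    exact hp2 ((Nat.prime_dvd_prime_iff_eq Fact.out Nat.prime_two).mp hd)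
  -- Step 1: averaging over the torus
  have hf1 : f 1 = 0 := h89a_coc_one f hcoc
  obtain ⟨Y₀, hY₀⟩ := h4v_avg k (h48g_Td G) (Matrix (Fin 2) (Fin 2) k)
    ((h48g_rep.comp G.subtype).comp (h48g_Td G).subtype) ⊥
    (by rw [Subgroup.index_bot]; exact h89a_card_Td_ne_zero p G)
    (fun t => f (t : G)) (fun g h => hcoc (g : G) (h : G))
    ⟨0, fun h hh => by
      rw [Subgroup.mem_bot] at hh
      subst hh
      simp [hf1]⟩
  obtain ⟨XT, hXTtr, hXT⟩ := h89a_trace_fix h2
    (fun t : h48g_Td G => ((t : G) : GL (Fin 2) k)) (fun t => f (t : G)) (fun t => htr _) Y₀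
    (fun t => hY₀ t)
  -- Step 2: the normalised cocycle
  obtain ⟨f1, hf1def⟩ : ∃ f1 : G → Matrix (Fin 2) (Fin 2) k,
      ∀ g, f1 g = f g - (h48g_act (g : GL (Fin 2) k) XT - XT) := ⟨_, fun _ => rfl⟩
  have hf1coc : ∀ g h : G, f1 (g * h) = f1 g + h48g_act (g : GL (Fin 2) k) (f1 h) := by
    intro g h
    rw [hf1def, hf1def, hf1def]
    exact h89a_sub_cob f hcoc XT g h
  have hf1tr : ∀ g : G, (f1 g).trace = 0 := by
    intro g
    rw [hf1def, Matrix.trace_sub, Matrix.trace_sub, h48g_act_trace, htr, hXTtr]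
    simp
  have hf1T : ∀ t : G, t ∈ h48g_Td G → f1 t = 0 := by
    intro t ht
    rw [hf1def, hXT ⟨t, ht⟩, sub_self]
  -- Step 3: the coordinate functions on `u(V)`
  obtain ⟨F1, hF1⟩ : ∃ F1 : k → Matrix (Fin 2) (Fin 2) k,
      ∀ (x : k) (hx : x ∈ h48g_V G), F1 x = f1 ⟨upperRightHom x, hx⟩ :=
    ⟨fun x => if hx : x ∈ h48g_V G then f1 ⟨upperRightHom x, hx⟩ else 0,
      fun x hx => dif_pos hx⟩
  have hF1tr : ∀ x ∈ h48g_V G, (F1 x).trace = 0 := fun x hx => by rw [hF1 x hx]; exact hf1tr _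
  have hF1add : ∀ x ∈ h48g_V G, ∀ y ∈ h48g_V G,
      F1 (x + y) = F1 x + h48g_act (upperRightHom x) (F1 y) := by
    intro x hx y hy
    rw [hF1 _ ((h48g_V G).add_mem hx hy), hF1 x hx, hF1 y hy]
    have e : (⟨upperRightHom (x + y), (h48g_V G).add_mem hx hy⟩ : G) =
        ⟨upperRightHom x, hx⟩ * ⟨upperRightHom y, hy⟩ :=
      Subtype.ext (AddChar.map_add_eq_mul _ _ _)
    rw [e, hf1coc]
  have hF1eq : ∀ t ∈ h48g_T G, ∀ x ∈ h48g_V G,
      F1 (t.1 / t.2 * x) = !![t.1 * t.2 * F1 x 0 0, t.1 ^ 2 * F1 x 0 1;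
         t.2 ^ 2 * F1 x 1 0, t.1 * t.2 * F1 x 1 1] := by
    intro t ht x hx
    have hmem := h89a_T_conj ht hx
    obtain ⟨g, hg, h10, h01, h00, h11⟩ := ht
    have hgT : (⟨g, hg⟩ : G) ∈ h48g_Td G := ⟨h10, h01⟩
    have e : (⟨upperRightHom (t.1 / t.2 * x), hmem⟩ : G) =
        ⟨g, hg⟩ * ⟨upperRightHom x, hx⟩ * (⟨g, hg⟩ : G)⁻¹ := by
      apply Subtype.ext
      rw [Subgroup.coe_mul, Subgroup.coe_mul, Subgroup.coe_inv]
      show upperRightHom (t.1 / t.2 * x) = g * upperRightHom x * g⁻¹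
      rw [h89a_conj_u g h10 h01 x, h00, h11]
    rw [hF1 _ hmem, e, hf1coc, hf1coc, hf1T _ hgT, hf1T _ ((h48g_Td G).inv_mem hgT),
      h48g_act_zero, zero_add, add_zero, ← hF1 x hx]
    show h48g_act g (F1 x) = _
    rw [h89a_act_diag g h10 h01, h00, h11]
  -- Step 4: the cocycle computation
  have key := h76c_cocycle k p hp2 (h48g_V G) (h48g_T G) (fun t ht => h89a_T_ne ht)
    (fun t ht x hx => h89a_T_conj ht hx) hA hC
    (fun x => F1 x 0 1) (fun x => F1 x 0 0) (fun x => F1 x 1 0)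
    (fun x hx y hy => by
      have h := congrFun (congrFun (hF1add x hx y hy) 1) 0
      rw [h89a_act_u x (F1 y) (hF1tr y hy)] at h
      simpa using h)
    (fun x hx y hy => by
      have h := congrFun (congrFun (hF1add x hx y hy) 0) 0
      rw [h89a_act_u x (F1 y) (hF1tr y hy)] at h
      simp only [Matrix.add_apply, Matrix.of_apply, Matrix.cons_val', Matrix.cons_val_zero,
        Matrix.cons_val_fin_one] at h
      rw [h]; ring)
    (fun x hx y hy => by
      have h := congrFun (congrFun (hF1add x hx y hy) 0) 1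
      rw [h89a_act_u x (F1 y) (hF1tr y hy)] at h
      simp only [Matrix.add_apply, Matrix.of_apply, Matrix.cons_val', Matrix.cons_val_zero,
        Matrix.cons_val_one, Matrix.cons_val_fin_one] at h
      rw [h]; ring)
    (fun t ht x hx => by
      have h := congrFun (congrFun (hF1eq t ht x hx) 0) 1
      simpa using h)
    (fun t ht x hx => by
      have h := congrFun (congrFun (hF1eq t ht x hx) 0) 0
      simpa using h)
    (fun t ht x hx => by
      have h := congrFun (congrFun (hF1eq t ht x hx) 1) 0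
      simpa using h)
  obtain ⟨μ, hμ, hsol⟩ := key
  -- Step 5: `f1` is the coboundary of `μ F` on `B`
  obtain ⟨Fm, hFm⟩ : ∃ Fm : Matrix (Fin 2) (Fin 2) k, Fm = !![0, 0; μ, 0] := ⟨_, rfl⟩
  have hFmtr : Fm.trace = 0 := by rw [hFm, Matrix.trace_fin_two]; simp
  obtain ⟨f2, hf2def⟩ : ∃ f2 : G → Matrix (Fin 2) (Fin 2) k,
      ∀ g, f2 g = f1 g - (h48g_act (g : GL (Fin 2) k) Fm - Fm) := ⟨_, fun _ => rfl⟩
  have hf2coc : ∀ g h : G, f2 (g * h) = f2 g + h48g_act (g : GL (Fin 2) k) (f2 h) := by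
    intro g h
    rw [hf2def, hf2def, hf2def]
    exact h89a_sub_cob f1 hf1coc Fm g h
  have hf2U : ∀ (x : k) (hx : x ∈ h48g_V G), f2 ⟨upperRightHom x, hx⟩ = 0 := by
    intro x hx
    obtain ⟨hc, hb, ha⟩ := hsol x hx
    have h11 : F1 x 1 1 = - F1 x 0 0 := by
      have := hF1tr x hx
      rw [Matrix.trace_fin_two] at this
      linear_combination this
    rw [hf2def, ← hF1 x hx]
    show F1 x - (h48g_act (upperRightHom x) Fm - Fm) = 0
    rw [h89a_act_u x Fm hFmtr, hFm]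
    ext i j
    fin_cases i <;> fin_cases j <;> simp [hc, hb, ha, h11] <;> ring
  have hf2T : ∀ t : G, t ∈ h48g_Td G → f2 t = 0 := by
    intro t ht
    rw [hf2def, hf1T t ht, h89a_act_diag _ ht.1 ht.2, hFm]
    have hT : ((t : GL (Fin 2) k) 0 0, (t : GL (Fin 2) k) 1 1) ∈ h48g_T G :=
      ⟨t, t.2, ht.1, ht.2, rfl, rfl⟩
    have hμt : (t : GL (Fin 2) k) 1 1 ^ 2 * μ = μ := by
      rcases hμ with h0 | h1
      · rw [h0, mul_zero]
      · rw [h1 _ hT, one_mul]
    ext i j
    fin_cases i <;> fin_cases j <;> simp [hμt]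
  have hf2B : ∀ g : G, g ∈ h48g_B G → f2 g = 0 := by
    intro g hg
    have h10 : (g : GL (Fin 2) k) 1 0 = 0 := hg
    obtain ⟨t, htG, t10, t01, t00, t11⟩ := hN2 g g.2 h10
    have hne := h48g_upper_diag_ne (g : GL (Fin 2) k) h10
    have hgu : (g : GL (Fin 2) k) =
        upperRightHom ((g : GL (Fin 2) k) 0 1 / (g : GL (Fin 2) k) 1 1) * t := by
      apply h48g_ext
      · rw [h48g_mul_00, t00, t10]; simp
      · rw [h48g_mul_01, t01, t11]; simp [hne.2]
      · rw [h48g_mul_10, t10, h10]; simp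
      · rw [h48g_mul_11, t11]; simp
    have hx : (g : GL (Fin 2) k) 0 1 / (g : GL (Fin 2) k) 1 1 ∈ h48g_V G := by
      show upperRightHom _ ∈ G
      have : upperRightHom ((g : GL (Fin 2) k) 0 1 / (g : GL (Fin 2) k) 1 1) =
          (g : GL (Fin 2) k) * t⁻¹ := by
        rw [eq_mul_inv_iff_mul_eq]; exact hgu.symm
      rw [this]
      exact G.mul_mem g.2 (G.inv_mem htG)
    have e : g = ⟨upperRightHom ((g : GL (Fin 2) k) 0 1 / (g : GL (Fin 2) k) 1 1), hx⟩ *
        ⟨t, htG⟩ := Subtype.ext hgu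
    rw [e, hf2coc, hf2U _ hx, hf2T ⟨t, htG⟩ ⟨t10, t01⟩, h48g_act_zero, add_zero]
  -- Step 6: averaging over `G / B` and trace correction
  obtain ⟨Y, hY⟩ := h4v_avg k G (Matrix (Fin 2) (Fin 2) k) (h48g_rep.comp G.subtype)
    (h48g_B G) hidx f (fun g h => hcoc g h)
    ⟨XT + Fm, fun g hg => by
      have h := hf2B g hg
      rw [hf2def, hf1def] at h
      show f g = h48g_act (g : GL (Fin 2) k) (XT + Fm) - (XT + Fm)
      rw [h48g_act_add]
      have h' := sub_eq_zero.mp h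
      rw [sub_eq_iff_eq_add] at h'
      rw [h']
      abel⟩
  exact h89a_trace_fix h2 (fun g : G => (g : GL (Fin 2) k)) f htr Y (fun g => hY g)

end Fermat.Agent.S56G
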