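import Fermat.Agent.S56G.H48Main
import Fermat.Agent.S56G.H48RatioFinal
import Fermat.Agent.S56G.H48Trans
import Fermat.Agent.S56G.H4Small
import Fermat.Agent.S56G.H1Norm
import Fermat.Agent.S56G.H1Frat
import Fermat.Agent.S56G.H4Final
import Fermat.Agent.S56G.H89Asm

/-!
# CHEB-H1VAN, unconditional (helper48): DDT Lemma 2.48 in matrix form

`h48g_vanish : H48GVanish` — for a subgroup `G ≤ GL₂(k)`, `k` a finite field of odd
characteristic `p`, all of whose elements have an eigenvector over `k`, which stabilises no
line and one of whose determinants is a non-square of `𝔽_p`: every trace-zero cocycle for the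
twisted adjoint action `g · X = det g • g X g⁻¹` is a coboundary.

The proof is classification-free (no Dickson): Maschke if `p ∤ #G`; otherwise normal form,
restriction to the Borel subgroup (index prime to `p`), the explicit cocycle computation on the
Borel subgroup, and a fixed-point count on `ℙ¹(k)` which forces the ratios of the diagonal
elements into the prime field.
-/

namespace Fermat.Agent.S56G

theorem h48g_vanish : H48GVanish :=
  h48g_vanish_of h4s_small h1n_normalize h48g_hypConj h48g_transport h1m_mod h1f_frattini
    h48g_ratio h4y_final h89a_asm

end Fermat.Agent.S56G
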