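import Mathlib

/-!
# S56, EQA-PKG, leaf PKG-LOG (helper14), part 1: the product formula of `ℚ`

`h14p_f_rat` : for a nonzero rational number `r` and a finite set `S` of primes containing all
the primes at which `r` is not a unit:  `|r| * ∏_{q ∈ S} |r|_q = 1`.
-/

set_option autoImplicit false
set_option linter.style.haveILetI false

noncomputable section

namespace Fermat.Agent.S56G

/-- the product of `|r|` and the `q`-adic norms of `r` for `q ∈ S`. -/
def h14p_f (S : Finset Nat.Primes) (r : ℚ) : ℚ := |r| * ∏ q ∈ S, padicNorm (q : ℕ) r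

theorem h14p_f_mul (S : Finset Nat.Primes) (r s : ℚ) :
    h14p_f S (r * s) = h14p_f S r * h14p_f S s := by
  unfold h14p_f
  have h : ∀ q ∈ S, padicNorm ((q : Nat.Primes) : ℕ) (r * s) =
      padicNorm (q : ℕ) r * padicNorm (q : ℕ) s := fun q _ => by
    haveI : Fact (q : ℕ).Prime := ⟨q.2⟩
    exact padicNorm.mul r s
  rw [abs_mul, Finset.prod_congr rfl h, Finset.prod_mul_distrib]
  ring

theorem h14p_f_one (S : Finset Nat.Primes) : h14p_f S 1 = 1 := by
  unfold h14p_f
  have h : ∀ q ∈ S, padicNorm ((q : Nat.Primes) : ℕ) 1 = 1 := fun q _ => by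
    haveI : Fact (q : ℕ).Prime := ⟨q.2⟩
    exact padicNorm.one
  rw [abs_one, Finset.prod_congr rfl h, Finset.prod_const_one, mul_one]

theorem h14p_f_neg (S : Finset Nat.Primes) (r : ℚ) : h14p_f S (-r) = h14p_f S r := by
  unfold h14p_f
  have h : ∀ q ∈ S, padicNorm ((q : Nat.Primes) : ℕ) (-r) = padicNorm (q : ℕ) r := fun q _ => by
    haveI : Fact (q : ℕ).Prime := ⟨q.2⟩
    exact padicNorm.neg r
  rw [abs_neg, Finset.prod_congr rfl h]

theorem h14p_f_prime (S : Finset Nat.Primes) (q' : Nat.Primes) (h : q' ∈ S) :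
    h14p_f S ((q' : ℕ) : ℚ) = 1 := by
  unfold h14p_f
  haveI : Fact (q' : ℕ).Prime := ⟨q'.2⟩
  rw [Finset.prod_eq_single q']
  · rw [padicNorm.padicNorm_p_of_prime, Nat.abs_cast]
    exact mul_inv_cancel₀ (Nat.cast_ne_zero.mpr q'.2.ne_zero)
  · intro q _ hne
    haveI : Fact (q : ℕ).Prime := ⟨q.2⟩
    exact padicNorm.padicNorm_of_prime_of_ne (fun h => hne (Subtype.ext h))
  · intro h'
    exact absurd h h'

theorem h14p_f_nat (S : Finset Nat.Primes) (n : ℕ) :
    n ≠ 0 → (∀ q' : Nat.Primes, (q' : ℕ) ∣ n → q' ∈ S) → h14p_f S (n : ℚ) = 1 := by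
  induction n using Nat.recOnMul with
  | zero => intro h; exact absurd rfl h
  | one => intro _ _; rw [Nat.cast_one]; exact h14p_f_one S
  | prime q hq =>
    intro _ h
    exact h14p_f_prime S ⟨q, hq⟩ (h ⟨q, hq⟩ (dvd_refl q))
  | mul a b ha hb =>
    intro hab h
    have ha0 : a ≠ 0 := fun h0 => hab (by rw [h0, zero_mul])
    have hb0 : b ≠ 0 := fun h0 => hab (by rw [h0, mul_zero])
    rw [Nat.cast_mul, h14p_f_mul, ha ha0 (fun q' hq' => h q' (Dvd.dvd.mul_right hq' b)),
      hb hb0 (fun q' hq' => h q' (Dvd.dvd.mul_left hq' a)), one_mul]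

theorem h14p_f_int (S : Finset Nat.Primes) (z : ℤ) (hz : z ≠ 0)
    (h : ∀ q' : Nat.Primes, (q' : ℕ) ∣ z.natAbs → q' ∈ S) : h14p_f S (z : ℚ) = 1 := by
  have h1 := h14p_f_nat S z.natAbs (Int.natAbs_ne_zero.mpr hz) h
  have hcast : ((z.natAbs : ℕ) : ℚ) = |(z : ℚ)| := by
    rw [Nat.cast_natAbs, Int.cast_abs]
  rw [hcast] at h1
  rcases abs_choice (z : ℚ) with h2 | h2
  · rw [h2] at h1
    exact h1
  · rw [h2, h14p_f_neg] at h1
    exact h1

/-- the primes dividing `n`, as a finite set of `Nat.Primes`. -/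
def h14p_primes (n : ℕ) : Finset Nat.Primes := n.primeFactors.subtype Nat.Prime

theorem h14p_mem_primes {n : ℕ} (hn : n ≠ 0) (q : Nat.Primes) :
    q ∈ h14p_primes n ↔ (q : ℕ) ∣ n := by
  unfold h14p_primes
  exact ⟨fun h => (Nat.mem_primeFactors.1 (Finset.mem_subtype.1 h)).2.1,
    fun h => Finset.mem_subtype.2 (Nat.mem_primeFactors.2 ⟨q.2, h, hn⟩)⟩

/-- **the product formula of `ℚ`**. -/
theorem h14p_f_rat (S : Finset Nat.Primes) (r : ℚ) (hr : r ≠ 0)
    (h : ∀ q' : Nat.Primes, q' ∉ S → padicNorm (q' : ℕ) r = 1) : h14p_f S r = 1 := by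
  classical
  have hnum : r.num ≠ 0 := Rat.num_ne_zero.mpr hr
  have hden : r.den ≠ 0 := r.den_nz
  set S' : Finset Nat.Primes := S ∪ (h14p_primes r.num.natAbs ∪ h14p_primes r.den) with hS'
  have h1 : h14p_f S r = h14p_f S' r := by
    unfold h14p_f
    congr 1
    exact Finset.prod_subset Finset.subset_union_left (fun q _ hq => h q hq)
  have h2 : h14p_f S' (r.num : ℚ) = 1 := by
    refine h14p_f_int S' r.num hnum (fun q' hq' => ?_)
    rw [hS', Finset.mem_union, Finset.mem_union]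
    exact Or.inr (Or.inl ((h14p_mem_primes (Int.natAbs_ne_zero.mpr hnum) q').2 hq'))
  have h3 : h14p_f S' (r.den : ℚ) = 1 := by
    refine h14p_f_nat S' r.den hden (fun q' hq' => ?_)
    rw [hS', Finset.mem_union, Finset.mem_union]
    exact Or.inr (Or.inr ((h14p_mem_primes hden q').2 hq'))
  have h4 : r * (r.den : ℚ) = (r.num : ℚ) := Rat.mul_den_eq_num r
  have h5 := h14p_f_mul S' r (r.den : ℚ)
  rw [h4, h2, h3, mul_one] at h5
  rw [h1, ← h5]

end Fermat.Agent.S56G
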