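import Mathlib
import Fermat.Prelude.Def_ExtEndgame_ProductionDatum
import Fermat.Agent.S56G.H14LogRat

/-!
# S56, EQA-PKG, leaf PKG-LOG (helper14), part 2: the absolute values of `ℚ̄`

`h14p_abs i y` : the absolute value of `y ∈ ℚ̄` at the place `i : Option Nat.Primes`
(`none` = the complex absolute value through `complexEmbedding`, `some q` = the `q`-adic norm
through `padicEmbedding q`).

* multiplicativity, positivity;
* `h14p_abs_loc`  : invariance under the local Galois group at `q`;
* `h14p_abs_conj` : invariance under complex conjugation;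
* `h14p_abs_rat_none`, `h14p_abs_rat_some` : the values on `ℚ`;
* `h14p_sum_log_rat` : the product formula of `ℚ` in logarithmic form.
-/

set_option autoImplicit false
set_option linter.style.haveILetI false

open ExtCitation

noncomputable section

namespace Fermat.Agent.S56G

local notation "Qb" => AlgebraicClosure ℚ

/-- the absolute value of `ℚ̄` at the place `i`. -/
def h14p_abs : Option Nat.Primes → Qb → ℝ
  | none => fun y => ‖complexEmbedding y‖
  | some q => fun y =>
    letI : Fact (q : ℕ).Prime := ⟨q.2⟩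
    ‖padicEmbedding (q : ℕ) y‖

theorem h14p_abs_none (y : Qb) : h14p_abs none y = ‖complexEmbedding y‖ := rfl

theorem h14p_abs_some (q : Nat.Primes) (y : Qb) :
    h14p_abs (some q) y =
      (letI : Fact (q : ℕ).Prime := ⟨q.2⟩
       ‖padicEmbedding (q : ℕ) y‖) := rfl

theorem h14p_abs_mul (i : Option Nat.Primes) (x y : Qb) :
    h14p_abs i (x * y) = h14p_abs i x * h14p_abs i y := by
  cases i with
  | none => rw [h14p_abs_none, h14p_abs_none, h14p_abs_none, map_mul, norm_mul]
  | some q =>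
    haveI : Fact (q : ℕ).Prime := ⟨q.2⟩
    rw [h14p_abs_some, h14p_abs_some, h14p_abs_some, map_mul, norm_mul]

theorem h14p_abs_one (i : Option Nat.Primes) : h14p_abs i 1 = 1 := by
  cases i with
  | none => rw [h14p_abs_none, map_one, norm_one]
  | some q =>
    haveI : Fact (q : ℕ).Prime := ⟨q.2⟩
    rw [h14p_abs_some, map_one, norm_one]

theorem h14p_abs_nonneg (i : Option Nat.Primes) (y : Qb) : 0 ≤ h14p_abs i y := by
  cases i with
  | none => exact norm_nonneg _
  | some q => exact norm_nonneg _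

theorem h14p_abs_eq_zero (i : Option Nat.Primes) (y : Qb) : h14p_abs i y = 0 ↔ y = 0 := by
  cases i with
  | none =>
    rw [h14p_abs_none, norm_eq_zero]
    exact map_eq_zero_iff _ (complexEmbedding : Qb →ₐ[ℚ] ℂ).toRingHom.injective
  | some q =>
    haveI : Fact (q : ℕ).Prime := ⟨q.2⟩
    rw [h14p_abs_some, norm_eq_zero]
    exact map_eq_zero_iff _ (padicEmbedding (q : ℕ)).toRingHom.injective

theorem h14p_abs_pos (i : Option Nat.Primes) {y : Qb} (hy : y ≠ 0) : 0 < h14p_abs i y :=
  lt_of_le_of_ne (h14p_abs_nonneg i y) (fun h => hy ((h14p_abs_eq_zero i y).1 h.symm))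

theorem h14p_abs_pow (i : Option Nat.Primes) (y : Qb) (n : ℕ) :
    h14p_abs i (y ^ n) = h14p_abs i y ^ n := by
  induction n with
  | zero => rw [pow_zero, pow_zero, h14p_abs_one]
  | succ n ih => rw [pow_succ, pow_succ, h14p_abs_mul, ih]

theorem h14p_abs_prod (i : Option Nat.Primes) {ι : Type} (s : Finset ι) (f : ι → Qb) :
    h14p_abs i (∏ x ∈ s, f x) = ∏ x ∈ s, h14p_abs i (f x) := by
  classical
  induction s using Finset.induction_on with
  | empty => rw [Finset.prod_empty, Finset.prod_empty, h14p_abs_one]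
  | insert a s ha ih => rw [Finset.prod_insert ha, Finset.prod_insert ha, h14p_abs_mul, ih]

/-- invariance under the local Galois group. -/
theorem h14p_abs_loc (q : Nat.Primes) (h : primeLocalGaloisGroup q) (y : Qb) :
    h14p_abs (some q) (primeLocalToGlobal q h y) = h14p_abs (some q) y := by
  haveI : Fact (q : ℕ).Prime := ⟨q.2⟩
  show ‖padicEmbedding (q : ℕ) (localGaloisToGlobal (q : ℕ) h y)‖ =
    ‖padicEmbedding (q : ℕ) y‖
  rw [padicEmbedding_localGaloisToGlobal]
  have h1 := nnnorm_padicAlgCl_algEquiv (q : ℕ) h (padicEmbedding (q : ℕ) y)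
  have h2 := congrArg (fun t : NNReal => (t : ℝ)) h1
  simp only [coe_nnnorm] at h2
  exact h2

/-- invariance under complex conjugation. -/
theorem h14p_abs_conj (y : Qb) : h14p_abs none (complexConjugation y) = h14p_abs none y := by
  rw [h14p_abs_none, h14p_abs_none, complexEmbedding_complexConjugation]
  exact RCLike.norm_conj _

/-- the archimedean absolute value on `ℚ`. -/
theorem h14p_abs_rat_none (r : ℚ) : h14p_abs none (algebraMap ℚ Qb r) = |(r : ℝ)| := by
  rw [h14p_abs_none, AlgHom.commutes]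
  rw [show (algebraMap ℚ ℂ r) = ((r : ℝ) : ℂ) by simp]
  exact Complex.norm_real _

/-- the `q`-adic absolute value on `ℚ`. -/
theorem h14p_abs_rat_some (q : Nat.Primes) (r : ℚ) :
    h14p_abs (some q) (algebraMap ℚ Qb r) = ((padicNorm (q : ℕ) r : ℚ) : ℝ) := by
  haveI : Fact (q : ℕ).Prime := ⟨q.2⟩
  show ‖padicEmbedding (q : ℕ) (algebraMap ℚ Qb r)‖ = _
  rw [AlgHom.commutes]
  have h1 : algebraMap ℚ (PadicAlgCl (q : ℕ)) r =
      algebraMap ℚ_[(q : ℕ)] (PadicAlgCl (q : ℕ)) (r : ℚ_[(q : ℕ)]) := by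
    rw [eq_ratCast (algebraMap ℚ (PadicAlgCl (q : ℕ))) r]
    exact (map_ratCast (algebraMap ℚ_[(q : ℕ)] (PadicAlgCl (q : ℕ))) r).symm
  rw [h1]
  have h2 := PadicAlgCl.norm_extends (q : ℕ) (r : ℚ_[(q : ℕ)])
  exact h2.trans (Padic.eq_padicNorm r)

/-- **the product formula of `ℚ`** for the absolute values of `ℚ̄`. -/
theorem h14p_prod_rat (S : Finset Nat.Primes) (r : ℚ) (hr : r ≠ 0)
    (h : ∀ q : Nat.Primes, q ∉ S → h14p_abs (some q) (algebraMap ℚ Qb r) = 1) :
    ∏ i : Option ↥S, h14p_abs (i.map Subtype.val) (algebraMap ℚ Qb r) = 1 := by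
  have h1 := h14p_f_rat S r hr (fun q hq => by
    have := h q hq
    rw [h14p_abs_rat_some] at this
    exact_mod_cast this)
  rw [Fintype.prod_option]
  simp only [Option.map_none, Option.map_some]
  rw [h14p_abs_rat_none]
  have h2 : ∏ i : ↥S, h14p_abs (some (i : Nat.Primes)) (algebraMap ℚ Qb r) =
      ∏ q ∈ S, ((padicNorm (q : ℕ) r : ℚ) : ℝ) := by
    rw [← Finset.prod_coe_sort S (fun q => ((padicNorm (q : ℕ) r : ℚ) : ℝ))]
    exact Finset.prod_congr rfl (fun i _ => h14p_abs_rat_some i r)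
  rw [h2]
  have h3 : ((h14p_f S r : ℚ) : ℝ) = 1 := by rw [h1, Rat.cast_one]
  rw [← h3]
  unfold h14p_f
  push_cast
  rfl

/-- **the product formula of `ℚ`**, logarithmic form. -/
theorem h14p_sum_log_rat (S : Finset Nat.Primes) (r : ℚ) (hr : r ≠ 0)
    (h : ∀ q : Nat.Primes, q ∉ S → h14p_abs (some q) (algebraMap ℚ Qb r) = 1) :
    ∑ i : Option ↥S, Real.log (h14p_abs (i.map Subtype.val) (algebraMap ℚ Qb r)) = 0 := by
  have hr' : algebraMap ℚ Qb r ≠ 0 := by
    rw [Ne, map_eq_zero_iff _ (algebraMap ℚ Qb).injective]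
    exact hr
  rw [← Real.log_prod (fun i _ => (h14p_abs_pos _ hr').ne'), h14p_prod_rat S r hr h,
    Real.log_one]

end Fermat.Agent.S56G
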