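import Mathlib
import Fermat.Agent.S56G.H93PkgIface
import Fermat.Agent.S56G.H14LogAbsVal
import Fermat.Agent.PT.Bridge.LocGrpE

/-!
# S56, EQ-ARITH, leaf EQA-PKG-LOG-PROD (helper14): the product formula

`h14p_pkgLogProd : H93PkgLogProd` : for an `S`-unit `a` of `K = fieldOf U₀`
`∑_{i ∈ S ∪ {∞}} ∑_{g ∈ G} log ‖g a‖_i = 0`.

Route: `r = ∏_{g ∈ G} g (ι a)` is fixed by `G_ℚ`, hence rational; it is a unit at every prime
`q ∉ S`; the product formula of `ℚ` (`h14p_sum_log_rat`).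
-/

set_option autoImplicit false
set_option linter.style.haveILetI false

open ExtCitation

noncomputable section

namespace Fermat.Agent.S56G

open Fermat.Agent.PT Fermat.Agent.PT.Glob

local notation "Qb" => AlgebraicClosure ℚ

/-- the local logarithms of helper93 in terms of the absolute values `h14p_abs`. -/
theorem h14p_log_eq (S : Finset Nat.Primes) (i : Option ↥S) (x : Qb) :
    h93p_log S i x = Real.log (h14p_abs (i.map Subtype.val) x) := by
  cases i with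
  | none => rfl
  | some q => rfl

/-- an element of `ℚ̄` which is integral with integral inverse at `padicPlace q` has `q`-adic
absolute value `1`. -/
theorem h14p_abs_eq_one_of_mem (q : Nat.Primes) (x : Qb) (hx : x ≠ 0)
    (h : ∀ V : ValuationSubring Qb, V.LiesOverPrime (q : ℕ) → x ∈ V ∧ x⁻¹ ∈ V) :
    h14p_abs (some q) x = 1 := by
  haveI : Fact (q : ℕ).Prime := ⟨q.2⟩
  obtain ⟨h1, h2⟩ := h (padicPlace (q : ℕ)) (Fermat.Agent.PT.Bridge.h23b_padicPlace_liesOver (q : ℕ))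
  have h1' : ‖padicEmbedding (q : ℕ) x‖ ≤ 1 := by
    have := (mem_padicPlace_iff (q : ℕ)).1 h1
    exact_mod_cast this
  have h2' : ‖padicEmbedding (q : ℕ) x⁻¹‖ ≤ 1 := by
    have := (mem_padicPlace_iff (q : ℕ)).1 h2
    exact_mod_cast this
  show ‖padicEmbedding (q : ℕ) x‖ = 1
  rw [map_inv₀, norm_inv] at h2'
  rcases eq_or_ne (‖padicEmbedding (q : ℕ) x‖) 0 with h0 | h0
  · rw [norm_eq_zero] at h0
    exact absurd ((map_eq_zero_iff _ (padicEmbedding (q : ℕ)).toRingHom.injective).1 h0) hx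
  · have hpos : 0 < ‖padicEmbedding (q : ℕ) x‖ := lt_of_le_of_ne (norm_nonneg _) (Ne.symm h0)
    have h3 : 1 ≤ ‖padicEmbedding (q : ℕ) x‖ := by
      have := (inv_le_one₀ hpos).1 h2'
      exact this
    exact le_antisymm h1' h3

/-- the norm `∏_{g ∈ G} g (ι a)` of an `S`-unit. -/
def h14p_nrm (S : Finset Nat.Primes) (U₀ : Subgroup GQ) [U₀.Normal] [Fintype (GQ ⧸ U₀)]
    (a : h93p_A S U₀) : Qb :=
  ∏ x : GQ ⧸ U₀, h93p_iota S U₀ (h93p_act S U₀ x a)

theorem h14p_nrm_ne_zero (S : Finset Nat.Primes) (U₀ : Subgroup GQ) [U₀.Normal]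
    [Fintype (GQ ⧸ U₀)] (a : h93p_A S U₀) : h14p_nrm S U₀ a ≠ 0 :=
  Finset.prod_ne_zero_iff.2 (fun x _ => h93p_iota_ne_zero S U₀ _)

theorem h14p_nrm_fixed (S : Finset Nat.Primes) (U₀ : Subgroup GQ) [U₀.Normal]
    [Fintype (GQ ⧸ U₀)] (a : h93p_A S U₀) (h : GQ) : h (h14p_nrm S U₀ a) = h14p_nrm S U₀ a := by
  unfold h14p_nrm
  rw [map_prod]
  have h1 : ∀ x : GQ ⧸ U₀, h (h93p_iota S U₀ (h93p_act S U₀ x a)) =
      h93p_iota S U₀ (h93p_act S U₀ (QuotientGroup.mk' U₀ h * x) a) := by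
    intro x
    rw [map_mul, ← h93p_iota_act]
    rfl
  rw [Finset.prod_congr rfl (fun x _ => h1 x)]
  exact Fintype.prod_bijective (fun x => QuotientGroup.mk' U₀ h * x)
    (Group.mulLeft_bijective _) _ _ (fun x => rfl)

theorem h14p_nrm_rat (S : Finset Nat.Primes) (U₀ : Subgroup GQ) [U₀.Normal]
    [Fintype (GQ ⧸ U₀)] (a : h93p_A S U₀) :
    ∃ r : ℚ, r ≠ 0 ∧ algebraMap ℚ Qb r = h14p_nrm S U₀ a := by
  haveI : IsAlgClosure ℚ Qb := ⟨inferInstance, AlgebraicClosure.isAlgebraic ℚ⟩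
  haveI : IsGalois ℚ Qb := IsAlgClosure.isGalois ℚ Qb
  have h1 : h14p_nrm S U₀ a ∈ Set.range (algebraMap ℚ Qb) :=
    (InfiniteGalois.mem_range_algebraMap_iff_fixed (k := ℚ) (K := Qb) _).2
      (fun f => h14p_nrm_fixed S U₀ a f)
  obtain ⟨r, hr⟩ := h1
  refine ⟨r, ?_, hr⟩
  rintro rfl
  rw [map_zero] at hr
  exact h14p_nrm_ne_zero S U₀ a hr.symm

theorem h14p_abs_nrm_out (S : Finset Nat.Primes) (U₀ : Subgroup GQ) [U₀.Normal]
    [Fintype (GQ ⧸ U₀)] (a : h93p_A S U₀) (q : Nat.Primes) (hq : q ∉ S) :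
    h14p_abs (some q) (h14p_nrm S U₀ a) = 1 := by
  unfold h14p_nrm
  rw [h14p_abs_prod]
  refine Finset.prod_eq_one (fun x _ => ?_)
  exact h14p_abs_eq_one_of_mem q _ (h93p_iota_ne_zero S U₀ _)
    (fun V hV => h93p_iota_val S U₀ _ q hq V hV)

/-- **EQA-PKG-LOG-PROD**: the product formula. -/
theorem h14p_pkgLogProd : H93PkgLogProd := by
  intro S U₀ _ _ _ a
  obtain ⟨r, hr0, hr⟩ := h14p_nrm_rat S U₀ a
  have h1 := h14p_sum_log_rat S r hr0 (fun q hq => by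
    rw [hr]
    exact h14p_abs_nrm_out S U₀ a q hq)
  rw [← h1]
  refine Finset.sum_congr rfl (fun i _ => ?_)
  rw [hr]
  unfold h14p_nrm
  rw [h14p_abs_prod, Real.log_prod (fun x _ => (h14p_abs_pos _ (h93p_iota_ne_zero S U₀ _)).ne')]
  refine Finset.sum_congr rfl (fun x _ => ?_)
  rw [h93p_ell_apply, h14p_log_eq]

end Fermat.Agent.S56G
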