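import Mathlib
import Fermat.Agent.PT.Units.SUnit

/-!
# S56, block EQ-ARITH, package PKG, part LOG (helper30): logarithms of `S`-units

`K` a number field, `T` a finite set of finite places (`HeightOneSpectrum (𝓞 K)`),
`X = T ⊕ InfinitePlace K`.  For `x : Kˣ` the vector `h30l_log K T x : X → ℝ` of the logarithms of
the absolute values; weights `h30l_wt` (`1` at finite places, `mult` at infinite places).

* `h30l_log_mul`, `h30l_log_one`, `h30l_log_inv` : additivity;
* `h30l_sum` : product formula `∑ w_x L(x)_x = 0` for `T`-units;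
* `h30l_log_eq_zero_iff` : for `T`-units, `L(x) = 0 ↔ x` is a root of unity;
* `h30l_discrete` : `∃ ε > 0`, every `T`-unit with `L(x) ≠ 0` has a coordinate `≥ ε` in absolute
  value.
-/

set_option autoImplicit false

noncomputable section

namespace Fermat.Agent.S56G

open NumberField IsDedekindDomain Fermat.Agent.PT.Units

section Log

variable (K : Type*) [Field K] [NumberField K]

/-- the `v`-adic absolute value of a nonzero element is `N(v) ^ ord_v`. -/
theorem h30l_abs_eq (v : HeightOneSpectrum (𝓞 K)) (x : Kˣ) :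
    FinitePlace.mk v (x : K) =
      (Ideal.absNorm v.asIdeal : ℝ) ^ (SU_ord K v (Additive.ofMul x)) := by
  rw [FinitePlace.mk_apply, FinitePlace.norm_embedding,
    NumberField.HeightOneSpectrum.adicAbv_def]
  have hx : v.valuation K (x : K) ≠ 0 := by
    rw [Ne, Valuation.zero_iff]
    exact x.ne_zero
  rw [WithZeroMulInt.toNNReal_neg_apply _ hx]
  have h1 : (WithZero.unzero hx).toAdd = SU_ord K v (Additive.ofMul x) := by
    have h2 := SU_exp_ord K v x
    rw [← WithZero.coe_unzero hx] at h2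
    have h3 := WithZero.coe_injective h2
    rw [← h3]
    rfl
  rw [h1]
  push_cast
  rfl

variable (T : Finset (HeightOneSpectrum (𝓞 K)))

/-- the vector of the logarithms of the absolute values. -/
def h30l_log (x : Kˣ) : (↥T ⊕ InfinitePlace K) → ℝ
  | Sum.inl v => Real.log (FinitePlace.mk v.1 (x : K))
  | Sum.inr w => Real.log (w (x : K))

theorem h30l_log_inl (x : Kˣ) (v : ↥T) :
    h30l_log K T x (Sum.inl v) =
      (SU_ord K v.1 (Additive.ofMul x) : ℝ) * Real.log (Ideal.absNorm v.1.asIdeal : ℝ) := by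
  show Real.log _ = _
  rw [h30l_abs_eq, Real.log_zpow]

theorem h30l_log_inr (x : Kˣ) (w : InfinitePlace K) :
    h30l_log K T x (Sum.inr w) = Real.log (w (x : K)) := rfl

theorem h30l_log_mul (x y : Kˣ) :
    h30l_log K T (x * y) = h30l_log K T x + h30l_log K T y := by
  funext i
  cases i with
  | inl v =>
    rw [Pi.add_apply, h30l_log_inl, h30l_log_inl, h30l_log_inl]
    have h : Additive.ofMul (x * y) = Additive.ofMul x + Additive.ofMul y := rfl
    rw [h, map_add]
    push_cast
    ring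
  | inr w =>
    rw [Pi.add_apply, h30l_log_inr, h30l_log_inr, h30l_log_inr, Units.val_mul, map_mul,
      Real.log_mul]
    · exact (InfinitePlace.pos_iff.2 x.ne_zero).ne'
    · exact (InfinitePlace.pos_iff.2 y.ne_zero).ne'

theorem h30l_log_one : h30l_log K T 1 = 0 := by
  have h := h30l_log_mul K T 1 1
  rw [mul_one] at h
  have h2 : h30l_log K T 1 + h30l_log K T 1 = h30l_log K T 1 + 0 := by
    rw [add_zero]
    exact h.symm
  exact add_left_cancel h2

theorem h30l_log_inv (x : Kˣ) : h30l_log K T x⁻¹ = -h30l_log K T x := by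
  have h := h30l_log_mul K T x x⁻¹
  rw [mul_inv_cancel, h30l_log_one] at h
  exact eq_neg_of_add_eq_zero_right h.symm

/-- the weights of the product formula. -/
def h30l_wt : (↥T ⊕ InfinitePlace K) → ℝ
  | Sum.inl _ => 1
  | Sum.inr w => (w.mult : ℝ)

theorem h30l_wt_pos (i : ↥T ⊕ InfinitePlace K) : 0 < h30l_wt K T i := by
  cases i with
  | inl v => exact one_pos
  | inr w =>
    show (0 : ℝ) < (w.mult : ℝ)
    exact_mod_cast InfinitePlace.mult_pos

theorem h30l_one_lt_absNorm (v : HeightOneSpectrum (𝓞 K)) :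
    (1 : ℝ) < (Ideal.absNorm v.asIdeal : ℝ) := by
  exact_mod_cast NumberField.HeightOneSpectrum.one_lt_absNorm v

theorem h30l_log_absNorm_pos (v : HeightOneSpectrum (𝓞 K)) :
    0 < Real.log (Ideal.absNorm v.asIdeal : ℝ) :=
  Real.log_pos (h30l_one_lt_absNorm K v)

/-- outside `T` the absolute values of a `T`-unit are `1`. -/
theorem h30l_abs_eq_one (x : Kˣ) (hx : x ∈ (T : Set (HeightOneSpectrum (𝓞 K))).unit K)
    (v : HeightOneSpectrum (𝓞 K)) (hv : v ∉ T) : FinitePlace.mk v (x : K) = 1 := by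
  rw [h30l_abs_eq]
  have h1 : v.valuation K (x : K) = 1 := hx v (by simpa using hv)
  rw [(SU_ord_eq_zero_iff K v x).2 h1, zpow_zero]

/-- **the product formula** for `T`-units. -/
theorem h30l_sum (x : Kˣ) (hx : x ∈ (T : Set (HeightOneSpectrum (𝓞 K))).unit K) :
    ∑ i, h30l_wt K T i * h30l_log K T x i = 0 := by
  rw [Fintype.sum_sum_type]
  simp only [h30l_wt, h30l_log, one_mul]
  have h := prod_abs_eq_one (K := K) (x := (x : K)) x.ne_zero
  have h1 : ∏ᶠ w : FinitePlace K, w (x : K) = ∏ v : ↥T, FinitePlace.mk v.1 (x : K) := by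
    rw [← finprod_comp_equiv FinitePlace.equivHeightOneSpectrum.symm]
    have h2 : (fun v : HeightOneSpectrum (𝓞 K) =>
        (FinitePlace.equivHeightOneSpectrum.symm v) (x : K)) =
        fun v => FinitePlace.mk v (x : K) := by
      funext v
      rfl
    rw [h2, finprod_eq_prod_of_mulSupport_subset (s := T)]
    · exact (Finset.prod_coe_sort T (fun v => FinitePlace.mk v (x : K))).symm
    · intro v hv
      by_contra hvT
      exact hv (h30l_abs_eq_one K T x hx v hvT)
  rw [h1] at h
  have h3 := congrArg Real.log h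
  rw [Real.log_one, Real.log_mul, Real.log_prod, Real.log_prod] at h3
  · simp only [Real.log_pow] at h3
    rw [add_comm]
    exact h3
  · intro v _
    exact (FinitePlace.pos_iff.2 x.ne_zero).ne'
  · intro w _
    exact pow_ne_zero _ (InfinitePlace.pos_iff.2 x.ne_zero).ne'
  · exact Finset.prod_ne_zero_iff.2
      (fun w _ => pow_ne_zero _ (InfinitePlace.pos_iff.2 x.ne_zero).ne')
  · exact Finset.prod_ne_zero_iff.2 (fun v _ => (FinitePlace.pos_iff.2 x.ne_zero).ne')

/-- a `T`-unit with trivial valuations on `T` is a unit. -/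
theorem h30l_exists_unit (x : Kˣ) (hx : x ∈ (T : Set (HeightOneSpectrum (𝓞 K))).unit K)
    (h : ∀ v : ↥T, SU_ord K v.1 (Additive.ofMul x) = 0) :
    ∃ u : (𝓞 K)ˣ, (x : K) = algebraMap (𝓞 K) K u := by
  have h1 : Additive.ofMul (⟨x, hx⟩ : (T : Set (HeightOneSpectrum (𝓞 K))).unit K) ∈
      (SU_valHom K (T : Set (HeightOneSpectrum (𝓞 K)))).ker := by
    rw [AddMonoidHom.mem_ker]
    funext v
    exact h ⟨v.1, by simpa using v.2⟩
  rw [← SU_unitHom_range] at h1
  obtain ⟨u, hu⟩ := h1
  refine ⟨Additive.toMul u, ?_⟩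
  have h2 := SU_unitHom_coe K (T : Set (HeightOneSpectrum (𝓞 K))) (Additive.toMul u)
  rw [← h2]
  have h3 : SU_unitHom K (T : Set (HeightOneSpectrum (𝓞 K))) (Additive.ofMul (Additive.toMul u))
      = Additive.ofMul (⟨x, hx⟩ : (T : Set (HeightOneSpectrum (𝓞 K))).unit K) := hu
  rw [h3]
  rfl

/-- **kernel of the logarithms = roots of unity.** -/
theorem h30l_log_eq_zero_iff (x : Kˣ) (hx : x ∈ (T : Set (HeightOneSpectrum (𝓞 K))).unit K) :
    h30l_log K T x = 0 ↔ ∃ n : ℕ, 0 < n ∧ x ^ n = 1 := by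
  constructor
  · intro h0
    have hord : ∀ v : ↥T, SU_ord K v.1 (Additive.ofMul x) = 0 := by
      intro v
      have h1 := congrFun h0 (Sum.inl v)
      rw [h30l_log_inl, Pi.zero_apply] at h1
      rcases mul_eq_zero.1 h1 with h2 | h2
      · exact_mod_cast h2
      · exact absurd h2 (h30l_log_absNorm_pos K v.1).ne'
    obtain ⟨u, hu⟩ := h30l_exists_unit K T x hx hord
    have htors : u ∈ Units.torsion K := by
      rw [Units.mem_torsion]
      intro w
      have h1 := congrFun h0 (Sum.inr w)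
      rw [h30l_log_inr, Pi.zero_apply, hu] at h1
      have hpos : 0 < w (algebraMap (𝓞 K) K u) := by
        rw [← hu]
        exact InfinitePlace.pos_iff.2 x.ne_zero
      rcases Real.log_eq_zero.1 h1 with h2 | h2 | h2
      · exact absurd h2 hpos.ne'
      · exact h2
      · rw [h2] at hpos
        exact absurd hpos (by norm_num)
    rw [Units.torsion, CommGroup.mem_torsion, isOfFinOrder_iff_pow_eq_one] at htors
    obtain ⟨n, hn, hun⟩ := htors
    refine ⟨n, hn, ?_⟩
    apply Units.ext
    rw [Units.val_pow_eq_pow_val, hu, Units.val_one, ← map_pow, ← Units.val_pow_eq_pow_val, hun,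
      Units.val_one, map_one]
  · rintro ⟨n, hn, hxn⟩
    have hK : (x : K) ^ n = 1 := by
      rw [← Units.val_pow_eq_pow_val, hxn, Units.val_one]
    funext i
    cases i with
    | inl v =>
      show Real.log _ = 0
      have h1 : (FinitePlace.mk v.1 (x : K)) ^ n = 1 := by
        rw [← map_pow, hK, map_one]
      rw [(pow_eq_one_iff_of_nonneg (apply_nonneg _ _) hn.ne').1 h1, Real.log_one]
    | inr w =>
      show Real.log _ = 0
      have h1 : (w (x : K)) ^ n = 1 := by
        rw [← map_pow, hK, map_one]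
      rw [(pow_eq_one_iff_of_nonneg (apply_nonneg _ _) hn.ne').1 h1, Real.log_one]

/-- a finite set of positive reals has a positive lower bound. -/
theorem h30l_exists_lb (R : Set ℝ) (hR : R.Finite) (hpos : ∀ r ∈ R, 0 < r) :
    ∃ ε : ℝ, 0 < ε ∧ ∀ r ∈ R, ε ≤ r := by
  induction R, hR using Set.Finite.induction_on with
  | empty => exact ⟨1, one_pos, fun r hr => absurd hr (Set.notMem_empty r)⟩
  | @insert a s _ _ ih =>
    obtain ⟨ε, hε, h⟩ := ih (fun r hr => hpos r (Set.mem_insert_of_mem a hr))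
    refine ⟨min ε a, lt_min hε (hpos a (Set.mem_insert a s)), fun r hr => ?_⟩
    rcases Set.mem_insert_iff.1 hr with h1 | h1
    · rw [h1]
      exact min_le_right _ _
    · exact (min_le_left _ _).trans (h r h1)

/-- **discreteness of the logarithms.** -/
theorem h30l_discrete : ∃ ε : ℝ, 0 < ε ∧ ∀ x : Kˣ,
    x ∈ (T : Set (HeightOneSpectrum (𝓞 K))).unit K → h30l_log K T x ≠ 0 →
    ∃ i, ε ≤ |h30l_log K T x i| := by
  have hF := Embeddings.finite_of_norm_le K ℂ (Real.exp 1)
  have hR : ((fun q : K × InfinitePlace K => |Real.log (q.2 q.1)|) ''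
      ({y : K | IsIntegral ℤ y ∧ ∀ φ : K →+* ℂ, ‖φ y‖ ≤ Real.exp 1} ×ˢ
        (Set.univ : Set (InfinitePlace K))) ∩ {r : ℝ | 0 < r}).Finite :=
    ((hF.prod Set.finite_univ).image _).inter_of_left _
  obtain ⟨δ, hδ, hδ'⟩ := h30l_exists_lb _ hR (fun r hr => hr.2)
  have hlog2 : 0 < Real.log 2 := Real.log_pos (by norm_num)
  refine ⟨min (Real.log 2) (min 1 δ), lt_min hlog2 (lt_min one_pos hδ), fun x hx hne => ?_⟩
  by_cases hord : ∀ v : ↥T, SU_ord K v.1 (Additive.ofMul x) = 0
  · obtain ⟨u, hu⟩ := h30l_exists_unit K T x hx hord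
    have hw : ∃ w : InfinitePlace K, Real.log (w (x : K)) ≠ 0 := by
      by_contra hcon
      push Not at hcon
      apply hne
      funext i
      cases i with
      | inl v =>
        rw [h30l_log_inl, hord v, Pi.zero_apply, Int.cast_zero, zero_mul]
      | inr w => exact hcon w
    obtain ⟨w, hw⟩ := hw
    by_cases hbig : ∃ w' : InfinitePlace K, 1 < |Real.log (w' (x : K))|
    · obtain ⟨w', hw'⟩ := hbig
      refine ⟨Sum.inr w', ?_⟩
      rw [h30l_log_inr]
      exact ((min_le_right _ _).trans (min_le_left _ _)).trans hw'.le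
    · push Not at hbig
      refine ⟨Sum.inr w, ?_⟩
      rw [h30l_log_inr]
      refine ((min_le_right _ _).trans (min_le_right _ _)).trans (hδ' _ ⟨?_, abs_pos.2 hw⟩)
      refine ⟨((x : K), w), ⟨⟨?_, ?_⟩, Set.mem_univ _⟩, rfl⟩
      · rw [hu]
        exact (u : 𝓞 K).isIntegral_coe
      · rw [← InfinitePlace.le_iff_le]
        intro w'
        have h1 := (abs_le.1 (hbig w')).2
        have hpos : 0 < w' (x : K) := InfinitePlace.pos_iff.2 x.ne_zero
        rw [← Real.exp_log hpos]
        exact Real.exp_le_exp.2 h1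
  · push Not at hord
    obtain ⟨v, hv⟩ := hord
    refine ⟨Sum.inl v, ?_⟩
    rw [h30l_log_inl, abs_mul, abs_of_pos (h30l_log_absNorm_pos K v.1)]
    have h1 : (1 : ℝ) ≤ |(SU_ord K v.1 (Additive.ofMul x) : ℝ)| := by
      have h2 : (1 : ℤ) ≤ |SU_ord K v.1 (Additive.ofMul x)| := Int.one_le_abs hv
      exact_mod_cast h2
    have h3 : Real.log 2 ≤ Real.log (Ideal.absNorm v.1.asIdeal : ℝ) := by
      apply Real.log_le_log (by norm_num)
      have h4 : 2 ≤ Ideal.absNorm v.1.asIdeal :=
        NumberField.HeightOneSpectrum.one_lt_absNorm v.1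
      exact_mod_cast h4
    calc min (Real.log 2) (min 1 δ) ≤ Real.log 2 := min_le_left _ _
      _ ≤ Real.log (Ideal.absNorm v.1.asIdeal : ℝ) := h3
      _ = 1 * Real.log (Ideal.absNorm v.1.asIdeal : ℝ) := (one_mul _).symm
      _ ≤ _ := mul_le_mul_of_nonneg_right h1 (h30l_log_absNorm_pos K v.1).le

end Log

end Fermat.Agent.S56G
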