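import Fermat.Agent.S56G.H47GWWire
import Fermat.Agent.S56G.H45Add
import Fermat.Agent.S56G.H93EqArith

/-!
# S56, block GW + TATE-EC (architect helper47): the final theorems

* `h47g_tateGE : H47TateGE` — Tate's global Euler characteristic (as an inequality);
* `h47g_gw : H47GW`         — the Greenberg–Wiles inequality;
* `h47g_annTop : H47AnnTop` — local Tate duality in degree one, right kernel (= `h33y_annTop`).

All unconditional.  Blocks: BA (helper87, helper82, helper10, helper1, helper52, helper61,
helper79, helper57), ADD (helper45, helper77), REG (helper43), EQ-SHAP (helper57), EQ-ARITH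
(helper93 + 12 seats), EQ-H2 / GW-LINALG (helper98, helper9, helper70, helper52), EQ-CNEG
(helper96), EQ-TRANS (helper68), LD1 (helper33).
-/

set_option autoImplicit false

namespace Fermat.Agent.S56G

/-- **Tate's global Euler characteristic** (inequality form), unconditional. -/
theorem h47g_tateGE : H47TateGE := h47g_tateGE_of h45a_phiAdd h93e_eqArith

/-- **The Greenberg–Wiles inequality**, unconditional. -/
theorem h47g_gw : H47GW := h47g_gw_of h45a_phiAdd h93e_eqArith

/-- **Local Tate duality in degree one (right kernel)**, unconditional. -/
theorem h47g_annTop : H47AnnTop := h33y_annTop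

end Fermat.Agent.S56G
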