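import Mathlib
import Fermat.Agent.PT.Units.SUnit

/-!
# S56, block EQ-ARITH / PKG-LOG-NF (helper47): the logarithmic embedding of the `S`-units

Mathlib + `PT/Units/SUnit` only.  `K` a number field, `S` a finite set of primes of `K`,
`A = Additive (S.unit K)`, `X = InfinitePlace K ⊕ S`,

* `h47l_L K S a (inl w) = log (w a)`,  `h47l_L K S a (inr v) = ord_v a` (`SU_ord`),
* `h47l_wt K S (inl w) = w.mult`,       `h47l_wt K S (inr v) = log N(v)`.

Results:

* `h47l_L_eq_zero_iff`   : `L a = 0 ↔ ∃ n > 0, n • a = 0`  (Kronecker);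
* `h47l_L_discrete`      : `∃ ε > 0, ∀ a, L a ≠ 0 → ∃ x, ε ≤ |L a x|`;
* `h47l_wt_pos`, `h47l_product_formula` : `∑ x, wt x * L a x = 0`.
-/

set_option autoImplicit false
set_option linter.unusedSectionVars false

noncomputable section

namespace Fermat.Agent.S56G

open NumberField IsDedekindDomain Fermat.Agent.PT.Units

variable (K : Type) [Field K] [NumberField K] (S : Set (HeightOneSpectrum (𝓞 K)))

/-- The places of `K` above `S ∪ {∞}`. -/
abbrev h47l_X : Type := InfinitePlace K ⊕ ↥S

/-- The underlying element of `K` of an `S`-unit. -/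
def h47l_val (a : Additive (S.unit K)) : K := (((Additive.toMul a : S.unit K) : Kˣ) : K)

lemma h47l_val_ne_zero (a : Additive (S.unit K)) : h47l_val K S a ≠ 0 := Units.ne_zero _

@[simp] lemma h47l_val_zero : h47l_val K S 0 = 1 := rfl

lemma h47l_val_add (a b : Additive (S.unit K)) :
    h47l_val K S (a + b) = h47l_val K S a * h47l_val K S b := rfl

lemma h47l_val_nsmul (n : ℕ) (a : Additive (S.unit K)) :
    h47l_val K S (n • a) = h47l_val K S a ^ n := by
  induction n with
  | zero => simp
  | succ n ih => rw [succ_nsmul, h47l_val_add, ih, pow_succ]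

lemma h47l_val_injective : Function.Injective (h47l_val K S) := by
  intro a b h
  apply Additive.toMul.injective
  ext
  exact h

/-- The additive valuation of an `S`-unit at `v`. -/
def h47l_ord (v : HeightOneSpectrum (𝓞 K)) : Additive (S.unit K) →+ ℤ :=
  (SU_ord K v).comp (MonoidHom.toAdditive (S.unit K).subtype)

lemma h47l_ord_apply (v : HeightOneSpectrum (𝓞 K)) (a : Additive (S.unit K)) :
    h47l_ord K S v a = SU_ord K v (Additive.ofMul ((Additive.toMul a : S.unit K) : Kˣ)) := rfl

lemma h47l_exp_ord (v : HeightOneSpectrum (𝓞 K)) (a : Additive (S.unit K)) :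
    WithZero.exp (h47l_ord K S v a) = v.valuation K (h47l_val K S a) :=
  SU_exp_ord K v _

lemma h47l_ord_eq_zero_iff (v : HeightOneSpectrum (𝓞 K)) (a : Additive (S.unit K)) :
    h47l_ord K S v a = 0 ↔ v.valuation K (h47l_val K S a) = 1 :=
  SU_ord_eq_zero_iff K v _

lemma h47l_ord_of_notMem (v : HeightOneSpectrum (𝓞 K)) (hv : v ∉ S)
    (a : Additive (S.unit K)) : h47l_ord K S v a = 0 :=
  (h47l_ord_eq_zero_iff K S v a).mpr ((Additive.toMul a).2 v hv)

/-- The logarithmic embedding of the `S`-units. -/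
def h47l_L : Additive (S.unit K) →+ (h47l_X K S → ℝ) where
  toFun a x :=
    match x with
    | Sum.inl w => Real.log (w (h47l_val K S a))
    | Sum.inr v => (h47l_ord K S v.1 a : ℝ)
  map_zero' := by
    funext x
    rcases x with w | v
    · simp
    · simp
  map_add' a b := by
    funext x
    rcases x with w | v
    · simp only [h47l_val_add, map_mul, Pi.add_apply]
      rw [Real.log_mul]
      · exact (InfinitePlace.pos_iff.mpr (h47l_val_ne_zero K S a)).ne'
      · exact (InfinitePlace.pos_iff.mpr (h47l_val_ne_zero K S b)).ne'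
    · simp

@[simp] lemma h47l_L_inl (a : Additive (S.unit K)) (w : InfinitePlace K) :
    h47l_L K S a (Sum.inl w) = Real.log (w (h47l_val K S a)) := rfl

@[simp] lemma h47l_L_inr (a : Additive (S.unit K)) (v : ↥S) :
    h47l_L K S a (Sum.inr v) = (h47l_ord K S v.1 a : ℝ) := rfl

/-- The weights of the product formula. -/
def h47l_wt (x : h47l_X K S) : ℝ :=
  match x with
  | Sum.inl w => (w.mult : ℝ)
  | Sum.inr v => Real.log (Ideal.absNorm v.1.asIdeal)

@[simp] lemma h47l_wt_inl (w : InfinitePlace K) : h47l_wt K S (Sum.inl w) = (w.mult : ℝ) := rfl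

@[simp] lemma h47l_wt_inr (v : ↥S) :
    h47l_wt K S (Sum.inr v) = Real.log (Ideal.absNorm v.1.asIdeal) := rfl

lemma h47l_wt_pos (x : h47l_X K S) : 0 < h47l_wt K S x := by
  rcases x with w | v
  · simp only [h47l_wt]
    exact_mod_cast InfinitePlace.mult_pos
  · simp only [h47l_wt]
    apply Real.log_pos
    exact_mod_cast NumberField.HeightOneSpectrum.one_lt_absNorm v.1

/-! ## The finite places -/

lemma h47l_log_adicAbv (v : HeightOneSpectrum (𝓞 K)) (a : Additive (S.unit K)) :
    Real.log (NumberField.HeightOneSpectrum.adicAbv K v (h47l_val K S a)) =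
      Real.log (Ideal.absNorm v.asIdeal) * (h47l_ord K S v a : ℝ) := by
  rw [NumberField.HeightOneSpectrum.adicAbv_def, ← h47l_exp_ord]
  rw [WithZeroMulInt.toNNReal_neg_apply _ WithZero.exp_ne_zero]
  simp only [NNReal.coe_zpow, NNReal.coe_natCast, Real.log_zpow]
  rw [mul_comm]
  congr 2

lemma h47l_adicAbv_eq_one (v : HeightOneSpectrum (𝓞 K)) (a : Additive (S.unit K))
    (h : h47l_ord K S v a = 0) :
    NumberField.HeightOneSpectrum.adicAbv K v (h47l_val K S a) = 1 := by
  rw [NumberField.HeightOneSpectrum.adicAbv_def, (h47l_ord_eq_zero_iff K S v a).mp h]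
  simp

/-! ## The product formula -/

lemma h47l_finprod [Fintype ↥S] (a : Additive (S.unit K)) :
    ∏ᶠ w : FinitePlace K, w (h47l_val K S a) =
      ∏ v : ↥S, NumberField.HeightOneSpectrum.adicAbv K v.1 (h47l_val K S a) := by
  classical
  rw [← finprod_comp_equiv FinitePlace.equivHeightOneSpectrum.symm]
  simp only [FinitePlace.equivHeightOneSpectrum_symm_apply, FinitePlace.norm_embedding]
  rw [finprod_eq_prod_of_mulSupport_subset (s := S.toFinset)]
  · exact (Finset.prod_set_coe (s := S)
      (f := fun v => NumberField.HeightOneSpectrum.adicAbv K v (h47l_val K S a))).symm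
  · intro v hv
    by_contra hvS
    apply hv
    have hvS' : v ∉ S := by simpa using hvS
    exact h47l_adicAbv_eq_one K S v a (h47l_ord_of_notMem K S v hvS' a)

theorem h47l_product_formula [Fintype ↥S] (a : Additive (S.unit K)) :
    ∑ x, h47l_wt K S x * h47l_L K S a x = 0 := by
  have hne : h47l_val K S a ≠ 0 := h47l_val_ne_zero K S a
  have h := NumberField.prod_abs_eq_one (K := K) hne
  rw [h47l_finprod K S a] at h
  have h2 := congrArg Real.log h
  rw [Real.log_one, Real.log_mul, Real.log_prod, Real.log_prod] at h2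
  · rw [Fintype.sum_sum_type]
    simp only [h47l_wt_inl, h47l_wt_inr, h47l_L_inl, h47l_L_inr]
    rw [← h2]
    congr 1
    · refine Finset.sum_congr rfl fun w _ => ?_
      rw [Real.log_pow]
    · refine Finset.sum_congr rfl fun v _ => ?_
      rw [h47l_log_adicAbv]
  · intro v _
    exact ((NumberField.HeightOneSpectrum.adicAbv K v.1).pos hne).ne'
  · intro w _
    exact pow_ne_zero _ (InfinitePlace.pos_iff.mpr hne).ne'
  · exact Finset.prod_ne_zero_iff.mpr fun w _ =>
      pow_ne_zero _ (InfinitePlace.pos_iff.mpr hne).ne'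
  · exact Finset.prod_ne_zero_iff.mpr fun v _ =>
      ((NumberField.HeightOneSpectrum.adicAbv K v.1).pos hne).ne'

/-! ## The kernel -/

lemma h47l_isIntegral_of_val (b : K) (h : ∀ v : HeightOneSpectrum (𝓞 K), v.valuation K b = 1) :
    IsIntegral ℤ b := by
  obtain ⟨y, hy⟩ := HeightOneSpectrum.mem_integers_of_valuation_le_one K b (fun v => (h v).le)
  rw [← hy]
  exact y.isIntegral_coe

lemma h47l_val_all (a : Additive (S.unit K)) (h : ∀ v : ↥S, h47l_ord K S v.1 a = 0)
    (v : HeightOneSpectrum (𝓞 K)) : v.valuation K (h47l_val K S a) = 1 := by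
  by_cases hv : v ∈ S
  · exact (h47l_ord_eq_zero_iff K S v a).mp (h ⟨v, hv⟩)
  · exact (Additive.toMul a).2 v hv

theorem h47l_L_eq_zero_iff (a : Additive (S.unit K)) :
    h47l_L K S a = 0 ↔ ∃ n : ℕ, 0 < n ∧ n • a = 0 := by
  constructor
  · intro h
    have hord : ∀ v : ↥S, h47l_ord K S v.1 a = 0 := by
      intro v
      have := congrFun h (Sum.inr v)
      simpa using this
    have hint : IsIntegral ℤ (h47l_val K S a) :=
      h47l_isIntegral_of_val K _ (h47l_val_all K S a hord)
    have hφ : ∀ φ : K →+* ℂ, ‖φ (h47l_val K S a)‖ = 1 := by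
      intro φ
      have h1 := congrFun h (Sum.inl (InfinitePlace.mk φ))
      simp only [h47l_L_inl, Pi.zero_apply] at h1
      have h2 := Real.eq_one_of_pos_of_log_eq_zero
        (InfinitePlace.pos_iff.mpr (h47l_val_ne_zero K S a)) h1
      simpa using h2
    obtain ⟨n, hn, hpow⟩ := NumberField.Embeddings.pow_eq_one_of_norm_eq_one K ℂ hint hφ
    refine ⟨n, hn, ?_⟩
    apply h47l_val_injective K S
    rw [h47l_val_nsmul, hpow, h47l_val_zero]
  · rintro ⟨n, hn, hna⟩
    have hpow : h47l_val K S a ^ n = 1 := by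
      rw [← h47l_val_nsmul, hna, h47l_val_zero]
    funext x
    rcases x with w | v
    · simp only [h47l_L_inl, Pi.zero_apply]
      have h3 : w (h47l_val K S a) ^ n = 1 := by
        rw [← map_pow, hpow, map_one]
      have h4 : w (h47l_val K S a) = 1 :=
        (pow_eq_one_iff_of_nonneg (apply_nonneg w _) hn.ne').mp h3
      rw [h4]
      simp
    · simp only [h47l_L_inr, Pi.zero_apply]
      have h5 : n • h47l_ord K S v.1 a = 0 := by
        rw [← map_nsmul, hna, map_zero]
      have h6 : h47l_ord K S v.1 a = 0 := by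
        rcases smul_eq_zero.mp h5 with h | h
        · exact absurd h hn.ne'
        · exact h
      rw [h6]
      simp

/-! ## Discreteness -/

lemma h47l_exists_lb (T : Set ℝ) (hT : T.Finite) (hpos : ∀ t ∈ T, 0 < t) :
    ∃ ε : ℝ, 0 < ε ∧ ∀ t ∈ T, ε ≤ t := by
  rcases T.eq_empty_or_nonempty with h | h
  · exact ⟨1, one_pos, by simp [h]⟩
  · obtain ⟨m, hm, hmin⟩ := Set.exists_min_image T id hT h
    exact ⟨m, hpos m hm, fun t ht => hmin t ht⟩

theorem h47l_L_discrete :
    ∃ ε : ℝ, 0 < ε ∧ ∀ a : Additive (S.unit K), h47l_L K S a ≠ 0 →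
      ∃ x, ε ≤ |h47l_L K S a x| := by
  classical
  set F : Set K := {x : K | IsIntegral ℤ x ∧ ∀ φ : K →+* ℂ, ‖φ x‖ ≤ 2} with hF
  have hFfin : F.Finite := NumberField.Embeddings.finite_of_norm_le K ℂ 2
  set T : Set ℝ := (fun q : InfinitePlace K × K => |Real.log (q.1 q.2)|) ''
    {q | q.2 ∈ F ∧ Real.log (q.1 q.2) ≠ 0} with hT
  have hTfin : T.Finite := by
    apply Set.Finite.image
    apply Set.Finite.subset (Set.finite_univ.prod hFfin)
    rintro ⟨w, x⟩ ⟨hx, -⟩
    exact ⟨Set.mem_univ _, hx⟩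
  have hTpos : ∀ t ∈ T, 0 < t := by
    rintro t ⟨q, ⟨-, hq⟩, rfl⟩
    exact abs_pos.mpr hq
  obtain ⟨ε₀, hε₀, hlb⟩ := h47l_exists_lb T hTfin hTpos
  have hlog2 : 0 < Real.log 2 := Real.log_pos one_lt_two
  refine ⟨min ε₀ (min (Real.log 2) 1), lt_min hε₀ (lt_min hlog2 one_pos), ?_⟩
  intro a ha
  by_cases hord : ∃ v : ↥S, h47l_ord K S v.1 a ≠ 0
  · obtain ⟨v, hv⟩ := hord
    refine ⟨Sum.inr v, ?_⟩
    simp only [h47l_L_inr]
    have h1 : (1 : ℝ) ≤ |(h47l_ord K S v.1 a : ℝ)| := by
      have : (1 : ℤ) ≤ |h47l_ord K S v.1 a| := Int.one_le_abs hv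
      exact_mod_cast this
    exact le_trans (le_trans (min_le_right _ _) (min_le_right _ _)) h1
  · push Not at hord
    by_cases hbig : ∃ w : InfinitePlace K, Real.log 2 ≤ |Real.log (w (h47l_val K S a))|
    · obtain ⟨w, hw⟩ := hbig
      refine ⟨Sum.inl w, ?_⟩
      simp only [h47l_L_inl]
      exact le_trans (le_trans (min_le_right _ _) (min_le_left _ _)) hw
    · push Not at hbig
      have hint : IsIntegral ℤ (h47l_val K S a) :=
        h47l_isIntegral_of_val K _ (h47l_val_all K S a hord)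
      have hmem : h47l_val K S a ∈ F := by
        refine ⟨hint, fun φ => ?_⟩
        have h1 := hbig (InfinitePlace.mk φ)
        have h2 : Real.log ((InfinitePlace.mk φ) (h47l_val K S a)) < Real.log 2 :=
          lt_of_le_of_lt (le_abs_self _) h1
        have hpos : 0 < (InfinitePlace.mk φ) (h47l_val K S a) :=
          InfinitePlace.pos_iff.mpr (h47l_val_ne_zero K S a)
        have h3 := (Real.log_lt_log_iff hpos two_pos).mp h2
        have h4 : (InfinitePlace.mk φ) (h47l_val K S a) = ‖φ (h47l_val K S a)‖ := by simp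
        rw [← h4]
        exact h3.le
      have hex : ∃ w : InfinitePlace K, Real.log (w (h47l_val K S a)) ≠ 0 := by
        by_contra hno
        push Not at hno
        apply ha
        funext x
        rcases x with w | v
        · simpa using hno w
        · simp [hord v]
      obtain ⟨w, hw⟩ := hex
      refine ⟨Sum.inl w, ?_⟩
      simp only [h47l_L_inl]
      have hin : |Real.log (w (h47l_val K S a))| ∈ T :=
        ⟨(w, h47l_val K S a), ⟨hmem, hw⟩, rfl⟩
      exact le_trans (min_le_left _ _) (hlb _ hin)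

/-- **PKG-LOG-NF** (summary). -/
theorem h47l_logPkg [Fintype ↥S] :
    (∀ a : Additive (S.unit K), h47l_L K S a = 0 ↔ ∃ n : ℕ, 0 < n ∧ n • a = 0) ∧
    (∃ ε : ℝ, 0 < ε ∧ ∀ a : Additive (S.unit K), h47l_L K S a ≠ 0 →
      ∃ x, ε ≤ |h47l_L K S a x|) ∧
    (∀ x, 0 < h47l_wt K S x) ∧
    (∀ a : Additive (S.unit K), ∑ x, h47l_wt K S x * h47l_L K S a x = 0) :=
  ⟨h47l_L_eq_zero_iff K S, h47l_L_discrete K S, h47l_wt_pos K S, h47l_product_formula K S⟩

end Fermat.Agent.S56G
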