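import Fermat.Agent.S56G.H48Mat

/-!
# S56, TW-CHEB group theory: fixed points of `GL₂(k)` on `ℙ¹(k) = OnePoint k` (helper48)
-/

set_option autoImplicit false

open Matrix Matrix.GeneralLinearGroup OnePoint

noncomputable section

namespace Fermat.Agent.S56G

variable {k : Type} [Field k] [DecidableEq k]

/-- `g` is a scalar matrix. -/
def h48g_IsScal (g : GL (Fin 2) k) : Prop := g 1 0 = 0 ∧ g 0 1 = 0 ∧ g 0 0 = g 1 1

theorem h48g_isScal_comm {g : GL (Fin 2) k} (hg : h48g_IsScal g) (c : GL (Fin 2) k) :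
    c * g = g * c := by
  obtain ⟨h10, h01, h00⟩ := hg
  apply h48g_ext
  · simp [h48g_mul_00, h10, h01, mul_comm]
  · simp [h48g_mul_01, h10, h01, h00, mul_comm]
  · simp [h48g_mul_10, h10, h01, h00, mul_comm]
  · simp [h48g_mul_11, h10, h01, mul_comm]

theorem h48g_isScal_conj {g : GL (Fin 2) k} (hg : h48g_IsScal g) (c : GL (Fin 2) k) :
    c * g * c⁻¹ = g := by
  rw [h48g_isScal_comm hg c, mul_inv_cancel_right]

theorem h48g_isScal_conj_iff (g c : GL (Fin 2) k) :
    h48g_IsScal (c * g * c⁻¹) ↔ h48g_IsScal g := by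
  constructor
  · intro h
    have := h48g_isScal_conj h c⁻¹
    rw [inv_inv] at this
    have h2 : c⁻¹ * (c * g * c⁻¹) * c = g := by group
    rw [← h2, this]; exact h
  · intro h
    rw [h48g_isScal_conj h c]; exact h

theorem h48g_smul_coe_of_upper (g : GL (Fin 2) k) (hg : g 1 0 = 0) (c : k) :
    g • (c : OnePoint k) = (((g 0 0 * c + g 0 1) / g 1 1 : k) : OnePoint k) := by
  have h1 : g 1 1 ≠ 0 := (h48g_upper_diag_ne g hg).2
  rw [OnePoint.smul_some_eq_ite]
  simp [hg, h1]

theorem h48g_isScal_smul {g : GL (Fin 2) k} (hg : h48g_IsScal g) (x : OnePoint k) :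
    g • x = x := by
  obtain ⟨h10, h01, h00⟩ := hg
  have h1 : g 1 1 ≠ 0 := (h48g_upper_diag_ne g h10).2
  cases x with
  | infty => exact OnePoint.smul_infty_eq_self_iff.mpr h10
  | coe c =>
    rw [h48g_smul_coe_of_upper g h10, h01, h00, add_zero, mul_div_cancel_left₀ _ h1]

/-- Fixed points of an upper triangular element with `g00 = g11`, `g01 ≠ 0`: only `∞`. -/
theorem h48g_fix_parab (g : GL (Fin 2) k) (h10 : g 1 0 = 0) (h00 : g 0 0 = g 1 1)
    (h01 : g 0 1 ≠ 0) (x : OnePoint k) : g • x = x ↔ x = ∞ := by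
  have h1 : g 1 1 ≠ 0 := (h48g_upper_diag_ne g h10).2
  cases x with
  | infty => simp [OnePoint.smul_infty_eq_self_iff, h10]
  | coe c =>
    rw [h48g_smul_coe_of_upper g h10]
    simp only [OnePoint.coe_eq_coe, OnePoint.coe_ne_infty, iff_false]
    intro h
    rw [div_eq_iff h1, h00] at h
    apply h01
    linear_combination h

/-- Fixed points of an upper triangular element with `g00 ≠ g11`: `∞` and one finite point. -/
theorem h48g_fix_hyp (g : GL (Fin 2) k) (h10 : g 1 0 = 0) (h00 : g 0 0 ≠ g 1 1)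
    (x : OnePoint k) :
    g • x = x ↔ x = ∞ ∨ x = ((g 0 1 / (g 1 1 - g 0 0) : k) : OnePoint k) := by
  have h1 : g 1 1 ≠ 0 := (h48g_upper_diag_ne g h10).2
  have h2 : g 1 1 - g 0 0 ≠ 0 := sub_ne_zero.mpr (Ne.symm h00)
  cases x with
  | infty => simp [OnePoint.smul_infty_eq_self_iff, h10]
  | coe c =>
    rw [h48g_smul_coe_of_upper g h10]
    simp only [OnePoint.coe_eq_coe, OnePoint.coe_ne_infty, false_or]
    rw [div_eq_iff h1, eq_div_iff h2]
    constructor
    · intro h; linear_combination -h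
    · intro h; linear_combination -h

theorem h48g_card_fix_parab (g : GL (Fin 2) k) (h10 : g 1 0 = 0) (h00 : g 0 0 = g 1 1)
    (h01 : g 0 1 ≠ 0) : Nat.card {x : OnePoint k // g • x = x} = 1 := by
  have : {x : OnePoint k | g • x = x} = {∞} := by
    ext x; simp [h48g_fix_parab g h10 h00 h01 x]
  show Nat.card ↥{x : OnePoint k | g • x = x} = 1
  rw [this]; simp

theorem h48g_card_fix_hyp (g : GL (Fin 2) k) (h10 : g 1 0 = 0) (h00 : g 0 0 ≠ g 1 1) :
    Nat.card {x : OnePoint k // g • x = x} = 2 := by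
  have : {x : OnePoint k | g • x = x} = {∞, ((g 0 1 / (g 1 1 - g 0 0) : k) : OnePoint k)} := by
    ext x; simp [h48g_fix_hyp g h10 h00 x]
  show Nat.card ↥{x : OnePoint k | g • x = x} = 2
  rw [this, Nat.card_coe_set_eq, Set.ncard_pair (OnePoint.infty_ne_coe _)]

/-- `GL₂(k)` is transitive on `OnePoint k`. -/
theorem h48g_exists_smul_eq_infty (x : OnePoint k) : ∃ c : GL (Fin 2) k, c • x = ∞ := by
  cases x with
  | infty => exact ⟨1, one_smul _ _⟩
  | coe a =>
    refine ⟨Matrix.GeneralLinearGroup.mkOfDetNeZero !![0, 1; 1, -a] (by simp [Matrix.det_fin_two]), ?_⟩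
    rw [OnePoint.smul_some_eq_ite]
    simp [Matrix.GeneralLinearGroup.mkOfDetNeZero]

/-- The cardinality of the fixed point set is invariant under conjugation. -/
theorem h48g_card_fix_conj (g c : GL (Fin 2) k) :
    Nat.card {x : OnePoint k // (c * g * c⁻¹) • x = x} = Nat.card {x : OnePoint k // g • x = x} := by
  refine Nat.card_congr ⟨fun x => ⟨c⁻¹ • x.1, ?_⟩, fun x => ⟨c • x.1, ?_⟩, ?_, ?_⟩
  · have h := x.2
    calc g • c⁻¹ • x.1 = c⁻¹ • ((c * g * c⁻¹) • x.1) := by simp [mul_smul]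
      _ = c⁻¹ • x.1 := by rw [h]
  · have h := x.2
    calc (c * g * c⁻¹) • c • x.1 = c • g • x.1 := by simp [mul_smul]
      _ = c • x.1 := by rw [h]
  · intro x; simp
  · intro x; simp

/-- An eigenvector gives a fixed point. -/
theorem h48g_exists_fix_of_eigen (g : GL (Fin 2) k) (v : Fin 2 → k) (hv : v ≠ 0) (c : k)
    (h : (g : Matrix (Fin 2) (Fin 2) k) *ᵥ v = c • v) : ∃ x : OnePoint k, g • x = x := by
  have h0 : g 0 0 * v 0 + g 0 1 * v 1 = c * v 0 := by
    have := congrFun h 0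
    simpa [Matrix.mulVec, dotProduct, Fin.sum_univ_two] using this
  have h1 : g 1 0 * v 0 + g 1 1 * v 1 = c * v 1 := by
    have := congrFun h 1
    simpa [Matrix.mulVec, dotProduct, Fin.sum_univ_two] using this
  have hc : c ≠ 0 := by
    rintro rfl
    have hd := h48g_det_ne g
    apply hd
    by_cases hv1 : v 1 = 0
    · have hv0 : v 0 ≠ 0 := by
        intro hv0; apply hv; funext i; fin_cases i <;> simp [hv0, hv1]
      rw [hv1] at h0 h1
      have a0 : g 0 0 = 0 := by
        have : g 0 0 * v 0 = 0 := by linear_combination h0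
        exact (mul_eq_zero.mp this).resolve_right hv0
      have a1 : g 1 0 = 0 := by
        have : g 1 0 * v 0 = 0 := by linear_combination h1
        exact (mul_eq_zero.mp this).resolve_right hv0
      rw [a0, a1]; ring
    · have : (g 0 0 * g 1 1 - g 0 1 * g 1 0) * v 1 = 0 := by
        linear_combination g 0 0 * h1 - g 1 0 * h0
      exact (mul_eq_zero.mp this).resolve_right hv1
  by_cases hv1 : v 1 = 0
  · refine ⟨∞, OnePoint.smul_infty_eq_self_iff.mpr ?_⟩
    have hv0 : v 0 ≠ 0 := by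
      intro hv0; apply hv; funext i; fin_cases i <;> simp [hv0, hv1]
    rw [hv1] at h1
    have : g 1 0 * v 0 = 0 := by linear_combination h1
    exact (mul_eq_zero.mp this).resolve_right hv0
  · refine ⟨((v 0 / v 1 : k) : OnePoint k), ?_⟩
    rw [OnePoint.smul_some_eq_ite]
    have hden : g 1 0 * (v 0 / v 1) + g 1 1 = c := by
      field_simp
      linear_combination h1
    have hnum : g 0 0 * (v 0 / v 1) + g 0 1 = c * (v 0 / v 1) := by
      field_simp
      linear_combination h0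
    rw [hden, hnum, if_neg hc, mul_div_cancel_left₀ _ hc]

/-- A non-scalar element with a fixed point has exactly one or two fixed points. -/
theorem h48g_card_fix (g : GL (Fin 2) k) (hg : ¬ h48g_IsScal g) (x : OnePoint k)
    (hx : g • x = x) :
    Nat.card {x : OnePoint k // g • x = x} = 1 ∨ Nat.card {x : OnePoint k // g • x = x} = 2 := by
  obtain ⟨c, hc⟩ := h48g_exists_smul_eq_infty x
  have hfix : (c * g * c⁻¹) • (∞ : OnePoint k) = ∞ := by
    rw [← hc, mul_smul, mul_smul, inv_smul_smul, hx]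
  have h10 : (c * g * c⁻¹) 1 0 = 0 := OnePoint.smul_infty_eq_self_iff.mp hfix
  have hns : ¬ h48g_IsScal (c * g * c⁻¹) := by rwa [h48g_isScal_conj_iff]
  rw [← h48g_card_fix_conj g c]
  by_cases h00 : (c * g * c⁻¹) 0 0 = (c * g * c⁻¹) 1 1
  · left
    apply h48g_card_fix_parab _ h10 h00
    intro h01
    exact hns ⟨h10, h01, h00⟩
  · right
    exact h48g_card_fix_hyp _ h10 h00

/-- A non-scalar element with exactly one fixed point `x` is conjugate to `a • u(y)`, `y ≠ 0`,
by any `c` with `c • x = ∞`. -/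
theorem h48g_parab_of_card_one (g : GL (Fin 2) k) (hg : ¬ h48g_IsScal g) (x : OnePoint k)
    (hx : g • x = x) (h1 : Nat.card {x : OnePoint k // g • x = x} = 1) (c : GL (Fin 2) k)
    (hc : c • x = ∞) :
    (c * g * c⁻¹) 1 0 = 0 ∧ (c * g * c⁻¹) 0 0 = (c * g * c⁻¹) 1 1 ∧ (c * g * c⁻¹) 0 1 ≠ 0 := by
  have hfix : (c * g * c⁻¹) • (∞ : OnePoint k) = ∞ := by
    rw [← hc, mul_smul, mul_smul, inv_smul_smul, hx]
  have h10 : (c * g * c⁻¹) 1 0 = 0 := OnePoint.smul_infty_eq_self_iff.mp hfix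
  have hns : ¬ h48g_IsScal (c * g * c⁻¹) := by rwa [h48g_isScal_conj_iff]
  have hcard : Nat.card {x : OnePoint k // (c * g * c⁻¹) • x = x} = 1 := by
    rw [h48g_card_fix_conj g c, h1]
  by_cases h00 : (c * g * c⁻¹) 0 0 = (c * g * c⁻¹) 1 1
  · refine ⟨h10, h00, fun h01 => hns ⟨h10, h01, h00⟩⟩
  · rw [h48g_card_fix_hyp _ h10 h00] at hcard
    omega

end Fermat.Agent.S56G
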