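import Fermat.Agent.S56G.H48Fix

/-!
# S56, TW-CHEB group theory (helper48): second layer of frozen interfaces

Vocabulary for a subgroup `G ≤ GL₂(k)`: `h48g_V G` (the `x` with `u(x) ∈ G`), `h48g_T G` (pairs of
diagonal entries of diagonal elements), the subgroups `h48g_B G` (upper triangular), `h48g_Td G`
(diagonal), `h48g_Zs G` (scalar) of `G`, conjugates `h48g_conj c G`, the normal form
`h48g_N1`, `h48g_N2`, hypotheses `h48g_Split`, `h48g_Irr`, `h48g_Det`, conclusion `h48g_Concl`.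

Everything in this file is a definition or an interface `Prop`; nothing is assumed.
-/

set_option autoImplicit false

open Matrix Matrix.GeneralLinearGroup OnePoint

noncomputable section

namespace Fermat.Agent.S56G

section Defs

variable {k : Type} [Field k]

/-- The additive group of `x` with `u(x) ∈ G`. -/
def h48g_V (G : Subgroup (GL (Fin 2) k)) : AddSubgroup k where
  carrier := {x | upperRightHom x ∈ G}
  zero_mem' := by
    show upperRightHom (0 : k) ∈ G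
    rw [AddChar.map_zero_eq_one]; exact G.one_mem
  add_mem' := fun {a b} ha hb => by
    show upperRightHom (a + b) ∈ G
    rw [AddChar.map_add_eq_mul]; exact G.mul_mem ha hb
  neg_mem' := fun {a} ha => by
    show upperRightHom (-a) ∈ G
    rw [AddChar.map_neg_eq_inv]; exact G.inv_mem ha

theorem h48g_mem_V {G : Subgroup (GL (Fin 2) k)} {x : k} :
    x ∈ h48g_V G ↔ upperRightHom x ∈ G := Iff.rfl

/-- The pairs `(t₁, t₂)` of diagonal entries of the diagonal elements of `G`. -/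
def h48g_T (G : Subgroup (GL (Fin 2) k)) : Set (k × k) :=
  {t | ∃ g ∈ G, g 1 0 = 0 ∧ g 0 1 = 0 ∧ g 0 0 = t.1 ∧ g 1 1 = t.2}

/-- The upper triangular elements of `G`. -/
def h48g_B (G : Subgroup (GL (Fin 2) k)) : Subgroup G where
  carrier := {g | (g : GL (Fin 2) k) 1 0 = 0}
  one_mem' := by simp
  mul_mem' := fun {a b} ha hb => by
    simp only [Set.mem_setOf_eq] at ha hb ⊢
    rw [Subgroup.coe_mul, h48g_mul_10, ha, hb]; simp
  inv_mem' := fun {a} ha => by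
    simp only [Set.mem_setOf_eq] at ha ⊢
    rw [Subgroup.coe_inv, (h48g_inv_entries _).2.2.1, ha]; simp

/-- The diagonal elements of `G`. -/
def h48g_Td (G : Subgroup (GL (Fin 2) k)) : Subgroup G where
  carrier := {g | (g : GL (Fin 2) k) 1 0 = 0 ∧ (g : GL (Fin 2) k) 0 1 = 0}
  one_mem' := by simp
  mul_mem' := fun {a b} ha hb => by
    simp only [Set.mem_setOf_eq] at ha hb ⊢
    rw [Subgroup.coe_mul, h48g_mul_10, h48g_mul_01, ha.1, ha.2, hb.1, hb.2]; simp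
  inv_mem' := fun {a} ha => by
    simp only [Set.mem_setOf_eq] at ha ⊢
    rw [Subgroup.coe_inv, (h48g_inv_entries _).2.2.1, (h48g_inv_entries _).2.1, ha.1, ha.2]; simp

/-- The scalar elements of `G`. -/
def h48g_Zs (G : Subgroup (GL (Fin 2) k)) : Subgroup G where
  carrier := {g | h48g_IsScal (g : GL (Fin 2) k)}
  one_mem' := by simp [h48g_IsScal]
  mul_mem' := fun {a b} ha hb => by
    simp only [Set.mem_setOf_eq, h48g_IsScal] at ha hb ⊢
    rw [Subgroup.coe_mul, h48g_mul_10, h48g_mul_01, h48g_mul_00, h48g_mul_11, ha.1, ha.2.1,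
      hb.1, hb.2.1, ha.2.2, hb.2.2]; simp
  inv_mem' := fun {a} ha => by
    simp only [Set.mem_setOf_eq, h48g_IsScal] at ha ⊢
    rw [Subgroup.coe_inv, (h48g_inv_entries _).2.2.1, (h48g_inv_entries _).2.1,
      (h48g_inv_entries _).1, (h48g_inv_entries _).2.2.2, ha.1, ha.2.1, ha.2.2]; simp

/-- The conjugate subgroup `c G c⁻¹`. -/
def h48g_conj (c : GL (Fin 2) k) (G : Subgroup (GL (Fin 2) k)) : Subgroup (GL (Fin 2) k) :=
  G.map (MulAut.conj c).toMonoidHom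

theorem h48g_mem_conj {c : GL (Fin 2) k} {G : Subgroup (GL (Fin 2) k)} {g : GL (Fin 2) k} :
    g ∈ h48g_conj c G ↔ c⁻¹ * g * c ∈ G := by
  unfold h48g_conj
  constructor
  · rintro ⟨h, hh, rfl⟩
    simpa [MulAut.conj_apply, mul_assoc] using hh
  · intro h
    exact ⟨c⁻¹ * g * c, h, by simp [MulAut.conj_apply, mul_assoc]⟩

/-- Normal form, part 1: `G` contains a nontrivial `u(x)`. -/
def h48g_N1 (G : Subgroup (GL (Fin 2) k)) : Prop := ∃ x : k, x ≠ 0 ∧ upperRightHom x ∈ G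

/-- Normal form, part 2: the diagonal part of an upper triangular element of `G` is in `G`. -/
def h48g_N2 (G : Subgroup (GL (Fin 2) k)) : Prop :=
  ∀ g ∈ G, g 1 0 = 0 → ∃ t ∈ G, t 1 0 = 0 ∧ t 0 1 = 0 ∧ t 0 0 = g 0 0 ∧ t 1 1 = g 1 1

/-- Every element of `G` has an eigenvector over `k`. -/
def h48g_Split (G : Subgroup (GL (Fin 2) k)) : Prop :=
  ∀ g ∈ G, ∃ v : Fin 2 → k, v ≠ 0 ∧ ∃ c : k, (g : Matrix (Fin 2) (Fin 2) k) *ᵥ v = c • v

/-- No line is stable under `G`. -/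
def h48g_Irr (G : Subgroup (GL (Fin 2) k)) : Prop :=
  ∀ v : Fin 2 → k, v ≠ 0 → ∃ g ∈ G, ∀ c : k, (g : Matrix (Fin 2) (Fin 2) k) *ᵥ v ≠ c • v

/-- Some determinant of `G` is a non-square of `𝔽_p`. -/
def h48g_Det (p : ℕ) (G : Subgroup (GL (Fin 2) k)) : Prop :=
  ∃ g ∈ G, ∃ d : ℤ, (∀ x : ℤ, ¬ (p : ℤ) ∣ x ^ 2 - d) ∧
    (g : Matrix (Fin 2) (Fin 2) k).det = (d : k)

/-- Every trace-zero cocycle of `G` is the coboundary of a trace-zero matrix. -/
def h48g_Concl (G : Subgroup (GL (Fin 2) k)) : Prop :=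
  ∀ f : G → Matrix (Fin 2) (Fin 2) k,
    (∀ g, (f g).trace = 0) →
    (∀ g h : G, f (g * h) = f g + h48g_act (g : GL (Fin 2) k) (f h)) →
    ∃ X : Matrix (Fin 2) (Fin 2) k, X.trace = 0 ∧
      ∀ g : G, f g = h48g_act (g : GL (Fin 2) k) X - X

end Defs

/-! ## Frozen interfaces -/

/-- **FINAL** (the two hypotheses of `H48GCocycle` from the ratio property). -/
def H48GFinal : Prop :=
  ∀ (k : Type) [Field k] (p : ℕ) [Fact p.Prime] [CharP k p], p ≠ 2 →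
  ∀ (V : AddSubgroup k) (𝒯 : Set (k × k)),
    (∀ t ∈ 𝒯, t.1 ≠ 0 ∧ t.2 ≠ 0) →
    (∀ t ∈ 𝒯, ∀ x ∈ V, t.1 / t.2 * x ∈ V) →
    (∃ x ∈ V, x ≠ 0) →
    (∃ t ∈ 𝒯, ∃ d : ℤ, (∀ x : ℤ, ¬ (p : ℤ) ∣ x ^ 2 - d) ∧ t.1 * t.2 = (d : k)) →
    ((∃ t ∈ 𝒯, ∀ j : ℤ, t.1 / t.2 ≠ (j : k)) →
      ∀ x ∈ V, ∀ y ∈ V, x ≠ 0 → y ≠ 0 → (x / y, y / x) ∈ 𝒯) →
    (∀ a : k → k, (∀ x ∈ V, ∀ y ∈ V, a (x + y) = a x + a y) →
      (∀ t ∈ 𝒯, ∀ x ∈ V, a (t.1 / t.2 * x) = t.1 ^ 2 * a x) → ∀ x ∈ V, a x = 0) ∧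
    (p = 3 ∨ ∃ t ∈ 𝒯, t.1 ≠ t.2 ^ 3)

/-- **TRANSPORT**: the conclusion is invariant under conjugation. -/
def H48GTransport : Prop :=
  ∀ (k : Type) [Field k] (G : Subgroup (GL (Fin 2) k)) (c : GL (Fin 2) k),
    h48g_Concl (h48g_conj c G) → h48g_Concl G

/-- **HYPCONJ**: the hypotheses are invariant under conjugation. -/
def H48GHypConj : Prop :=
  ∀ (k : Type) [Field k] (p : ℕ) (G : Subgroup (GL (Fin 2) k)) (c : GL (Fin 2) k),
    (h48g_Split G → h48g_Split (h48g_conj c G)) ∧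
    (h48g_Irr G → h48g_Irr (h48g_conj c G)) ∧
    (h48g_Det p G → h48g_Det p (h48g_conj c G))

/-- **NORMALIZE**: if `p ∣ #G`, a conjugate of `G` is in normal form. -/
def H48GNormalize : Prop :=
  ∀ (k : Type) [Field k] [Finite k] (p : ℕ) [Fact p.Prime] [CharP k p]
    (G : Subgroup (GL (Fin 2) k)), p ∣ Nat.card G →
    ∃ c : GL (Fin 2) k, h48g_N1 (h48g_conj c G) ∧ h48g_N2 (h48g_conj c G)

/-- **SMALL**: the case `p ∤ #G` (Maschke + trace correction). -/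
def H48GSmall : Prop :=
  ∀ (k : Type) [Field k] [Finite k] (p : ℕ) [Fact p.Prime] [CharP k p], p ≠ 2 →
    ∀ (G : Subgroup (GL (Fin 2) k)), ¬ p ∣ Nat.card G → h48g_Concl G

/-- **MOD**: `#Ω ≡ 1 mod p` for the orbit `Ω` of `∞`, and the index of `B` is invertible. -/
def H48GMod : Prop :=
  ∀ (k : Type) [Field k] [Finite k] [DecidableEq k] (p : ℕ) [Fact p.Prime] [CharP k p]
    (G : Subgroup (GL (Fin 2) k)), h48g_N1 G →
    Nat.card (MulAction.orbit G (∞ : OnePoint k)) % p = 1 ∧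
    (((h48g_B G).index : ℕ) : k) ≠ 0

/-- **HU**: an element with exactly one fixed point has it in the orbit of `∞`. -/
def H48GHU : Prop :=
  ∀ (k : Type) [Field k] [Finite k] [DecidableEq k] (p : ℕ) [Fact p.Prime] [CharP k p]
    (G : Subgroup (GL (Fin 2) k)), h48g_N1 G →
    ∀ g : G, g ∉ h48g_Zs G → Nat.card {x : OnePoint k // g • x = x} = 1 →
      ∀ x : OnePoint k, g • x = x → x ∈ MulAction.orbit G (∞ : OnePoint k)

/-- **CARD**: `#B = #V · #T_d` and the number of parabolic elements of `B`. -/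
def H48GCard : Prop :=
  ∀ (k : Type) [Field k] [Finite k] (G : Subgroup (GL (Fin 2) k)), h48g_N2 G →
    Nat.card (h48g_B G) = Nat.card (h48g_V G) * Nat.card (h48g_Td G) ∧
    Nat.card {g : G // g ∈ h48g_B G ∧ g ∉ h48g_Zs G ∧
        (g : GL (Fin 2) k) 0 0 = (g : GL (Fin 2) k) 1 1} + Nat.card (h48g_Zs G) =
      Nat.card (h48g_Zs G) * Nat.card (h48g_V G)

/-- **DIV**: divisibilities from free actions. -/
def H48GDiv : Prop :=
  ∀ (k : Type) [Field k] [Finite k] [DecidableEq k] (G : Subgroup (GL (Fin 2) k)),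
    (Nat.card (h48g_V G) ∣ Nat.card (MulAction.orbit G (∞ : OnePoint k)) - 1) ∧
    (Nat.card (h48g_Td G) ∣ Nat.card (h48g_Zs G) * (Nat.card (h48g_V G) - 1)) ∧
    (((0 : k) : OnePoint k) ∈ MulAction.orbit G (∞ : OnePoint k) →
      Nat.card (h48g_Td G) ∣
        Nat.card (h48g_Zs G) * (Nat.card (MulAction.orbit G (∞ : OnePoint k)) - 2))

/-- **TWO**: if `Ω = {∞} ∪ V` then `G` contains `diag(x/y, y/x)` for `x, y ∈ V - 0`. -/
def H48GTwo : Prop :=
  ∀ (k : Type) [Field k] [Finite k] [DecidableEq k] (G : Subgroup (GL (Fin 2) k)),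
    ((0 : k) : OnePoint k) ∈ MulAction.orbit G (∞ : OnePoint k) →
    Nat.card (MulAction.orbit G (∞ : OnePoint k)) = Nat.card (h48g_V G) + 1 →
    ∀ x ∈ h48g_V G, ∀ y ∈ h48g_V G, x ≠ 0 → y ≠ 0 → (x / y, y / x) ∈ h48g_T G

/-- **RATIO** (the group-theoretic heart; assembled by helper48 from COUNT, ARITH, MOD, HU,
CARD, DIV, TWO). -/
def H48GRatio : Prop :=
  ∀ (k : Type) [Field k] [Finite k] (p : ℕ) [Fact p.Prime] [CharP k p], p ≠ 2 →
  ∀ (G : Subgroup (GL (Fin 2) k)), h48g_Split G → h48g_Irr G → h48g_N1 G → h48g_N2 G →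
    (∃ t ∈ h48g_T G, ∀ j : ℤ, t.1 / t.2 ≠ (j : k)) →
    ∀ x ∈ h48g_V G, ∀ y ∈ h48g_V G, x ≠ 0 → y ≠ 0 → (x / y, y / x) ∈ h48g_T G

/-- **ASM**: in normal form, with the index of `B` invertible and the two hypotheses of
`H48GCocycle` for `(V, T)`, every trace-zero cocycle is a coboundary
(uses `H48GAvg` twice and `H48GCocycle`). -/
def H48GAsm : Prop :=
  ∀ (k : Type) [Field k] [Finite k] (p : ℕ) [Fact p.Prime] [CharP k p], p ≠ 2 →
  ∀ (G : Subgroup (GL (Fin 2) k)), h48g_N2 G → (((h48g_B G).index : ℕ) : k) ≠ 0 →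
    (∀ a : k → k, (∀ x ∈ h48g_V G, ∀ y ∈ h48g_V G, a (x + y) = a x + a y) →
      (∀ t ∈ h48g_T G, ∀ x ∈ h48g_V G, a (t.1 / t.2 * x) = t.1 ^ 2 * a x) →
      ∀ x ∈ h48g_V G, a x = 0) →
    (p = 3 ∨ ∃ t ∈ h48g_T G, t.1 ≠ t.2 ^ 3) →
    h48g_Concl G

end Fermat.Agent.S56G
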