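import Fermat.Agent.S56G.H48Ratio

/-!
# S56, TW-CHEB group theory (helper48): conditional assembly of the target `H48GVanish`
-/

set_option autoImplicit false

open Matrix Matrix.GeneralLinearGroup OnePoint

noncomputable section

namespace Fermat.Agent.S56G

variable {k : Type} [Field k]

theorem h48g_T_ne {G : Subgroup (GL (Fin 2) k)} {t : k × k} (ht : t ∈ h48g_T G) :
    t.1 ≠ 0 ∧ t.2 ≠ 0 := by
  obtain ⟨g, -, g10, -, g00, g11⟩ := ht
  have := h48g_upper_diag_ne g g10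
  rw [g00, g11] at this
  exact this

theorem h48g_T_smul_V {G : Subgroup (GL (Fin 2) k)} {t : k × k} (ht : t ∈ h48g_T G)
    {x : k} (hx : x ∈ h48g_V G) : t.1 / t.2 * x ∈ h48g_V G := by
  have hne := h48g_T_ne ht
  obtain ⟨g, hg, g10, g01, g00, g11⟩ := ht
  show upperRightHom (t.1 / t.2 * x) ∈ G
  have hconj := h48g_dg_conj_u t.1 t.2 hne.1 hne.2 x
  have hdg : h48g_dg t.1 t.2 hne.1 hne.2 = g := by
    apply h48g_ext <;> simp [g10, g01, g00, g11]
  rw [← hconj, hdg]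
  exact G.mul_mem (G.mul_mem hg hx) (G.inv_mem hg)

/-- **Conditional assembly of the target.** -/
theorem h48g_vanish_of (hSmall : H48GSmall) (hNorm : H48GNormalize) (hHC : H48GHypConj)
    (hTr : H48GTransport) (hMod : H48GMod) (hFrat : H48GFrattini) (hRatio : H48GRatio)
    (hFinal : H48GFinal) (hAsm : H48GAsm) : H48GVanish := by
  intro k _ _ p _ _ hp2 G hsplit hirr hdet
  show h48g_Concl G
  by_cases hpG : p ∣ Nat.card G
  · obtain ⟨c, hN1, hN2⟩ := hNorm k p G hpG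
    apply hTr k G c
    obtain ⟨hs', hi', hd'⟩ := hHC k p G c
    have hsplit' : h48g_Split (h48g_conj c G) := hs' hsplit
    have hirr' : h48g_Irr (h48g_conj c G) := hi' hirr
    have hdet' : h48g_Det p (h48g_conj c G) := hd' hdet
    classical
    obtain ⟨-, hidx⟩ := hMod k p (h48g_conj c G) hN1
    obtain ⟨g0, hg0, d, hd, hdet0⟩ := hdet'
    obtain ⟨x0, hx0, hx0G⟩ := hN1
    obtain ⟨b, hb, hb10, hbdet⟩ := hFrat k p (h48g_conj c G)
      ⟨upperRightHom x0, hx0G, by simp, by simp, by simp, by simpa using hx0⟩ g0 hg0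
    obtain ⟨t, ht, ht10, ht01, ht00, ht11⟩ := hN2 b hb hb10
    have hT0 : ((b 0 0, b 1 1) : k × k) ∈ h48g_T (h48g_conj c G) :=
      ⟨t, ht, ht10, ht01, ht00, ht11⟩
    have hprod : b 0 0 * b 1 1 = (d : k) := by
      rw [← hdet0, ← hbdet, Matrix.det_fin_two, hb10]; ring
    obtain ⟨hA, hC⟩ := hFinal k p hp2 (h48g_V (h48g_conj c G)) (h48g_T (h48g_conj c G))
      (fun t ht => h48g_T_ne ht) (fun t ht x hx => h48g_T_smul_V ht hx)
      ⟨x0, hx0G, hx0⟩ ⟨_, hT0, d, hd, hprod⟩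
      (hRatio k p hp2 (h48g_conj c G) hsplit' hirr' ⟨x0, hx0, hx0G⟩ hN2)
    exact hAsm k p hp2 (h48g_conj c G) hN2 hidx hA hC
  · exact hSmall k p hp2 G hpG

end Fermat.Agent.S56G
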