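import Fermat.Agent.S56G.H48Iface

/-!
# S56, TW-CHEB group theory: matrix basics (helper48)

The twisted adjoint action as a representation, explicit entries, the elements `u(x)`, `l(y)`,
diagonal elements, and the Weyl identity `u(x) l(-1/x) u(x) = diag(x/x', x'/x) * u(x') l(-1/x') u(x')`.
-/

set_option autoImplicit false

open Matrix Matrix.GeneralLinearGroup

noncomputable section

namespace Fermat.Agent.S56G

variable {k : Type} [Field k]

theorem h48g_act_eq_adj (g : GL (Fin 2) k) (X : Matrix (Fin 2) (Fin 2) k) :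
    h48g_act g X =
      (g : Matrix (Fin 2) (Fin 2) k) * X * (g : Matrix (Fin 2) (Fin 2) k).adjugate := by
  unfold h48g_act
  rw [Matrix.GeneralLinearGroup.coe_inv, Matrix.inv_def]
  have hd : (g : Matrix (Fin 2) (Fin 2) k).det ≠ 0 := g.det_ne_zero
  rw [Ring.inverse_eq_inv', Matrix.mul_smul, smul_smul, mul_inv_cancel₀ hd, one_smul]

theorem h48g_act_entries (g : GL (Fin 2) k) (X : Matrix (Fin 2) (Fin 2) k) :
    h48g_act g X = !![
      (g 0 0 * X 0 0 + g 0 1 * X 1 0) * g 1 1 - (g 0 0 * X 0 1 + g 0 1 * X 1 1) * g 1 0,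
      -(g 0 0 * X 0 0 + g 0 1 * X 1 0) * g 0 1 + (g 0 0 * X 0 1 + g 0 1 * X 1 1) * g 0 0;
      (g 1 0 * X 0 0 + g 1 1 * X 1 0) * g 1 1 - (g 1 0 * X 0 1 + g 1 1 * X 1 1) * g 1 0,
      -(g 1 0 * X 0 0 + g 1 1 * X 1 0) * g 0 1 + (g 1 0 * X 0 1 + g 1 1 * X 1 1) * g 0 0] := by
  rw [h48g_act_eq_adj, Matrix.adjugate_fin_two]
  ext i j
  fin_cases i <;> fin_cases j <;> simp [Matrix.mul_apply, Fin.sum_univ_two] <;> ring

theorem h48g_act_add (g : GL (Fin 2) k) (X Y : Matrix (Fin 2) (Fin 2) k) :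
    h48g_act g (X + Y) = h48g_act g X + h48g_act g Y := by
  simp only [h48g_act_eq_adj, Matrix.mul_add, Matrix.add_mul]

theorem h48g_act_smul (g : GL (Fin 2) k) (c : k) (X : Matrix (Fin 2) (Fin 2) k) :
    h48g_act g (c • X) = c • h48g_act g X := by
  simp only [h48g_act_eq_adj, Matrix.mul_smul, Matrix.smul_mul]

theorem h48g_act_sub (g : GL (Fin 2) k) (X Y : Matrix (Fin 2) (Fin 2) k) :
    h48g_act g (X - Y) = h48g_act g X - h48g_act g Y := by
  simp only [h48g_act_eq_adj, Matrix.mul_sub, Matrix.sub_mul]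

theorem h48g_act_zero (g : GL (Fin 2) k) : h48g_act g (0 : Matrix (Fin 2) (Fin 2) k) = 0 := by
  simp [h48g_act_eq_adj]

theorem h48g_act_one (X : Matrix (Fin 2) (Fin 2) k) : h48g_act (1 : GL (Fin 2) k) X = X := by
  simp [h48g_act]

theorem h48g_act_mul (g h : GL (Fin 2) k) (X : Matrix (Fin 2) (Fin 2) k) :
    h48g_act (g * h) X = h48g_act g (h48g_act h X) := by
  simp only [h48g_act_eq_adj, Matrix.GeneralLinearGroup.coe_mul, Matrix.adjugate_mul_distrib,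
    Matrix.mul_assoc]

theorem h48g_act_trace (g : GL (Fin 2) k) (X : Matrix (Fin 2) (Fin 2) k) :
    (h48g_act g X).trace = (g : Matrix (Fin 2) (Fin 2) k).det * X.trace := by
  rw [h48g_act_entries]
  simp only [Matrix.trace_fin_two, Matrix.det_fin_two, Matrix.of_apply, Matrix.cons_val',
    Matrix.cons_val_zero, Matrix.cons_val_one, Matrix.cons_val_fin_one]
  ring

/-- The twisted adjoint representation. -/
def h48g_rep : GL (Fin 2) k →* (Matrix (Fin 2) (Fin 2) k →ₗ[k] Matrix (Fin 2) (Fin 2) k) where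
  toFun g :=
    { toFun := h48g_act g
      map_add' := h48g_act_add g
      map_smul' := fun c X => by simp [h48g_act_smul] }
  map_one' := by
    ext X : 1
    exact h48g_act_one X
  map_mul' g h := by
    ext X : 1
    exact h48g_act_mul g h X

@[simp] theorem h48g_rep_apply (g : GL (Fin 2) k) (X : Matrix (Fin 2) (Fin 2) k) :
    h48g_rep g X = h48g_act g X := rfl

/-- Equality in `GL₂` by entries. -/
theorem h48g_ext {g h : GL (Fin 2) k} (h00 : g 0 0 = h 0 0) (h01 : g 0 1 = h 0 1)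
    (h10 : g 1 0 = h 1 0) (h11 : g 1 1 = h 1 1) : g = h := by
  apply Units.ext
  ext i j
  fin_cases i <;> fin_cases j <;> assumption

/-- The lower unipotent element `l(y)`. -/
def h48g_l (y : k) : GL (Fin 2) k :=
  ⟨!![1, 0; y, 1], !![1, 0; -y, 1], by simp [one_fin_two], by simp [one_fin_two]⟩

/-- The diagonal element `diag(a, b)`. -/
def h48g_dg (a b : k) (ha : a ≠ 0) (hb : b ≠ 0) : GL (Fin 2) k :=
  ⟨!![a, 0; 0, b], !![a⁻¹, 0; 0, b⁻¹], by simp [one_fin_two, ha, hb],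
    by simp [one_fin_two, ha, hb]⟩

@[simp] theorem h48g_u_00 (x : k) : (upperRightHom x : GL (Fin 2) k) 0 0 = 1 := rfl
@[simp] theorem h48g_u_01 (x : k) : (upperRightHom x : GL (Fin 2) k) 0 1 = x := rfl
@[simp] theorem h48g_u_10 (x : k) : (upperRightHom x : GL (Fin 2) k) 1 0 = 0 := rfl
@[simp] theorem h48g_u_11 (x : k) : (upperRightHom x : GL (Fin 2) k) 1 1 = 1 := rfl
@[simp] theorem h48g_l_00 (x : k) : (h48g_l x) 0 0 = 1 := rfl
@[simp] theorem h48g_l_01 (x : k) : (h48g_l x) 0 1 = 0 := rfl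
@[simp] theorem h48g_l_10 (x : k) : (h48g_l x) 1 0 = x := rfl
@[simp] theorem h48g_l_11 (x : k) : (h48g_l x) 1 1 = 1 := rfl
@[simp] theorem h48g_dg_00 (a b : k) (ha : a ≠ 0) (hb : b ≠ 0) : (h48g_dg a b ha hb) 0 0 = a := rfl
@[simp] theorem h48g_dg_01 (a b : k) (ha : a ≠ 0) (hb : b ≠ 0) : (h48g_dg a b ha hb) 0 1 = 0 := rfl
@[simp] theorem h48g_dg_10 (a b : k) (ha : a ≠ 0) (hb : b ≠ 0) : (h48g_dg a b ha hb) 1 0 = 0 := rfl
@[simp] theorem h48g_dg_11 (a b : k) (ha : a ≠ 0) (hb : b ≠ 0) : (h48g_dg a b ha hb) 1 1 = b := rfl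

theorem h48g_mul_00 (g h : GL (Fin 2) k) : (g * h) 0 0 = g 0 0 * h 0 0 + g 0 1 * h 1 0 := by
  simp [Matrix.mul_apply, Fin.sum_univ_two]
theorem h48g_mul_01 (g h : GL (Fin 2) k) : (g * h) 0 1 = g 0 0 * h 0 1 + g 0 1 * h 1 1 := by
  simp [Matrix.mul_apply, Fin.sum_univ_two]
theorem h48g_mul_10 (g h : GL (Fin 2) k) : (g * h) 1 0 = g 1 0 * h 0 0 + g 1 1 * h 1 0 := by
  simp [Matrix.mul_apply, Fin.sum_univ_two]
theorem h48g_mul_11 (g h : GL (Fin 2) k) : (g * h) 1 1 = g 1 0 * h 0 1 + g 1 1 * h 1 1 := by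
  simp [Matrix.mul_apply, Fin.sum_univ_two]

theorem h48g_det_eq (g : GL (Fin 2) k) :
    (g : Matrix (Fin 2) (Fin 2) k).det = g 0 0 * g 1 1 - g 0 1 * g 1 0 := by
  rw [Matrix.det_fin_two]

theorem h48g_det_ne (g : GL (Fin 2) k) : g 0 0 * g 1 1 - g 0 1 * g 1 0 ≠ 0 := by
  rw [← h48g_det_eq]; exact g.det_ne_zero

theorem h48g_inv_entries (g : GL (Fin 2) k) :
    (g⁻¹ : GL (Fin 2) k) 0 0 = g 1 1 / (g 0 0 * g 1 1 - g 0 1 * g 1 0) ∧
    (g⁻¹ : GL (Fin 2) k) 0 1 = - g 0 1 / (g 0 0 * g 1 1 - g 0 1 * g 1 0) ∧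
    (g⁻¹ : GL (Fin 2) k) 1 0 = - g 1 0 / (g 0 0 * g 1 1 - g 0 1 * g 1 0) ∧
    (g⁻¹ : GL (Fin 2) k) 1 1 = g 0 0 / (g 0 0 * g 1 1 - g 0 1 * g 1 0) := by
  have hd := h48g_det_ne g
  have h : ((g⁻¹ : GL (Fin 2) k) : Matrix (Fin 2) (Fin 2) k) =
      (g 0 0 * g 1 1 - g 0 1 * g 1 0)⁻¹ • (g : Matrix (Fin 2) (Fin 2) k).adjugate := by
    rw [Matrix.GeneralLinearGroup.coe_inv, Matrix.inv_def, Ring.inverse_eq_inv', Matrix.det_fin_two]
  refine ⟨?_, ?_, ?_, ?_⟩ <;>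
  · show ((g⁻¹ : GL (Fin 2) k) : Matrix (Fin 2) (Fin 2) k) _ _ = _
    rw [h, Matrix.adjugate_fin_two]
    simp [div_eq_inv_mul]

/-- Upper triangular elements: `g = u(g01/g11) * diag(g00, g11)`. -/
theorem h48g_upper_eq (g : GL (Fin 2) k) (hg : g 1 0 = 0) (h0 : g 0 0 ≠ 0) (h1 : g 1 1 ≠ 0) :
    g = upperRightHom (g 0 1 / g 1 1) * h48g_dg (g 0 0) (g 1 1) h0 h1 := by
  apply h48g_ext
  · simp [h48g_mul_00]
  · simp [h48g_mul_01, h1]
  · simp [h48g_mul_10, hg]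
  · simp [h48g_mul_11]

theorem h48g_upper_diag_ne (g : GL (Fin 2) k) (hg : g 1 0 = 0) : g 0 0 ≠ 0 ∧ g 1 1 ≠ 0 := by
  have h := h48g_det_ne g
  rw [hg, mul_zero, sub_zero] at h
  exact ⟨left_ne_zero_of_mul h, right_ne_zero_of_mul h⟩

/-- Conjugation of `u(x)` by a diagonal element. -/
theorem h48g_dg_conj_u (a b : k) (ha : a ≠ 0) (hb : b ≠ 0) (x : k) :
    h48g_dg a b ha hb * upperRightHom x * (h48g_dg a b ha hb)⁻¹ = upperRightHom (a / b * x) := by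
  rw [mul_inv_eq_iff_eq_mul]
  apply h48g_ext
  · simp [h48g_mul_00]
  · simp [h48g_mul_01]; field_simp
  · simp [h48g_mul_10]
  · simp [h48g_mul_11]

/-- The Weyl identity. -/
theorem h48g_weyl (x y : k) (hx : x ≠ 0) (hy : y ≠ 0) :
    upperRightHom x * h48g_l (-x⁻¹) * upperRightHom x =
      h48g_dg (x / y) (y / x) (div_ne_zero hx hy) (div_ne_zero hy hx) *
        (upperRightHom y * h48g_l (-y⁻¹) * upperRightHom y) := by
  apply h48g_ext
  · simp only [h48g_mul_00, h48g_mul_01, h48g_mul_10, h48g_mul_11, h48g_u_00, h48g_u_01,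
      h48g_u_10, h48g_u_11, h48g_l_00, h48g_l_01, h48g_l_10, h48g_l_11, h48g_dg_00, h48g_dg_01,
      h48g_dg_10, h48g_dg_11]
    field_simp
    ring
  · simp only [h48g_mul_00, h48g_mul_01, h48g_mul_10, h48g_mul_11, h48g_u_00, h48g_u_01,
      h48g_u_10, h48g_u_11, h48g_l_00, h48g_l_01, h48g_l_10, h48g_l_11, h48g_dg_00, h48g_dg_01,
      h48g_dg_10, h48g_dg_11]
    field_simp
    ring
  · simp only [h48g_mul_00, h48g_mul_01, h48g_mul_10, h48g_mul_11, h48g_u_00, h48g_u_01,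
      h48g_u_10, h48g_u_11, h48g_l_00, h48g_l_01, h48g_l_10, h48g_l_11, h48g_dg_00, h48g_dg_01,
      h48g_dg_10, h48g_dg_11]
    field_simp
    ring
  · simp only [h48g_mul_00, h48g_mul_01, h48g_mul_10, h48g_mul_11, h48g_u_00, h48g_u_01,
      h48g_u_10, h48g_u_11, h48g_l_00, h48g_l_01, h48g_l_10, h48g_l_11, h48g_dg_00, h48g_dg_01,
      h48g_dg_10, h48g_dg_11]
    field_simp
    ring

/-- Conjugating `u(x)` by an antidiagonal element gives a lower unipotent element. -/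
theorem h48g_anti_conj_u (w : GL (Fin 2) k) (h00 : w 0 0 = 0) (h11 : w 1 1 = 0) (x : k) :
    w * upperRightHom x * w⁻¹ = h48g_l (w 1 0 / w 0 1 * x) := by
  have hd := h48g_det_ne w
  rw [h00, h11, mul_zero, zero_sub, neg_ne_zero] at hd
  have hb : w 0 1 ≠ 0 := left_ne_zero_of_mul hd
  rw [mul_inv_eq_iff_eq_mul]
  apply h48g_ext
  · simp [h48g_mul_00, h00]
  · simp [h48g_mul_01, h00]
  · simp [h48g_mul_10, h11, h00]
  · simp [h48g_mul_11, h11]; field_simp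

end Fermat.Agent.S56G
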