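import Fermat.Agent.S56G.H93PkgIface
import Fermat.Agent.PT.Bridge.LocGrpE

/-!
# S56, EQ-ARITH, arithmetic package (helper48, prefix `h48n_`): NORTHCOTT for the `S`-units

Shared core of the leaves `H93PkgLogKer`, `H93PkgLogDisc` (`S56G/H93PkgIface.lean`):

* `h48n_isIntegral_of_norm_le` : an element of `ℚ̄` all of whose conjugates have `q`-adic norm
  `≤ 1` for all primes `q` is an algebraic integer (intersection of the valuation subrings);
* `h48n_northcott` : a number field `K ⊆ ℚ̄` contains finitely many algebraic integers with all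
  conjugates of complex absolute value `≤ C`;
* `h48n_core` : for every `B` the set of `S`-units `a` of `K = fieldOf U₀` with
  `|ℓ_i (g a)| ≤ B` for all `i ∈ S ∪ {∞}`, `g ∈ G` is FINITE
  (`M a` is an algebraic integer with bounded conjugates, `M = (∏_{q ∈ S} q) ^ m`);
* `h48n_pkgLogKer : H93PkgLogKer` (Kronecker, by pigeonhole on the multiples `n • a`);
* `h48n_pkgLogDisc : H93PkgLogDisc` (discreteness).
-/

set_option autoImplicit false
set_option linter.style.haveILetI false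

open ExtCitation
open scoped Pointwise

noncomputable section

namespace Fermat.Agent.S56G

open Fermat.Agent.PT Fermat.Agent.PT.Glob Fermat.Agent.PT.Bridge
open Fermat.Agent.Bridge hiding GQ Qb

local notation "Qb" => AlgebraicClosure ℚ

/-- a valuation subring of `ℚ̄` in which no prime number is a nonunit contains the inverses of
the positive integers. -/
theorem h48n_inv_natCast_mem (V : ValuationSubring Qb)
    (hV : ∀ q : ℕ, q.Prime → ¬ V.LiesOverPrime q) (n : ℕ) (hn : n ≠ 0) :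
    ((n : Qb))⁻¹ ∈ V := by
  induction n using Nat.recOnMul with
  | zero => exact absurd rfl hn
  | one => simp
  | prime q hq =>
    have h1 : ¬ ((q : Qb) ∈ V.nonunits) := hV q hq
    rw [mem_nonunits_iff_inv] at h1
    push Not at h1
    exact h1.2
  | mul a b ha hb =>
    have ha0 : a ≠ 0 := fun h => hn (by rw [h, zero_mul])
    have hb0 : b ≠ 0 := fun h => hn (by rw [h, mul_zero])
    rw [Nat.cast_mul, mul_inv]
    exact mul_mem (ha ha0) (hb hb0)

/-- a valuation subring of `ℚ̄` in which no prime number is a nonunit is everything. -/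
theorem h48n_mem_of_no_prime (V : ValuationSubring Qb)
    (hV : ∀ q : ℕ, q.Prime → ¬ V.LiesOverPrime q) (y : Qb) : y ∈ V := by
  haveI : Algebra.IsAlgebraic ℚ Qb := AlgebraicClosure.isAlgebraic ℚ
  have halg : IsAlgebraic ℤ y :=
    (IsFractionRing.isAlgebraic_iff ℤ ℚ Qb).mpr (Algebra.IsAlgebraic.isAlgebraic y)
  obtain ⟨n, hn, hint⟩ := IsAlgebraic.exists_integral_multiple halg
  have h1 : n • y ∈ V := mem_of_isIntegral V hint
  have h2 : ((n.natAbs : ℕ) : Qb)⁻¹ ∈ V :=
    h48n_inv_natCast_mem V hV n.natAbs (Int.natAbs_ne_zero.mpr hn)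
  have h3 : ((n : ℤ) : Qb)⁻¹ ∈ V := by
    rcases Int.natAbs_eq n with h | h
    · rw [h, Int.cast_natCast]
      exact h2
    · rw [h, Int.cast_neg, Int.cast_natCast, inv_neg]
      exact neg_mem h2
  have hn' : ((n : ℤ) : Qb) ≠ 0 := by exact_mod_cast hn
  have h4 : y = ((n : ℤ) : Qb)⁻¹ * (n • y) := by
    rw [zsmul_eq_mul, ← mul_assoc, inv_mul_cancel₀ hn', one_mul]
  rw [h4]
  exact mul_mem h3 h1

/-- **integrality from the `q`-adic norms**: an element of `ℚ̄` all of whose conjugates have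
norm `≤ 1` at all primes is an algebraic integer. -/
theorem h48n_isIntegral_of_norm_le (y : Qb)
    (h : ∀ (q : ℕ) [Fact q.Prime] (g : Qb ≃ₐ[ℚ] Qb), ‖padicEmbedding q (g y)‖ ≤ 1) :
    IsIntegral ℤ y := by
  have hV : ∀ V : ValuationSubring Qb, y ∈ V := by
    intro V
    by_cases hq : ∃ q : ℕ, q.Prime ∧ V.LiesOverPrime q
    · obtain ⟨q, hq, hVq⟩ := hq
      haveI : Fact q.Prime := ⟨hq⟩
      obtain ⟨g, rfl⟩ := h23b_exists_smul_padicPlace q hVq
      rw [mem_smul_iff, inv_inv, mem_padicPlace_iff]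
      exact h q g
    · push Not at hq
      exact h48n_mem_of_no_prime V hq y
  have h1 : y ∈ (⨅ V : {V : ValuationSubring Qb // (∅ : Set Qb) ⊆ V.toSubring}, V.1.toSubring) := by
    rw [Subring.mem_iInf]
    intro V
    exact hV V.1
  rw [iInf_valuationSubring_superset] at h1
  have h2 : IsIntegral (Subring.closure (∅ : Set Qb)) y := h1
  haveI : Algebra.IsIntegral ℤ (Subring.closure (∅ : Set Qb)) := by
    constructor
    intro x
    have hx : (x : Qb) ∈ (⊥ : Subring Qb) := by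
      have h3 : (x : Qb) ∈ Subring.closure (∅ : Set Qb) := x.2
      have h4 : Subring.closure (∅ : Set Qb) = ⊥ := Subring.closure_empty
      exact h4 ▸ h3
    obtain ⟨n, hn⟩ := Subring.mem_bot.mp hx
    have hx' : x = algebraMap ℤ _ n := Subtype.ext (by rw [← hn]; rfl)
    rw [hx']
    exact isIntegral_algebraMap
  exact isIntegral_trans y h2

/-- **Northcott** in `ℚ̄`: a number field contains finitely many algebraic integers all of whose
conjugates have complex absolute value `≤ C`. -/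
theorem h48n_northcott (K : IntermediateField ℚ Qb) [FiniteDimensional ℚ K] (C : ℝ) :
    {y : Qb | y ∈ K ∧ IsIntegral ℤ y ∧
      ∀ g : Qb ≃ₐ[ℚ] Qb, ‖complexEmbedding (g y)‖ ≤ C}.Finite := by
  haveI : Algebra.IsAlgebraic ℚ Qb := AlgebraicClosure.isAlgebraic ℚ
  haveI : IsAlgClosure ℚ Qb := ⟨inferInstance, inferInstance⟩
  haveI : Normal ℚ Qb := IsAlgClosure.normal ℚ Qb
  haveI : NumberField K := ⟨⟩
  have hfin := NumberField.Embeddings.finite_of_norm_le K ℂ C
  refine (hfin.image (fun y : K => (y : Qb))).subset ?_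
  rintro y ⟨hyK, hyint, hyb⟩
  refine ⟨⟨y, hyK⟩, ⟨?_, ?_⟩, rfl⟩
  · have h1 : IsIntegral ℤ (algebraMap K Qb ⟨y, hyK⟩) := hyint
    exact (isIntegral_algebraMap_iff (algebraMap K Qb).injective).mp h1
  · intro φ
    have h1 : φ ⟨y, hyK⟩ ∈ (minpoly ℚ (⟨y, hyK⟩ : K)).rootSet ℂ := by
      rw [← NumberField.Embeddings.range_eval_eq_rootSet_minpoly K ℂ]
      exact ⟨φ, rfl⟩
    have hmp : minpoly ℚ (⟨y, hyK⟩ : K) = minpoly ℚ y := IntermediateField.minpoly_eq (⟨y, hyK⟩ : K)
    rw [hmp] at h1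
    have hsplit : ((minpoly ℚ y).map (algebraMap ℚ Qb)).Splits := IsAlgClosed.splits _
    rw [← hsplit.image_rootSet complexEmbedding] at h1
    obtain ⟨z, hz, hzeq⟩ := h1
    have hz' : Polynomial.aeval z (minpoly ℚ y) = 0 := (Polynomial.mem_rootSet.mp hz).2
    obtain ⟨g, hg⟩ := minpoly.exists_algEquiv_of_root' (Algebra.IsAlgebraic.isAlgebraic y) hz'
    rw [← hzeq, ← hg]
    exact hyb g

/-- `fieldOf U₀` is a number field for `U₀` a finite level. -/
theorem h48n_finDim (U₀ : Subgroup GQ) (hU : U₀ ∈ levFin.sets) :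
    FiniteDimensional ℚ (fieldOf U₀) := by
  haveI := pt79_isGalois_Qbar
  obtain ⟨F, hF, -, rfl⟩ := hU
  have h : fieldOf F.fixingSubgroup = F := InfiniteGalois.fixedField_fixingSubgroup F
  rw [h]
  exact hF

/-- natural numbers have `q`-adic norm `≤ 1`. -/
theorem h48n_norm_natCast_le (q : ℕ) [Fact q.Prime] (n : ℕ) :
    ‖((n : ℕ) : PadicAlgCl q)‖ ≤ 1 := by
  have h1 : ((n : ℕ) : Qb) ∈ padicPlace q := mem_of_isIntegral _ (isIntegral_natCast n)
  rw [mem_padicPlace_iff, map_natCast] at h1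
  exact_mod_cast h1

/-- the local logarithms of the conjugates, in terms of `ℚ̄`. -/
theorem h48n_ell_some (S : Finset Nat.Primes) (U₀ : Subgroup GQ) [U₀.Normal] (q : ↥S)
    (g : GQ) (a : h93p_A S U₀) :
    h93p_ell S U₀ (some q) (h93p_act S U₀ (QuotientGroup.mk' U₀ g) a) =
      haveI : Fact ((q.1 : Nat.Primes) : ℕ).Prime := ⟨q.1.2⟩
      Real.log ‖padicEmbedding ((q.1 : Nat.Primes) : ℕ) (g (h93p_iota S U₀ a))‖ := rfl

theorem h48n_ell_none (S : Finset Nat.Primes) (U₀ : Subgroup GQ) [U₀.Normal]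
    (g : GQ) (a : h93p_A S U₀) :
    h93p_ell S U₀ none (h93p_act S U₀ (QuotientGroup.mk' U₀ g) a) =
      Real.log ‖complexEmbedding (g (h93p_iota S U₀ a))‖ := rfl

/-- `|log t| ≤ B` gives `t ≤ exp B`. -/
theorem h48n_le_exp {t B : ℝ} (ht : 0 < t) (h : |Real.log t| ≤ B) : t ≤ Real.exp B :=
  (Real.log_le_iff_le_exp ht).mp (le_trans (le_abs_self _) h)

/-- **NORTHCOTT for the `S`-units**: finitely many `S`-units of `K` have all their local
logarithms bounded by `B`. -/
theorem h48n_core (S : Finset Nat.Primes) (U₀ : Subgroup GQ) [U₀.Normal]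
    (hU : U₀ ∈ levFin.sets) (B : ℝ) :
    {a : h93p_A S U₀ | ∀ (i : Option ↥S) (g : GQ ⧸ U₀),
      |h93p_ell S U₀ i (h93p_act S U₀ g a)| ≤ B}.Finite := by
  haveI := h48n_finDim U₀ hU
  obtain ⟨m, hm⟩ : ∃ m : ℕ, Real.exp B ≤ 2 ^ m := by
    obtain ⟨m, hm⟩ := pow_unbounded_of_one_lt (Real.exp B) (by norm_num : (1 : ℝ) < 2)
    exact ⟨m, hm.le⟩
  set M : ℕ := (∏ q ∈ S, (q : ℕ)) ^ m with hM
  have hMpos : 0 < M := by
    rw [hM]
    exact pow_pos (Finset.prod_pos fun q _ => q.2.pos) m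
  have hM0 : (M : Qb) ≠ 0 := by exact_mod_cast hMpos.ne'
  have hfin := h48n_northcott (fieldOf U₀) ((M : ℝ) * Real.exp B)
  refine Set.Finite.of_finite_image (f := fun a => (M : Qb) * h93p_iota S U₀ a) ?_ ?_
  · refine hfin.subset ?_
    rintro _ ⟨a, ha, rfl⟩
    have hx0 := h93p_iota_ne_zero S U₀ a
    refine ⟨mul_mem (natCast_mem _ M) (h93p_iota_mem S U₀ a), ?_, ?_⟩
    · apply h48n_isIntegral_of_norm_le
      intro q hq g
      rw [map_mul, map_mul, map_natCast, map_natCast, norm_mul]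
      by_cases hqS : (⟨q, hq.out⟩ : Nat.Primes) ∈ S
      · have h1 := ha (some ⟨⟨q, hq.out⟩, hqS⟩) (QuotientGroup.mk' U₀ g)
        rw [h48n_ell_some] at h1
        have hpos : 0 < ‖padicEmbedding q (g (h93p_iota S U₀ a))‖ :=
          norm_pos_iff.mpr ((map_ne_zero_iff _ (RingHom.injective _)).2
            ((map_ne_zero_iff g (AlgEquiv.injective g)).2 hx0))
        have h2 : ‖padicEmbedding q (g (h93p_iota S U₀ a))‖ ≤ Real.exp B :=
          h48n_le_exp hpos h1
        have h3 : ‖((M : ℕ) : PadicAlgCl q)‖ ≤ ((q : ℝ)⁻¹) ^ m := by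
          have e1 : M = q ^ m * (∏ r ∈ S.erase ⟨q, hq.out⟩, (r : ℕ)) ^ m := by
            rw [hM, ← Finset.mul_prod_erase S _ hqS, mul_pow]
          rw [e1, Nat.cast_mul, Nat.cast_pow, norm_mul, norm_pow, h23b_norm_natCast_prime]
          have h4 := h48n_norm_natCast_le q ((∏ r ∈ S.erase ⟨q, hq.out⟩, (r : ℕ)) ^ m)
          have h5 : (0 : ℝ) ≤ ((q : ℝ)⁻¹) ^ m := by positivity
          calc ((q : ℝ)⁻¹) ^ m * ‖(((∏ r ∈ S.erase ⟨q, hq.out⟩, (r : ℕ)) ^ m : ℕ) : PadicAlgCl q)‖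
              ≤ ((q : ℝ)⁻¹) ^ m * 1 := mul_le_mul_of_nonneg_left h4 h5
            _ = ((q : ℝ)⁻¹) ^ m := mul_one _
        have hq2 : (2 : ℝ) ≤ q := by exact_mod_cast hq.out.two_le
        have h6 : ((q : ℝ)⁻¹) ^ m * (2 : ℝ) ^ m ≤ 1 := by
          rw [← mul_pow]
          apply pow_le_one₀ (by positivity)
          rw [inv_mul_le_iff₀ (by positivity)]
          linarith
        calc ‖((M : ℕ) : PadicAlgCl q)‖ * ‖padicEmbedding q (g (h93p_iota S U₀ a))‖
            ≤ ((q : ℝ)⁻¹) ^ m * Real.exp B :=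
              mul_le_mul h3 h2 (norm_nonneg _) (by positivity)
          _ ≤ ((q : ℝ)⁻¹) ^ m * (2 : ℝ) ^ m :=
              mul_le_mul_of_nonneg_left hm (by positivity)
          _ ≤ 1 := h6
      · have hV : (g⁻¹ • padicPlace q).LiesOverPrime q :=
          (liesOverPrime_smul_iff (padicPlace q) g⁻¹ q).2 (h23b_padicPlace_liesOver q)
        have h1 := (h93p_iota_val S U₀ a ⟨q, hq.out⟩ hqS _ hV).1
        rw [mem_smul_iff, inv_inv, mem_padicPlace_iff] at h1
        have h2 : ‖padicEmbedding q (g (h93p_iota S U₀ a))‖ ≤ 1 := by exact_mod_cast h1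
        calc ‖((M : ℕ) : PadicAlgCl q)‖ * ‖padicEmbedding q (g (h93p_iota S U₀ a))‖
            ≤ 1 * 1 := mul_le_mul (h48n_norm_natCast_le q M) h2 (norm_nonneg _) zero_le_one
          _ = 1 := one_mul 1
    · intro g
      have h1 := ha none (QuotientGroup.mk' U₀ g)
      rw [h48n_ell_none] at h1
      have hpos : 0 < ‖complexEmbedding (g (h93p_iota S U₀ a))‖ :=
        norm_pos_iff.mpr ((map_ne_zero_iff _ (RingHom.injective _)).2
          ((map_ne_zero_iff g (AlgEquiv.injective g)).2 hx0))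
      have h2 := h48n_le_exp hpos h1
      rw [map_mul, map_mul, map_natCast, map_natCast, norm_mul, Complex.norm_natCast]
      exact mul_le_mul_of_nonneg_left h2 (Nat.cast_nonneg _)
  · intro a _ b _ hab
    exact h93p_iota_injective S U₀ (mul_left_cancel₀ hM0 hab)

/-- **PKG-LOG-KER** (Kronecker). -/
theorem h48n_pkgLogKer : H93PkgLogKer := by
  intro S U₀ _ hU a ha
  have hfin := h48n_core S U₀ hU 0
  have hmem : ∀ n : ℕ, n • a ∈ {a : h93p_A S U₀ | ∀ (i : Option ↥S) (g : GQ ⧸ U₀),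
      |h93p_ell S U₀ i (h93p_act S U₀ g a)| ≤ 0} := by
    intro n i g
    rw [map_nsmul, map_nsmul, ha i g, smul_zero, abs_zero]
  obtain ⟨n, -, m, -, hne, h⟩ := Set.Infinite.exists_ne_map_eq_of_mapsTo
    (f := fun n : ℕ => n • a) Set.infinite_univ (fun n _ => hmem n) hfin
  have key : ∀ n m : ℕ, n < m → n • a = m • a → ∃ k : ℕ, 0 < k ∧ k • a = 0 := by
    intro n m hlt h
    refine ⟨m - n, Nat.sub_pos_of_lt hlt, ?_⟩
    have h1 : m • a = (m - n) • a + n • a := by
      rw [← add_nsmul, Nat.sub_add_cancel hlt.le]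
    rw [h1] at h
    exact (right_eq_add.mp h)
  rcases lt_or_gt_of_ne hne with hlt | hlt
  · exact key n m hlt h
  · exact key m n hlt h.symm

/-- **PKG-LOG-DISC** (discreteness of the logarithmic image). -/
theorem h48n_pkgLogDisc : H93PkgLogDisc := by
  intro S U₀ _ hU
  classical
  have hfin := h48n_core S U₀ hU 1
  set r : h93p_A S U₀ → ℝ := fun a =>
    if h : ∃ (i : Option ↥S) (g : GQ ⧸ U₀), h93p_ell S U₀ i (h93p_act S U₀ g a) ≠ 0 then
      |h93p_ell S U₀ h.choose (h93p_act S U₀ h.choose_spec.choose a)| else 1 with hr_def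
  have hr : ∀ a, 0 < r a := by
    intro a
    by_cases h : ∃ (i : Option ↥S) (g : GQ ⧸ U₀), h93p_ell S U₀ i (h93p_act S U₀ g a) ≠ 0
    · simp only [hr_def, dif_pos h]
      exact abs_pos.mpr h.choose_spec.choose_spec
    · simp only [hr_def, dif_neg h]
      exact one_pos
  obtain ⟨ε, hε, hε1, hεle⟩ : ∃ ε : ℝ, 0 < ε ∧ ε ≤ 1 ∧ ∀ a ∈ hfin.toFinset, ε ≤ r a := by
    refine ⟨(insert 0 hfin.toFinset).inf' (Finset.insert_nonempty _ _) (fun a => min 1 (r a)),
      ?_, ?_, ?_⟩
    · rw [Finset.lt_inf'_iff]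
      intro a _
      exact lt_min one_pos (hr a)
    · exact (Finset.inf'_le _ (Finset.mem_insert_self 0 _)).trans (min_le_left _ _)
    · intro a ha
      exact (Finset.inf'_le _ (Finset.mem_insert_of_mem ha)).trans (min_le_right _ _)
  refine ⟨ε, hε, ?_⟩
  intro a hne
  by_cases haT : a ∈ hfin.toFinset
  · refine ⟨hne.choose, hne.choose_spec.choose, ?_⟩
    have h1 := hεle a haT
    simp only [hr_def, dif_pos hne] at h1
    exact h1
  · have h1 : ¬ ∀ (i : Option ↥S) (g : GQ ⧸ U₀),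
        |h93p_ell S U₀ i (h93p_act S U₀ g a)| ≤ 1 :=
      fun h => haT (hfin.mem_toFinset.mpr h)
    push Not at h1
    obtain ⟨i, g, hig⟩ := h1
    exact ⟨i, g, hε1.trans hig.le⟩

end Fermat.Agent.S56G
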