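import Fermat.Agent.S56G.H48Iface2

/-!
# S56, TW-CHEB group theory (helper48): conditional assembly of the ratio property

`H48GCount → H48GArith → H48GMod → H48GHU → H48GCard → H48GDiv → H48GTwo → H48GRatio`.
-/

set_option autoImplicit false

open Matrix Matrix.GeneralLinearGroup OnePoint

noncomputable section

namespace Fermat.Agent.S56G

variable {k : Type} [Field k]

instance h48g_Zs_normal (G : Subgroup (GL (Fin 2) k)) : (h48g_Zs G).Normal := by
  classical
  constructor
  intro z hz g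
  show h48g_IsScal ((g * z * g⁻¹ : G) : GL (Fin 2) k)
  have hz' : h48g_IsScal (z : GL (Fin 2) k) := hz
  rw [Subgroup.coe_mul, Subgroup.coe_mul, Subgroup.coe_inv, h48g_isScal_conj hz']
  exact hz'

theorem h48g_Zs_le_Td (G : Subgroup (GL (Fin 2) k)) : h48g_Zs G ≤ h48g_Td G := by
  intro g hg
  exact ⟨hg.1, hg.2.1⟩

variable [DecidableEq k]

theorem h48g_smul_def' (G : Subgroup (GL (Fin 2) k)) (g : G) (x : OnePoint k) :
    g • x = (g : GL (Fin 2) k) • x := rfl

theorem h48g_stab_infty (G : Subgroup (GL (Fin 2) k)) :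
    MulAction.stabilizer G (∞ : OnePoint k) = h48g_B G := by
  ext g
  rw [MulAction.mem_stabilizer_iff, h48g_smul_def', OnePoint.smul_infty_eq_self_iff]
  rfl

theorem h48g_card_fix_one_iff (g : GL (Fin 2) k) (h10 : g 1 0 = 0) (hns : ¬ h48g_IsScal g) :
    Nat.card {x : OnePoint k // g • x = x} = 1 ↔ g 0 0 = g 1 1 := by
  constructor
  · intro h
    by_contra h00
    rw [h48g_card_fix_hyp g h10 h00] at h
    omega
  · intro h00
    exact h48g_card_fix_parab g h10 h00 (fun h01 => hns ⟨h10, h01, h00⟩)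

theorem h48g_ratio_of (hCount : H48GCount) (hArith : H48GArith) (hMod : H48GMod)
    (hHU : H48GHU) (hCard : H48GCard) (hDiv : H48GDiv) (hTwo : H48GTwo) : H48GRatio := by
  intro k _ _ p _ _ hp2 G hsplit hirr hN1 hN2 htex
  classical
  obtain ⟨t, ht, htj⟩ := htex
  obtain ⟨tg, htg, tg10, tg01, tg00, tg11⟩ := ht
  have : Finite (GL (Fin 2) k) := by
    apply Finite.of_injective (fun g : GL (Fin 2) k => (g : Matrix (Fin 2) (Fin 2) k))
    exact Units.val_injective
  have : Finite (OnePoint k) := inferInstanceAs (Finite (Option k))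
  have hp : p.Prime := Fact.out
  -- the basic numbers
  obtain ⟨hB, hU⟩ := hCard k G hN2
  obtain ⟨hmod, -⟩ := hMod k p G hN1
  obtain ⟨hd1, hd2, hd3⟩ := hDiv k G
  have hzpos : 0 < Nat.card (h48g_Zs G) := Nat.card_pos
  obtain ⟨h, hτ⟩ : Nat.card (h48g_Zs G) ∣ Nat.card (h48g_Td G) :=
    Subgroup.card_dvd_of_le (h48g_Zs_le_Td G)
  -- `t` is a non-scalar diagonal element
  have htne : t.1 ≠ 0 ∧ t.2 ≠ 0 := by
    have := h48g_upper_diag_ne tg tg10
    rw [tg00, tg11] at this; exact this
  have hα1 : t.1 / t.2 ≠ 1 := by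
    have := htj 1; simpa using this
  have htns : ¬ h48g_IsScal tg := by
    rintro ⟨-, -, h00⟩
    apply hα1
    rw [← tg00, ← tg11, h00, div_self]
    rw [tg11]; exact htne.2
  have htTd : (⟨tg, htg⟩ : G) ∈ h48g_Td G := ⟨tg10, tg01⟩
  have htZs : (⟨tg, htg⟩ : G) ∉ h48g_Zs G := htns
  -- `2 ≤ h`
  have hh2 : 2 ≤ h := by
    have hlt : h48g_Zs G < h48g_Td G :=
      lt_of_le_of_ne (h48g_Zs_le_Td G) (fun heq => htZs (heq ▸ htTd))
    have hcardlt : Nat.card (h48g_Zs G) < Nat.card (h48g_Td G) := by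
      have hfin : (h48g_Td G : Set G).Finite := Set.toFinite _
      exact Set.ncard_lt_ncard (show (h48g_Zs G : Set G) ⊂ (h48g_Td G : Set G) from hlt) hfin
    rw [hτ] at hcardlt
    by_contra hcon
    have : h ≤ 1 := by omega
    have := Nat.mul_le_mul_left (Nat.card (h48g_Zs G)) this
    omega
  -- `4 ≤ q`
  obtain ⟨x0, hx0, hx0G⟩ := hN1
  have hx0V : x0 ∈ h48g_V G := hx0G
  have hαV : t.1 / t.2 * x0 ∈ h48g_V G := by
    show upperRightHom (t.1 / t.2 * x0) ∈ G
    have hconj := h48g_dg_conj_u t.1 t.2 htne.1 htne.2 x0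
    have hdg : h48g_dg t.1 t.2 htne.1 htne.2 = tg := by
      apply h48g_ext <;> simp [tg10, tg01, tg00, tg11]
    rw [← hconj, hdg]
    exact G.mul_mem (G.mul_mem htg hx0G) (G.inv_mem htg)
  have h2 : (2 : k) ≠ 0 := by
    intro h2
    have : ((2 : ℕ) : k) = 0 := by exact_mod_cast h2
    rw [CharP.cast_eq_zero_iff k p] at this
    have := (Nat.prime_dvd_prime_iff_eq hp Nat.prime_two).mp this
    exact hp2 this
  have hq4 : 4 ≤ Nat.card (h48g_V G) := by
    have hsub : ({0, x0, -x0, t.1 / t.2 * x0} : Set k) ⊆ (h48g_V G : Set k) := by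
      intro y hy
      simp only [Set.mem_insert_iff, Set.mem_singleton_iff] at hy
      rcases hy with rfl | rfl | rfl | rfl
      · exact (h48g_V G).zero_mem
      · exact hx0V
      · exact (h48g_V G).neg_mem hx0V
      · exact hαV
    have hα0 : t.1 / t.2 ≠ 0 := div_ne_zero htne.1 htne.2
    have hαm1 : t.1 / t.2 ≠ -1 := by
      have := htj (-1); simpa using this
    have e1 : (0 : k) ≠ x0 := fun h => hx0 h.symm
    have e2 : (0 : k) ≠ -x0 := fun hh => hx0 (by linear_combination hh)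
    have e3 : (0 : k) ≠ t.1 / t.2 * x0 := fun h => (mul_ne_zero hα0 hx0) h.symm
    have e4 : x0 ≠ -x0 := by
      intro hh
      have : (2 : k) * x0 = 0 := by linear_combination hh
      rcases mul_eq_zero.mp this with h1 | h1
      · exact h2 h1
      · exact hx0 h1
    have e5 : x0 ≠ t.1 / t.2 * x0 := by
      intro hh
      apply hα1
      have : (t.1 / t.2 - 1) * x0 = 0 := by linear_combination -hh
      rcases mul_eq_zero.mp this with h1 | h1
      · linear_combination h1
      · exact absurd h1 hx0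
    have e6 : -x0 ≠ t.1 / t.2 * x0 := by
      intro hh
      apply hαm1
      have : (t.1 / t.2 + 1) * x0 = 0 := by linear_combination -hh
      rcases mul_eq_zero.mp this with h1 | h1
      · linear_combination h1
      · exact absurd h1 hx0
    have hcard : ({0, x0, -x0, t.1 / t.2 * x0} : Finset k).card = 4 := by
      rw [Finset.card_insert_of_notMem (by simp [e1, e2, e3]),
        Finset.card_insert_of_notMem (by simp [e4, e5]),
        Finset.card_insert_of_notMem (by simp [e6]), Finset.card_singleton]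
    have hsub' : (({0, x0, -x0, t.1 / t.2 * x0} : Finset k) : Set k) ⊆ (h48g_V G : Set k) := by
      intro y hy
      apply hsub
      simpa using hy
    have hle := Set.ncard_le_ncard hsub' (Set.toFinite _)
    rw [Set.ncard_coe_finset, hcard] at hle
    exact hle
  -- `2 ≤ n`
  have hn2 : 2 ≤ Nat.card (MulAction.orbit G (∞ : OnePoint k)) := by
    obtain ⟨g, hg, hgv⟩ := hirr ![1, 0] (by
      intro h; have := congrFun h 0; simp at this)
    have hg10 : g 1 0 ≠ 0 := by
      intro h10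
      apply hgv (g 0 0)
      ext i
      fin_cases i <;> simp [Matrix.mulVec, dotProduct, Fin.sum_univ_two, h10]
    have hne : (⟨g, hg⟩ : G) • (∞ : OnePoint k) ≠ ∞ := by
      rw [h48g_smul_def']
      intro h
      exact hg10 (OnePoint.smul_infty_eq_self_iff.mp h)
    have hsub : ({∞, (⟨g, hg⟩ : G) • (∞ : OnePoint k)} : Set (OnePoint k)) ⊆
        MulAction.orbit G (∞ : OnePoint k) := by
      intro y hy
      simp only [Set.mem_insert_iff, Set.mem_singleton_iff] at hy
      rcases hy with rfl | rfl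
      · exact MulAction.mem_orbit_self _
      · exact MulAction.mem_orbit _ _
    have hle := Set.ncard_le_ncard hsub (Set.toFinite _)
    rw [Set.ncard_pair (Ne.symm hne)] at hle
    exact hle
  have hq2 : 2 ≤ Nat.card (h48g_V G) := by omega
  -- the hypotheses of COUNT
  have hZtriv : ∀ g ∈ h48g_Zs G, ∀ x : OnePoint k, g • x = x := by
    intro g hg x
    rw [h48g_smul_def']
    exact h48g_isScal_smul hg x
  have hfix : ∀ g : G, g ∉ h48g_Zs G →
      Nat.card {x : OnePoint k // g • x = x} = 1 ∨ Nat.card {x : OnePoint k // g • x = x} = 2 := by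
    intro g hg
    obtain ⟨v, hv, c, hc⟩ := hsplit g.1 g.2
    obtain ⟨x, hx⟩ := h48g_exists_fix_of_eigen g.1 v hv c hc
    exact h48g_card_fix g.1 hg x hx
  have hstab : Nat.card (MulAction.stabilizer G (∞ : OnePoint k)) =
      Nat.card (h48g_Zs G) * Nat.card (h48g_V G) * h := by
    rw [h48g_stab_infty, hB, hτ]; ring
  have huni : Nat.card {g : G // g ∈ MulAction.stabilizer G (∞ : OnePoint k) ∧
      g ∉ h48g_Zs G ∧ Nat.card {x : OnePoint k // g • x = x} = 1} + Nat.card (h48g_Zs G) =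
      Nat.card (h48g_Zs G) * Nat.card (h48g_V G) := by
    rw [← hU]
    congr 1
    apply Nat.card_congr
    apply Equiv.subtypeEquivRight
    intro g
    rw [h48g_stab_infty]
    constructor
    · rintro ⟨hgB, hgZ, hg1⟩
      exact ⟨hgB, hgZ, (h48g_card_fix_one_iff g.1 hgB hgZ).mp hg1⟩
    · rintro ⟨hgB, hgZ, hg1⟩
      exact ⟨hgB, hgZ, (h48g_card_fix_one_iff g.1 hgB hgZ).mpr hg1⟩
  obtain ⟨s, hs2, hseq, -, huniq⟩ := hCount G (OnePoint k) (h48g_Zs G) (∞ : OnePoint k)
    (Nat.card (h48g_Zs G)) (Nat.card (h48g_V G)) h hZtriv hfix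
    (hHU k p G ⟨x0, hx0, hx0G⟩) rfl hstab huni hq2 hn2
  -- `n = 1 + m q`
  obtain ⟨m, hm⟩ := hd1
  have hn : Nat.card (MulAction.orbit G (∞ : OnePoint k)) = 1 + m * Nat.card (h48g_V G) := by
    rw [mul_comm]; omega
  have hm1 : 1 ≤ m := by
    rcases Nat.eq_zero_or_pos m with h0 | h0
    · rw [h0] at hn; omega
    · exact h0
  have hh1 : 1 ≤ h := by omega
  have hhq : h ∣ Nat.card (h48g_V G) - 1 := by
    rw [hτ] at hd2
    exact (Nat.mul_dvd_mul_iff_left hzpos).mp hd2
  obtain ⟨har1, har2⟩ := hArith (Nat.card (MulAction.orbit G (∞ : OnePoint k)))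
    (Nat.card (h48g_V G)) h s m hn hq4 hm1 hs2 hh1 hhq hseq
  -- `0 ∈ Ω`
  have h0Ω : ((0 : k) : OnePoint k) ∈ MulAction.orbit G (∞ : OnePoint k) := by
    by_contra h0
    have hst := huniq ((0 : k) : OnePoint k) h0 ⟨⟨tg, htg⟩, htZs, by
      rw [h48g_smul_def', h48g_smul_coe_of_upper _ tg10]
      simp [tg01]⟩
    have hle : h48g_Td G ≤ MulAction.stabilizer G ((0 : k) : OnePoint k) := by
      intro g hg
      rw [MulAction.mem_stabilizer_iff, h48g_smul_def', h48g_smul_coe_of_upper _ hg.1]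
      simp [hg.2]
    have hdvd := Subgroup.card_dvd_of_le hle
    rw [hst, hτ] at hdvd
    exact har1 ((Nat.mul_dvd_mul_iff_left hzpos).mp hdvd)
  have hhn : h ∣ Nat.card (MulAction.orbit G (∞ : OnePoint k)) - 2 := by
    have := hd3 h0Ω
    rw [hτ] at this
    exact (Nat.mul_dvd_mul_iff_left hzpos).mp this
  have hmeq : m = 1 := har2 hh2 hhn
  have hncard : Nat.card (MulAction.orbit G (∞ : OnePoint k)) = Nat.card (h48g_V G) + 1 := by
    rw [hn, hmeq]; ring
  exact hTwo k G h0Ω hncard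

end Fermat.Agent.S56G
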