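import Fermat.Agent.S56G.H4Avg

/-!
# S56, TW-CHEB group theory (helper4, prefix `h4i_`): the Borel subgroup has index prime to `p`

`G ≤ GL₂(k)` finite, `k` of characteristic `p`, `G` containing a non-trivial upper unipotent
element `u`.  The subgroup `h4i_borel G` of upper triangular elements of `G` has index `≡ 1`
modulo `p` (`⟨u⟩` acts on `G ⧸ B` with the single fixed point `B`), so by averaging
(`h4v_avg`) a cocycle of `G` whose restriction to the upper triangular elements is a coboundary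
is a coboundary (step (1) of the blueprint, finding #1094).
-/

set_option autoImplicit false

open Matrix

namespace Fermat.Agent.S56G

/-- The upper triangular elements of a subgroup `G` of `GL₂(k)`. -/
def h4i_borel {k : Type} [Field k] (G : Subgroup (GL (Fin 2) k)) : Subgroup G where
  carrier := {g | ((g : GL (Fin 2) k) : Matrix (Fin 2) (Fin 2) k) 1 0 = 0}
  mul_mem' := by
    intro a b ha hb
    simp only [Set.mem_ofPred_eq] at ha hb ⊢
    simp [Matrix.mul_apply, Fin.sum_univ_two, ha, hb]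
  one_mem' := by simp
  inv_mem' := by
    intro a ha
    simp only [Set.mem_ofPred_eq] at ha ⊢
    simp [Matrix.coe_units_inv, Matrix.inv_def, Matrix.adjugate_fin_two, ha]

lemma h4i_mem_borel {k : Type} [Field k] (G : Subgroup (GL (Fin 2) k)) (g : G) :
    g ∈ h4i_borel G ↔ ((g : GL (Fin 2) k) : Matrix (Fin 2) (Fin 2) k) 1 0 = 0 := Iff.rfl

/-- An upper unipotent matrix is in the image of `upperRightHom`. -/
lemma h4i_eq_upperRight {k : Type} [Field k] (g : GL (Fin 2) k)
    (h10 : (g : Matrix (Fin 2) (Fin 2) k) 1 0 = 0) (h00 : (g : Matrix (Fin 2) (Fin 2) k) 0 0 = 1)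
    (h11 : (g : Matrix (Fin 2) (Fin 2) k) 1 1 = 1) :
    g = GeneralLinearGroup.upperRightHom ((g : Matrix (Fin 2) (Fin 2) k) 0 1) := by
  apply Units.ext
  ext i j
  fin_cases i <;> fin_cases j <;> simp [h10, h00, h11]

/-- An upper unipotent matrix has order dividing `p`. -/
lemma h4i_pow_char {k : Type} [Field k] (p : ℕ) [CharP k p] (g : GL (Fin 2) k)
    (h10 : (g : Matrix (Fin 2) (Fin 2) k) 1 0 = 0) (h00 : (g : Matrix (Fin 2) (Fin 2) k) 0 0 = 1)
    (h11 : (g : Matrix (Fin 2) (Fin 2) k) 1 1 = 1) : g ^ p = 1 := by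
  rw [h4i_eq_upperRight g h10 h00 h11, ← AddChar.map_nsmul_eq_pow, nsmul_eq_mul,
    CharP.cast_eq_zero k p, zero_mul, AddChar.map_zero_eq_one]

/-- If `g⁻¹ u g` is upper triangular, `u` upper unipotent non-trivial, then `g` is upper
triangular. -/
lemma h4i_upper_of_conj {k : Type} [Field k] (u g : GL (Fin 2) k)
    (h10 : (u : Matrix (Fin 2) (Fin 2) k) 1 0 = 0) (h00 : (u : Matrix (Fin 2) (Fin 2) k) 0 0 = 1)
    (h11 : (u : Matrix (Fin 2) (Fin 2) k) 1 1 = 1) (h01 : (u : Matrix (Fin 2) (Fin 2) k) 0 1 ≠ 0)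
    (hc : ((g⁻¹ * u * g : GL (Fin 2) k) : Matrix (Fin 2) (Fin 2) k) 1 0 = 0) :
    (g : Matrix (Fin 2) (Fin 2) k) 1 0 = 0 := by
  set h : GL (Fin 2) k := g⁻¹ * u * g with hh
  have h1 : g * h = u * g := by
    rw [hh, mul_assoc, mul_inv_cancel_left]
  have h2 : (g : Matrix (Fin 2) (Fin 2) k) * (h : Matrix (Fin 2) (Fin 2) k) =
      (u : Matrix (Fin 2) (Fin 2) k) * (g : Matrix (Fin 2) (Fin 2) k) := by
    rw [← Units.val_mul, ← Units.val_mul, h1]
  have e10 := congrFun (congrFun h2 1) 0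
  have e00 := congrFun (congrFun h2 0) 0
  simp only [Matrix.mul_apply, Fin.sum_univ_two, hc, h10, h00, h11, mul_zero, add_zero, zero_mul,
    zero_add, one_mul] at e10 e00
  by_contra hg
  have h3 : (h : Matrix (Fin 2) (Fin 2) k) 0 0 = 1 := by
    have : (g : Matrix (Fin 2) (Fin 2) k) 1 0 * ((h : Matrix (Fin 2) (Fin 2) k) 0 0 - 1) = 0 := by
      rw [mul_sub, mul_one, e10, sub_self]
    rcases mul_eq_zero.1 this with h | h
    · exact absurd h hg
    · exact sub_eq_zero.1 h
  rw [h3, mul_one] at e00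
  have h4 : (u : Matrix (Fin 2) (Fin 2) k) 0 1 * (g : Matrix (Fin 2) (Fin 2) k) 1 0 = 0 := by
    have := e00
    linear_combination -this
  rcases mul_eq_zero.1 h4 with h | h
  · exact h01 h
  · exact hg h

/-- **Index of the Borel subgroup.**  If `G` contains a non-trivial upper unipotent element, the
index of its upper triangular subgroup is `≡ 1` modulo `p`. -/
theorem h4i_index_modEq (k : Type) [Field k] (p : ℕ) [Fact p.Prime] [CharP k p]
    (G : Subgroup (GL (Fin 2) k)) [Finite G]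
    (hu : ∃ g ∈ G, (g : Matrix (Fin 2) (Fin 2) k) 1 0 = 0 ∧
      (g : Matrix (Fin 2) (Fin 2) k) 0 0 = 1 ∧
      (g : Matrix (Fin 2) (Fin 2) k) 1 1 = 1 ∧ (g : Matrix (Fin 2) (Fin 2) k) 0 1 ≠ 0) :
    (h4i_borel G).index ≡ 1 [MOD p] := by
  classical
  obtain ⟨u, huG, h10, h00, h11, h01⟩ := hu
  set u' : G := ⟨u, huG⟩ with hu'
  have hpow : u' ^ p = 1 := by
    apply Subtype.ext
    rw [Subgroup.coe_pow, Subgroup.coe_one]
    exact h4i_pow_char p u h10 h00 h11
  have hP : IsPGroup p (Subgroup.zpowers u') := by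
    intro ⟨g, hg⟩
    obtain ⟨i, rfl⟩ := Subgroup.mem_zpowers_iff.1 hg
    refine ⟨1, ?_⟩
    apply Subtype.ext
    rw [Subgroup.coe_pow, Subgroup.coe_one, pow_one, ← zpow_natCast, ← _root_.zpow_mul, mul_comm,
      _root_.zpow_mul, zpow_natCast, hpow, _root_.one_zpow]
  have hle : Subgroup.zpowers u' ≤ h4i_borel G := by
    rw [Subgroup.zpowers_le]
    exact h10
  have key := hP.card_modEq_card_fixedPoints (G ⧸ h4i_borel G)
  have hfix : Nat.card (MulAction.fixedPoints (Subgroup.zpowers u') (G ⧸ h4i_borel G)) = 1 := by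
    rw [Nat.card_eq_one_iff_unique]
    constructor
    · constructor
      rintro ⟨c, hc⟩ ⟨c', hc'⟩
      apply Subtype.ext
      show c = c'
      have hone : ∀ c : G ⧸ h4i_borel G,
          c ∈ MulAction.fixedPoints (Subgroup.zpowers u') (G ⧸ h4i_borel G) →
            c = ((1 : G) : G ⧸ h4i_borel G) := by
        intro c hc
        induction c using QuotientGroup.induction_on with
        | H g =>
          have h1 := hc ⟨u'⁻¹, (Subgroup.zpowers u').inv_mem (Subgroup.mem_zpowers u')⟩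
          have h2 : ((u'⁻¹ * g : G) : G ⧸ h4i_borel G) = (g : G ⧸ h4i_borel G) := h1
          rw [QuotientGroup.eq] at h2
          rw [_root_.mul_inv_rev, inv_inv] at h2
          have h3 : ((g : GL (Fin 2) k) : Matrix (Fin 2) (Fin 2) k) 1 0 = 0 := by
            apply h4i_upper_of_conj u (g : GL (Fin 2) k) h10 h00 h11 h01
            have := (h4i_mem_borel G _).1 h2
            simpa [mul_assoc] using this
          rw [eq_comm, QuotientGroup.eq, inv_one, one_mul]
          exact h3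
      rw [hone c hc, hone c' hc']
    · refine ⟨⟨((1 : G) : G ⧸ h4i_borel G), ?_⟩⟩
      intro ⟨v, hv⟩
      show ((v * 1 : G) : G ⧸ h4i_borel G) = _
      rw [QuotientGroup.eq, mul_one, mul_one]
      exact (h4i_borel G).inv_mem (hle hv)
  rw [hfix] at key
  exact key

/-- The index of the Borel subgroup is invertible in `k`. -/
theorem h4i_index_ne_zero (k : Type) [Field k] (p : ℕ) [Fact p.Prime] [CharP k p]
    (G : Subgroup (GL (Fin 2) k)) [Finite G]
    (hu : ∃ g ∈ G, (g : Matrix (Fin 2) (Fin 2) k) 1 0 = 0 ∧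
      (g : Matrix (Fin 2) (Fin 2) k) 0 0 = 1 ∧
      (g : Matrix (Fin 2) (Fin 2) k) 1 1 = 1 ∧ (g : Matrix (Fin 2) (Fin 2) k) 0 1 ≠ 0) :
    (((h4i_borel G).index : ℕ) : k) ≠ 0 := by
  intro h
  rw [CharP.cast_eq_zero_iff k p] at h
  have h1 := h4i_index_modEq k p G hu
  have h2 : (h4i_borel G).index % p = 1 % p := h1
  rw [Nat.mod_eq_zero_of_dvd h, Nat.mod_eq_of_lt (Fact.out : p.Prime).one_lt] at h2
  exact zero_ne_one h2

/-- **Restriction to the Borel subgroup is injective on `H¹`** (step (1) of the blueprint): a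
cocycle of `G` which is a coboundary on the upper triangular elements is a coboundary. -/
theorem h4i_res_borel (k : Type) [Field k] (p : ℕ) [Fact p.Prime] [CharP k p]
    (G : Subgroup (GL (Fin 2) k)) [Finite G]
    (hu : ∃ g ∈ G, (g : Matrix (Fin 2) (Fin 2) k) 1 0 = 0 ∧
      (g : Matrix (Fin 2) (Fin 2) k) 0 0 = 1 ∧
      (g : Matrix (Fin 2) (Fin 2) k) 1 1 = 1 ∧ (g : Matrix (Fin 2) (Fin 2) k) 0 1 ≠ 0)
    (M : Type) [AddCommGroup M] [Module k M] (act : G →* (M →ₗ[k] M))
    (f : G → M) (hf : ∀ g h, f (g * h) = f g + act g (f h))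
    (hB : ∃ X : M, ∀ g : G, ((g : GL (Fin 2) k) : Matrix (Fin 2) (Fin 2) k) 1 0 = 0 →
      f g = act g X - X) :
    ∃ Y : M, ∀ g, f g = act g Y - Y := by
  obtain ⟨X, hX⟩ := hB
  exact h4v_avg k G M act (h4i_borel G) (h4i_index_ne_zero k p G hu) f hf
    ⟨X, fun g hg => hX g hg⟩

end Fermat.Agent.S56G
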