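import Fermat.Agent.S56G.H52EqLatAsm
import Fermat.Agent.S56G.H83EqAdd
import Fermat.Agent.S56G.H55EqDesc

/-!
# S56, block EQ-ARITH, row EQA-R (helper52): the lattice inequality `H93EqLatAlg`

Combination of the four landed leaves: R-ADD (`h83e_eqAdd`, helper83), R-LAT
(`h61l_lattice_of`, helper61), R-DESC (`h55ed_descent`, helper55) and R-ASM (`h52e_eqLatAsm`).
-/

set_option autoImplicit false

namespace Fermat.Agent.S56G

/-- **EQA-R** (exact frozen `Prop` of `S56G/EqArithIface.lean`), unconditional. -/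
theorem h52e_eqLatAlg : H93EqLatAlg :=
  h52e_eqLatAsm h83e_eqAdd (h61l_lattice_of h83e_eqAdd) h55ed_descent

end Fermat.Agent.S56G
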