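import Fermat.Agent.S56G.H61EqLat

/-!
# S56, block EQ-ARITH, row EQA-R-ASM, part 2 (helper52): reductions

* `h52e_red` : `h52b_Red → h93e_IsRed` (converse of `h61l_red`, helper61);
* `h52e_permZ σ` : the permutation representation on `ℤ^X`, `h52e_red_perm` : its reduction
  modulo `p` is `h93e_perm (ZMod p) σ`;
* `h52e_M` : the space `M` of `H93EqLatAlg` is isomorphic to `Hom_C(Y, A / p A)`.
-/

set_option autoImplicit false
set_option linter.style.haveILetI false
set_option linter.unusedSectionVars false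

noncomputable section

namespace Fermat.Agent.S56G

variable {p : ℕ} [Fact p.Prime] {C : Type} [Group C]

/-- the two vocabularies of reduction data agree. -/
theorem h52e_red {B N : Type} [AddCommGroup B] [AddCommGroup N] [Module (ZMod p) N]
    {β : Representation ℤ C B} {ν : Representation (ZMod p) C N} {π : B →+ N}
    (h : h52b_Red p β ν π) : h93e_IsRed p β ν π where
  surj := h.surj
  equiv := h.equivariant
  ker b := by
    rw [h.ker_eq b]
    constructor
    · rintro ⟨y, rfl⟩
      exact ⟨y, natCast_zsmul y p⟩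
    · rintro ⟨y, rfl⟩
      exact ⟨y, (natCast_zsmul y p).symm⟩

section Perm

variable {X : Type}

/-- The permutation representation on `ℤ^X`. -/
def h52e_permZ (σ : C →* Equiv.Perm X) : Representation ℤ C (X → ℤ) where
  toFun g := LinearMap.funLeft ℤ ℤ (fun x : X => (σ g)⁻¹ x)
  map_one' := by
    ext f x
    simp [LinearMap.funLeft_apply]
  map_mul' g h := by
    ext f x
    simp [LinearMap.funLeft_apply, mul_inv_rev]

@[simp] lemma h52e_permZ_apply (σ : C →* Equiv.Perm X) (g : C) (f : X → ℤ) (x : X) :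
    h52e_permZ σ g f x = f ((σ g)⁻¹ x) := rfl

variable (p X) in
/-- reduction mod `p` of functions. -/
def h52e_cast : (X → ℤ) →+ (X → ZMod p) where
  toFun v x := ((v x : ℤ) : ZMod p)
  map_zero' := by
    funext x
    simp
  map_add' v w := by
    funext x
    simp

@[simp] lemma h52e_cast_apply (v : X → ℤ) (x : X) : h52e_cast p X v x = ((v x : ℤ) : ZMod p) :=
  rfl

/-- `ℤ^X → 𝔽_p^X` is a reduction datum for the permutation representations. -/
theorem h52e_red_perm (σ : C →* Equiv.Perm X) :
    h93e_IsRed p (h52e_permZ σ) (h93e_perm (ZMod p) σ) (h52e_cast p X) where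
  surj := by
    intro w
    refine ⟨fun x => (ZMod.intCast_surjective (w x)).choose, ?_⟩
    funext x
    exact (ZMod.intCast_surjective (w x)).choose_spec
  equiv g v := by
    funext x
    simp
  ker v := by
    constructor
    · intro h
      have h1 : ∀ x, (p : ℤ) ∣ v x := fun x => by
        have := congrFun h x
        simp only [h52e_cast_apply, Pi.zero_apply] at this
        exact (ZMod.intCast_zmod_eq_zero_iff_dvd _ _).mp this
      choose w hw using h1
      exact ⟨w, by funext x; simp [hw x]⟩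
    · rintro ⟨w, rfl⟩
      funext x
      simp

end Perm

section M

variable {A : Type} [AddCommGroup A] [Module.Finite ℤ A] (α : Representation ℤ C A)
  {H : Type} [AddCommGroup H] [Module (ZMod p) H] (κ : A →+ H)
  {Y : Type} [AddCommGroup Y] [Module (ZMod p) Y] [FiniteDimensional (ZMod p) Y]
  (τ : Representation (ZMod p) C Y)

/-- The space `M` of `H93EqLatAlg` is `Hom_C(Y, A / p A)`. -/
theorem h52e_M (hκ : ∀ a, κ a = 0 ↔ ∃ b, a = p • b)
    (M : Submodule (ZMod p) (Y →ₗ[ZMod p] H))
    (hM : ∀ Φ, Φ ∈ M ↔ (∀ y, ∃ a, Φ y = κ a) ∧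
      ∀ c y a, Φ y = κ a → Φ (τ c y) = κ (α c a)) :
    Module.Finite (ZMod p) ↥M ∧
      Module.finrank (ZMod p) ↥M =
        Module.finrank (ZMod p) ↥(h93e_hom τ (h52b_modRep p α)) := by
  have hR := h52b_red_modN (p := p) α
  set κb : ModN A p →ₗ[ZMod p] H := h52b_desc hR κ with hκb
  have hκb_mk : ∀ a, κb (ModN.mkQ p a) = κ a := fun a => h52b_desc_apply hR κ a
  have hinj : Function.Injective κb := by
    rw [injective_iff_map_eq_zero]
    intro v hv
    obtain ⟨a, rfl⟩ := hR.surj v
    rw [hκb_mk, hκ] at hv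
    obtain ⟨b, rfl⟩ := hv
    rw [hR.ker_eq]
    exact ⟨b, (natCast_zsmul b p).symm⟩
  let F : ↥(h93e_hom τ (h52b_modRep p α)) →ₗ[ZMod p] ↥M :=
    { toFun := fun Ψ => ⟨κb.comp Ψ.1, by
        rw [hM]
        refine ⟨fun y => ?_, fun c y a hy => ?_⟩
        · obtain ⟨a, ha⟩ := hR.surj (Ψ.1 y)
          exact ⟨a, by rw [LinearMap.comp_apply, ← ha, hκb_mk]⟩
        · rw [LinearMap.comp_apply, ← hκb_mk] at hy
          have h1 := hinj hy
          rw [LinearMap.comp_apply, Ψ.2 c y, h1, h52b_modRep_mk, hκb_mk]⟩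
      map_add' := fun a b => Subtype.ext (LinearMap.comp_add _ _ _)
      map_smul' := fun c a => Subtype.ext (LinearMap.comp_smul _ _ _) }
  have hFinj : Function.Injective F := by
    intro Ψ Ψ' h
    apply Subtype.ext
    refine LinearMap.ext fun y => ?_
    apply hinj
    exact LinearMap.congr_fun (congrArg Subtype.val h) y
  have hFsurj : Function.Surjective F := by
    intro Φ
    obtain ⟨h1, h2⟩ := (hM Φ.1).mp Φ.2
    have hmem : ∀ y, Φ.1 y ∈ LinearMap.range κb := by
      intro y
      obtain ⟨a, ha⟩ := h1 y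
      exact ⟨ModN.mkQ p a, by rw [hκb_mk, ha]⟩
    let Ψ : Y →ₗ[ZMod p] ModN A p :=
      (LinearEquiv.ofInjective κb hinj).symm.toLinearMap.comp
        (Φ.1.codRestrict (LinearMap.range κb) hmem)
    have hΨ : ∀ y, κb (Ψ y) = Φ.1 y := fun y =>
      LinearEquiv.ofInjective_symm_apply κb (h := hinj) _
    refine ⟨⟨Ψ, fun c y => ?_⟩, ?_⟩
    · apply hinj
      obtain ⟨a, ha⟩ := hR.surj (Ψ y)
      rw [hΨ, ← ha, h52b_modRep_mk, hκb_mk]
      apply h2
      rw [← hΨ, ← ha, hκb_mk]
    · apply Subtype.ext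
      refine LinearMap.ext fun y => ?_
      exact hΨ y
  let e := LinearEquiv.ofBijective F ⟨hFinj, hFsurj⟩
  exact ⟨Module.Finite.equiv e, (LinearEquiv.finrank_eq e).symm⟩

end M

end Fermat.Agent.S56G
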