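import Fermat.Agent.S56G.H98GWIface

/-!
# S56, block GW-LINALG, leaf GW-LA (helper52)

`h52g_gwLA : H98GwLA` (exact frozen Prop of `S56G/H98GWIface.lean`): pure linear algebra.
-/

set_option autoImplicit false
set_option linter.style.haveILetI false

noncomputable section

namespace Fermat.Agent.S56G

/-- `dim r⁻¹(B) = dim ker r + dim (range r ⊓ B)`. -/
theorem h52g_finrank_comap {k : Type} [Field k] {A E : Type} [AddCommGroup A] [Module k A]
    [AddCommGroup E] [Module k E] [FiniteDimensional k A]
    (r : A →ₗ[k] E) (B : Submodule k E) :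
    Module.finrank k ↥(B.comap r) =
      Module.finrank k ↥(LinearMap.ker r) + Module.finrank k ↥(LinearMap.range r ⊓ B) := by
  have h1 := LinearMap.finrank_range_add_finrank_ker (r.domRestrict (B.comap r))
  rw [LinearMap.range_domRestrict, Submodule.map_comap_eq, LinearMap.ker_domRestrict] at h1
  have hle : LinearMap.ker r ≤ B.comap r := by
    intro x hx
    rw [Submodule.mem_comap, LinearMap.mem_ker.mp hx]
    exact B.zero_mem
  have h2 : Module.finrank k ↥((LinearMap.ker r).comap (B.comap r).subtype)
      = Module.finrank k ↥(LinearMap.ker r) :=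
    (Submodule.comapSubtypeEquivOfLe hle).finrank_eq
  rw [h2] at h1
  omega

/-- **GW-LA** (exact frozen Prop). -/
theorem h52g_gwLA : H98GwLA := by
  intro k _ A A' E _ _ _ _ _ _ _ _ _ r B Ψ hr hB
  have h1 := LinearMap.finrank_range_add_finrank_ker Ψ
  have h2 := LinearMap.finrank_range_add_finrank_ker r
  have h3 := Subspace.finrank_add_finrank_dualAnnihilator_eq (LinearMap.range r ⊔ B)
  have h4 := Submodule.finrank_sup_add_finrank_inf_eq (LinearMap.range r) B
  have h5 := h52g_finrank_comap r B
  have hle : LinearMap.range Ψ ≤ (LinearMap.range r ⊔ B).dualAnnihilator := by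
    rintro _ ⟨y, rfl⟩
    rw [Submodule.mem_dualAnnihilator]
    intro w hw
    obtain ⟨u, ⟨x, rfl⟩, b, hb, rfl⟩ := Submodule.mem_sup.mp hw
    rw [map_add, hr y x, hB y b hb, add_zero]
  have h6 := Submodule.finrank_mono hle
  omega

end Fermat.Agent.S56G
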