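import Mathlib
import Fermat.Agent.S56G.H55PkgLogDisc

/-!
# S56, block EQ-ARITH, row EQA-PKG-LOG-KER (helper55, second seat): Kronecker

`h55lk_logKer : H93PkgLogKer` (exact frozen Prop of `S56G/H93PkgIface.lean`): an `S`-unit all of
whose local logarithms (at the places of `S ∪ {∞}`, for all conjugates) vanish is a root of unity.
From `h55ld_isIntegral`, `h55ld_embedding` (`S56G/H55PkgLogDisc.lean`) and Mathlib's
`NumberField.Embeddings.pow_eq_one_of_norm_eq_one`.
-/

set_option autoImplicit false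
set_option linter.style.haveILetI false

open ExtCitation NumberField IsDedekindDomain
open scoped Pointwise

noncomputable section

namespace Fermat.Agent.S56G

open Fermat.Agent.PT Fermat.Agent.PT.Glob Fermat.Agent.PT.Bridge
open Fermat.Agent.Bridge (primeUnder mem_nonunits_iff_inv mem_smul_iff liesOverPrime_smul_iff)

local notation "Qb" => AlgebraicClosure ℚ

/-- a positive real number with vanishing logarithm is `1`. -/
theorem h55lk_eq_one_of_log {y : ℝ} (hy : 0 < y) (h : Real.log y = 0) : y = 1 := by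
  rcases Real.log_eq_zero.1 h with h | h | h
  · exact absurd h hy.ne'
  · exact h
  · linarith

/-- **EQA-PKG-LOG-KER** (Kronecker). -/
theorem h55lk_logKer : H93PkgLogKer := by
  classical
  intro S U₀ _ hU₀ a ha
  haveI hfd := h55ld_finiteDimensional U₀ hU₀
  haveI : NumberField (fieldOf U₀) := h23b_numberField (fieldOf U₀)
  have hne : ∀ g : GQ, g (h93p_iota S U₀ a) ≠ 0 := fun g =>
    (map_ne_zero_iff _ (AlgEquiv.injective g)).2 (h93p_iota_ne_zero S U₀ a)
  -- `ι a` is integral
  have hint : IsIntegral ℤ (⟨h93p_iota S U₀ a, h93p_iota_mem S U₀ a⟩ : fieldOf U₀) := by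
    apply h55ld_isIntegral
    intro q V hq hV
    show h93p_iota S U₀ a ∈ V
    by_cases hqS : (⟨q, hq⟩ : Nat.Primes) ∈ S
    · haveI : Fact q.Prime := ⟨hq⟩
      obtain ⟨g, hg⟩ := h23b_exists_smul_padicPlace q hV
      rw [← hg, mem_smul_iff, inv_inv, mem_padicPlace_iff]
      have h1 := ha (some ⟨⟨q, hq⟩, hqS⟩) (QuotientGroup.mk' U₀ g)
      have h2 : Real.log ‖padicEmbedding q (g (h93p_iota S U₀ a))‖ = 0 := h1
      have h3 : 0 < ‖padicEmbedding q (g (h93p_iota S U₀ a))‖ := by
        rw [norm_pos_iff]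
        exact (map_ne_zero_iff _ (RingHom.injective _)).2 (hne g)
      have h4 := h55lk_eq_one_of_log h3 h2
      have h5 : (‖padicEmbedding q (g (h93p_iota S U₀ a))‖₊ : ℝ) = 1 := by
        rw [coe_nnnorm]
        exact h4
      have h6 : ‖padicEmbedding q (g (h93p_iota S U₀ a))‖₊ = 1 := by
        exact_mod_cast h5
      exact h6.le
    · exact (h93p_iota_val S U₀ a ⟨q, hq⟩ hqS V hV).1
  -- its conjugates have absolute value one
  have habs : ∀ φ : fieldOf U₀ →+* ℂ,
      ‖φ (⟨h93p_iota S U₀ a, h93p_iota_mem S U₀ a⟩ : fieldOf U₀)‖ = 1 := by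
    intro φ
    obtain ⟨g, hg⟩ := h55ld_embedding (fieldOf U₀) φ
      (⟨h93p_iota S U₀ a, h93p_iota_mem S U₀ a⟩ : fieldOf U₀)
    rw [hg]
    have h1 := ha none (QuotientGroup.mk' U₀ g)
    have h2 : Real.log ‖complexEmbedding (g (h93p_iota S U₀ a))‖ = 0 := h1
    have h3 : 0 < ‖complexEmbedding (g (h93p_iota S U₀ a))‖ := by
      rw [norm_pos_iff]
      exact (map_ne_zero_iff _ (RingHom.injective _)).2 (hne g)
    exact h55lk_eq_one_of_log h3 h2
  obtain ⟨n, hn, hpow⟩ := NumberField.Embeddings.pow_eq_one_of_norm_eq_one (fieldOf U₀) ℂ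
    hint habs
  refine ⟨n, hn, ?_⟩
  apply h93p_iota_injective S U₀
  rw [h93p_iota_nsmul, h93p_iota_zero]
  have := congrArg (fun x : fieldOf U₀ => (x : Qb)) hpow
  simpa using this

end Fermat.Agent.S56G
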