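import Mathlib
import Fermat.Agent.S56G.H55PkgLogDisc

/-!
# S56, block EQ-ARITH, row EQA-PKG-LOG-PROD (helper55, second seat): the product formula

`h55lp_logProd : H93PkgLogProd` (exact frozen Prop of `S56G/H93PkgIface.lean`):
`∑_{i ∈ S ∪ {∞}} ∑_{g ∈ G} log ‖g a‖_i = 0` for every `S`-unit `a` of `K = fieldOf U₀`.

`N = ∑_g g a` is Galois invariant, so `ι N = r ∈ ℚˣ`; `r` is a unit at all primes outside `S`, and
the product formula of `ℚ` for such `r` is proved by induction on the prime factorisation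
(`h55lp_F_nat`, `h55lp_F_rat`).
-/

set_option autoImplicit false
set_option linter.style.haveILetI false

open ExtCitation NumberField IsDedekindDomain
open scoped Pointwise

noncomputable section

namespace Fermat.Agent.S56G

open Fermat.Agent.PT Fermat.Agent.PT.Glob Fermat.Agent.PT.Bridge
open Fermat.Agent.Bridge (primeUnder mem_nonunits_iff_inv mem_smul_iff liesOverPrime_smul_iff)

local notation "Qb" => AlgebraicClosure ℚ

/-! ## The product formula of `ℚ` for `S`-units -/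

/-- the defect of the product formula of `ℚ` at the places of `S ∪ {∞}`. -/
def h55lp_F (S : Finset Nat.Primes) (x : ℚ) : ℝ :=
  Real.log |(x : ℝ)| + ∑ q : ↥S, Real.log ((padicNorm ((q.1 : Nat.Primes) : ℕ) x : ℚ) : ℝ)

theorem h55lp_F_mul (S : Finset Nat.Primes) {x y : ℚ} (hx : x ≠ 0) (hy : y ≠ 0) :
    h55lp_F S (x * y) = h55lp_F S x + h55lp_F S y := by
  unfold h55lp_F
  have hx' : |(x : ℝ)| ≠ 0 := abs_ne_zero.2 (by exact_mod_cast hx)
  have hy' : |(y : ℝ)| ≠ 0 := abs_ne_zero.2 (by exact_mod_cast hy)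
  have h1 : ∀ q : ↥S, Real.log ((padicNorm ((q.1 : Nat.Primes) : ℕ) (x * y) : ℚ) : ℝ) =
      Real.log ((padicNorm ((q.1 : Nat.Primes) : ℕ) x : ℚ) : ℝ) +
        Real.log ((padicNorm ((q.1 : Nat.Primes) : ℕ) y : ℚ) : ℝ) := by
    intro q
    haveI : Fact ((q.1 : Nat.Primes) : ℕ).Prime := ⟨q.1.2⟩
    rw [padicNorm.mul, Rat.cast_mul, Real.log_mul]
    · exact_mod_cast padicNorm.nonzero hx
    · exact_mod_cast padicNorm.nonzero hy
  rw [Finset.sum_congr rfl fun q _ => h1 q, Finset.sum_add_distrib]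
  push_cast
  rw [abs_mul, Real.log_mul hx' hy']
  ring

theorem h55lp_F_one (S : Finset Nat.Primes) : h55lp_F S 1 = 0 := by
  unfold h55lp_F
  have h1 : ∀ q : ↥S, Real.log ((padicNorm ((q.1 : Nat.Primes) : ℕ) 1 : ℚ) : ℝ) = 0 := by
    intro q
    haveI : Fact ((q.1 : Nat.Primes) : ℕ).Prime := ⟨q.1.2⟩
    rw [padicNorm.one, Rat.cast_one, Real.log_one]
  rw [Finset.sum_congr rfl fun q _ => h1 q]
  simp

theorem h55lp_F_neg (S : Finset Nat.Primes) (x : ℚ) : h55lp_F S (-x) = h55lp_F S x := by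
  unfold h55lp_F
  have h1 : ∀ q : ↥S, Real.log ((padicNorm ((q.1 : Nat.Primes) : ℕ) (-x) : ℚ) : ℝ) =
      Real.log ((padicNorm ((q.1 : Nat.Primes) : ℕ) x : ℚ) : ℝ) := by
    intro q
    haveI : Fact ((q.1 : Nat.Primes) : ℕ).Prime := ⟨q.1.2⟩
    rw [padicNorm.neg]
  rw [Finset.sum_congr rfl fun q _ => h1 q]
  push_cast
  rw [abs_neg]

theorem h55lp_F_prime (S : Finset Nat.Primes) (p : ℕ) (hp : p.Prime)
    (hpS : (⟨p, hp⟩ : Nat.Primes) ∈ S) : h55lp_F S (p : ℚ) = 0 := by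
  classical
  unfold h55lp_F
  haveI : Fact p.Prime := ⟨hp⟩
  have hp0 : (0 : ℝ) < p := by exact_mod_cast hp.pos
  have h1 : ∑ q : ↥S, Real.log ((padicNorm ((q.1 : Nat.Primes) : ℕ) (p : ℚ) : ℚ) : ℝ) =
      Real.log ((padicNorm p (p : ℚ) : ℚ) : ℝ) := by
    rw [Finset.sum_eq_single (⟨⟨p, hp⟩, hpS⟩ : ↥S)]
    · intro q _ hq
      haveI : Fact ((q.1 : Nat.Primes) : ℕ).Prime := ⟨q.1.2⟩
      have hne : ((q.1 : Nat.Primes) : ℕ) ≠ p := by
        intro h
        apply hq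
        apply Subtype.ext
        apply Subtype.ext
        exact h
      rw [padicNorm.padicNorm_of_prime_of_ne hne, Rat.cast_one, Real.log_one]
    · intro h
      exact absurd (Finset.mem_univ _) h
  rw [h1, padicNorm.padicNorm_p hp.one_lt]
  push_cast
  rw [abs_of_pos hp0, Real.log_inv]
  ring

theorem h55lp_F_nat (S : Finset Nat.Primes) (n : ℕ) : n ≠ 0 →
    (∀ (p : ℕ) (hp : p.Prime), p ∣ n → (⟨p, hp⟩ : Nat.Primes) ∈ S) → h55lp_F S (n : ℚ) = 0 := by
  induction n using Nat.recOnMul with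
  | zero => intro h; exact absurd rfl h
  | one =>
    intro _ _
    rw [Nat.cast_one]
    exact h55lp_F_one S
  | prime p hp =>
    intro _ h
    exact h55lp_F_prime S p hp (h p hp dvd_rfl)
  | mul a b iha ihb =>
    intro hab h
    have ha : a ≠ 0 := fun h0 => hab (by rw [h0, zero_mul])
    have hb : b ≠ 0 := fun h0 => hab (by rw [h0, mul_zero])
    rw [Nat.cast_mul, h55lp_F_mul S (by exact_mod_cast ha) (by exact_mod_cast hb),
      iha ha (fun p hp hpa => h p hp (dvd_mul_of_dvd_left hpa b)),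
      ihb hb (fun p hp hpb => h p hp (dvd_mul_of_dvd_right hpb a)), add_zero]

/-- **the product formula of `ℚ` for `S`-units.** -/
theorem h55lp_F_rat (S : Finset Nat.Primes) (r : ℚ) (hr : r ≠ 0)
    (h : ∀ (p : ℕ) (hp : p.Prime), (⟨p, hp⟩ : Nat.Primes) ∉ S → padicNorm p r = 1) :
    h55lp_F S r = 0 := by
  have hden : r.den ≠ 0 := r.den_nz
  have hnum : r.num.natAbs ≠ 0 := Int.natAbs_ne_zero.2 (Rat.num_ne_zero.2 hr)
  have hcop : Nat.Coprime r.num.natAbs r.den := r.reduced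
  -- `r = ± n₁ / n₂`
  have hrep : r = (r.num.natAbs : ℚ) / (r.den : ℚ) ∨
      r = -((r.num.natAbs : ℚ) / (r.den : ℚ)) := by
    rcases Int.natAbs_eq r.num with h1 | h1
    · left
      have h2 : (r.num : ℚ) = (r.num.natAbs : ℚ) := by
        have := congrArg (Int.cast : ℤ → ℚ) h1
        rwa [Int.cast_natCast] at this
      calc r = (r.num : ℚ) / (r.den : ℚ) := (Rat.num_div_den r).symm
        _ = (r.num.natAbs : ℚ) / (r.den : ℚ) := by rw [h2]
    · right
      have h2 : (r.num : ℚ) = -(r.num.natAbs : ℚ) := by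
        have := congrArg (Int.cast : ℤ → ℚ) h1
        rwa [Int.cast_neg, Int.cast_natCast] at this
      calc r = (r.num : ℚ) / (r.den : ℚ) := (Rat.num_div_den r).symm
        _ = -((r.num.natAbs : ℚ) / (r.den : ℚ)) := by rw [h2, neg_div]
  have hr' : h55lp_F S r = h55lp_F S ((r.num.natAbs : ℚ) / (r.den : ℚ)) := by
    rcases hrep with h1 | h1
    · exact congrArg (h55lp_F S) h1
    · exact (congrArg (h55lp_F S) h1).trans (h55lp_F_neg S _)
  have hn1 : ((r.num.natAbs : ℚ)) ≠ 0 := by exact_mod_cast hnum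
  have hn2 : ((r.den : ℚ)) ≠ 0 := by exact_mod_cast hden
  -- norms of `r`
  have hnorm : ∀ (p : ℕ) [Fact p.Prime], padicNorm p r =
      padicNorm p (r.num.natAbs : ℚ) / padicNorm p (r.den : ℚ) := by
    intro p _
    rw [← padicNorm.div]
    rcases hrep with h1 | h1
    · exact congrArg (padicNorm p) h1
    · exact (congrArg (padicNorm p) h1).trans (padicNorm.neg _)
  -- the prime factors are in `S`
  have hS1 : ∀ (p : ℕ) (hp : p.Prime), p ∣ r.num.natAbs → (⟨p, hp⟩ : Nat.Primes) ∈ S := by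
    intro p hp hdvd
    by_contra hpS
    haveI : Fact p.Prime := ⟨hp⟩
    have h1 := h p hp hpS
    rw [hnorm p] at h1
    have h2 : padicNorm p (r.num.natAbs : ℚ) < 1 := (padicNorm.nat_lt_one_iff _).2 hdvd
    have h3 : ¬ p ∣ r.den := fun h3 =>
      hp.one_lt.ne' (Nat.eq_one_of_dvd_coprimes hcop hdvd h3)
    have h4 : padicNorm p (r.den : ℚ) = 1 := (padicNorm.nat_eq_one_iff _).2 h3
    rw [h4, div_one] at h1
    exact absurd h1 h2.ne
  have hS2 : ∀ (p : ℕ) (hp : p.Prime), p ∣ r.den → (⟨p, hp⟩ : Nat.Primes) ∈ S := by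
    intro p hp hdvd
    by_contra hpS
    haveI : Fact p.Prime := ⟨hp⟩
    have h1 := h p hp hpS
    rw [hnorm p] at h1
    have h2 : padicNorm p (r.den : ℚ) < 1 := (padicNorm.nat_lt_one_iff _).2 hdvd
    have h3 : ¬ p ∣ r.num.natAbs := fun h3 =>
      hp.one_lt.ne' (Nat.eq_one_of_dvd_coprimes hcop h3 hdvd)
    have h4 : padicNorm p (r.num.natAbs : ℚ) = 1 := (padicNorm.nat_eq_one_iff _).2 h3
    rw [h4] at h1
    have h5 : padicNorm p (r.den : ℚ) = 1 := by
      have h6 : padicNorm p (r.den : ℚ) ≠ 0 := padicNorm.nonzero hn2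
      field_simp at h1
      exact h1.symm
    exact absurd h5 h2.ne
  have h1 := h55lp_F_nat S _ hnum hS1
  have h2 := h55lp_F_nat S _ hden hS2
  have h3 : h55lp_F S (r.num.natAbs : ℚ) =
      h55lp_F S ((r.num.natAbs : ℚ) / (r.den : ℚ)) + h55lp_F S (r.den : ℚ) := by
    rw [← h55lp_F_mul S (div_ne_zero hn1 hn2) hn2, div_mul_cancel₀ _ hn2]
  rw [hr']
  linarith

/-! ## The local logarithms of a rational number -/

/-- the `q`-adic norm of a rational number through `padicEmbedding`. -/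
theorem h55lp_norm_rat (q : ℕ) [Fact q.Prime] (r : ℚ) :
    ‖padicEmbedding q (algebraMap ℚ Qb r)‖ = ((padicNorm q r : ℚ) : ℝ) := by
  have h1 : padicEmbedding q (algebraMap ℚ Qb r) =
      algebraMap ℚ_[q] (PadicAlgCl q) (r : ℚ_[q]) := by
    rw [eq_ratCast, map_ratCast, map_ratCast]
  rw [h1, PadicAlgCl.norm_extends, Padic.eq_padicNorm]

theorem h55lp_logQ_rat (q : Nat.Primes) (r : ℚ) :
    h93p_logQ q (algebraMap ℚ Qb r) = Real.log ((padicNorm (q : ℕ) r : ℚ) : ℝ) := by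
  haveI : Fact (q : ℕ).Prime := ⟨q.2⟩
  show Real.log ‖padicEmbedding (q : ℕ) (algebraMap ℚ Qb r)‖ = _
  rw [h55lp_norm_rat]

theorem h55lp_logInf_rat (r : ℚ) :
    h93p_logInf (algebraMap ℚ Qb r) = Real.log |(r : ℝ)| := by
  show Real.log ‖complexEmbedding (algebraMap ℚ Qb r)‖ = _
  rw [eq_ratCast, map_ratCast, Complex.norm_ratCast]

/-! ## The theorem -/

/-- **EQA-PKG-LOG-PROD** (product formula). -/
theorem h55lp_logProd : H93PkgLogProd := by
  classical
  intro S U₀ _ _hU₀ _ a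
  haveI := h23b_isGalois_Qb
  obtain ⟨N, hN⟩ : ∃ N : h93p_A S U₀, N = ∑ g : GQ ⧸ U₀, h93p_act S U₀ g a := ⟨_, rfl⟩
  have hsum : ∀ i : Option ↥S, ∑ g : GQ ⧸ U₀, h93p_ell S U₀ i (h93p_act S U₀ g a) =
      h93p_ell S U₀ i N := by
    intro i
    rw [hN, map_sum]
  rw [Finset.sum_congr rfl fun i _ => hsum i]
  -- `N` is Galois invariant
  have hinv : ∀ h : GQ ⧸ U₀, h93p_act S U₀ h N = N := by
    intro h
    rw [hN, map_sum]
    refine Fintype.sum_equiv (Equiv.mulLeft h) _ _ fun g => ?_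
    rw [Equiv.coe_mulLeft, map_mul]
    rfl
  have hfix : ∀ g : GQ, g (h93p_iota S U₀ N) = h93p_iota S U₀ N := by
    intro g
    rw [← h93p_iota_act S U₀ g N, hinv]
  obtain ⟨r, hr⟩ := (InfiniteGalois.mem_range_algebraMap_iff_fixed _).2 hfix
  have hr0 : r ≠ 0 := by
    rintro rfl
    rw [map_zero] at hr
    exact h93p_iota_ne_zero S U₀ N hr.symm
  -- `r` is an `S`-unit of `ℚ`
  have hunit : ∀ (p : ℕ) (hp : p.Prime), (⟨p, hp⟩ : Nat.Primes) ∉ S → padicNorm p r = 1 := by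
    intro p hp hpS
    haveI : Fact p.Prime := ⟨hp⟩
    have h1 := h93p_iota_val S U₀ N ⟨p, hp⟩ hpS (padicPlace p) (h23b_padicPlace_liesOver p)
    have h2 : h93p_iota S U₀ N ∉ (padicPlace p).nonunits := by
      rw [mem_nonunits_iff_inv]
      rintro (h | h)
      · exact h93p_iota_ne_zero S U₀ N h
      · exact h h1.2
    have h3 := h55ld_norm_eq_one p h1.1 h2
    rw [← hr, h55lp_norm_rat] at h3
    exact_mod_cast h3
  have hF := h55lp_F_rat S r hr0 hunit
  rw [Fintype.sum_option]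
  have h1 : h93p_ell S U₀ none N = Real.log |(r : ℝ)| := by
    rw [h93p_ell_apply, h93p_log_none, ← hr, h55lp_logInf_rat]
  have h2 : ∀ q : ↥S, h93p_ell S U₀ (some q) N =
      Real.log ((padicNorm ((q.1 : Nat.Primes) : ℕ) r : ℚ) : ℝ) := by
    intro q
    rw [h93p_ell_apply, h93p_log_some, ← hr, h55lp_logQ_rat]
  rw [h1, Finset.sum_congr rfl fun q _ => h2 q]
  exact hF

end Fermat.Agent.S56G
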