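import Fermat.Agent.S56G.Defs

/-!
# S56, block ADD, part (iv) (helper77): the `(-1)`-eigenspace of complex conjugation is exact

`h77a_neg_add` (pure linear algebra): for involutions `c₁, c₂, c₃` compatible with a short exact
sequence `0 → V₁ → V₂ → V₃ → 0` over a field in which `2 ≠ 0`,
`dim ker (c₂ + 1) = dim ker (c₁ + 1) + dim ker (c₃ + 1)`.

`h77a_cNeg_add` : the same for `h47g_cNeg` (`p` odd).
-/

set_option autoImplicit false

noncomputable section

namespace Fermat.Agent.S56G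

open Fermat.Agent.PT

section Abs

variable {k : Type} [Field k] {V₁ V₂ V₃ : Type} [AddCommGroup V₁] [Module k V₁]
  [AddCommGroup V₂] [Module k V₂] [AddCommGroup V₃] [Module k V₃]

/-- The `(-1)`-eigenspace of a compatible family of involutions is exact (`2 ≠ 0`). -/
theorem h77a_neg_add [FiniteDimensional k V₂] (h2 : (2 : k) ≠ 0)
    (c₁ : Module.End k V₁) (c₂ : Module.End k V₂) (c₃ : Module.End k V₃)
    (hc₂ : ∀ v, c₂ (c₂ v) = v)
    (φ : V₁ →ₗ[k] V₂) (ψ : V₂ →ₗ[k] V₃)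
    (hφ : ∀ v, φ (c₁ v) = c₂ (φ v)) (hψ : ∀ v, ψ (c₂ v) = c₃ (ψ v))
    (hinj : Function.Injective φ) (hsurj : Function.Surjective ψ)
    (hex : LinearMap.range φ = LinearMap.ker ψ) :
    Module.finrank k ↥(LinearMap.ker (c₂ + 1)) =
      Module.finrank k ↥(LinearMap.ker (c₁ + 1)) + Module.finrank k ↥(LinearMap.ker (c₃ + 1)) := by
  have hmem₁ : ∀ v : V₁, v ∈ LinearMap.ker (c₁ + 1) ↔ c₁ v + v = 0 := fun v => by
    rw [LinearMap.mem_ker, LinearMap.add_apply, Module.End.one_apply]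
  have hmem₂ : ∀ v : V₂, v ∈ LinearMap.ker (c₂ + 1) ↔ c₂ v + v = 0 := fun v => by
    rw [LinearMap.mem_ker, LinearMap.add_apply, Module.End.one_apply]
  have hmem₃ : ∀ v : V₃, v ∈ LinearMap.ker (c₃ + 1) ↔ c₃ v + v = 0 := fun v => by
    rw [LinearMap.mem_ker, LinearMap.add_apply, Module.End.one_apply]
  -- the restrictions
  have hφr : ∀ x ∈ LinearMap.ker (c₁ + 1), φ x ∈ LinearMap.ker (c₂ + 1) := by
    intro x hx
    rw [hmem₂, ← hφ, ← map_add, (hmem₁ x).mp hx, map_zero]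
  have hψr : ∀ x ∈ LinearMap.ker (c₂ + 1), ψ x ∈ LinearMap.ker (c₃ + 1) := by
    intro x hx
    rw [hmem₃, ← hψ, ← map_add, (hmem₂ x).mp hx, map_zero]
  set φ' : ↥(LinearMap.ker (c₁ + 1)) →ₗ[k] ↥(LinearMap.ker (c₂ + 1)) := φ.restrict hφr with hφ'
  set ψ' : ↥(LinearMap.ker (c₂ + 1)) →ₗ[k] ↥(LinearMap.ker (c₃ + 1)) := ψ.restrict hψr with hψ'
  have hinj' : Function.Injective φ' := by
    intro x y hxy
    apply Subtype.ext
    apply hinj
    exact congrArg Subtype.val hxy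
  have hsurj' : Function.Surjective ψ' := by
    rintro ⟨w, hw⟩
    obtain ⟨v, rfl⟩ := hsurj w
    have hw' := (hmem₃ _).mp hw
    refine ⟨⟨(2 : k)⁻¹ • (v - c₂ v), ?_⟩, ?_⟩
    · rw [hmem₂, map_smul, map_sub, hc₂, ← smul_add]
      have : c₂ v - v + (v - c₂ v) = 0 := by abel
      rw [this, smul_zero]
    · apply Subtype.ext
      show ψ ((2 : k)⁻¹ • (v - c₂ v)) = ψ v
      rw [map_smul, map_sub, hψ]
      have h1 : c₃ (ψ v) = - ψ v := eq_neg_of_add_eq_zero_left hw'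
      rw [h1, sub_neg_eq_add, ← two_smul k (ψ v), smul_smul, inv_mul_cancel₀ h2, one_smul]
  have hexact' : LinearMap.range φ' = LinearMap.ker ψ' := by
    ext ⟨x, hx⟩
    constructor
    · rintro ⟨y, hy⟩
      rw [LinearMap.mem_ker]
      apply Subtype.ext
      have h1 : φ (y : V₁) = x := congrArg Subtype.val hy
      show ψ x = 0
      rw [← h1, ← LinearMap.mem_ker, ← hex]
      exact LinearMap.mem_range_self φ _
    · intro hker
      have h1 : ψ x = 0 := congrArg Subtype.val (LinearMap.mem_ker.mp hker)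
      have h2' : x ∈ LinearMap.range φ := by rw [hex]; exact LinearMap.mem_ker.mpr h1
      obtain ⟨u, rfl⟩ := h2'
      have hu : u ∈ LinearMap.ker (c₁ + 1) := by
        rw [hmem₁]
        apply hinj
        rw [map_add, hφ, map_zero]
        exact (hmem₂ _).mp hx
      exact ⟨⟨u, hu⟩, Subtype.ext rfl⟩
  have h3 := LinearMap.finrank_range_add_finrank_ker ψ'
  rw [LinearMap.range_eq_top.mpr hsurj', finrank_top, ← hexact',
    LinearMap.finrank_range_of_inj hinj'] at h3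
  rw [← h3, add_comm]

end Abs

/-- **ADD, part (iv).**  `dim ρ₂^{c = -1} = dim ρ₁^{c = -1} + dim ρ₃^{c = -1}` for a short exact
sequence of representations of `G_ℚ` over `𝔽_p`, `p` odd. -/
theorem h77a_cNeg_add (p : ℕ) [Fact p.Prime] (hp2 : p ≠ 2)
    (V₁ V₂ V₃ : Type) [AddCommGroup V₁] [Module (ZMod p) V₁] [AddCommGroup V₂]
    [Module (ZMod p) V₂] [AddCommGroup V₃] [Module (ZMod p) V₃] [FiniteDimensional (ZMod p) V₂]
    (ρ₁ : Representation (ZMod p) GQ V₁) (ρ₂ : Representation (ZMod p) GQ V₂)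
    (ρ₃ : Representation (ZMod p) GQ V₃) (φ : V₁ →ₗ[ZMod p] V₂) (ψ : V₂ →ₗ[ZMod p] V₃)
    (hφ : ∀ g v, φ (ρ₁ g v) = ρ₂ g (φ v)) (hψ : ∀ g v, ψ (ρ₂ g v) = ρ₃ g (ψ v))
    (hinj : Function.Injective φ) (hsurj : Function.Surjective ψ)
    (hex : LinearMap.range φ = LinearMap.ker ψ) :
    (Module.finrank (ZMod p) ↥(h47g_cNeg ρ₂) : ℤ) =
      (Module.finrank (ZMod p) ↥(h47g_cNeg ρ₁) : ℤ) + (Module.finrank (ZMod p) ↥(h47g_cNeg ρ₃) : ℤ) := by
  have h2 : (2 : ZMod p) ≠ 0 := by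
    intro h
    have h1 : ((2 : ℕ) : ZMod p) = 0 := by exact_mod_cast h
    rw [ZMod.natCast_eq_zero_iff] at h1
    exact hp2 ((Nat.prime_dvd_prime_iff_eq (Fact.out : p.Prime) Nat.prime_two).mp h1)
  have hc : ∀ v, ρ₂ complexConjugation (ρ₂ complexConjugation v) = v := fun v => by
    rw [← Module.End.mul_apply, ← map_mul, complexConjugation_mul_self, map_one,
      Module.End.one_apply]
  have := h77a_neg_add h2 (ρ₁ complexConjugation) (ρ₂ complexConjugation)
    (ρ₃ complexConjugation) hc φ ψ (hφ _) (hψ _) hinj hsurj hex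
  unfold h47g_cNeg
  exact_mod_cast this

end Fermat.Agent.S56G
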