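import Mathlib
import Fermat.Agent.PT.Units.SUnit

/-!
# S56, block EQ-ARITH, the arithmetic package, LOG part (helper79, prefix `h79l`)

`K` a number field, `S` a finite set of primes of `K` (`HeightOneSpectrum (𝓞 K)`),
`A = Additive (S.unit K)` the `S`-units, `X = S ⊕ InfinitePlace K`.

* `h79lL K S : A →+ (X → ℝ)` : `L a v = ord_v a` (Mathlib's sign, `SU_ord`) for `v ∈ S`,
  `L a w = log |a|_w` for the infinite places `w`.
* `h79l_ker`  : `L a = 0 ↔ a` is torsion.
* `h79l_disc` : the image of `L` is discrete (`∃ ε > 0`, `L a ≠ 0 → ∃ x, ε ≤ |L a x|`).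
* `h79l_disc_units`, `h79l_disc_sunits` : the same, independent of the shape of `L`
  (for the twin `S56G/H47Log.lean` of helper47, who owns the product formula).
-/

set_option autoImplicit false
set_option linter.style.haveILetI false
set_option linter.unusedSectionVars false

open IsDedekindDomain NumberField

namespace Fermat.Agent.S56G

open Fermat.Agent.PT.Units

section Log

variable (K : Type) [Field K] [NumberField K] (S : Set (HeightOneSpectrum (𝓞 K)))

/-- the element of `K` underlying an `S`-unit. -/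
def h79lVal (a : Additive (S.unit K)) : K := (((Additive.toMul a : S.unit K) : Kˣ) : K)

theorem h79lVal_ne_zero (a : Additive (S.unit K)) : h79lVal K S a ≠ 0 :=
  Units.ne_zero _

theorem h79lVal_zero : h79lVal K S 0 = 1 := rfl

theorem h79lVal_add (a b : Additive (S.unit K)) :
    h79lVal K S (a + b) = h79lVal K S a * h79lVal K S b := rfl

theorem h79lVal_unitHom (u : (𝓞 K)ˣ) :
    h79lVal K S (SU_unitHom K S (Additive.ofMul u)) = algebraMap (𝓞 K) K u := rfl

/-- the logarithms of the absolute values of an `S`-unit. -/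
noncomputable def h79lL : Additive (S.unit K) →+ (S ⊕ InfinitePlace K → ℝ) where
  toFun a := Sum.elim (fun v => ((SU_valHom K S a v : ℤ) : ℝ))
    (fun w => Real.log (w (h79lVal K S a)))
  map_zero' := by
    funext x
    rcases x with v | w
    · simp
    · simp [h79lVal_zero]
  map_add' a b := by
    funext x
    rcases x with v | w
    · simp
    · simp only [Sum.elim_inr, Pi.add_apply, h79lVal_add, map_mul]
      rw [Real.log_mul]
      · exact (map_ne_zero _).mpr (h79lVal_ne_zero K S a)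
      · exact (map_ne_zero _).mpr (h79lVal_ne_zero K S b)

@[simp] theorem h79lL_inl (a : Additive (S.unit K)) (v : S) :
    h79lL K S a (Sum.inl v) = ((SU_valHom K S a v : ℤ) : ℝ) := rfl

@[simp] theorem h79lL_inr (a : Additive (S.unit K)) (w : InfinitePlace K) :
    h79lL K S a (Sum.inr w) = Real.log (w (h79lVal K S a)) := rfl

/-- an `S`-unit with `L a = 0` comes from a root of unity. -/
theorem h79l_ker_aux (a : Additive (S.unit K)) (h : h79lL K S a = 0) :
    ∃ u : (𝓞 K)ˣ, u ∈ NumberField.Units.torsion K ∧ SU_unitHom K S (Additive.ofMul u) = a := by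
  have h1 : a ∈ (SU_valHom K S).ker := by
    rw [AddMonoidHom.mem_ker]
    funext v
    have := congrFun h (Sum.inl v)
    simpa using this
  rw [← SU_unitHom_range] at h1
  obtain ⟨u, rfl⟩ := h1
  refine ⟨Additive.toMul u, ?_, rfl⟩
  rw [NumberField.Units.mem_torsion]
  intro w
  have h2 := congrFun h (Sum.inr w)
  rw [h79lL_inr, Pi.zero_apply] at h2
  have h3 : (0 : ℝ) < w (h79lVal K S (SU_unitHom K S u)) :=
    (NumberField.InfinitePlace.pos_iff).mpr (h79lVal_ne_zero K S _)
  have h4 := Real.eq_one_of_pos_of_log_eq_zero h3 h2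
  exact h4

/-- **kernel of the logarithms = torsion.** -/
theorem h79l_ker (a : Additive (S.unit K)) :
    h79lL K S a = 0 ↔ ∃ n : ℕ, 0 < n ∧ n • a = 0 := by
  constructor
  · intro h
    obtain ⟨u, hu, rfl⟩ := h79l_ker_aux K S a h
    have hfin : IsOfFinOrder u := (CommGroup.mem_torsion u).mp hu
    obtain ⟨n, hn, hun⟩ := isOfFinOrder_iff_pow_eq_one.mp hfin
    refine ⟨n, hn, ?_⟩
    rw [← map_nsmul]
    have : n • Additive.ofMul u = 0 := by
      rw [← ofMul_pow, hun]
      rfl
    rw [this, map_zero]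
  · rintro ⟨n, hn, h⟩
    have h1 : n • h79lL K S a = 0 := by rw [← map_nsmul, h, map_zero]
    have hn' : (n : ℝ) ≠ 0 := by exact_mod_cast hn.ne'
    funext x
    have h2 := congrFun h1 x
    simp only [Pi.smul_apply, nsmul_eq_mul, Pi.zero_apply] at h2
    rcases mul_eq_zero.mp h2 with h3 | h3
    · exact absurd h3 hn'
    · exact h3

/-- a finite set of elements has a positive lower bound for the nonzero logarithms. -/
theorem h79l_disc_aux (F : Finset K) :
    ∃ ε : ℝ, 0 < ε ∧ ∀ x ∈ F, (∃ w : InfinitePlace K, Real.log (w x) ≠ 0) →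
      ∃ w : InfinitePlace K, ε ≤ |Real.log (w x)| := by
  classical
  induction F using Finset.induction_on with
  | empty => exact ⟨1, one_pos, fun x hx => absurd hx (Finset.notMem_empty x)⟩
  | insert y F _ ih =>
    obtain ⟨ε, hε, h⟩ := ih
    by_cases hy : ∃ w : InfinitePlace K, Real.log (w y) ≠ 0
    · obtain ⟨w₀, hw₀⟩ := hy
      refine ⟨min ε |Real.log (w₀ y)|, lt_min hε (abs_pos.mpr hw₀), ?_⟩
      intro x hx hx'
      rcases Finset.mem_insert.mp hx with rfl | hxF
      · exact ⟨w₀, min_le_right _ _⟩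
      · obtain ⟨w, hw⟩ := h x hxF hx'
        exact ⟨w, (min_le_left _ _).trans hw⟩
    · refine ⟨ε, hε, ?_⟩
      intro x hx hx'
      rcases Finset.mem_insert.mp hx with rfl | hxF
      · exact absurd hx' hy
      · exact h x hxF hx'

/-- **discreteness, units** (shape independent): a unit of `𝓞 K` some logarithm of which is
nonzero has a logarithm of absolute value `≥ ε`. -/
theorem h79l_disc_units :
    ∃ ε : ℝ, 0 < ε ∧ ε ≤ 1 ∧ ∀ u : (𝓞 K)ˣ,
      (∃ w : InfinitePlace K, Real.log (w ((u : 𝓞 K) : K)) ≠ 0) →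
      ∃ w : InfinitePlace K, ε ≤ |Real.log (w ((u : 𝓞 K) : K))| := by
  classical
  have hfin := NumberField.Embeddings.finite_of_norm_le K ℂ (Real.exp 1)
  obtain ⟨ε₁, hε₁, h₁⟩ := h79l_disc_aux K hfin.toFinset
  refine ⟨min ε₁ 1, lt_min hε₁ one_pos, min_le_right _ _, ?_⟩
  intro u hne
  set x : K := ((u : 𝓞 K) : K) with hx
  have hx0 : x ≠ 0 := by
    rw [hx]
    exact RingOfIntegers.coe_ne_zero_iff.mpr (Units.ne_zero u)
  by_cases hbig : ∃ w : InfinitePlace K, 1 ≤ |Real.log (w x)|
  · obtain ⟨w, hw⟩ := hbig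
    exact ⟨w, (min_le_right _ _).trans hw⟩
  · push Not at hbig
    have hxF : x ∈ hfin.toFinset := by
      rw [Set.Finite.mem_toFinset]
      refine ⟨(u : 𝓞 K).2, fun φ => ?_⟩
      have h2 := hbig (InfinitePlace.mk φ)
      rw [InfinitePlace.apply] at h2
      have h3 : Real.log ‖φ x‖ < 1 := (abs_lt.mp h2).2
      have h4 : (0 : ℝ) < ‖φ x‖ := by
        rw [norm_pos_iff]
        exact (map_ne_zero φ).mpr hx0
      exact ((Real.log_lt_iff_lt_exp h4).mp h3).le
    obtain ⟨w, hw⟩ := h₁ x hxF hne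
    exact ⟨w, (min_le_left _ _).trans hw⟩

/-- **discreteness, `S`-units** (shape independent, in terms of `SU_ord` and the infinite
places). -/
theorem h79l_disc_sunits :
    ∃ ε : ℝ, 0 < ε ∧ ∀ a : Additive (S.unit K),
      ((∃ v : S, SU_valHom K S a v ≠ 0) ∨
        ∃ w : InfinitePlace K, Real.log (w (h79lVal K S a)) ≠ 0) →
      (∃ v : S, ε ≤ |((SU_valHom K S a v : ℤ) : ℝ)|) ∨
        ∃ w : InfinitePlace K, ε ≤ |Real.log (w (h79lVal K S a))| := by
  obtain ⟨ε, hε, hε1, h⟩ := h79l_disc_units K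
  refine ⟨ε, hε, ?_⟩
  intro a ha
  by_cases hval : ∃ v : S, SU_valHom K S a v ≠ 0
  · obtain ⟨v, hv⟩ := hval
    refine Or.inl ⟨v, hε1.trans ?_⟩
    have h1 : (1 : ℤ) ≤ |SU_valHom K S a v| := Int.one_le_abs hv
    have h2 : ((1 : ℤ) : ℝ) ≤ ((|SU_valHom K S a v| : ℤ) : ℝ) := Int.cast_le.mpr h1
    rw [Int.cast_abs] at h2
    simpa using h2
  · push Not at hval
    have h1 : a ∈ (SU_valHom K S).ker := funext hval
    rw [← SU_unitHom_range] at h1
    obtain ⟨u, rfl⟩ := h1
    rcases ha with ⟨v, hv⟩ | hw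
    · exact absurd (hval v) hv
    · exact Or.inr (h (Additive.toMul u) hw)

/-- **discreteness of the image of the logarithms.** -/
theorem h79l_disc :
    ∃ ε : ℝ, 0 < ε ∧ ∀ a : Additive (S.unit K), h79lL K S a ≠ 0 →
      ∃ x, ε ≤ |h79lL K S a x| := by
  obtain ⟨ε, hε, h⟩ := h79l_disc_sunits K S
  refine ⟨ε, hε, ?_⟩
  intro a ha
  have h1 : (∃ v : S, SU_valHom K S a v ≠ 0) ∨
      ∃ w : InfinitePlace K, Real.log (w (h79lVal K S a)) ≠ 0 := by
    by_contra hcon
    push Not at hcon
    apply ha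
    funext y
    rcases y with v | w
    · rw [h79lL_inl, hcon.1 v]
      simp
    · rw [h79lL_inr]
      exact hcon.2 w
  rcases h a h1 with ⟨v, hv⟩ | ⟨w, hw⟩
  · exact ⟨Sum.inl v, hv⟩
  · exact ⟨Sum.inr w, hw⟩

end Log

end Fermat.Agent.S56G
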