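import Fermat.Agent.S56G.H93PkgIface
import Fermat.Agent.PT.Glob.H49KClassIndep
import Fermat.Agent.PT.Units.Kummer
import Fermat.Agent.PT.Bridge.RelDictW

/-!
# S56, block EQ-ARITH, leaf EQA-PKG-GEN (helper83, prefix `h83g2_`): `h83g2_pkgGen : H93PkgGen`

`Cl_S(K)[p] = 0` for `S ⊇ T₀`: `T₀` = the prime numbers below a finite set `S_K` of places of
`K = fieldOf U₀` with trivial `S_K`-class group (`SU_exists_large`).  For `x ∈ Kˣ` with
`p ∣ v(x)` outside `S` choose `y ∈ Kˣ` with `ord_v y = ord_v x / p` for all `v` outside `S`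
(`SU_IsLarge.exists_ord_eq`); then `x / y ^ p` is an `S`-unit.
-/

set_option autoImplicit false

open ExtCitation NumberField IsDedekindDomain

noncomputable section

namespace Fermat.Agent.S56G

open Fermat.Agent.PT Fermat.Agent.PT.Glob Fermat.Agent.Bridge Fermat.Agent.PT.Bridge
  Fermat.Agent.PT.Units

local notation "Qb" => AlgebraicClosure ℚ

/-- the valuation vector of an element of `Kˣ` has finite support. -/
theorem h83g2_ord_finite (K : Type) [Field K] [NumberField K] (x : Kˣ) :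
    {v : HeightOneSpectrum (𝓞 K) | SU_ord K v (Additive.ofMul x) ≠ 0}.Finite := by
  have h1 := HeightOneSpectrum.Support.finite (𝓞 K) (x : K)
  have h2 := HeightOneSpectrum.Support.finite (𝓞 K) ((x : K)⁻¹)
  refine (h1.union h2).subset ?_
  intro v hv
  have hv' : v.valuation K (x : K) ≠ 1 := fun h => hv ((SU_ord_eq_zero_iff K v x).2 h)
  rcases lt_or_gt_of_ne hv' with h | h
  · right
    show 1 < v.valuation K ((x : K)⁻¹)
    rw [map_inv₀]
    have hv0 : v.valuation K (x : K) ≠ 0 := (Valuation.ne_zero_iff _).mpr x.ne_zero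
    exact one_lt_inv₀ (zero_lt_iff.mpr hv0) |>.mpr h
  · left
    exact h

/-- **PKG-GEN.** -/
theorem h83g2_pkgGen : H93PkgGen := by
  intro p _ hp2 U₀ _ hU₀ hχ
  classical
  have hopen : levFin.IsOpen U₀ := ⟨U₀, hU₀, le_refl _⟩
  have hfd : FiniteDimensional ℚ (fieldOf U₀) :=
    h23w_finiteDimensional_fieldOf (p := p) ⟨hopen, hχ⟩
  have hNF : NumberField (fieldOf U₀) := h23b_numberField _
  obtain ⟨SK, hSKfin, -, hSK⟩ := SU_exists_large (fieldOf U₀) ∅ Set.finite_empty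
  have hq : ∀ v : HeightOneSpectrum (𝓞 (fieldOf U₀)),
      ∃ q : Nat.Primes, ((q : ℕ) : 𝓞 (fieldOf U₀)) ∈ v.asIdeal := by
    intro v
    obtain ⟨q, A, hq, hA, hv⟩ := h23b_exists_valuationSubring_of_place (fieldOf U₀) v
    refine ⟨⟨q, hq⟩, ?_⟩
    rw [hv, mem_primeUnder, h49k_natCast_coe]
    exact hA
  choose qof hqof using hq
  refine ⟨hSKfin.toFinset.image qof, fun S hT₀S hpS hU₀S x hx hx0 hdvd => ?_⟩
  have hsub : SK ⊆ primesAbove (fieldOf U₀) S := by
    intro v hv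
    exact ⟨qof v, hT₀S (Finset.mem_image.2 ⟨v, hSKfin.mem_toFinset.2 hv, rfl⟩), hqof v⟩
  have hlarge : SU_IsLarge (fieldOf U₀) (primesAbove (fieldOf U₀) S) := hSK.mono hsub
  -- `x` as an element of `K`
  have hx'0 : (⟨x, hx⟩ : fieldOf U₀) ≠ 0 := fun h => hx0 (congrArg Subtype.val h)
  have hval := (h49k_dvdValOut_iff S (fieldOf U₀) p (⟨x, hx⟩ : fieldOf U₀) hx'0).1 hdvd
  obtain ⟨xu, hxu⟩ : ∃ xu : (fieldOf U₀)ˣ, (xu : fieldOf U₀) = ⟨x, hx⟩ := ⟨Units.mk0 _ hx'0, rfl⟩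
  have hfin := h83g2_ord_finite (fieldOf U₀) xu
  let n : HeightOneSpectrum (𝓞 (fieldOf U₀)) →₀ ℤ :=
    Finsupp.onFinset hfin.toFinset
      (fun v => SU_ord (fieldOf U₀) v (Additive.ofMul xu) / (p : ℤ)) (by
        intro v hv
        rw [Set.Finite.mem_toFinset]
        intro h0
        apply hv
        show SU_ord (fieldOf U₀) v (Additive.ofMul xu) / (p : ℤ) = 0
        rw [h0, Int.zero_ediv])
  have hn : ∀ v, n v = SU_ord (fieldOf U₀) v (Additive.ofMul xu) / (p : ℤ) := fun v => rfl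
  obtain ⟨y, hy⟩ := hlarge.exists_ord_eq n
  -- the quotient is an `S`-unit
  have hp0 : (p : ℤ) ≠ 0 := by exact_mod_cast (Fact.out : p.Prime).ne_zero
  have hunit : ∀ v : HeightOneSpectrum (𝓞 (fieldOf U₀)), v ∉ primesAbove (fieldOf U₀) S →
      v.valuation (fieldOf U₀) (((xu * (y ^ p)⁻¹ : (fieldOf U₀)ˣ)) : fieldOf U₀) = 1 := by
    intro v hv
    rw [← SU_ord_eq_zero_iff]
    have e1 : Additive.ofMul (xu * (y ^ p)⁻¹) =
        Additive.ofMul xu - p • Additive.ofMul y := by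
      rw [sub_eq_add_neg]
      rfl
    rw [e1, map_sub, map_nsmul, hy v hv, hn]
    obtain ⟨j, hj⟩ := hval v hv
    have e2 : SU_ord (fieldOf U₀) v (Additive.ofMul xu) = (p : ℤ) * j := by
      have := SU_exp_ord (fieldOf U₀) v xu
      rw [hxu, hj, WithZero.exp_inj] at this
      exact this
    rw [e2, Int.mul_ediv_cancel_left _ hp0, nsmul_eq_mul]
    ring
  -- conclusion
  set a₀ : fieldOf U₀ := ((xu * (y ^ p)⁻¹ : (fieldOf U₀)ˣ) : fieldOf U₀) with ha₀
  have ha₀0 : a₀ ≠ 0 := Units.ne_zero _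
  have ha₀x : (a₀ : Qb) * ((y : fieldOf U₀) : Qb) ^ p = x := by
    have h1 : a₀ * (y : fieldOf U₀) ^ p = ⟨x, hx⟩ := by
      rw [ha₀, ← hxu, Units.val_mul, Units.val_inv_eq_inv_val, Units.val_pow_eq_pow_val,
        inv_mul_cancel_right₀ (pow_ne_zero _ y.ne_zero)]
    have h2 := congrArg (fun z : fieldOf U₀ => (z : Qb)) h1
    simpa using h2
  obtain ⟨a, ha⟩ := h93p_exists_iota S U₀ (a₀ : Qb)
    (fun h => ha₀0 (by exact_mod_cast h)) a₀.2 (by
      intro q hqS V hV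
      have hvV : (h23b_placeUnder (fieldOf U₀) V q.2 hV).asIdeal = primeUnder V (fieldOf U₀) := rfl
      have hnot := h49k_placeUnder_notMem S (fieldOf U₀) V q hqS hV _ hvV
      have h1 := (h23b_isUnit_iff_valuation_eq_one _ hvV a₀).2 (hunit _ hnot)
      refine ⟨h1.1, ?_⟩
      have h2 := h1.2
      rw [mem_nonunits_iff_inv] at h2
      by_contra h3
      exact h2 (Or.inr h3))
  refine ⟨a, ((y : fieldOf U₀) : Qb), (y : fieldOf U₀).2, ?_, ?_⟩
  · intro h
    exact y.ne_zero (by exact_mod_cast h)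
  · rw [ha, ha₀x]

end Fermat.Agent.S56G
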