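import Fermat.Agent.S56G.H96KumEq
import Fermat.Agent.S56G.EqArithIface
import Fermat.Agent.PT.Units.Kummer
import Fermat.Agent.PT.Glob.H49KClassIndep
import Fermat.Agent.PT.Glob.H96KClassEx
import Fermat.Agent.PT.Glob.H50KZ1Sel

/-!
# S56, block EQ-ARITH, row EQA-PKG (helper96): the carrier of the arithmetic package

For `U₀ ⊲ G_ℚ` with `L = fieldOf U₀` a number field and a finite set `S` of primes:

* `h96s_A S U₀`    : the `S`-units of `L`, additively
                     (`Additive ((primesAbove L S).unit L)`, Mathlib's `Set.unit`);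
* `h96s_iota S U₀` : the realisation `A → ℚ̄`, `a ↦ a` (injective, multiplicative);
* `h96s_IsAct`     : property (E) of an action `α` of `G_ℚ / U₀` on `A`:
                     `ι (α (g U₀) a) = g (ι a)`; it determines `α` (`h96s_isAct_unique`);
* `h96s_exists_act`: such an action exists;
* `h96s_finite`    : `A` is finitely generated.

Every leaf of `H93EqPkg` is stated for this `A`, an arbitrary `α` with `h96s_IsAct`.
-/

set_option autoImplicit false
set_option linter.style.haveILetI false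
set_option linter.unusedSectionVars false

open ExtCitation NumberField IsDedekindDomain
open scoped Pointwise

noncomputable section

namespace Fermat.Agent.S56G

open Fermat.Agent.PT Fermat.Agent.PT.Glob Fermat.Agent.PT.Units

local notation "Qb" => AlgebraicClosure ℚ

/-! ## The carrier -/

/-- The `S`-units of `L = fieldOf U₀`, additively. -/
abbrev h96s_A (S : Finset Nat.Primes) (U₀ : Subgroup GQ) [NumberField (fieldOf U₀)] : Type :=
  Additive ((primesAbove (fieldOf U₀) S).unit (fieldOf U₀))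

/-- The realisation of the `S`-units in `ℚ̄`. -/
def h96s_iota (S : Finset Nat.Primes) (U₀ : Subgroup GQ) [NumberField (fieldOf U₀)]
    (a : h96s_A S U₀) : Qb :=
  ((((Additive.toMul a : (primesAbove (fieldOf U₀) S).unit (fieldOf U₀)) : (fieldOf U₀)ˣ) :
    fieldOf U₀) : Qb)

/-- Property (E): the action `α` of `G_ℚ / U₀` on the `S`-units is the Galois action. -/
def h96s_IsAct (S : Finset Nat.Primes) (U₀ : Subgroup GQ) [U₀.Normal]
    [NumberField (fieldOf U₀)] (α : Representation ℤ (GQ ⧸ U₀) (h96s_A S U₀)) : Prop :=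
  ∀ (g : GQ) (a : h96s_A S U₀),
    h96s_iota S U₀ (α (QuotientGroup.mk' U₀ g) a) = g (h96s_iota S U₀ a)

section Basic

variable (S : Finset Nat.Primes) (U₀ : Subgroup GQ) [NumberField (fieldOf U₀)]

theorem h96s_iota_ne_zero (a : h96s_A S U₀) : h96s_iota S U₀ a ≠ 0 := by
  unfold h96s_iota
  intro h
  have h1 : (((Additive.toMul a : (primesAbove (fieldOf U₀) S).unit (fieldOf U₀)) :
      (fieldOf U₀)ˣ) : fieldOf U₀) = 0 := by exact_mod_cast h
  exact Units.ne_zero _ h1

theorem h96s_iota_mem (a : h96s_A S U₀) : h96s_iota S U₀ a ∈ fieldOf U₀ :=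
  SetLike.coe_mem _

theorem h96s_iota_add (a b : h96s_A S U₀) :
    h96s_iota S U₀ (a + b) = h96s_iota S U₀ a * h96s_iota S U₀ b := by
  unfold h96s_iota
  simp

theorem h96s_iota_zero : h96s_iota S U₀ 0 = 1 := by
  unfold h96s_iota
  simp

theorem h96s_iota_nsmul (n : ℕ) (a : h96s_A S U₀) :
    h96s_iota S U₀ (n • a) = h96s_iota S U₀ a ^ n := by
  unfold h96s_iota
  simp

theorem h96s_iota_injective : Function.Injective (h96s_iota S U₀) := by
  intro a b h
  unfold h96s_iota at h
  have h1 : (((Additive.toMul a : (primesAbove (fieldOf U₀) S).unit (fieldOf U₀)) :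
      (fieldOf U₀)ˣ) : fieldOf U₀) = (((Additive.toMul b :
      (primesAbove (fieldOf U₀) S).unit (fieldOf U₀)) : (fieldOf U₀)ˣ) : fieldOf U₀) :=
    Subtype.ext h
  have h2 : (Additive.toMul a : (primesAbove (fieldOf U₀) S).unit (fieldOf U₀)) =
      Additive.toMul b := Subtype.ext (Units.ext h1)
  exact Additive.toMul.injective h2

/-- **Dictionary for `S`-units.**  `x ∈ Lˣ` is an `S`-unit iff it is a unit of every valuation
subring of `ℚ̄` over a prime `q ∉ S`. -/
theorem h96s_mem_unit_iff (x : (fieldOf U₀)ˣ) :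
    x ∈ (primesAbove (fieldOf U₀) S).unit (fieldOf U₀) ↔
      ∀ q : Nat.Primes, q ∉ S → ∀ P : ValuationSubring Qb, P.LiesOverPrime (q : ℕ) →
        (((x : fieldOf U₀) : Qb)) ∈ P ∧ (((x : fieldOf U₀) : Qb))⁻¹ ∈ P := by
  constructor
  · intro h q hq P hP
    have hv : (Fermat.Agent.PT.Bridge.h23b_placeUnder (fieldOf U₀) P q.2 hP).asIdeal =
        Fermat.Agent.Bridge.primeUnder P (fieldOf U₀) := rfl
    have hvS := h49k_placeUnder_notMem S (fieldOf U₀) P q hq hP _ hv
    exact h96x_isUnitAt_of_valuation (fieldOf U₀) P _ hv (x : fieldOf U₀) (h _ hvS)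
  · intro h v hvS
    obtain ⟨q, P, hqS, hP, hv⟩ := h49k_exists_of_notMem S (fieldOf U₀) v hvS
    obtain ⟨h1, h2⟩ := h q hqS P hP
    have h3 : v.valuation (fieldOf U₀) (x : fieldOf U₀) ≤ 1 :=
      (Fermat.Agent.PT.Bridge.h23b_mem_iff_valuation_le_one v hv (x : fieldOf U₀)).mp h1
    have h4 : v.valuation (fieldOf U₀) ((x : fieldOf U₀)⁻¹) ≤ 1 := by
      refine (Fermat.Agent.PT.Bridge.h23b_mem_iff_valuation_le_one v hv
        ((x : fieldOf U₀)⁻¹)).mp ?_
      have e : ((((x : fieldOf U₀)⁻¹ : fieldOf U₀)) : Qb) = (((x : fieldOf U₀) : Qb))⁻¹ := by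
        simp
      rw [e]
      exact h2
    rw [map_inv₀] at h4
    have hx0 : v.valuation (fieldOf U₀) (x : fieldOf U₀) ≠ 0 := by
      rw [Ne, map_eq_zero]
      exact x.ne_zero
    have h5 : 1 ≤ v.valuation (fieldOf U₀) (x : fieldOf U₀) := by
      rwa [inv_le_one₀ (zero_lt_iff.mpr hx0)] at h4
    exact le_antisymm h3 h5

/-- an element of `L` which is a unit at all valuation subrings over the primes outside `S`
is the realisation of an `S`-unit. -/
theorem h96s_exists_of_isUnitAt {x : Qb} (hx : x ∈ fieldOf U₀) (hx0 : x ≠ 0)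
    (h : ∀ q : Nat.Primes, q ∉ S → ∀ P : ValuationSubring Qb, P.LiesOverPrime (q : ℕ) →
      x ∈ P ∧ x⁻¹ ∈ P) : ∃ a : h96s_A S U₀, h96s_iota S U₀ a = x := by
  have hx0' : (⟨x, hx⟩ : fieldOf U₀) ≠ 0 := by
    intro h0
    exact hx0 (congrArg Subtype.val h0)
  have hmem : Units.mk0 (⟨x, hx⟩ : fieldOf U₀) hx0' ∈
      (primesAbove (fieldOf U₀) S).unit (fieldOf U₀) := by
    rw [h96s_mem_unit_iff]
    exact h
  exact ⟨Additive.ofMul ⟨_, hmem⟩, rfl⟩

theorem h96s_iota_isUnitAt (a : h96s_A S U₀) (q : Nat.Primes) (hq : q ∉ S)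
    (P : ValuationSubring Qb) (hP : P.LiesOverPrime (q : ℕ)) :
    h96s_iota S U₀ a ∈ P ∧ (h96s_iota S U₀ a)⁻¹ ∈ P :=
  (h96s_mem_unit_iff S U₀ _).mp (Additive.toMul a).2 q hq P hP

/-- `A` is finitely generated (Dirichlet's `S`-unit theorem). -/
theorem h96s_finite : Module.Finite ℤ (h96s_A S U₀) := by
  haveI : Finite ↥(primesAbove (fieldOf U₀) S) :=
    (h50k_primesAbove_finite (fieldOf U₀) S).to_subtype
  exact SU_sunit_finite (fieldOf U₀) (primesAbove (fieldOf U₀) S)

end Basic

/-! ## The Galois action -/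

/-- the fixed field of a normal subgroup is Galois stable. -/
theorem h96s_map_mem (U₀ : Subgroup GQ) [hN : U₀.Normal] {x : Qb} (hx : x ∈ fieldOf U₀) (g : GQ) :
    g x ∈ fieldOf U₀ := by
  rw [IntermediateField.mem_fixedField_iff] at hx ⊢
  intro u hu
  have h1 : g⁻¹ * u * g ∈ U₀ := by
    have h := hN.conj_mem u hu g⁻¹
    rwa [inv_inv] at h
  have h2 := hx _ h1
  have h3 : u (g x) = g ((g⁻¹ * u * g) x) := by
    simp only [AlgEquiv.mul_apply]
    rw [← AlgEquiv.mul_apply g g⁻¹, mul_inv_cancel, AlgEquiv.one_apply]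
  rw [h3, h2]

/-- **Abstract existence of the Galois action**: an additive group realised multiplicatively and
injectively in `ℚ̄`, Galois stable and fixed by `U₀`, carries a unique action of `G_ℚ / U₀`
compatible with the realisation. -/
theorem h96s_exists_rep (U₀ : Subgroup GQ) [U₀.Normal] (A : Type) [AddCommGroup A] (ι : A → Qb)
    (hinj : Function.Injective ι) (hadd : ∀ a b, ι (a + b) = ι a * ι b)
    (hstab : ∀ (g : GQ) (a : A), ∃ b, ι b = g (ι a))
    (hfix : ∀ u ∈ U₀, ∀ a, (u : GQ) (ι a) = ι a) :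
    ∃ α : Representation ℤ (GQ ⧸ U₀) A, ∀ (g : GQ) (a : A),
      ι (α (QuotientGroup.mk' U₀ g) a) = g (ι a) := by
  classical
  choose f hf using hstab
  have hfadd : ∀ g a b, f g (a + b) = f g a + f g b := by
    intro g a b
    apply hinj
    rw [hf, hadd, map_mul, hadd, hf, hf]
  let φ₀ : GQ → (A →ₗ[ℤ] A) := fun g => (AddMonoidHom.mk' (f g) (hfadd g)).toIntLinearMap
  have hφ₀ : ∀ g a, φ₀ g a = f g a := fun g a => rfl
  let φ : GQ →* (A →ₗ[ℤ] A) :=
    { toFun := φ₀
      map_one' := by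
        refine LinearMap.ext fun a => ?_
        apply hinj
        rw [hφ₀, hf]
        rfl
      map_mul' := by
        intro g h
        refine LinearMap.ext fun a => ?_
        apply hinj
        rw [hφ₀, hf, Module.End.mul_apply, hφ₀, hφ₀, hf, hf]
        rfl }
  have hφ : ∀ g a, φ g a = f g a := fun g a => rfl
  have hker : U₀ ≤ φ.ker := by
    intro u hu
    rw [MonoidHom.mem_ker]
    refine LinearMap.ext fun a => ?_
    apply hinj
    rw [hφ, hf, hfix u hu]
    rfl
  refine ⟨QuotientGroup.lift U₀ φ hker, fun g a => ?_⟩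
  have h1 : QuotientGroup.lift U₀ φ hker (QuotientGroup.mk' U₀ g) = φ g := rfl
  rw [h1, hφ, hf]

section Act

variable (S : Finset Nat.Primes) (U₀ : Subgroup GQ) [U₀.Normal] [NumberField (fieldOf U₀)]

/-- the `S`-units are Galois stable. -/
theorem h96s_stable (g : GQ) (a : h96s_A S U₀) :
    ∃ b : h96s_A S U₀, h96s_iota S U₀ b = g (h96s_iota S U₀ a) := by
  refine h96s_exists_of_isUnitAt S U₀ (h96s_map_mem U₀ (h96s_iota_mem S U₀ a) g) ?_ ?_
  · intro h0
    exact h96s_iota_ne_zero S U₀ a ((map_eq_zero_iff g (AlgEquiv.injective g)).1 h0)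
  · intro q hq P hP
    have hP' : (g⁻¹ • P).LiesOverPrime (q : ℕ) :=
      (Fermat.Agent.Bridge.liesOverPrime_smul_iff P g⁻¹ (q : ℕ)).2 hP
    obtain ⟨h1, h2⟩ := h96s_iota_isUnitAt S U₀ a q hq (g⁻¹ • P) hP'
    rw [Fermat.Agent.Bridge.mem_smul_iff, inv_inv] at h1 h2
    refine ⟨h1, ?_⟩
    rw [← map_inv₀]
    exact h2

/-- the elements of `L` are fixed by `U₀`. -/
theorem h96s_fix (u : GQ) (hu : u ∈ U₀) (a : h96s_A S U₀) :
    u (h96s_iota S U₀ a) = h96s_iota S U₀ a := by
  have h := h96s_iota_mem S U₀ a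
  rw [IntermediateField.mem_fixedField_iff] at h
  exact h u hu

/-- **Existence of the Galois action on the `S`-units.** -/
theorem h96s_exists_act :
    ∃ α : Representation ℤ (GQ ⧸ U₀) (h96s_A S U₀), h96s_IsAct S U₀ α :=
  h96s_exists_rep U₀ (h96s_A S U₀) (h96s_iota S U₀) (h96s_iota_injective S U₀)
    (h96s_iota_add S U₀) (h96s_stable S U₀) (h96s_fix S U₀)

/-- Property (E) determines the action. -/
theorem h96s_isAct_unique (α α' : Representation ℤ (GQ ⧸ U₀) (h96s_A S U₀))
    (h : h96s_IsAct S U₀ α) (h' : h96s_IsAct S U₀ α') : α = α' := by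
  refine MonoidHom.ext fun x => ?_
  obtain ⟨g, rfl⟩ := QuotientGroup.mk'_surjective U₀ x
  refine LinearMap.ext fun a => ?_
  apply h96s_iota_injective S U₀
  rw [h g a, h' g a]

end Act

end Fermat.Agent.S56G
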