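import Fermat.Agent.S56G.H93PkgIface
import Fermat.Agent.S56G.H96SUnit

/-!
# S56, block EQ-ARITH, row EQA-PKG-GEN (helper96): `Cl_S(K)[p] = 0` for `S ⊇ T₀`

`h96pg_pkgGen : H93PkgGen` — for `K = fieldOf U₀` there is a finite set of primes `T₀` such that
for `S ⊇ T₀` every `x ∈ Kˣ` whose valuations outside `S` are divisible by `p` is the product of an
`S`-unit and a `p`-th power.

Proof: `T₀` = the primes below a finite large set of primes of `K` (`SU_exists_large`); for
`S ⊇ T₀` the set `primesAbove K S` is large, so the valuation vector `(ord_v x / p)_{v ∉ S}` is the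
valuation vector of some `y ∈ Kˣ` (`SU_IsLarge.exists_ord_eq`), and `x / y ^ p` is an `S`-unit.
Dictionary `ℚ̄`-language ↔ `HeightOneSpectrum`: `h49k_dvdValOut_iff`, `h96s_mem_unit_iff`.
-/

set_option autoImplicit false
set_option linter.style.haveILetI false
set_option linter.unusedSectionVars false

open ExtCitation NumberField IsDedekindDomain
open scoped Pointwise

noncomputable section

namespace Fermat.Agent.S56G

open Fermat.Agent.PT Fermat.Agent.PT.Glob Fermat.Agent.PT.Units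

local notation "Qb" => AlgebraicClosure ℚ

/-- The fixed field of a finite level is a number field. -/
theorem h96pg_numberField (U₀ : Subgroup GQ) (hU₀ : U₀ ∈ levFin.sets) :
    NumberField (fieldOf U₀) := by
  obtain ⟨F, hF, -, rfl⟩ := hU₀
  haveI := Fermat.Agent.PT.Bridge.h23b_isGalois_Qb
  have h : fieldOf F.fixingSubgroup = F := InfiniteGalois.fixedField_fixingSubgroup F
  rw [h]
  exact Fermat.Agent.PT.Bridge.h23b_numberField F

/-- **The set `T₀`.** -/
theorem h96pg_exists_T0 (L : IntermediateField ℚ Qb) [NumberField L] :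
    ∃ T₀ : Finset Nat.Primes, ∀ S : Finset Nat.Primes, T₀ ⊆ S →
      SU_IsLarge L (primesAbove L S) := by
  classical
  obtain ⟨SL, hfin, -, hlarge⟩ := SU_exists_large L ∅ Set.finite_empty
  choose q A hq hA hv using Fermat.Agent.PT.Bridge.h23b_exists_valuationSubring_of_place L
  refine ⟨hfin.toFinset.image (fun v => (⟨q v, hq v⟩ : Nat.Primes)), fun S hS => hlarge.mono ?_⟩
  intro v hvS
  refine ⟨⟨q v, hq v⟩, hS (Finset.mem_image.2 ⟨v, hfin.mem_toFinset.2 hvS, rfl⟩), ?_⟩
  rw [hv v, Fermat.Agent.Bridge.mem_primeUnder, h49k_natCast_coe]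
  exact hA v

/-- the set of places at which a nonzero element is not a unit is finite. -/
theorem h96pg_finite_ne_one (L : Type) [Field L] [NumberField L] (x : Lˣ) :
    {v : HeightOneSpectrum (𝓞 L) | v.valuation L (x : L) ≠ 1}.Finite := by
  have h1 := HeightOneSpectrum.Support.finite (𝓞 L) (x : L)
  have h2 := HeightOneSpectrum.Support.finite (𝓞 L) ((x : L)⁻¹)
  refine (h1.union h2).subset ?_
  intro v hv
  have hpos : 0 < v.valuation L (x : L) := by
    rw [Valuation.pos_iff]
    exact x.ne_zero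
  rcases lt_or_gt_of_ne hv with h | h
  · right
    show 1 < v.valuation L (x : L)⁻¹
    rw [map_inv₀]
    exact (one_lt_inv₀ hpos).2 h
  · left
    exact h

/-- **Core**: for `S_L` large, an element with valuations divisible by `p` outside `S_L` is an
`S_L`-unit times a `p`-th power. -/
theorem h96pg_gen_core (p : ℕ) (hp : p ≠ 0) (L : Type) [Field L] [NumberField L]
    (T : Set (HeightOneSpectrum (𝓞 L))) (hlarge : SU_IsLarge L T) (x : Lˣ)
    (hdiv : ∀ v : HeightOneSpectrum (𝓞 L), v ∉ T →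
      ∃ j : ℤ, v.valuation L (x : L) = WithZero.exp ((p : ℤ) * j)) :
    ∃ u y : Lˣ, u ∈ T.unit L ∧ x = u * y ^ p := by
  classical
  have hdiv' : ∀ v : HeightOneSpectrum (𝓞 L), v ∉ T →
      ∃ m : ℤ, SU_ord L v (Additive.ofMul x) = (p : ℤ) * m := by
    intro v hv
    obtain ⟨j, hj⟩ := hdiv v hv
    refine ⟨j, ?_⟩
    have h2 := SU_exp_ord L v x
    rw [hj, WithZero.exp_inj] at h2
    exact h2
  choose m hm using hdiv'
  have hfin : {v : HeightOneSpectrum (𝓞 L) | v.valuation L (x : L) ≠ 1}.Finite :=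
    h96pg_finite_ne_one L x
  let n : HeightOneSpectrum (𝓞 L) →₀ ℤ :=
    Finsupp.onFinset hfin.toFinset (fun v => if h : v ∉ T then m v h else 0) (by
      intro v hv
      rw [Set.Finite.mem_toFinset, Set.mem_ofPred_eq]
      intro h1
      apply hv
      by_cases hvT : v ∉ T
      · rw [dif_pos hvT]
        have h2 := hm v hvT
        rw [(SU_ord_eq_zero_iff L v x).2 h1] at h2
        have hp0 : (p : ℤ) ≠ 0 := by exact_mod_cast hp
        rcases mul_eq_zero.1 h2.symm with h3 | h3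
        · exact absurd h3 hp0
        · exact h3
      · rw [dif_neg hvT])
  obtain ⟨c, hc⟩ := hlarge.exists_ord_eq n
  refine ⟨x / c ^ p, c, ?_, ?_⟩
  · intro v hv
    have hvT : v ∉ T := hv
    show v.valuation L ((x / c ^ p : Lˣ) : L) = 1
    rw [← SU_ord_eq_zero_iff]
    have h1 : Additive.ofMul (x / c ^ p) = Additive.ofMul x - p • Additive.ofMul c := rfl
    rw [h1, map_sub, map_nsmul, hm v hvT, hc v hvT]
    show (p : ℤ) * m v hvT - p • (n v) = 0
    have h2 : n v = m v hvT := by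
      show (if h : v ∉ T then m v h else 0) = m v hvT
      rw [dif_pos hvT]
    rw [h2, nsmul_eq_mul, sub_self]
  · rw [div_mul_cancel]

/-- **EQA-PKG-GEN.** -/
theorem h96pg_pkgGen : H93PkgGen := by
  intro p _ _ U₀ _ hU₀ _
  have hp : p.Prime := Fact.out
  haveI : NumberField (fieldOf U₀) := h96pg_numberField U₀ hU₀
  obtain ⟨T₀, hT₀⟩ := h96pg_exists_T0 (fieldOf U₀)
  refine ⟨T₀, fun S hS _ _ x hx hx0 hval => ?_⟩
  have hx0' : (⟨x, hx⟩ : fieldOf U₀) ≠ 0 := by
    intro h0
    exact hx0 (congrArg Subtype.val h0)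
  have hdiv := (h49k_dvdValOut_iff S (fieldOf U₀) p (⟨x, hx⟩ : fieldOf U₀) hx0').mp hval
  obtain ⟨u, y, hu, hxy⟩ := h96pg_gen_core p hp.ne_zero (fieldOf U₀)
    (primesAbove (fieldOf U₀) S) (hT₀ S hS) (Units.mk0 _ hx0') hdiv
  have hu0 : (((u : fieldOf U₀)) : Qb) ≠ 0 := by
    intro h0
    have h1 : (u : fieldOf U₀) = 0 := by exact_mod_cast h0
    exact u.ne_zero h1
  have hy0 : (((y : fieldOf U₀)) : Qb) ≠ 0 := by
    intro h0
    have h1 : (y : fieldOf U₀) = 0 := by exact_mod_cast h0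
    exact y.ne_zero h1
  obtain ⟨a, ha⟩ := h93p_exists_iota S U₀ (((u : fieldOf U₀)) : Qb) hu0 (SetLike.coe_mem _)
    ((h96s_mem_unit_iff S U₀ u).mp hu)
  refine ⟨a, (((y : fieldOf U₀)) : Qb), SetLike.coe_mem _, hy0, ?_⟩
  rw [ha]
  have h1 : ((Units.mk0 (⟨x, hx⟩ : fieldOf U₀) hx0' : (fieldOf U₀)ˣ) : fieldOf U₀) =
      ((u * y ^ p : (fieldOf U₀)ˣ) : fieldOf U₀) := congrArg Units.val hxy
  rw [Units.val_mk0, Units.val_mul, Units.val_pow_eq_pow_val] at h1
  have h2 := congrArg (Subtype.val : ↥(fieldOf U₀) → Qb) h1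
  simpa using h2

end Fermat.Agent.S56G
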