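import Fermat.Agent.S56G.H93PkgIface
import Fermat.Agent.S56G.H96PkgGen

/-!
# S56, block EQ-ARITH, row EQA-PKG-FG (helper96, second seat): the `S`-units are finitely
generated

`h96fg_pkgFG : H93PkgFG`.  The `S`-units `h93p_A S U₀` of `K = fieldOf U₀` (in `ℚ̄`-language) are
the image of Mathlib's `S`-units `(primesAbove K S).unit K` (dictionary `h96s_mem_unit_iff`),
which are finitely generated by Dirichlet's `S`-unit theorem (`SU_sunit_finite`).
-/

set_option autoImplicit false
set_option linter.style.haveILetI false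
set_option linter.unusedSectionVars false

open ExtCitation NumberField IsDedekindDomain

noncomputable section

namespace Fermat.Agent.S56G

open Fermat.Agent.PT Fermat.Agent.PT.Glob Fermat.Agent.PT.Units

local notation "Qb" => AlgebraicClosure ℚ

/-- The comparison map from Mathlib's `S`-units onto the `S`-units in `ℚ̄`-language. -/
theorem h96fg_exists_map (S : Finset Nat.Primes) (U₀ : Subgroup GQ) [NumberField (fieldOf U₀)] :
    ∃ f : h96s_A S U₀ →+ h93p_A S U₀, Function.Surjective f ∧
      ∀ a, h93p_iota S U₀ (f a) = h96s_iota S U₀ a := by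
  classical
  have hex : ∀ a : h96s_A S U₀, ∃ b : h93p_A S U₀, h93p_iota S U₀ b = h96s_iota S U₀ a :=
    fun a => h93p_exists_iota S U₀ (h96s_iota S U₀ a) (h96s_iota_ne_zero S U₀ a)
      (h96s_iota_mem S U₀ a) (fun q hq V hV => h96s_iota_isUnitAt S U₀ a q hq V hV)
  choose f hf using hex
  have hadd : ∀ a b, f (a + b) = f a + f b := by
    intro a b
    apply h93p_iota_injective S U₀
    rw [hf, h93p_iota_add, hf, hf, h96s_iota_add]
  refine ⟨AddMonoidHom.mk' f hadd, ?_, hf⟩
  intro c
  obtain ⟨a, ha⟩ := h96s_exists_of_isUnitAt S U₀ (h93p_iota_mem S U₀ c)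
    (h93p_iota_ne_zero S U₀ c) (fun q hq V hV => h93p_iota_val S U₀ c q hq V hV)
  refine ⟨a, ?_⟩
  apply h93p_iota_injective S U₀
  show h93p_iota S U₀ (f a) = _
  rw [hf, ha]

/-- **EQA-PKG-FG.** -/
theorem h96fg_pkgFG : H93PkgFG := by
  intro S U₀ _ hU₀
  haveI : NumberField (fieldOf U₀) := h96pg_numberField U₀ hU₀
  obtain ⟨f, hf, -⟩ := h96fg_exists_map S U₀
  haveI : Module.Finite ℤ (h96s_A S U₀) := h96s_finite S U₀
  exact Module.Finite.of_surjective f.toIntLinearMap hf

end Fermat.Agent.S56G
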