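import Mathlib
import Fermat.Agent.S56G.EqAsm
import Fermat.Agent.PT.Bridge.Levels
import Fermat.Agent.PT.Alg.H57LocalAux

/-!
# S56, block TATE-EC (helper47): the assembly

`h47g_tateAsm : H47TateAsm`, i.e.
`H47BrauerArtin → H47PhiAdd → H47PhiReg → H47EqBase → H47TateGE`.

`σ` factors through `G = G_ℚ / U₀`, `U₀ = ker σ ∩ ker χ` (a finite normal level, unramified
outside every `S` outside which `σ` is unramified); `Φ_S` restricted to the representations of
`G` satisfies the hypotheses of the Brauer–Artin squeeze.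
-/

set_option autoImplicit false

open ExtCitation

noncomputable section

namespace Fermat.Agent.S56G

open Fermat.Agent.PT

/-- The kernel level `U₀ = ker σ ∩ ker χ`. -/
def h47g_U0 (p : ℕ) [Fact p.Prime] {V : Type} [AddCommGroup V] [Module (ZMod p) V]
    (σ : Representation (ZMod p) GQ V) : Subgroup GQ :=
  MonoidHom.ker σ ⊓ MonoidHom.ker (cycloChar p)

instance h47g_U0_normal (p : ℕ) [Fact p.Prime] {V : Type} [AddCommGroup V] [Module (ZMod p) V]
    (σ : Representation (ZMod p) GQ V) : (h47g_U0 p σ).Normal := by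
  unfold h47g_U0
  infer_instance

lemma h47g_U0_le_ker (p : ℕ) [Fact p.Prime] {V : Type} [AddCommGroup V] [Module (ZMod p) V]
    (σ : Representation (ZMod p) GQ V) : h47g_U0 p σ ≤ MonoidHom.ker σ := inf_le_left

lemma h47g_U0_chi (p : ℕ) [Fact p.Prime] {V : Type} [AddCommGroup V] [Module (ZMod p) V]
    (σ : Representation (ZMod p) GQ V) : ∀ u ∈ h47g_U0 p σ, cycloChar p u = 1 :=
  fun _ hu => MonoidHom.mem_ker.1 hu.2

/-- `U₀` contains the fixing subgroup of a finite extension. -/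
lemma h47g_U0_open (p : ℕ) [Fact p.Prime] {V : Type} [AddCommGroup V] [Module (ZMod p) V]
    [FiniteDimensional (ZMod p) V] (σ : Representation (ZMod p) GQ V) (hσ : IsDisc levFin σ) :
    ∃ F : IntermediateField ℚ (AlgebraicClosure ℚ), FiniteDimensional ℚ F ∧
      F.fixingSubgroup ≤ h47g_U0 p σ := by
  obtain ⟨N, ⟨F₁, hF₁, -, rfl⟩, hN⟩ := h57_exists_level_trivial levFin σ hσ
  obtain ⟨F₂, hF₂, h₂⟩ := pt79_cycloChar_open p
  have := hF₁
  have := hF₂
  refine ⟨F₁ ⊔ F₂, IntermediateField.finiteDimensional_sup F₁ F₂, fun s hs => ?_⟩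
  rw [IntermediateField.fixingSubgroup_sup] at hs
  exact ⟨MonoidHom.mem_ker.2 (hN s hs.1), h₂ hs.2⟩

/-- `U₀` is a level of `levQ S` as soon as `σ` is unramified outside `S ∋ p`. -/
lemma h47g_U0_mem_levQ (p : ℕ) [Fact p.Prime] {V : Type} [AddCommGroup V] [Module (ZMod p) V]
    [FiniteDimensional (ZMod p) V] (σ : Representation (ZMod p) GQ V) (hσ : IsDisc levFin σ)
    (S : Finset Nat.Primes) (hpS : pPrime p ∈ S) (hσS : IsDisc (levQ S) σ) :
    h47g_U0 p σ ∈ (levQ S).sets := by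
  obtain ⟨N, ⟨F₁, hF₁, -, rfl⟩, hN⟩ := h57_exists_level_trivial (levQ S) σ hσS
  obtain ⟨F, hF, hgal, hfix⟩ := pt79_level_of_normal S (h47g_U0 p σ) (h47g_U0_open p σ hσ)
    (fun q hq A hA g hg =>
      ⟨MonoidHom.mem_ker.2 (hN g (hF₁.2 q hq A hA hg)),
        MonoidHom.mem_ker.2 (pt79_cycloChar_inertia p q (fun h => hq (h ▸ hpS)) A hA g hg)⟩)
  exact ⟨F, hF, hgal.to_normal, hfix.symm⟩

/-- The permutation module of a normal subgroup is the regular representation of the quotient. -/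
lemma h47g_permRep_eq (p : ℕ) [Fact p.Prime] (U₀ : Subgroup GQ) [U₀.Normal] :
    permRep (ZMod p) U₀ = (h47g_reg (ZMod p) (GQ ⧸ U₀)).comp (QuotientGroup.mk' U₀) := by
  ext g f x
  induction x using QuotientGroup.induction_on with
  | H y => rfl

end Fermat.Agent.S56G

namespace Fermat.Agent.S56G

open Fermat.Agent.PT

/-- `U₀` is a finite normal level. -/
lemma h47g_U0_mem_levFin (p : ℕ) [Fact p.Prime] {V : Type} [AddCommGroup V] [Module (ZMod p) V]
    [FiniteDimensional (ZMod p) V] (σ : Representation (ZMod p) GQ V) (hσ : IsDisc levFin σ) :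
    h47g_U0 p σ ∈ levFin.sets := by
  haveI := pt79_normal_Qbar
  haveI := pt79_isGalois_Qbar
  obtain ⟨F₀, hF₀, hle⟩ := h47g_U0_open p σ hσ
  have hopenN : IsOpen ((h47g_U0 p σ : Subgroup GQ) : Set GQ) :=
    Subgroup.isOpen_mono hle (IntermediateField.fixingSubgroup_isOpen F₀)
  have hclosed : IsClosed ((h47g_U0 p σ : Subgroup GQ) : Set GQ) :=
    OpenSubgroup.isClosed ⟨h47g_U0 p σ, hopenN⟩
  have hfix : (IntermediateField.fixedField (h47g_U0 p σ)).fixingSubgroup = h47g_U0 p σ :=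
    InfiniteGalois.fixingSubgroup_fixedField (k := ℚ) (K := Qbar) ⟨h47g_U0 p σ, hclosed⟩
  have hfin : FiniteDimensional ℚ (IntermediateField.fixedField (h47g_U0 p σ)) := by
    rw [← InfiniteGalois.isOpen_iff_finite, hfix]
    exact hopenN
  have hN' : (IntermediateField.fixedField (h47g_U0 p σ)).fixingSubgroup.Normal := by
    rw [hfix]
    infer_instance
  have hgal : IsGalois ℚ (IntermediateField.fixedField (h47g_U0 p σ)) :=
    (InfiniteGalois.normal_iff_isGalois (IntermediateField.fixedField (h47g_U0 p σ))).mp hN'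
  exact ⟨IntermediateField.fixedField (h47g_U0 p σ), hfin, hgal.to_normal, hfix.symm⟩

/-- `σ` as a representation of the quotient `G_ℚ / U₀`. -/
def h47g_sigmaBar (p : ℕ) [Fact p.Prime] {V : Type} [AddCommGroup V] [Module (ZMod p) V]
    (σ : Representation (ZMod p) GQ V) : Representation (ZMod p) (GQ ⧸ h47g_U0 p σ) V :=
  QuotientGroup.lift (h47g_U0 p σ) σ (h47g_U0_le_ker p σ)

lemma h47g_sigmaBar_comp (p : ℕ) [Fact p.Prime] {V : Type} [AddCommGroup V]
    [Module (ZMod p) V] (σ : Representation (ZMod p) GQ V) :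
    (h47g_sigmaBar p σ).comp (QuotientGroup.mk' (h47g_U0 p σ)) = σ := by
  ext g v
  rfl

/-- **Assembly of TATE-EC.** -/
theorem h47g_tateAsm : H47TateAsm := by
  intro hBA hAdd hReg hEq p _ hp2 V _ _ _ σ hσ
  obtain ⟨T₀, hT⟩ := hEq p hp2 (h47g_U0 p σ) (h47g_U0_mem_levFin p σ hσ) (h47g_U0_chi p σ)
  refine ⟨T₀, fun S hTS hpS hσS => ?_⟩
  have hU₀S : h47g_U0 p σ ∈ (levQ S).sets := h47g_U0_mem_levQ p σ hσ S hpS hσS
  haveI : Finite (GQ ⧸ h47g_U0 p σ) := h47g_finite_quot p S hpS _ hU₀S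
  -- the function on the representations of the quotient
  have htriv : ∀ (X : Type) [AddCommGroup X] [Module (ZMod p) X]
      (ρ : Representation (ZMod p) (GQ ⧸ h47g_U0 p σ) X),
      ∃ N ∈ (levQ S).sets, ∀ s ∈ N, ∀ v, (ρ.comp (QuotientGroup.mk' (h47g_U0 p σ))) s v = v := by
    intro X _ _ ρ
    refine ⟨h47g_U0 p σ, hU₀S, fun s hs v => ?_⟩
    have h1 : QuotientGroup.mk' (h47g_U0 p σ) s = 1 := by
      rw [QuotientGroup.mk'_apply]
      exact (QuotientGroup.eq_one_iff s).2 hs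
    show ρ (QuotientGroup.mk' (h47g_U0 p σ) s) v = v
    rw [h1, map_one]
    rfl
  have hadd : h47g_IsAdditive (ZMod p) (GQ ⧸ h47g_U0 p σ)
      (fun X _ _ ρ => h47g_Phi S (ρ.comp (QuotientGroup.mk' (h47g_U0 p σ)))) := by
    intro V₁ V₂ V₃ _ _ _ _ _ _ _ ρ₁ ρ₂ ρ₃ φ ψ hφ hψ hinj hsurj hex
    exact (hAdd p hp2 S hpS V₁ V₂ V₃ _ _ _ φ ψ (fun g v => hφ _ v) (fun g v => hψ _ v)
      hinj hsurj hex (htriv V₂ ρ₂)).2
  have hreg : h47g_Phi S ((h47g_reg (ZMod p) (GQ ⧸ h47g_U0 p σ)).comp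
      (QuotientGroup.mk' (h47g_U0 p σ))) = 0 := by
    rw [← h47g_permRep_eq]
    exact (hReg p hp2 S hpS _ hU₀S (h47g_U0_chi p σ)).2
  have hzero := hBA p (GQ ⧸ h47g_U0 p σ)
    (fun X _ _ ρ => h47g_Phi S (ρ.comp (QuotientGroup.mk' (h47g_U0 p σ)))) hadd hreg
    (fun C hC hpC Y _ _ _ τ => hT S hTS hpS hU₀S C hC hpC Y τ) V (h47g_sigmaBar p σ)
  simp only [h47g_sigmaBar_comp] at hzero
  refine ⟨?_, hzero.le⟩
  -- finiteness from ADD applied to `0 → σ → σ → 0 → 0`
  have h := hAdd p hp2 S hpS V V PUnit σ σ (Representation.trivial (ZMod p) GQ PUnit)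
    LinearMap.id 0 (fun _ _ => rfl) (fun _ _ => rfl) Function.injective_id
    (fun _ => ⟨0, Subsingleton.elim _ _⟩) (by
      ext v
      simp)
    (by
      obtain ⟨N, hN, h⟩ := htriv V (h47g_sigmaBar p σ)
      refine ⟨N, hN, fun s hs v => ?_⟩
      have := h s hs v
      rwa [h47g_sigmaBar_comp] at this)
  exact h.1

end Fermat.Agent.S56G
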